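import Mathlib

/-!
# S14 (item 75): interface, part 1 — top-level targets

Plan: `NOTES/plan/S14.md`.  All statements are about abstract number fields.
`K = ℚ(ζ_p)`, `L/K` cyclic of degree `p`, unramified at all finite primes, `L/ℚ` Galois,
`Gal(K/ℚ)` acting on `Gal(L/K)` through `ω⁻¹`.  Goal: no such `L`.
-/

set_option autoImplicit false

open scoped NumberField Pointwise

namespace Fermat.Agent.S14

/-- `M/F` is unramified at every finite prime. -/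
def FA_S14_Unramified (F M : Type) [Field F] [Field M] [NumberField F] [NumberField M]
    [Algebra F M] : Prop :=
  ∀ P : Ideal (𝓞 M), P.IsPrime → P ≠ ⊥ → P.ramificationIdx (𝓞 F) = 1

/-- The prime `𝔭` of `F` splits completely in `M`. -/
def FA_S14_SplitsCompletely (F M : Type) [Field F] [Field M] [NumberField F] [NumberField M]
    [Algebra F M] (𝔭 : Ideal (𝓞 F)) : Prop :=
  ∀ P : Ideal (𝓞 M), P.IsPrime → P.under (𝓞 F) = 𝔭 →
    P.ramificationIdx (𝓞 F) = 1 ∧ P.inertiaDeg (𝓞 F) = 1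

/-- **Leaf DENS** (analytic; helper4).  If all but finitely many primes of `K` of absolute
degree one split completely in `L`, then `L = K`. -/
def FA_S14_Target_Dens : Prop :=
  ∀ (K L : Type) [Field K] [Field L] [NumberField K] [NumberField L] [Algebra K L]
    (T : Finset (Ideal (𝓞 K))),
    (∀ 𝔭 : Ideal (𝓞 K), 𝔭.IsPrime → 𝔭 ≠ ⊥ → (Ideal.absNorm 𝔭).Prime → 𝔭 ∉ T →
      FA_S14_SplitsCompletely K L 𝔭) →
    Module.finrank K L = 1

/-- **Leaf STICK** (Stickelberger for primes of degree one, via Jacobi sums; helper5).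
`K = ℚ(ζ_p)`, `𝔮` a prime of `K` of absolute norm a prime `q ≠ p`, `σ a : ζ ↦ ζ ^ a`.
Then `∏_{1 ≤ a ≤ (p-1)/2} (σ a)⁻¹ 𝔮` is principal (it is generated by the Jacobi sum `J(χ,χ)`,
`χ(x) ≡ x ^ ((q-1)/p) mod 𝔮`). -/
def FA_S14_Target_Stick : Prop :=
  ∀ (p : ℕ), p.Prime → p ≠ 2 →
  ∀ (K : Type) [Field K] [NumberField K] [IsCyclotomicExtension {p} ℚ K]
    (ζ : K), IsPrimitiveRoot ζ p →
  ∀ (𝔮 : Ideal (𝓞 K)), 𝔮.IsPrime → (Ideal.absNorm 𝔮).Prime → Ideal.absNorm 𝔮 ≠ p →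
  ∀ (σ : ℕ → (K ≃ₐ[ℚ] K)), (∀ a ∈ Finset.Icc 1 ((p - 1) / 2), σ a ζ = ζ ^ a) →
    (∏ a ∈ Finset.Icc 1 ((p - 1) / 2), (σ a)⁻¹ • 𝔮).IsPrincipal

end Fermat.Agent.S14
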