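import Mathlib
import Fermat.Agent.S14.Interface

/-!
# S14 (item 75): interface, part 2 — core, reciprocity, the two inequalities, Herbrand quotient

Plan: `NOTES/plan/S14.md`.
-/

set_option autoImplicit false

open scoped NumberField Pointwise

namespace Fermat.Agent.S14

/-- The subgroup of the class group of `F` generated by the classes of relative norms of
(nonzero) ideals of `M`. -/
noncomputable def FA_S14_normClasses (F M : Type) [Field F] [Field M] [NumberField F] [NumberField M]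
    [Algebra F M] : Subgroup (ClassGroup (𝓞 F)) :=
  Subgroup.closure {c | ∃ (J : Ideal (𝓞 M)) (I : nonZeroDivisors (Ideal (𝓞 F))), J ≠ ⊥ ∧
    (I : Ideal (𝓞 F)) = Ideal.relNorm (𝓞 F) J ∧ c = ClassGroup.mk0 I}

/-- **Core**: there is no cyclic unramified extension `L/K` of degree `p` of `K = ℚ(ζ_p)`,
Galois over `ℚ`, on which `Gal(K/ℚ)` acts through `ω⁻¹`
(`τ g τ⁻¹ = g ^ (a⁻¹)`, i.e. `τ g ^ a τ⁻¹ = g`, if `τ ζ = ζ ^ a`). -/
def FA_S14_Target_Core : Prop :=
  ∀ (p : ℕ), p.Prime → 3 ≤ p →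
  ∀ (K L : Type) [Field K] [Field L] [NumberField K] [NumberField L] [Algebra K L]
    [IsCyclotomicExtension {p} ℚ K] [IsGalois ℚ L] [IsGalois K L],
    Module.finrank K L = p →
    FA_S14_Unramified K L →
    (∀ (τ : L ≃ₐ[ℚ] L) (g : L ≃ₐ[K] L) (ζ : K) (a : ℕ), IsPrimitiveRoot ζ p →
      τ (algebraMap K L ζ) = (algebraMap K L ζ) ^ a →
      ∀ x : L, τ ((g ^ a) (τ.symm x)) = g x) →
    False

/-- **REC** (Artin reciprocity for the extension of the core): if a product of powers of primes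
of `K` is principal, the corresponding product of Frobenius elements is trivial.
(`Gal(L/K)` is abelian, so the order in the list is irrelevant.) -/
def FA_S14_Target_Rec : Prop :=
  ∀ (p : ℕ), p.Prime → 3 ≤ p →
  ∀ (K L : Type) [Field K] [Field L] [NumberField K] [NumberField L] [Algebra K L]
    [IsCyclotomicExtension {p} ℚ K] [IsGalois ℚ L] [IsGalois K L],
    Module.finrank K L = p →
    FA_S14_Unramified K L →
    (∀ (τ : L ≃ₐ[ℚ] L) (g : L ≃ₐ[K] L) (ζ : K) (a : ℕ), IsPrimitiveRoot ζ p →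
      τ (algebraMap K L ζ) = (algebraMap K L ζ) ^ a →
      ∀ x : L, τ ((g ^ a) (τ.symm x)) = g x) →
    ∀ (l : List (Ideal (𝓞 L) × (L ≃ₐ[K] L) × ℕ)),
      (∀ x ∈ l, x.1.IsPrime ∧ x.1 ≠ ⊥ ∧ IsArithFrobAt (𝓞 K) x.2.1 x.1) →
      ((l.map (fun x : Ideal (𝓞 L) × (L ≃ₐ[K] L) × ℕ => (x.1.under (𝓞 K)) ^ x.2.2)).prod).IsPrincipal →
      (l.map (fun x : Ideal (𝓞 L) × (L ≃ₐ[K] L) × ℕ => x.2.1 ^ x.2.2)).prod = 1

/-- **INEQ1** (first inequality, unramified cyclic of odd prime degree): the norm map on class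
groups is not surjective. -/
def FA_S14_Target_Ineq1 : Prop :=
  ∀ (p : ℕ), p.Prime → p ≠ 2 →
  ∀ (F M : Type) [Field F] [Field M] [NumberField F] [NumberField M] [Algebra F M]
    [IsGalois F M], Module.finrank F M = p → FA_S14_Unramified F M →
    FA_S14_normClasses F M ≠ ⊤

/-- **INEQ2** (second inequality, unramified cyclic of odd prime degree `p`, `ζ_p ∈ F`):
the norm classes have index at most `p`. -/
def FA_S14_Target_Ineq2 : Prop :=
  ∀ (p : ℕ), p.Prime → p ≠ 2 →
  ∀ (F M : Type) [Field F] [Field M] [NumberField F] [NumberField M] [Algebra F M]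
    [IsGalois F M], Module.finrank F M = p → FA_S14_Unramified F M →
    (∃ ζ : F, IsPrimitiveRoot ζ p) →
    (FA_S14_normClasses F M).index ≤ p

/-- **HERB (abstract Herbrand quotient, lower bound for `H¹`)**: `E` a finitely generated
abelian group with an automorphism `s`, `s ^ p = 1`, `rk E + 1 = p (rk E^s + 1)`, at most `p`
elements killed by `p`; `N = 1 + s + … + s^(p-1)`.
Then `[ker N : (1 - s) E]` and `[ker (1 - s) : N E]` are finite and
`p · [ker (1 - s) : N E] ≤ [ker N : (1 - s) E]`. -/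
def FA_S14_Target_HerbAbs : Prop :=
  ∀ (E : Type) [AddCommGroup E] [Module.Finite ℤ E] (p : ℕ), p.Prime →
  ∀ (s : Module.End ℤ E), s ^ p = 1 →
    Module.finrank ℤ E + 1 = p * (Module.finrank ℤ (LinearMap.ker (1 - s)) + 1) →
    Nat.card (LinearMap.ker ((p : ℤ) • (1 : Module.End ℤ E))) ≤ p →
    (LinearMap.range (1 - s)).toAddSubgroup.relIndex
        (LinearMap.ker (∑ i ∈ Finset.range p, s ^ i)).toAddSubgroup ≠ 0 ∧
    (LinearMap.range (∑ i ∈ Finset.range p, s ^ i)).toAddSubgroup.relIndex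
        (LinearMap.ker (1 - s)).toAddSubgroup ≠ 0 ∧
    p * (LinearMap.range (∑ i ∈ Finset.range p, s ^ i)).toAddSubgroup.relIndex
        (LinearMap.ker (1 - s)).toAddSubgroup
      ≤ (LinearMap.range (1 - s)).toAddSubgroup.relIndex
        (LinearMap.ker (∑ i ∈ Finset.range p, s ^ i)).toAddSubgroup

end Fermat.Agent.S14
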