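import Mathlib
import Fermat.Agent.S14.Interface2

/-!
# S14 (item 75): interface, part 3 — the ANALYTIC route to INEQ2 (lead)

`[Cl_F : NCl(F,M)] ≤ p` for every Galois extension `M/F` of number fields of prime degree `p`,
by Dirichlet series (no S-units, no local counting, no Kummer theory):

* `BDD`   : `L(s,χ)` is bounded on `(1,2]` for a nontrivial character `χ` of the class group;
* `ZUP`   : `L(s,1) = ζ_F(s) ≤ C/(s-1)` on `(1,2]`;
* `EULER` : Euler product of `L(s,χ)` over the primes of `F`;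
* `LOC`   : `∏_χ ‖1 - χ(g) t‖ ≤ 1` for the characters of a finite abelian group;
* `ZLOW`  : `∏_{𝔮 ∈ S'} (1 - N𝔮^{-s})^{-p} ≥ c/(s-1)` for a suitable finite set `S'` of primes of `F`
            of absolute degree one which split completely in `M`;
* `COMBINE`: these give `FA_S14_Target_Ineq2`.
-/

set_option autoImplicit false

open scoped NumberField nonZeroDivisors

namespace Fermat.Agent.S14

/-- The `L`-series of a character of the class group, at a real `s`, as a sum over the nonzero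
integral ideals. -/
noncomputable def FA_S14_LChar (F : Type) [Field F] [NumberField F]
    (χ : ClassGroup (𝓞 F) →* ℂˣ) (s : ℝ) : ℂ :=
  ∑' I : (Ideal (𝓞 F))⁰,
    ((χ (ClassGroup.mk0 I) : ℂˣ) : ℂ) * (((Ideal.absNorm (I : Ideal (𝓞 F)) : ℝ) ^ (-s) : ℝ) : ℂ)

/-- Summability of the Dedekind zeta series over ideals (part of ZUP). -/
def FA_S14_Target_ZSummable : Prop :=
  ∀ (F : Type) [Field F] [NumberField F] (s : ℝ), 1 < s →
    Summable (fun I : (Ideal (𝓞 F))⁰ => (Ideal.absNorm (I : Ideal (𝓞 F)) : ℝ) ^ (-s))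

/-- **ZUP**: `ζ_F(s) ≤ C/(s-1)` on `(1,2]`. -/
def FA_S14_Target_ZUp : Prop :=
  ∀ (F : Type) [Field F] [NumberField F], ∃ C : ℝ, ∀ s : ℝ, 1 < s → s ≤ 2 →
    ∑' I : (Ideal (𝓞 F))⁰, (Ideal.absNorm (I : Ideal (𝓞 F)) : ℝ) ^ (-s) ≤ C / (s - 1)

/-- **BDD** (lead): the `L`-series of a nontrivial character of the class group is bounded
on `(1,2]`. -/
def FA_S14_Target_Bdd : Prop :=
  ∀ (F : Type) [Field F] [NumberField F] (χ : ClassGroup (𝓞 F) →* ℂˣ), χ ≠ 1 →
    ∃ B : ℝ, ∀ s : ℝ, 1 < s → s ≤ 2 → ‖FA_S14_LChar F χ s‖ ≤ B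

/-- The class of a prime of `F`. -/
noncomputable def FA_S14_primeClass (F : Type) [Field F] [NumberField F]
    (v : IsDedekindDomain.HeightOneSpectrum (𝓞 F)) : ClassGroup (𝓞 F) :=
  ClassGroup.mk0 ⟨v.asIdeal, mem_nonZeroDivisors_of_ne_zero v.ne_bot⟩

/-- **EULER**: Euler product of `L(s,χ)`. -/
def FA_S14_Target_Euler : Prop :=
  ∀ (F : Type) [Field F] [NumberField F] (χ : ClassGroup (𝓞 F) →* ℂˣ) (s : ℝ), 1 < s →
    HasProd (fun v : IsDedekindDomain.HeightOneSpectrum (𝓞 F) =>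
      (1 - ((χ (FA_S14_primeClass F v) : ℂˣ) : ℂ) *
        (((Ideal.absNorm v.asIdeal : ℝ) ^ (-s) : ℝ) : ℂ))⁻¹) (FA_S14_LChar F χ s)

/-- **LOC**: for the characters of a finite abelian group `A`, `g ∈ A` and `0 ≤ t < 1`:
`∏_χ ‖1 - χ(g) t‖ ≤ 1`. -/
def FA_S14_Target_Loc : Prop :=
  ∀ (A : Type) [CommGroup A] [Finite A] (g : A) (t : ℝ), 0 ≤ t → t < 1 →
    ∏ᶠ χ : A →* ℂˣ, ‖1 - ((χ g : ℂˣ) : ℂ) * (t : ℂ)‖ ≤ 1

/-- **ZLOW**: there is `c > 0` such that for every `s ∈ (1,2]` some finite set `S'` of primes of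
`F`, of absolute degree one, outside the finite set `T` and splitting completely in `M`, has
`c/(s-1) ≤ ∏_{𝔮 ∈ S'} (1 - N𝔮^{-s})^{-[M:F]}`. -/
def FA_S14_Target_ZLow : Prop :=
  ∀ (F M : Type) [Field F] [Field M] [NumberField F] [NumberField M] [Algebra F M] [IsGalois F M]
    (T : Finset (Ideal (𝓞 F))),
    ∃ c : ℝ, 0 < c ∧ ∀ s : ℝ, 1 < s → s ≤ 2 →
      ∃ S' : Finset (IsDedekindDomain.HeightOneSpectrum (𝓞 F)),
        (∀ v ∈ S', (Ideal.absNorm v.asIdeal).Prime ∧ v.asIdeal ∉ T ∧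
          FA_S14_SplitsCompletely F M v.asIdeal) ∧
        c / (s - 1) ≤ ∏ v ∈ S', ((1 - (Ideal.absNorm v.asIdeal : ℝ) ^ (-s))⁻¹) ^ (Module.finrank F M)

/-- **INEQ2, analytic form**: for every Galois extension of prime degree the norm classes have
index at most the degree (stronger than `FA_S14_Target_Ineq2`: no root of unity, no
ramification hypothesis). -/
def FA_S14_Target_Ineq2An : Prop :=
  ∀ (p : ℕ), p.Prime →
  ∀ (F M : Type) [Field F] [Field M] [NumberField F] [NumberField M] [Algebra F M]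
    [IsGalois F M], Module.finrank F M = p →
    (FA_S14_normClasses F M).index ≤ p

/-- **COMBINE**: the analytic leaves give INEQ2. -/
def FA_S14_Target_Combine : Prop :=
  FA_S14_Target_ZSummable → FA_S14_Target_ZUp → FA_S14_Target_Bdd → FA_S14_Target_Euler →
    FA_S14_Target_Loc → FA_S14_Target_ZLow → FA_S14_Target_Ineq2An

theorem FA_S14_ineq2_of_an (h : FA_S14_Target_Ineq2An) : FA_S14_Target_Ineq2 :=
  fun p hp _ F M _ _ _ _ _ _ hdeg _ _ => h p hp F M hdeg

end Fermat.Agent.S14
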