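import Fermat.Agent.S14.Dens6
import Fermat.Agent.S14.InterfaceAn

/-!
# S14, analytic INEQ2: leaves ZSummable and ZUp
-/

set_option autoImplicit false
set_option linter.unusedSectionVars false
set_option linter.style.haveILetI false
set_option linter.unusedVariables false

open scoped NumberField nonZeroDivisors
open NumberField Filter Topology

namespace Fermat.Agent.S14

noncomputable section

variable {K : Type} [Field K] [NumberField K]

theorem FA_S14_an_cast_w (s : ℝ) (I : Ideal (𝓞 K)) :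
    (Ideal.absNorm I : ℝ) ^ (-s) = FA_S14_dens_w K s I := rfl

/-- Finite sums over nonzero ideals (as a subtype) are at most `ζ_K(s)`. -/
theorem FA_S14_an_sum_le_Z {s : ℝ} (hs : 1 < s) (u : Finset (Ideal (𝓞 K))⁰) :
    ∑ I ∈ u, (Ideal.absNorm (I : Ideal (𝓞 K)) : ℝ) ^ (-s) ≤ FA_S14_dens_Z K s := by
  classical
  have h := FA_S14_dens_sum_le_Z hs (u.image (fun I : (Ideal (𝓞 K))⁰ => (I : Ideal (𝓞 K))))
    (fun I hI => by
      obtain ⟨J, -, rfl⟩ := Finset.mem_image.mp hI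
      exact nonZeroDivisors.coe_ne_zero J)
  rwa [Finset.sum_image (fun a _ b _ hab => Subtype.ext hab)] at h

/-- **Leaf ZSummable**. -/
theorem FA_S14_an_ZSummable : FA_S14_Target_ZSummable := by
  intro F _ _ s hs
  exact summable_of_sum_le (fun I => Real.rpow_nonneg (Nat.cast_nonneg _) _)
    (fun u => FA_S14_an_sum_le_Z hs u)

theorem FA_S14_an_tsum_le_Z {s : ℝ} (hs : 1 < s) :
    ∑' I : (Ideal (𝓞 K))⁰, (Ideal.absNorm (I : Ideal (𝓞 K)) : ℝ) ^ (-s) ≤ FA_S14_dens_Z K s :=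
  (FA_S14_an_ZSummable K s hs).tsum_le_of_sum_le (fun u => FA_S14_an_sum_le_Z hs u)

/-- `ζ_K` is antitone on `(1, ∞)`. -/
theorem FA_S14_an_Z_anti {s s' : ℝ} (hs' : 1 < s') (h : s' ≤ s) :
    FA_S14_dens_Z K s ≤ FA_S14_dens_Z K s' := by
  have hs : 1 < s := lt_of_lt_of_le hs' h
  refine (FA_S14_dens_summable hs).tsum_le_tsum (fun n => ?_) (FA_S14_dens_summable hs')
  unfold FA_S14_dens_term
  split_ifs with h0
  · exact le_rfl
  · refine mul_le_mul_of_nonneg_left ?_ (FA_S14_dens_a_nonneg n)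
    refine Real.rpow_le_rpow_of_exponent_le ?_ (by linarith)
    exact_mod_cast Nat.one_le_iff_ne_zero.mpr h0

variable (K) in
/-- `ζ_K(s) ≤ C/(s-1)` on `(1,2]`. -/
theorem FA_S14_an_Z_le : ∃ C : ℝ, 0 < C ∧ ∀ s : ℝ, 1 < s → s ≤ 2 →
    FA_S14_dens_Z K s ≤ C / (s - 1) := by
  have hev := (FA_S14_dens_tendsto K).eventually_lt_const
    (lt_add_one (NumberField.dedekindZeta_residue K))
  rw [Filter.Eventually, mem_nhdsGT_iff_exists_Ioo_subset] at hev
  obtain ⟨u, hu, hsub⟩ := hev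
  have hu1 : (1 : ℝ) < u := hu
  set s₀ : ℝ := (1 + u) / 2 with hs₀
  have hs₀1 : 1 < s₀ := by rw [hs₀]; linarith
  have hs₀u : s₀ < u := by rw [hs₀]; linarith
  refine ⟨max (NumberField.dedekindZeta_residue K + 1) (FA_S14_dens_Z K s₀), ?_, ?_⟩
  · exact lt_max_of_lt_left (by linarith [NumberField.dedekindZeta_residue_pos K])
  intro s hs hs2
  rw [le_div_iff₀ (by linarith), mul_comm]
  by_cases hsu : s < u
  · have : (s - 1) * FA_S14_dens_Z K s < NumberField.dedekindZeta_residue K + 1 :=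
      hsub ⟨hs, hsu⟩
    exact this.le.trans (le_max_left _ _)
  · have h1 : FA_S14_dens_Z K s ≤ FA_S14_dens_Z K s₀ :=
      FA_S14_an_Z_anti hs₀1 (by linarith)
    have h2 : (s - 1) * FA_S14_dens_Z K s ≤ 1 * FA_S14_dens_Z K s₀ :=
      mul_le_mul (by linarith) h1 (FA_S14_dens_Z_nonneg s) (by norm_num)
    rw [one_mul] at h2
    exact h2.trans (le_max_right _ _)

/-- **Leaf ZUp**. -/
theorem FA_S14_an_ZUp : FA_S14_Target_ZUp := by
  intro F _ _
  obtain ⟨C, -, hC⟩ := FA_S14_an_Z_le F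
  exact ⟨C, fun s hs hs2 => (FA_S14_an_tsum_le_Z hs).trans (hC s hs hs2)⟩

/-- `1 ≤ ζ_K(s)`. -/
theorem FA_S14_an_one_le_Z {s : ℝ} (hs : 1 < s) : 1 ≤ FA_S14_dens_Z K s := by
  have h := FA_S14_dens_sum_le_Z hs ({⊤} : Finset (Ideal (𝓞 K))) (fun I hI => by
    rw [Finset.mem_singleton] at hI
    rw [hI]
    exact top_ne_bot)
  rwa [Finset.sum_singleton, FA_S14_dens_w_top] at h

variable (K) in
/-- `c/(s-1) ≤ ζ_K(s)` on `(1,2]`. -/
theorem FA_S14_an_le_Z : ∃ c : ℝ, 0 < c ∧ ∀ s : ℝ, 1 < s → s ≤ 2 →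
    c / (s - 1) ≤ FA_S14_dens_Z K s := by
  have hρ := NumberField.dedekindZeta_residue_pos K
  have hev := (FA_S14_dens_tendsto K).eventually_const_lt
    (half_lt_self hρ)
  rw [Filter.Eventually, mem_nhdsGT_iff_exists_Ioo_subset] at hev
  obtain ⟨u, hu, hsub⟩ := hev
  have hu1 : (1 : ℝ) < u := hu
  refine ⟨min (NumberField.dedekindZeta_residue K / 2) (u - 1), lt_min (by linarith)
    (by linarith), ?_⟩
  intro s hs hs2
  rw [div_le_iff₀ (by linarith), mul_comm]
  by_cases hsu : s < u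
  · have : NumberField.dedekindZeta_residue K / 2 < (s - 1) * FA_S14_dens_Z K s :=
      hsub ⟨hs, hsu⟩
    exact (min_le_left _ _).trans this.le
  · have h1 := FA_S14_an_one_le_Z (K := K) hs
    have h2 : (u - 1) * 1 ≤ (s - 1) * FA_S14_dens_Z K s :=
      mul_le_mul (by linarith) h1 (by norm_num) (by linarith)
    rw [mul_one] at h2
    exact (min_le_right _ _).trans h2

end

end Fermat.Agent.S14
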