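import Fermat.Agent.S14.An1

/-!
# S14, analytic INEQ2: leaf ZLow
-/

set_option autoImplicit false
set_option linter.unusedSectionVars false
set_option linter.style.haveILetI false
set_option linter.unusedVariables false

open scoped NumberField nonZeroDivisors
open NumberField Filter Topology UniqueFactorizationMonoid

namespace Fermat.Agent.S14

noncomputable section

variable {F M : Type} [Field F] [NumberField F] [Field M] [NumberField M] [Algebra F M]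

variable (F M) in
/-- Only finitely many primes of `M` are ramified over `F`. -/
theorem FA_S14_an_ram_finite : ∃ R : Finset (Ideal (𝓞 M)),
    ∀ 𝔓 : Ideal (𝓞 M), 𝔓.IsPrime → 𝔓.ramificationIdx (𝓞 F) ≠ 1 → 𝔓 ∈ R := by
  classical
  refine ⟨(normalizedFactors (differentIdeal (𝓞 F) (𝓞 M))).toFinset, fun 𝔓 h1 he => ?_⟩
  haveI := h1
  rw [Multiset.mem_toFinset, Ideal.mem_normalizedFactors_iff differentIdeal_ne_bot]
  refine ⟨h1, ?_⟩
  rw [← Ideal.dvd_iff_le, dvd_differentIdeal_iff]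
  intro hunr
  exact he (Ideal.ramificationIdx_eq_one_iff.mpr hunr)

/-- In a Galois extension, a prime below an unramified prime of relative degree one splits
completely. -/
theorem FA_S14_an_split_of_galois [IsGalois F M] (𝔓 : Ideal (𝓞 M)) (h1 : 𝔓.IsPrime)
    (he : 𝔓.ramificationIdx (𝓞 F) = 1) (hf : 𝔓.inertiaDeg (𝓞 F) = 1) :
    FA_S14_SplitsCompletely F M (𝔓.under (𝓞 F)) := by
  intro Q hQ hQu
  haveI := h1
  haveI := hQ
  haveI : Q.LiesOver (𝔓.under (𝓞 F)) := ⟨hQu.symm⟩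
  let : MulSemiringAction Gal(M/F) (𝓞 M) := IsIntegralClosure.MulSemiringAction (𝓞 F) F M (𝓞 M)
  have := IsGaloisGroup.of_isFractionRing Gal(M/F) (𝓞 F) (𝓞 M) F M
  constructor
  · rw [← he]
    exact Ideal.ramificationIdx_eq_of_isGaloisGroup (𝔓.under (𝓞 F)) Q 𝔓 Gal(M/F)
  · rw [← hf]
    exact Ideal.inertiaDeg_eq_of_isGaloisGroup (𝔓.under (𝓞 F)) Q 𝔓 Gal(M/F)

/-- A prime of `M` of prime absolute norm has relative degree one over `F`, and the prime below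
has the same norm. -/
theorem FA_S14_an_deg_one (𝔓 : Ideal (𝓞 M)) (h1 : 𝔓.IsPrime)
    (hp : (Ideal.absNorm 𝔓).Prime) :
    𝔓.inertiaDeg (𝓞 F) = 1 ∧ Ideal.absNorm (𝔓.under (𝓞 F)) = Ideal.absNorm 𝔓 := by
  haveI := h1
  have h := Ideal.absNorm_pow_inertiaDeg (𝔓.under (𝓞 F)) 𝔓
  have := (Nat.Prime.pow_eq_iff hp).mp h
  exact ⟨this.2, this.1⟩

open Classical in
/-- Explicit form of `FA_S14_dens_split_sum`. -/
theorem FA_S14_an_split_sum {s : ℝ} (D : Finset (Ideal (𝓞 F)))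
    (hD : ∀ 𝔭 ∈ D, 𝔭.IsPrime ∧ FA_S14_SplitsCompletely F M 𝔭) :
    ∑ 𝔓 ∈ D.biUnion (fun 𝔭 => FA_S14_dens_over M 𝔭), FA_S14_dens_w M s 𝔓
      = (Module.finrank F M : ℝ) * ∑ 𝔭 ∈ D, FA_S14_dens_w F s 𝔭 := by
  rw [Finset.sum_biUnion, Finset.mul_sum]
  · exact Finset.sum_congr rfl fun 𝔭 h𝔭 => FA_S14_dens_sum_over (hD 𝔭 h𝔭).1 (hD 𝔭 h𝔭).2
  · intro 𝔭 _ 𝔮 _ hne
    rw [Function.onFun, Finset.disjoint_left]
    intro 𝔓 h1 h2
    apply hne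
    rw [(FA_S14_dens_mem_over.mp h1).2.over, (FA_S14_dens_mem_over.mp h2).2.over]

theorem FA_S14_an_exp_le_inv {x : ℝ} (hx : x < 1) : Real.exp x ≤ (1 - x)⁻¹ := by
  have h1 : 0 < 1 - x := by linarith
  have h2 := Real.add_one_le_exp (-x)
  rw [Real.exp_neg] at h2
  have h3 : 0 < Real.exp x := Real.exp_pos x
  rw [le_inv_comm₀ h3 h1]
  linarith

/-- Some partial sum of `ζ_M(s)` exceeds `ζ_M(s)/2`. -/
theorem FA_S14_an_exists_partial {s : ℝ} (hs : 1 < s) :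
    ∃ N, FA_S14_dens_Z M s / 2 < ∑ I ∈ FA_S14_dens_ball M N, FA_S14_dens_w M s I := by
  by_contra hcon
  push Not at hcon
  have h1 := FA_S14_dens_Z_le hs _ hcon
  have h2 := FA_S14_an_one_le_Z (K := M) hs
  linarith

/-- **Leaf ZLow**. -/
theorem FA_S14_an_ZLow : FA_S14_Target_ZLow := by
  classical
  intro F M _ _ _ _ _ _ T
  obtain ⟨R, hR⟩ := FA_S14_an_ram_finite F M
  set TM : Finset (Ideal (𝓞 M)) := R ∪ T.biUnion (fun 𝔭 => FA_S14_dens_over M 𝔭) with hTM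
  obtain ⟨c₀, hc₀, hlow⟩ := FA_S14_an_le_Z M
  set C : ℝ := (TM.card : ℝ) + 6 * (Module.finrank ℚ M : ℝ) with hC
  refine ⟨c₀ / (2 * Real.exp C), by positivity, fun s hs hs2 => ?_⟩
  obtain ⟨N, hN⟩ := FA_S14_an_exists_partial (M := M) hs
  set D := (FA_S14_dens_primes M N).filter (fun 𝔓 => (Ideal.absNorm 𝔓).Prime ∧ 𝔓 ∉ TM) with hD
  have hDspec : ∀ 𝔓 ∈ D, 𝔓.IsPrime ∧ 𝔓 ≠ ⊥ ∧ (Ideal.absNorm 𝔓).Prime ∧ 𝔓 ∉ TM := by
    intro 𝔓 h𝔓
    rw [hD, Finset.mem_filter] at h𝔓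
    have := FA_S14_dens_primes_spec N 𝔓 h𝔓.1
    exact ⟨this.1, this.2, h𝔓.2.1, h𝔓.2.2⟩
  have hKside := FA_S14_dens_ball_le_exp hs TM N
  -- the primes of `F` below `D`
  set S' : Finset (IsDedekindDomain.HeightOneSpectrum (𝓞 F)) :=
    D.attach.image (fun 𝔓 => IsDedekindDomain.HeightOneSpectrum.under (𝓞 F)
      (⟨𝔓.1, (hDspec 𝔓.1 𝔓.2).1, (hDspec 𝔓.1 𝔓.2).2.1⟩ :
        IsDedekindDomain.HeightOneSpectrum (𝓞 M))) with hS'
  have hS'spec : ∀ v ∈ S', ∃ 𝔓 ∈ D, v.asIdeal = 𝔓.under (𝓞 F) := by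
    intro v hv
    rw [hS', Finset.mem_image] at hv
    obtain ⟨𝔓, -, rfl⟩ := hv
    exact ⟨𝔓.1, 𝔓.2, rfl⟩
  have hgood : ∀ v ∈ S', (Ideal.absNorm v.asIdeal).Prime ∧ v.asIdeal ∉ T ∧
      FA_S14_SplitsCompletely F M v.asIdeal := by
    intro v hv
    obtain ⟨𝔓, h𝔓, hv𝔓⟩ := hS'spec v hv
    obtain ⟨h1, h2, h3, h4⟩ := hDspec 𝔓 h𝔓
    obtain ⟨hf, hnorm⟩ := FA_S14_an_deg_one (F := F) 𝔓 h1 h3
    have he : 𝔓.ramificationIdx (𝓞 F) = 1 := by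
      by_contra hne
      exact h4 (Finset.mem_union_left _ (hR 𝔓 h1 hne))
    refine ⟨by rw [hv𝔓, hnorm]; exact h3, ?_, ?_⟩
    · intro hvT
      apply h4
      refine Finset.mem_union_right _ (Finset.mem_biUnion.mpr ⟨v.asIdeal, hvT, ?_⟩)
      rw [FA_S14_dens_mem_over]
      exact ⟨h1, ⟨hv𝔓⟩⟩
    · rw [hv𝔓]
      exact FA_S14_an_split_of_galois 𝔓 h1 he hf
  refine ⟨S', hgood, ?_⟩
  -- the set of primes of `F` as ideals
  set D' : Finset (Ideal (𝓞 F)) := S'.image (fun v => v.asIdeal) with hD'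
  have hD'spec : ∀ 𝔭 ∈ D', 𝔭.IsPrime ∧ FA_S14_SplitsCompletely F M 𝔭 := by
    intro 𝔭 h𝔭
    rw [hD', Finset.mem_image] at h𝔭
    obtain ⟨v, hv, rfl⟩ := h𝔭
    exact ⟨v.isPrime, (hgood v hv).2.2⟩
  have hsplit := FA_S14_an_split_sum (M := M) (s := s) D' hD'spec
  have hsub : D ⊆ D'.biUnion (fun 𝔭 => FA_S14_dens_over M 𝔭) := by
    intro 𝔓 h𝔓
    rw [Finset.mem_biUnion]
    refine ⟨𝔓.under (𝓞 F), ?_, ?_⟩
    · rw [hD', Finset.mem_image]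
      refine ⟨IsDedekindDomain.HeightOneSpectrum.under (𝓞 F)
        (⟨𝔓, (hDspec 𝔓 h𝔓).1, (hDspec 𝔓 h𝔓).2.1⟩ :
          IsDedekindDomain.HeightOneSpectrum (𝓞 M)), ?_, rfl⟩
      rw [hS', Finset.mem_image]
      exact ⟨⟨𝔓, h𝔓⟩, Finset.mem_attach _ _, rfl⟩
    · rw [FA_S14_dens_mem_over]
      exact ⟨(hDspec 𝔓 h𝔓).1, ⟨rfl⟩⟩
  have hsumD : ∑ 𝔓 ∈ D, FA_S14_dens_w M s 𝔓
      ≤ (Module.finrank F M : ℝ) * ∑ 𝔭 ∈ D', FA_S14_dens_w F s 𝔭 := by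
    rw [← hsplit]
    exact Finset.sum_le_sum_of_subset_of_nonneg hsub (fun 𝔓 _ _ => FA_S14_dens_w_nonneg s 𝔓)
  have hsumD' : ∑ 𝔭 ∈ D', FA_S14_dens_w F s 𝔭 = ∑ v ∈ S', FA_S14_dens_w F s v.asIdeal := by
    rw [hD', Finset.sum_image]
    intro v _ w _ hvw
    exact IsDedekindDomain.HeightOneSpectrum.ext hvw
  rw [hsumD'] at hsumD
  -- the product
  have hprod : Real.exp ((Module.finrank F M : ℝ) * ∑ v ∈ S', FA_S14_dens_w F s v.asIdeal)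
      ≤ ∏ v ∈ S', ((1 - (Ideal.absNorm v.asIdeal : ℝ) ^ (-s))⁻¹) ^ (Module.finrank F M) := by
    rw [Finset.mul_sum, Real.exp_sum]
    refine Finset.prod_le_prod (fun v _ => (Real.exp_pos _).le) fun v hv => ?_
    rw [Real.exp_nat_mul]
    refine pow_le_pow_left₀ (Real.exp_pos _).le ?_ _
    refine FA_S14_an_exp_le_inv ?_
    have := FA_S14_dens_w_le_half hs.le v.isPrime v.ne_bot
    linarith
  have hZ := hlow s hs hs2
  have hexpC : 0 < Real.exp C := Real.exp_pos C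
  have hs0 : 0 < s - 1 := by linarith
  calc c₀ / (2 * Real.exp C) / (s - 1) = c₀ / (s - 1) / (2 * Real.exp C) := by
        rw [div_div, div_div, mul_comm]
    _ ≤ FA_S14_dens_Z M s / (2 * Real.exp C) := by gcongr
    _ = FA_S14_dens_Z M s / 2 / Real.exp C := by rw [div_div]
    _ ≤ (∑ I ∈ FA_S14_dens_ball M N, FA_S14_dens_w M s I) / Real.exp C := by gcongr
    _ ≤ Real.exp (∑ 𝔓 ∈ D, FA_S14_dens_w M s 𝔓 + C) / Real.exp C := by gcongr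
    _ = Real.exp (∑ 𝔓 ∈ D, FA_S14_dens_w M s 𝔓) := by
        rw [Real.exp_add, mul_div_assoc, div_self hexpC.ne', mul_one]
    _ ≤ Real.exp ((Module.finrank F M : ℝ) * ∑ v ∈ S', FA_S14_dens_w F s v.asIdeal) :=
        Real.exp_le_exp.mpr hsumD
    _ ≤ _ := hprod

end

end Fermat.Agent.S14
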