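import Mathlib

/-!
# S14 leaf BDD, part 1: a Lipschitz partition of unity for the unit lattice

`FA_S14_tent t = max 0 (1 - |t|)`; `∑_{k ∈ ℤ} tent (c + k) = 1`;
`FA_S14_bump F v = ∏ i, tent (i-th coordinate of v in the basis of the unit lattice)`;
`∑_{u ∈ (𝓞 F)ˣ} bump (logMap (u • z)) = torsionOrder F` for every `z` of nonzero norm.
-/

set_option autoImplicit false

open scoped NumberField

namespace Fermat.Agent.S14

/-- The tent function. -/
noncomputable def FA_S14_tent (t : ℝ) : ℝ := max 0 (1 - |t|)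

theorem FA_S14_tent_nonneg (t : ℝ) : 0 ≤ FA_S14_tent t := le_max_left _ _

theorem FA_S14_tent_le_one (t : ℝ) : FA_S14_tent t ≤ 1 := by
  unfold FA_S14_tent
  exact max_le zero_le_one (by linarith [abs_nonneg t])

theorem FA_S14_tent_eq_zero {t : ℝ} (h : 1 ≤ |t|) : FA_S14_tent t = 0 := by
  unfold FA_S14_tent
  exact max_eq_left (by linarith)

theorem FA_S14_tent_ne_zero {t : ℝ} (h : FA_S14_tent t ≠ 0) : |t| < 1 := by
  by_contra hcon
  exact h (FA_S14_tent_eq_zero (not_lt.mp hcon))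

theorem FA_S14_tent_of_nonneg {t : ℝ} (h0 : 0 ≤ t) (h1 : t ≤ 1) : FA_S14_tent t = 1 - t := by
  unfold FA_S14_tent
  rw [abs_of_nonneg h0]
  exact max_eq_right (by linarith)

theorem FA_S14_tent_of_nonpos {t : ℝ} (h0 : t ≤ 0) (h1 : -1 ≤ t) : FA_S14_tent t = 1 + t := by
  unfold FA_S14_tent
  rw [abs_of_nonpos h0]
  exact (max_eq_right (by linarith)).trans (by ring)

theorem FA_S14_tent_lipschitz (a b : ℝ) : |FA_S14_tent a - FA_S14_tent b| ≤ |a - b| := by
  unfold FA_S14_tent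
  have h3 : |(|a| - |b|)| ≤ |a - b| := abs_abs_sub_abs_le_abs_sub a b
  have h4 := abs_le.mp h3
  rw [abs_le]
  rcases le_total 0 (1 - |a|) with ha | ha <;> rcases le_total 0 (1 - |b|) with hb | hb
  · rw [max_eq_right ha, max_eq_right hb]; constructor <;> linarith [h4.1, h4.2]
  · rw [max_eq_right ha, max_eq_left hb]; constructor <;> linarith [h4.1, h4.2, abs_nonneg (a - b)]
  · rw [max_eq_left ha, max_eq_right hb]; constructor <;> linarith [h4.1, h4.2, abs_nonneg (a - b)]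
  · rw [max_eq_left ha, max_eq_left hb]; constructor <;> linarith [abs_nonneg (a - b)]

/-- `∑_{k ∈ ℤ} tent (c + k) = 1`. -/
theorem FA_S14_tent_hasSum (c : ℝ) : HasSum (fun k : ℤ => FA_S14_tent (c + k)) 1 := by
  classical
  have hfl : (⌊c⌋ : ℝ) ≤ c := Int.floor_le c
  have hfl' : c < ⌊c⌋ + 1 := Int.lt_floor_add_one c
  have hne : (-⌊c⌋ : ℤ) ≠ -⌊c⌋ - 1 := by omega
  have key : ∀ k : ℤ, k ∉ ({-⌊c⌋, -⌊c⌋ - 1} : Finset ℤ) → FA_S14_tent (c + k) = 0 := by
    intro k hk
    simp only [Finset.mem_insert, Finset.mem_singleton, not_or] at hk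
    apply FA_S14_tent_eq_zero
    rcases lt_or_gt_of_ne hk.1 with h | h
    · have h2 : k < -⌊c⌋ - 1 := lt_of_le_of_ne (by omega) hk.2
      have h3 : (k : ℝ) ≤ -⌊c⌋ - 2 := by
        have : k ≤ -⌊c⌋ - 2 := by omega
        exact_mod_cast this
      rw [abs_of_nonpos (by linarith)]
      linarith
    · have h3 : (-⌊c⌋ : ℝ) + 1 ≤ k := by
        have : -⌊c⌋ + 1 ≤ k := by omega
        exact_mod_cast this
      rw [abs_of_nonneg (by linarith)]
      linarith
  have hsum : HasSum (fun k : ℤ => FA_S14_tent (c + k)) _ :=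
    hasSum_sum_of_ne_finset_zero key
  convert hsum using 1
  rw [Finset.sum_pair hne]
  have e1 : c + ((-⌊c⌋ : ℤ) : ℝ) = c - ⌊c⌋ := by push_cast; ring
  have e2 : c + ((-⌊c⌋ - 1 : ℤ) : ℝ) = c - ⌊c⌋ - 1 := by push_cast; ring
  rw [e1, e2, FA_S14_tent_of_nonneg (by linarith) (by linarith),
    FA_S14_tent_of_nonpos (by linarith) (by linarith)]
  ring

/-- The multi-dimensional version. -/
theorem FA_S14_tent_pi_hasSum {ι : Type*} [Fintype ι] (c : ι → ℝ) :
    HasSum (fun e : ι → ℤ => ∏ i, FA_S14_tent (c i + e i)) 1 := by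
  classical
  let t : ι → Finset ℤ := fun i => {-⌊c i⌋, -⌊c i⌋ - 1}
  have key : ∀ e : ι → ℤ, e ∉ Fintype.piFinset t → ∏ i, FA_S14_tent (c i + e i) = 0 := by
    intro e he
    rw [Fintype.mem_piFinset] at he
    push Not at he
    obtain ⟨i, hi⟩ := he
    apply Finset.prod_eq_zero (Finset.mem_univ i)
    by_contra hne
    have h1 := FA_S14_tent_ne_zero hne
    have hfl : (⌊c i⌋ : ℝ) ≤ c i := Int.floor_le (c i)
    have hfl' : c i < ⌊c i⌋ + 1 := Int.lt_floor_add_one (c i)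
    rw [abs_lt] at h1
    apply hi
    simp only [t, Finset.mem_insert, Finset.mem_singleton]
    have h2 : (-⌊c i⌋ - 2 : ℝ) < e i := by linarith [h1.1]
    have h3 : (e i : ℝ) < -⌊c i⌋ + 1 := by linarith [h1.2]
    have h2' : -⌊c i⌋ - 2 < e i := by exact_mod_cast h2
    have h3' : e i < -⌊c i⌋ + 1 := by exact_mod_cast h3
    omega
  have hsum : HasSum (fun e : ι → ℤ => ∏ i, FA_S14_tent (c i + e i)) _ :=
    hasSum_sum_of_ne_finset_zero key
  convert hsum using 1
  rw [← Finset.prod_univ_sum t (fun i k => FA_S14_tent (c i + k))]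
  symm
  apply Finset.prod_eq_one
  intro i _
  have h := FA_S14_tent_hasSum (c i)
  have key1 : ∀ k : ℤ, k ∉ t i → FA_S14_tent (c i + k) = 0 := by
    intro k hk
    by_contra hne
    have h1 := FA_S14_tent_ne_zero hne
    have hfl : (⌊c i⌋ : ℝ) ≤ c i := Int.floor_le (c i)
    have hfl' : c i < ⌊c i⌋ + 1 := Int.lt_floor_add_one (c i)
    rw [abs_lt] at h1
    apply hk
    simp only [t, Finset.mem_insert, Finset.mem_singleton]
    have h2 : (-⌊c i⌋ - 2 : ℝ) < k := by linarith [h1.1]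
    have h3 : (k : ℝ) < -⌊c i⌋ + 1 := by linarith [h1.2]
    have h2' : -⌊c i⌋ - 2 < k := by exact_mod_cast h2
    have h3' : k < -⌊c i⌋ + 1 := by exact_mod_cast h3
    omega
  have h' : HasSum (fun k : ℤ => FA_S14_tent (c i + k)) _ := hasSum_sum_of_ne_finset_zero key1
  exact h'.unique h

end Fermat.Agent.S14
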