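import Mathlib
import Fermat.Agent.S14.BddTent

/-!
# S14 leaf BDD, part 2: the bump function on the logarithmic space and its sum over the units
-/

set_option autoImplicit false

open scoped NumberField Classical
open NumberField NumberField.mixedEmbedding NumberField.Units
  NumberField.Units.dirichletUnitTheorem

namespace Fermat.Agent.S14

variable (F : Type) [Field F] [NumberField F]

/-- The real basis of the logarithmic space given by the fundamental units. -/
noncomputable def FA_S14_logBasis : Module.Basis (Fin (rank F)) ℝ (logSpace F) :=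
  (basisUnitLattice F).ofZLatticeBasis ℝ (unitLattice F)

/-- The bump function on the logarithmic space: a product of tent functions in the coordinates
with respect to the fundamental units. -/
noncomputable def FA_S14_bump (v : logSpace F) : ℝ :=
  ∏ i, FA_S14_tent ((FA_S14_logBasis F).repr v i)

theorem FA_S14_bump_nonneg (v : logSpace F) : 0 ≤ FA_S14_bump F v :=
  Finset.prod_nonneg fun _ _ => FA_S14_tent_nonneg _

theorem FA_S14_bump_le_one (v : logSpace F) : FA_S14_bump F v ≤ 1 :=
  Finset.prod_le_one (fun _ _ => FA_S14_tent_nonneg _) (fun _ _ => FA_S14_tent_le_one _)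

theorem FA_S14_bump_ne_zero {v : logSpace F} (h : FA_S14_bump F v ≠ 0) (i : Fin (rank F)) :
    |(FA_S14_logBasis F).repr v i| < 1 := by
  apply FA_S14_tent_ne_zero
  intro h0
  exact h (Finset.prod_eq_zero (Finset.mem_univ i) h0)

theorem FA_S14_logBasis_apply (i : Fin (rank F)) :
    FA_S14_logBasis F i = (basisUnitLattice F i : logSpace F) := by
  unfold FA_S14_logBasis
  exact (basisUnitLattice F).ofZLatticeBasis_apply ℝ (unitLattice F) i

/-- The unit attached to a root of unity and a vector of exponents. -/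
noncomputable def FA_S14_unitOf (p : torsion F × (Fin (rank F) → ℤ)) : (𝓞 F)ˣ :=
  (p.1 : (𝓞 F)ˣ) * ∏ i, (fundSystem F i) ^ (p.2 i)

theorem FA_S14_unitOf_bijective : Function.Bijective (FA_S14_unitOf F) := by
  constructor
  · intro a b hab
    obtain ⟨c, _, hc⟩ := exist_unique_eq_mul_prod F (FA_S14_unitOf F a)
    rw [hc a rfl, hc b hab]
  · intro u
    obtain ⟨c, hc, _⟩ := exist_unique_eq_mul_prod F u
    exact ⟨c, hc.symm⟩

theorem FA_S14_logEmbedding_unitOf (p : torsion F × (Fin (rank F) → ℤ)) :
    logEmbedding F (Additive.ofMul (FA_S14_unitOf F p)) =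
      ∑ i, ((p.2 i : ℤ) : ℝ) • FA_S14_logBasis F i := by
  unfold FA_S14_unitOf
  rw [ofMul_mul, map_add, ofMul_prod, map_sum]
  have h1 : logEmbedding F (Additive.ofMul (p.1 : (𝓞 F)ˣ)) = 0 :=
    logEmbedding_eq_zero_iff.mpr p.1.2
  rw [h1, zero_add]
  refine Finset.sum_congr rfl fun i _ => ?_
  rw [ofMul_zpow, map_zsmul, logEmbedding_fundSystem, FA_S14_logBasis_apply]
  simp [Int.cast_smul_eq_zsmul]

theorem FA_S14_bump_unitOf (p : torsion F × (Fin (rank F) → ℤ)) (v : logSpace F) :
    FA_S14_bump F (logEmbedding F (Additive.ofMul (FA_S14_unitOf F p)) + v) =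
      ∏ i, FA_S14_tent ((FA_S14_logBasis F).repr v i + p.2 i) := by
  unfold FA_S14_bump
  refine Finset.prod_congr rfl fun i _ => ?_
  congr 1
  rw [FA_S14_logEmbedding_unitOf, map_add, Finsupp.add_apply, add_comm]
  congr 1
  rw [map_sum, Finsupp.finsetSum_apply]
  simp [Finsupp.single_apply]

/-- The sum of the bump function over the orbit of the units. -/
theorem FA_S14_bump_units_hasSum (v : logSpace F) :
    HasSum (fun u : (𝓞 F)ˣ => FA_S14_bump F (logEmbedding F (Additive.ofMul u) + v))
      (torsionOrder F : ℝ) := by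
  classical
  let e : torsion F × (Fin (rank F) → ℤ) ≃ (𝓞 F)ˣ :=
    Equiv.ofBijective _ (FA_S14_unitOf_bijective F)
  rw [← e.hasSum_iff]
  have hfun : ((fun u : (𝓞 F)ˣ => FA_S14_bump F (logEmbedding F (Additive.ofMul u) + v)) ∘ e) =
      fun p : torsion F × (Fin (rank F) → ℤ) =>
        ∏ i, FA_S14_tent ((FA_S14_logBasis F).repr v i + p.2 i) := by
    funext p
    exact FA_S14_bump_unitOf F p v
  rw [hfun]
  have hG := FA_S14_tent_pi_hasSum (fun i => (FA_S14_logBasis F).repr v i)
  have hnn : 0 ≤ fun p : torsion F × (Fin (rank F) → ℤ) =>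
      ∏ i, FA_S14_tent ((FA_S14_logBasis F).repr v i + p.2 i) :=
    fun p => Finset.prod_nonneg fun _ _ => FA_S14_tent_nonneg _
  have hsummable : Summable fun p : torsion F × (Fin (rank F) → ℤ) =>
      ∏ i, FA_S14_tent ((FA_S14_logBasis F).repr v i + p.2 i) := by
    rw [summable_prod_of_nonneg hnn]
    refine ⟨fun _ => hG.summable, ?_⟩
    exact Summable.of_finite
  have htsum := hsummable.tsum_prod' (fun _ => hG.summable)
  have : ∑' p : torsion F × (Fin (rank F) → ℤ),
      ∏ i, FA_S14_tent ((FA_S14_logBasis F).repr v i + p.2 i) = (torsionOrder F : ℝ) := by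
    rw [htsum]
    simp only [hG.tsum_eq]
    have : Fintype (torsion F) := Fintype.ofFinite _
    rw [tsum_fintype]
    simp [torsionOrder, Nat.card_eq_fintype_card]
  rw [← this]
  exact hsummable.hasSum

/-- The same for a point of the mixed space of nonzero norm. -/
theorem FA_S14_bump_logMap_hasSum {z : mixedSpace F} (hz : mixedEmbedding.norm z ≠ 0) :
    HasSum (fun u : (𝓞 F)ˣ => FA_S14_bump F (logMap (u • z))) (torsionOrder F : ℝ) := by
  have h := FA_S14_bump_units_hasSum F (logMap z)
  refine h.congr_fun ?_ |>.mono_left le_rfl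
  intro u
  rw [logMap_unit_smul u hz]

end Fermat.Agent.S14
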