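import Mathlib
import Fermat.Agent.S14.BddUnits

/-!
# S14 leaf BDD, part 3: the weight `bump (logMap z) * N(z)^(-s)` is Lipschitz on the annulus
`1/2 ≤ ‖z‖ ≤ 2`, uniformly in `s ∈ [1,2]`.
-/

set_option autoImplicit false

open scoped NumberField Classical
open NumberField NumberField.mixedEmbedding NumberField.Units
  NumberField.Units.dirichletUnitTheorem NumberField.InfinitePlace Module

namespace Fermat.Agent.S14

variable (F : Type) [Field F] [NumberField F]

/-- The weight function on the mixed space. -/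
noncomputable def FA_S14_wt (s : ℝ) (z : mixedSpace F) : ℝ :=
  FA_S14_bump F (logMap z) * (mixedEmbedding.norm z) ^ (-s)

theorem FA_S14_wt_nonneg (s : ℝ) (z : mixedSpace F) : 0 ≤ FA_S14_wt F s z :=
  mul_nonneg (FA_S14_bump_nonneg F _) (Real.rpow_nonneg (mixedEmbedding.norm_nonneg z) _)

theorem FA_S14_wt_eq_zero_of_norm {s : ℝ} (hs : s ≠ 0) {z : mixedSpace F}
    (hz : mixedEmbedding.norm z = 0) : FA_S14_wt F s z = 0 := by
  unfold FA_S14_wt
  rw [hz, Real.zero_rpow (neg_ne_zero.mpr hs), mul_zero]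

/-- The constant `B₀ = ∑ ‖b_i‖`. -/
noncomputable def FA_S14_B0 : ℝ := ∑ i, ‖FA_S14_logBasis F i‖

theorem FA_S14_B0_nonneg : 0 ≤ FA_S14_B0 F := Finset.sum_nonneg fun _ _ => norm_nonneg _

theorem FA_S14_norm_logMap_le {z : mixedSpace F} (h : FA_S14_bump F (logMap z) ≠ 0) :
    ‖logMap z‖ ≤ FA_S14_B0 F := by
  have hrepr := (FA_S14_logBasis F).sum_repr (logMap z)
  rw [← hrepr]
  refine (norm_sum_le _ _).trans (Finset.sum_le_sum fun i _ => ?_)
  rw [_root_.norm_smul]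
  have h1 : ‖(FA_S14_logBasis F).repr (logMap z) i‖ ≤ 1 := by
    rw [Real.norm_eq_abs]
    exact (FA_S14_bump_ne_zero F h i).le
  calc ‖(FA_S14_logBasis F).repr (logMap z) i‖ * ‖FA_S14_logBasis F i‖
      ≤ 1 * ‖FA_S14_logBasis F i‖ := mul_le_mul_of_nonneg_right h1 (norm_nonneg _)
    _ = ‖FA_S14_logBasis F i‖ := one_mul _

/-- `d_w(z) = log ν_w(z) - log N(z) / n`. -/
noncomputable def FA_S14_dev (z : mixedSpace F) (w : InfinitePlace F) : ℝ :=
  Real.log (normAtPlace w z) - Real.log (mixedEmbedding.norm z) * (finrank ℚ F : ℝ)⁻¹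

theorem FA_S14_sum_mult_dev {z : mixedSpace F} (hz : mixedEmbedding.norm z ≠ 0) :
    ∑ w : InfinitePlace F, (mult w : ℝ) * FA_S14_dev F z w = 0 := by
  unfold FA_S14_dev
  have hpos : ∀ w : InfinitePlace F, normAtPlace w z ≠ 0 := mixedEmbedding.norm_ne_zero_iff.mp hz
  have hlog : Real.log (mixedEmbedding.norm z) =
      ∑ w : InfinitePlace F, (mult w : ℝ) * Real.log (normAtPlace w z) := by
    rw [mixedEmbedding.norm_apply, Real.log_prod (fun w _ => pow_ne_zero _ (hpos w))]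
    refine Finset.sum_congr rfl fun w _ => ?_
    rw [Real.log_pow]
  have hn : (finrank ℚ F : ℝ) ≠ 0 := Nat.cast_ne_zero.mpr finrank_pos.ne'
  have hsum : ∑ w : InfinitePlace F, (mult w : ℝ) = (finrank ℚ F : ℝ) := by
    rw [← Nat.cast_sum, sum_mult_eq]
  simp_rw [mul_sub, Finset.sum_sub_distrib, ← hlog, ← Finset.sum_mul, hsum]
  field_simp
  ring

theorem FA_S14_mult_dev_le {z : mixedSpace F} (h : FA_S14_bump F (logMap z) ≠ 0)
    (w : InfinitePlace F) (hw : w ≠ w₀) : |(mult w : ℝ) * FA_S14_dev F z w| ≤ FA_S14_B0 F := by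
  have h1 : logMap z ⟨w, hw⟩ = (mult w : ℝ) * FA_S14_dev F z w := by
    rw [logMap_apply]; rfl
  rw [← h1, ← Real.norm_eq_abs]
  exact (norm_le_pi_norm (logMap z) ⟨w, hw⟩).trans (FA_S14_norm_logMap_le F h)

/-- The constant `B₁`. -/
noncomputable def FA_S14_B1 : ℝ := (Fintype.card (InfinitePlace F) + 1) * FA_S14_B0 F

theorem FA_S14_B1_nonneg : 0 ≤ FA_S14_B1 F :=
  mul_nonneg (by positivity) (FA_S14_B0_nonneg F)

theorem FA_S14_dev_le {z : mixedSpace F} (hz : mixedEmbedding.norm z ≠ 0)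
    (h : FA_S14_bump F (logMap z) ≠ 0) (w : InfinitePlace F) :
    |FA_S14_dev F z w| ≤ FA_S14_B1 F := by
  have hB0 := FA_S14_B0_nonneg F
  have hcard : (0 : ℝ) ≤ Fintype.card (InfinitePlace F) := Nat.cast_nonneg _
  have hmult : ∀ w' : InfinitePlace F, |FA_S14_dev F z w'| ≤ |(mult w' : ℝ) * FA_S14_dev F z w'| := by
    intro w'
    rw [abs_mul]
    have : (1 : ℝ) ≤ |(mult w' : ℝ)| := by
      rw [abs_of_nonneg (Nat.cast_nonneg _)]; exact one_le_mult
    nlinarith [abs_nonneg (FA_S14_dev F z w')]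
  by_cases hw : w = w₀
  · subst hw
    have hsum := FA_S14_sum_mult_dev F hz
    rw [← Finset.add_sum_erase Finset.univ _ (Finset.mem_univ (w₀ : InfinitePlace F))] at hsum
    have h1 : (mult (w₀ : InfinitePlace F) : ℝ) * FA_S14_dev F z w₀ =
        -∑ w ∈ Finset.univ.erase (w₀ : InfinitePlace F), (mult w : ℝ) * FA_S14_dev F z w := by
      linarith
    have h2 : |∑ w ∈ Finset.univ.erase (w₀ : InfinitePlace F), (mult w : ℝ) * FA_S14_dev F z w| ≤
        ∑ _w ∈ Finset.univ.erase (w₀ : InfinitePlace F), FA_S14_B0 F := by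
      refine (Finset.abs_sum_le_sum_abs _ _).trans (Finset.sum_le_sum fun w hw => ?_)
      exact FA_S14_mult_dev_le F h w (Finset.ne_of_mem_erase hw)
    rw [Finset.sum_const, nsmul_eq_mul] at h2
    have h3 : ((Finset.univ.erase (w₀ : InfinitePlace F)).card : ℝ) ≤
        Fintype.card (InfinitePlace F) := by
      exact_mod_cast Finset.card_le_univ _
    calc |FA_S14_dev F z w₀| ≤ |(mult (w₀ : InfinitePlace F) : ℝ) * FA_S14_dev F z w₀| := hmult _
      _ = |∑ w ∈ Finset.univ.erase (w₀ : InfinitePlace F), (mult w : ℝ) * FA_S14_dev F z w| := by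
          rw [h1, abs_neg]
      _ ≤ ((Finset.univ.erase (w₀ : InfinitePlace F)).card : ℝ) * FA_S14_B0 F := h2
      _ ≤ Fintype.card (InfinitePlace F) * FA_S14_B0 F := mul_le_mul_of_nonneg_right h3 hB0
      _ ≤ FA_S14_B1 F := by unfold FA_S14_B1; nlinarith
  · calc |FA_S14_dev F z w| ≤ |(mult w : ℝ) * FA_S14_dev F z w| := hmult _
      _ ≤ FA_S14_B0 F := FA_S14_mult_dev_le F h w hw
      _ ≤ FA_S14_B1 F := by unfold FA_S14_B1; nlinarith

/-- The constant `c₁ = exp (-2 B₁) / 2`. -/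
noncomputable def FA_S14_c1 : ℝ := Real.exp (-2 * FA_S14_B1 F) / 2

theorem FA_S14_c1_pos : 0 < FA_S14_c1 F := by unfold FA_S14_c1; positivity

theorem FA_S14_c1_le : FA_S14_c1 F ≤ 1 / 2 := by
  unfold FA_S14_c1
  have : Real.exp (-2 * FA_S14_B1 F) ≤ 1 := by
    rw [Real.exp_le_one_iff]; nlinarith [FA_S14_B1_nonneg F]
  linarith

theorem FA_S14_normAtPlace_le_norm (z : mixedSpace F) (w : InfinitePlace F) :
    normAtPlace w z ≤ ‖z‖ := by
  rw [norm_eq_sup'_normAtPlace]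
  exact Finset.le_sup' (fun w => normAtPlace w z) (Finset.mem_univ w)

theorem FA_S14_exists_normAtPlace_eq (z : mixedSpace F) :
    ∃ w : InfinitePlace F, normAtPlace w z = ‖z‖ := by
  rw [norm_eq_sup'_normAtPlace]
  obtain ⟨w, _, hw⟩ := Finset.exists_mem_eq_sup' Finset.univ_nonempty
    (fun w : InfinitePlace F => normAtPlace w z)
  exact ⟨w, hw.symm⟩

/-- On the support of the weight, in the region `‖z‖ ≥ 1/2`, all the `ν_w(z)` are `≥ c₁`. -/
theorem FA_S14_normAtPlace_ge {z : mixedSpace F} (hz : mixedEmbedding.norm z ≠ 0)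
    (h : FA_S14_bump F (logMap z) ≠ 0) (hnorm : 1 / 2 ≤ ‖z‖) (w : InfinitePlace F) :
    FA_S14_c1 F ≤ normAtPlace w z := by
  have hpos : ∀ w : InfinitePlace F, 0 < normAtPlace w z := fun w =>
    lt_of_le_of_ne (normAtPlace_nonneg w z) (Ne.symm (mixedEmbedding.norm_ne_zero_iff.mp hz w))
  obtain ⟨w₁, hw₁⟩ := FA_S14_exists_normAtPlace_eq F z
  have h1 := abs_le.mp (FA_S14_dev_le F hz h w)
  have h2 := abs_le.mp (FA_S14_dev_le F hz h w₁)
  unfold FA_S14_dev at h1 h2
  have h3 : Real.log (1 / 2) ≤ Real.log (normAtPlace w₁ z) := by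
    apply Real.log_le_log (by norm_num)
    rw [hw₁]; exact hnorm
  have h4 : -2 * FA_S14_B1 F + Real.log (1 / 2) ≤ Real.log (normAtPlace w z) := by
    linarith [h1.1, h2.2]
  have h5 : Real.exp (-2 * FA_S14_B1 F + Real.log (1 / 2)) ≤ normAtPlace w z := by
    rw [← Real.exp_log (hpos w)]
    exact Real.exp_le_exp.mpr h4
  rw [Real.exp_add, Real.exp_log (by norm_num : (0 : ℝ) < 1 / 2)] at h5
  unfold FA_S14_c1
  linarith

end Fermat.Agent.S14
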