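import Mathlib
import Fermat.Agent.S14.InterfaceAn
import Fermat.Agent.S14.BddLip

/-!
# S14 leaf BDD: sub-interface (lead)

`FA_S14_wt F s z = bump (logMap z) * N(z)^(-s)` (BddLip.lean), `Σ_{u ∈ 𝓞ˣ} bump (logMap (u • z)) = w`
(BddUnits.lean).

* `BddPoint` (lead): `|wt s (X+Y) - wt s X| ≤ C ‖Y‖ ‖X‖^(-n-1)` for `‖X‖ ≥ 1`, `2‖Y‖ ≤ ‖X‖`, `s ∈ [1,2]`.
* `BddZeta`: the lattice sum of `wt` over a nonzero ideal `J` is `w · N(J)^(-s) · ζ(s, [J]⁻¹)`.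
* `BddShift`: for `J' ≤ J` the lattice sums satisfy `|S(J,s) - [J:J']·S(J',s)| ≤ C` on `(1,2]`.
* `BddFinal` (lead): these + ZUp give `FA_S14_Target_Bdd`.
-/

set_option autoImplicit false

open scoped NumberField nonZeroDivisors Classical
open NumberField NumberField.mixedEmbedding NumberField.Units Module

namespace Fermat.Agent.S14

/-- The lattice sum `S(J,s) = Σ_{x ∈ J} wt s x`. -/
noncomputable def FA_S14_latSum (F : Type) [Field F] [NumberField F] (J : Ideal (𝓞 F)) (s : ℝ) : ℝ :=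
  ∑' x : J, FA_S14_wt F s (mixedEmbedding F ((x : 𝓞 F) : F))

/-- The partial zeta function of a class. -/
noncomputable def FA_S14_zetaClass (F : Type) [Field F] [NumberField F] (C : ClassGroup (𝓞 F))
    (s : ℝ) : ℝ :=
  ∑' I : {I : (Ideal (𝓞 F))⁰ // ClassGroup.mk0 I = C}, (Ideal.absNorm (I.1 : Ideal (𝓞 F)) : ℝ) ^ (-s)

/-- **BddPoint** (lead). -/
def FA_S14_Target_BddPoint : Prop :=
  ∀ (F : Type) [Field F] [NumberField F], ∃ C : ℝ, 0 ≤ C ∧ ∀ s : ℝ, 1 ≤ s → s ≤ 2 →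
    ∀ X Y : mixedSpace F, 1 ≤ ‖X‖ → 2 * ‖Y‖ ≤ ‖X‖ →
      |FA_S14_wt F s (X + Y) - FA_S14_wt F s X| ≤ C * ‖Y‖ * ‖X‖ ^ (-(finrank ℚ F : ℝ) - 1)

/-- **BddZeta**: summability of the lattice sum and its value. -/
def FA_S14_Target_BddZeta : Prop :=
  FA_S14_Target_ZSummable →
  ∀ (F : Type) [Field F] [NumberField F] (J : (Ideal (𝓞 F))⁰) (s : ℝ), 1 < s →
    Summable (fun x : (J : Ideal (𝓞 F)) => FA_S14_wt F s (mixedEmbedding F ((x : 𝓞 F) : F))) ∧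
    FA_S14_latSum F J s =
      (torsionOrder F : ℝ) * (Ideal.absNorm (J : Ideal (𝓞 F)) : ℝ) ^ (-s) *
        FA_S14_zetaClass F (ClassGroup.mk0 J)⁻¹ s

/-- **BddShift**: comparison of the lattice sums of an ideal and a sub-ideal. -/
def FA_S14_Target_BddShift : Prop :=
  FA_S14_Target_BddPoint →
  ∀ (F : Type) [Field F] [NumberField F] (J J' : (Ideal (𝓞 F))⁰),
    (J' : Ideal (𝓞 F)) ≤ J →
    (∀ s : ℝ, 1 < s →
      Summable (fun x : (J : Ideal (𝓞 F)) => FA_S14_wt F s (mixedEmbedding F ((x : 𝓞 F) : F)))) →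
    (∀ s : ℝ, 1 < s →
      Summable (fun x : (J' : Ideal (𝓞 F)) => FA_S14_wt F s (mixedEmbedding F ((x : 𝓞 F) : F)))) →
    ∃ C : ℝ, ∀ s : ℝ, 1 < s → s ≤ 2 →
      |FA_S14_latSum F J s -
        ((Ideal.absNorm (J' : Ideal (𝓞 F)) : ℝ) / (Ideal.absNorm (J : Ideal (𝓞 F)) : ℝ)) *
          FA_S14_latSum F J' s| ≤ C

/-- **BddFinal** (lead). -/
def FA_S14_Target_BddFinal : Prop :=
  FA_S14_Target_ZSummable → FA_S14_Target_ZUp → FA_S14_Target_BddPoint → FA_S14_Target_BddZeta →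
    FA_S14_Target_BddShift → FA_S14_Target_Bdd

end Fermat.Agent.S14
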