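import Mathlib
import Fermat.Agent.S14.InterfaceBdd

/-!
# S14 leaf BDD, final assembly (helper8)

`FA_S14_bddFinal : FA_S14_Target_BddFinal`: the partial zeta functions of two ideal classes differ
by a bounded function on `(1,2]` (BddZeta + BddShift + ZUp), hence `L(s,χ) = Σ_C χ(C) ζ(s,C)` is
bounded for `χ ≠ 1`.
-/

set_option autoImplicit false

open scoped NumberField nonZeroDivisors
open NumberField NumberField.Units

namespace Fermat.Agent.S14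

variable (F : Type) [Field F] [NumberField F]

theorem FA_S14_bddfinal_summable_class (hZS : FA_S14_Target_ZSummable)
    (C : ClassGroup (𝓞 F)) (s : ℝ) (hs : 1 < s) :
    Summable (fun I : {I : (Ideal (𝓞 F))⁰ // ClassGroup.mk0 I = C} =>
      (Ideal.absNorm (I.1 : Ideal (𝓞 F)) : ℝ) ^ (-s)) :=
  (hZS F s hs).subtype _

theorem FA_S14_bddfinal_zetaClass_nonneg (C : ClassGroup (𝓞 F)) (s : ℝ) :
    0 ≤ FA_S14_zetaClass F C s :=
  tsum_nonneg (fun _ => Real.rpow_nonneg (Nat.cast_nonneg _) _)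

theorem FA_S14_bddfinal_zetaClass_le (hZS : FA_S14_Target_ZSummable)
    (C : ClassGroup (𝓞 F)) (s : ℝ) (hs : 1 < s) :
    FA_S14_zetaClass F C s ≤
      ∑' I : (Ideal (𝓞 F))⁰, (Ideal.absNorm (I : Ideal (𝓞 F)) : ℝ) ^ (-s) :=
  tsum_comp_le_tsum_of_inj (hZS F s hs) (fun _ => Real.rpow_nonneg (Nat.cast_nonneg _) _)
    Subtype.val_injective

/-- Pure real-number step: from `|w u ζ - m (w v ζ')| ≤ C₁` to `|ζ - ζ'| ≤ B`. -/
theorem FA_S14_bddfinal_real {a b w C₁ CZ s ζ ζ' : ℝ} (ha1 : 1 ≤ a) (hab : a ≤ b) (hw : 1 ≤ w)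
    (hs1 : 1 < s) (hs2 : s ≤ 2) (hζ' : 0 ≤ ζ') (hζ'le : ζ' ≤ CZ / (s - 1))
    (h : |w * a ^ (-s) * ζ - b / a * (w * b ^ (-s) * ζ')| ≤ C₁) :
    |ζ - ζ'| ≤ |C₁| * a ^ (2 : ℝ) + |CZ| * Real.log (b / a) := by
  have ha0 : 0 < a := by linarith
  have hb0 : 0 < b := by linarith
  have hs0 : 0 < s - 1 := by linarith
  set m : ℝ := b / a with hm
  have hm1 : 1 ≤ m := by rw [hm, le_div_iff₀ ha0]; linarith
  have hm0 : 0 < m := by linarith
  set μ : ℝ := m ^ (1 - s) with hμ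
  have hμ0 : 0 < μ := Real.rpow_pos_of_pos hm0 _
  have hμ1 : μ ≤ 1 := Real.rpow_le_one_of_one_le_of_nonpos hm1 (by linarith)
  have hμlog : 1 - μ ≤ (s - 1) * Real.log m := by
    have h1 : μ = Real.exp ((1 - s) * Real.log m) := by
      rw [hμ, Real.rpow_def_of_pos hm0, mul_comm]
    have h2 := Real.add_one_le_exp ((1 - s) * Real.log m)
    rw [← h1] at h2
    linarith
  have hu0 : 0 < a ^ (-s) := Real.rpow_pos_of_pos ha0 _
  -- rewrite the second term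
  have hb : b = m * a := by rw [hm]; field_simp
  have h2 : b / a * (w * b ^ (-s) * ζ') = w * a ^ (-s) * (μ * ζ') := by
    have h3 : b ^ (-s) = m ^ (-s) * a ^ (-s) := by
      rw [hb, Real.mul_rpow hm0.le ha0.le]
    have h4 : μ = m * m ^ (-s) := by
      rw [hμ, show (1 - s) = 1 + (-s) by ring, Real.rpow_add hm0, Real.rpow_one]
    rw [h3, h4]
    ring
  rw [h2, ← mul_sub, abs_mul, abs_of_pos (mul_pos (by linarith) hu0)] at h
  have hC₁ : 0 ≤ C₁ := le_trans (mul_nonneg (mul_pos (by linarith) hu0).le (abs_nonneg _)) h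
  -- `|ζ - μ ζ'| ≤ C₁ a^s / w ≤ |C₁| a^2`
  have h5 : |ζ - μ * ζ'| ≤ |C₁| * a ^ (2 : ℝ) := by
    have h6 : a ^ (-s) * |ζ - μ * ζ'| ≤ C₁ := by
      calc a ^ (-s) * |ζ - μ * ζ'| ≤ w * (a ^ (-s) * |ζ - μ * ζ'|) :=
            le_mul_of_one_le_left (mul_nonneg hu0.le (abs_nonneg _)) hw
        _ = w * a ^ (-s) * |ζ - μ * ζ'| := by ring
        _ ≤ C₁ := h
    have h7 : a ^ s * a ^ (-s) = 1 := by
      rw [← Real.rpow_add ha0, add_neg_cancel, Real.rpow_zero]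
    have h8 : a ^ s ≤ a ^ (2 : ℝ) := Real.rpow_le_rpow_of_exponent_le ha1 hs2
    have h9 : 0 ≤ a ^ s := (Real.rpow_pos_of_pos ha0 _).le
    calc |ζ - μ * ζ'| = (a ^ s * a ^ (-s)) * |ζ - μ * ζ'| := by rw [h7, one_mul]
      _ = a ^ s * (a ^ (-s) * |ζ - μ * ζ'|) := by ring
      _ ≤ a ^ s * C₁ := mul_le_mul_of_nonneg_left h6 h9
      _ ≤ a ^ (2 : ℝ) * C₁ := mul_le_mul_of_nonneg_right h8 hC₁
      _ = |C₁| * a ^ (2 : ℝ) := by rw [abs_of_nonneg hC₁]; ring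
  have hlog0 : 0 ≤ Real.log m := Real.log_nonneg hm1
  have hCZ : 0 ≤ CZ := by
    have := hζ'.trans hζ'le
    by_contra hneg
    rw [not_le] at hneg
    have : CZ / (s - 1) < 0 := div_neg_of_neg_of_pos hneg hs0
    linarith
  have h10 : (1 - μ) * ζ' ≤ |CZ| * Real.log m := by
    calc (1 - μ) * ζ' ≤ ((s - 1) * Real.log m) * (CZ / (s - 1)) :=
          mul_le_mul hμlog hζ'le hζ' (mul_nonneg hs0.le hlog0)
      _ = CZ * Real.log m := by field_simp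
      _ = |CZ| * Real.log m := by rw [abs_of_nonneg hCZ]
  calc |ζ - ζ'| = |(ζ - μ * ζ') - (1 - μ) * ζ'| := by ring_nf
    _ ≤ |ζ - μ * ζ'| + |(1 - μ) * ζ'| := abs_sub _ _
    _ = |ζ - μ * ζ'| + (1 - μ) * ζ' := by
        rw [abs_of_nonneg (mul_nonneg (by linarith) hζ')]
    _ ≤ |C₁| * a ^ (2 : ℝ) + |CZ| * Real.log m := add_le_add h5 h10


/-- The partial zeta functions of two classes differ by a bounded function on `(1,2]`. -/
theorem FA_S14_bddfinal_diff (hZS : FA_S14_Target_ZSummable) (hZUp : FA_S14_Target_ZUp)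
    (hPoint : FA_S14_Target_BddPoint) (hZeta : FA_S14_Target_BddZeta)
    (hShift : FA_S14_Target_BddShift) (C C' : ClassGroup (𝓞 F)) :
    ∃ B : ℝ, ∀ s : ℝ, 1 < s → s ≤ 2 →
      |FA_S14_zetaClass F C s - FA_S14_zetaClass F C' s| ≤ B := by
  obtain ⟨J, hJ⟩ := ClassGroup.mk0_surjective C⁻¹
  obtain ⟨I, hI⟩ := ClassGroup.mk0_surjective (C'⁻¹ * C)
  have hJ'le : ((J * I : (Ideal (𝓞 F))⁰) : Ideal (𝓞 F)) ≤ J := by
    rw [Submonoid.coe_mul]; exact Ideal.mul_le_left (I := (J : Ideal (𝓞 F))) (J := (I : Ideal (𝓞 F)))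
  have hJ'cls : ClassGroup.mk0 (J * I) = C'⁻¹ := by
    rw [map_mul, hJ, hI, mul_comm C'⁻¹ C, ← mul_assoc, inv_mul_cancel, one_mul]
  have hZ := hZeta hZS F
  obtain ⟨C₁, hC₁⟩ := hShift hPoint F J (J * I) hJ'le (fun s hs => (hZ J s hs).1)
    (fun s hs => (hZ (J * I) s hs).1)
  obtain ⟨CZ, hCZ⟩ := hZUp F
  have hane : Ideal.absNorm (J : Ideal (𝓞 F)) ≠ 0 := Ideal.absNorm_ne_zero_of_nonZeroDivisors J
  have hbne : Ideal.absNorm ((J * I : (Ideal (𝓞 F))⁰) : Ideal (𝓞 F)) ≠ 0 :=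
    Ideal.absNorm_ne_zero_of_nonZeroDivisors (J * I)
  have ha1 : (1 : ℝ) ≤ (Ideal.absNorm (J : Ideal (𝓞 F)) : ℝ) := by
    exact_mod_cast Nat.one_le_iff_ne_zero.mpr hane
  have hab : (Ideal.absNorm (J : Ideal (𝓞 F)) : ℝ) ≤
      (Ideal.absNorm ((J * I : (Ideal (𝓞 F))⁰) : Ideal (𝓞 F)) : ℝ) := by
    exact_mod_cast Nat.le_of_dvd (Nat.pos_of_ne_zero hbne)
      (Ideal.absNorm_dvd_absNorm_of_le hJ'le)
  have hw : (1 : ℝ) ≤ (torsionOrder F : ℝ) := by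
    exact_mod_cast Nat.one_le_iff_ne_zero.mpr (torsionOrder_ne_zero F)
  refine ⟨|C₁| * (Ideal.absNorm (J : Ideal (𝓞 F)) : ℝ) ^ (2 : ℝ) + |CZ| *
    Real.log ((Ideal.absNorm ((J * I : (Ideal (𝓞 F))⁰) : Ideal (𝓞 F)) : ℝ) /
      (Ideal.absNorm (J : Ideal (𝓞 F)) : ℝ)), ?_⟩
  intro s hs1 hs2
  have h1 := hC₁ s hs1 hs2
  rw [(hZ J s hs1).2, (hZ (J * I) s hs1).2, hJ, hJ'cls, inv_inv, inv_inv] at h1
  exact FA_S14_bddfinal_real ha1 hab hw hs1 hs2 (FA_S14_bddfinal_zetaClass_nonneg F C' s)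
    ((FA_S14_bddfinal_zetaClass_le F hZS C' s hs1).trans (hCZ s hs1 hs2)) h1


/-- A character of the class group has values of norm one. -/
theorem FA_S14_bddfinal_norm_char (χ : ClassGroup (𝓞 F) →* ℂˣ) (c : ClassGroup (𝓞 F)) :
    ‖((χ c : ℂˣ) : ℂ)‖ = 1 := by
  have h1 : ((χ c : ℂˣ) : ℂ) ^ (Nat.card (ClassGroup (𝓞 F))) = 1 := by
    rw [← Units.val_pow_eq_pow_val, ← map_pow, pow_card_eq_one', map_one, Units.val_one]
  exact Complex.norm_eq_one_of_pow_eq_one h1 Nat.card_pos.ne'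

/-- `L(s,χ) = Σ_C χ(C) ζ(s,C)`. -/
theorem FA_S14_bddfinal_LChar_eq (hZS : FA_S14_Target_ZSummable)
    (χ : ClassGroup (𝓞 F) →* ℂˣ) (s : ℝ) (hs : 1 < s) :
    FA_S14_LChar F χ s =
      ∑ C : ClassGroup (𝓞 F), ((χ C : ℂˣ) : ℂ) * ((FA_S14_zetaClass F C s : ℝ) : ℂ) := by
  classical
  unfold FA_S14_LChar
  have hsum : Summable (fun I : (Ideal (𝓞 F))⁰ => ((χ (ClassGroup.mk0 I) : ℂˣ) : ℂ) *
      (((Ideal.absNorm (I : Ideal (𝓞 F)) : ℝ) ^ (-s) : ℝ) : ℂ)) := by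
    apply Summable.of_norm
    have h0 : (fun I : (Ideal (𝓞 F))⁰ => ‖((χ (ClassGroup.mk0 I) : ℂˣ) : ℂ) *
        (((Ideal.absNorm (I : Ideal (𝓞 F)) : ℝ) ^ (-s) : ℝ) : ℂ)‖) =
        fun I : (Ideal (𝓞 F))⁰ => (Ideal.absNorm (I : Ideal (𝓞 F)) : ℝ) ^ (-s) := by
      funext I
      rw [norm_mul, FA_S14_bddfinal_norm_char, one_mul, Complex.norm_real,
        Real.norm_of_nonneg (Real.rpow_nonneg (Nat.cast_nonneg _) _)]
    rw [h0]
    exact hZS F s hs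
  have h1 := (hsum.hasSum.tsum_fiberwise (fun I : (Ideal (𝓞 F))⁰ => ClassGroup.mk0 I)).tsum_eq
  rw [← h1, tsum_fintype]
  refine Finset.sum_congr rfl (fun C _ => ?_)
  unfold FA_S14_zetaClass
  rw [Complex.ofReal_tsum, ← tsum_mul_left]
  refine tsum_congr (fun I => ?_)
  have hI : ClassGroup.mk0 I.1 = C := I.2
  rw [hI]

/-- **BddFinal**: the sub-leaves give `FA_S14_Target_Bdd`. -/
theorem FA_S14_bddFinal : FA_S14_Target_BddFinal := by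
  intro hZS hZUp hPoint hZeta hShift F _ _ χ hχ
  classical
  choose B hB using fun C : ClassGroup (𝓞 F) =>
    FA_S14_bddfinal_diff F hZS hZUp hPoint hZeta hShift C 1
  refine ⟨∑ C : ClassGroup (𝓞 F), |B C|, ?_⟩
  intro s hs1 hs2
  rw [FA_S14_bddfinal_LChar_eq F hZS χ s hs1]
  have hne : (Units.coeHom ℂ).comp χ ≠ 1 := by
    intro h
    apply hχ
    ext c
    have := DFunLike.congr_fun h c
    simpa using this
  have hsum0 : ∑ C : ClassGroup (𝓞 F), ((χ C : ℂˣ) : ℂ) = 0 := by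
    have := sum_hom_units_eq_zero ((Units.coeHom ℂ).comp χ) hne
    simpa using this
  have h2 : ∑ C : ClassGroup (𝓞 F), ((χ C : ℂˣ) : ℂ) * ((FA_S14_zetaClass F C s : ℝ) : ℂ) =
      ∑ C : ClassGroup (𝓞 F), ((χ C : ℂˣ) : ℂ) *
        (((FA_S14_zetaClass F C s - FA_S14_zetaClass F 1 s : ℝ)) : ℂ) := by
    have h3 : ∑ C : ClassGroup (𝓞 F), ((χ C : ℂˣ) : ℂ) *
        (((FA_S14_zetaClass F C s - FA_S14_zetaClass F 1 s : ℝ)) : ℂ) =
        ∑ C : ClassGroup (𝓞 F), ((χ C : ℂˣ) : ℂ) * ((FA_S14_zetaClass F C s : ℝ) : ℂ) -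
          (∑ C : ClassGroup (𝓞 F), ((χ C : ℂˣ) : ℂ)) * ((FA_S14_zetaClass F 1 s : ℝ) : ℂ) := by
      rw [Finset.sum_mul, ← Finset.sum_sub_distrib]
      refine Finset.sum_congr rfl (fun C _ => ?_)
      push_cast
      ring
    rw [h3, hsum0, zero_mul, sub_zero]
  rw [h2]
  calc ‖∑ C : ClassGroup (𝓞 F), ((χ C : ℂˣ) : ℂ) *
        (((FA_S14_zetaClass F C s - FA_S14_zetaClass F 1 s : ℝ)) : ℂ)‖
      ≤ ∑ C : ClassGroup (𝓞 F), ‖((χ C : ℂˣ) : ℂ) *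
        (((FA_S14_zetaClass F C s - FA_S14_zetaClass F 1 s : ℝ)) : ℂ)‖ := norm_sum_le _ _
    _ ≤ ∑ C : ClassGroup (𝓞 F), |B C| := by
        refine Finset.sum_le_sum (fun C _ => ?_)
        rw [norm_mul, FA_S14_bddfinal_norm_char, one_mul, Complex.norm_real, Real.norm_eq_abs]
        exact (hB C s hs1 hs2).trans (le_abs_self _)

end Fermat.Agent.S14
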