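import Mathlib
import Fermat.Agent.S14.BddLip

/-!
# S14 leaf BDD, part 3b: Lipschitz estimates on the good region `ν_w ≥ c`
-/

set_option autoImplicit false

open scoped NumberField Classical
open NumberField NumberField.mixedEmbedding NumberField.Units
  NumberField.Units.dirichletUnitTheorem NumberField.InfinitePlace Module

namespace Fermat.Agent.S14

variable (F : Type) [Field F] [NumberField F]

theorem FA_S14_normAtPlace_sub_le (a b : mixedSpace F) (w : InfinitePlace F) :
    |normAtPlace w a - normAtPlace w b| ≤ ‖a - b‖ := by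
  have h1 : normAtPlace w a ≤ normAtPlace w b + normAtPlace w (a - b) := by
    have := normAtPlace_add_le w b (a - b)
    rwa [add_sub_cancel] at this
  have h2 : normAtPlace w b ≤ normAtPlace w a + normAtPlace w (a - b) := by
    have := normAtPlace_add_le w a (b - a)
    rw [add_sub_cancel] at this
    rwa [← normAtPlace_neg w (a - b), neg_sub]
  have h3 := FA_S14_normAtPlace_le_norm F (a - b) w
  rw [abs_le]
  constructor <;> linarith

theorem FA_S14_log_sub_le {x y c : ℝ} (hc : 0 < c) (hx : c ≤ x) (hy : c ≤ y) :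
    |Real.log x - Real.log y| ≤ |x - y| / c := by
  have hx0 : 0 < x := lt_of_lt_of_le hc hx
  have hy0 : 0 < y := lt_of_lt_of_le hc hy
  have key : ∀ u v : ℝ, c ≤ u → c ≤ v → Real.log u - Real.log v ≤ |u - v| / c := by
    intro u v hu hv
    have hu0 : 0 < u := lt_of_lt_of_le hc hu
    have hv0 : 0 < v := lt_of_lt_of_le hc hv
    have h1 : Real.log u - Real.log v = Real.log (u / v) := (Real.log_div hu0.ne' hv0.ne').symm
    have h2 : Real.log (u / v) ≤ u / v - 1 := Real.log_le_sub_one_of_pos (div_pos hu0 hv0)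
    have h3 : u / v - 1 = (u - v) / v := by field_simp
    rw [h1]
    refine h2.trans ?_
    rw [h3]
    by_cases huv : 0 ≤ u - v
    · rw [abs_of_nonneg huv]
      exact div_le_div_of_nonneg_left huv hc hv
    · push Not at huv
      have : (u - v) / v ≤ 0 := div_nonpos_of_nonpos_of_nonneg huv.le hv0.le
      exact this.trans (div_nonneg (abs_nonneg _) hc.le)
  rw [abs_le]
  constructor
  · have := key y x hy hx
    rw [abs_sub_comm] at this
    linarith
  · exact key x y hx hy

theorem FA_S14_log_norm_eq {z : mixedSpace F} (hz : ∀ w : InfinitePlace F, normAtPlace w z ≠ 0) :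
    Real.log (mixedEmbedding.norm z) =
      ∑ w : InfinitePlace F, (mult w : ℝ) * Real.log (normAtPlace w z) := by
  rw [mixedEmbedding.norm_apply, Real.log_prod (fun w _ => pow_ne_zero _ (hz w))]
  refine Finset.sum_congr rfl fun w _ => ?_
  rw [Real.log_pow]

variable {F}

/-- The good region. -/
def FA_S14_Good (c : ℝ) (z : mixedSpace F) : Prop := ∀ w : InfinitePlace F, c ≤ normAtPlace w z

theorem FA_S14_Good.ne_zero {c : ℝ} (hc : 0 < c) {z : mixedSpace F} (hz : FA_S14_Good c z)
    (w : InfinitePlace F) : normAtPlace w z ≠ 0 := (lt_of_lt_of_le hc (hz w)).ne'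

theorem FA_S14_Good.norm_ne_zero {c : ℝ} (hc : 0 < c) {z : mixedSpace F} (hz : FA_S14_Good c z) :
    mixedEmbedding.norm z ≠ 0 := mixedEmbedding.norm_ne_zero_iff.mpr (hz.ne_zero hc)

theorem FA_S14_log_place_sub_le {c : ℝ} (hc : 0 < c) {a b : mixedSpace F}
    (ha : FA_S14_Good c a) (hb : FA_S14_Good c b) (w : InfinitePlace F) :
    |Real.log (normAtPlace w a) - Real.log (normAtPlace w b)| ≤ ‖a - b‖ / c :=
  (FA_S14_log_sub_le hc (ha w) (hb w)).trans
    (div_le_div_of_nonneg_right (FA_S14_normAtPlace_sub_le F a b w) hc.le)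

theorem FA_S14_log_norm_sub_le {c : ℝ} (hc : 0 < c) {a b : mixedSpace F}
    (ha : FA_S14_Good c a) (hb : FA_S14_Good c b) :
    |Real.log (mixedEmbedding.norm a) - Real.log (mixedEmbedding.norm b)| ≤
      (finrank ℚ F : ℝ) * (‖a - b‖ / c) := by
  rw [FA_S14_log_norm_eq F (ha.ne_zero hc), FA_S14_log_norm_eq F (hb.ne_zero hc),
    ← Finset.sum_sub_distrib]
  have hsum : ∑ w : InfinitePlace F, (mult w : ℝ) = (finrank ℚ F : ℝ) := by
    rw [← Nat.cast_sum, sum_mult_eq]
  rw [← hsum, Finset.sum_mul]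
  refine (Finset.abs_sum_le_sum_abs _ _).trans (Finset.sum_le_sum fun w _ => ?_)
  rw [← mul_sub, abs_mul, abs_of_nonneg (Nat.cast_nonneg _)]
  exact mul_le_mul_of_nonneg_left (FA_S14_log_place_sub_le hc ha hb w) (Nat.cast_nonneg _)

theorem FA_S14_dev_sub_le {c : ℝ} (hc : 0 < c) {a b : mixedSpace F}
    (ha : FA_S14_Good c a) (hb : FA_S14_Good c b) (w : InfinitePlace F) :
    |FA_S14_dev F a w - FA_S14_dev F b w| ≤ 2 * (‖a - b‖ / c) := by
  unfold FA_S14_dev
  have h1 := FA_S14_log_place_sub_le hc ha hb w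
  have h2 := FA_S14_log_norm_sub_le hc ha hb
  have hn : (0 : ℝ) < finrank ℚ F := Nat.cast_pos.mpr finrank_pos
  have h3 : |(Real.log (mixedEmbedding.norm a) - Real.log (mixedEmbedding.norm b)) *
      (finrank ℚ F : ℝ)⁻¹| ≤ ‖a - b‖ / c := by
    rw [abs_mul, abs_of_pos (inv_pos.mpr hn)]
    calc |Real.log (mixedEmbedding.norm a) - Real.log (mixedEmbedding.norm b)| * (finrank ℚ F : ℝ)⁻¹
        ≤ ((finrank ℚ F : ℝ) * (‖a - b‖ / c)) * (finrank ℚ F : ℝ)⁻¹ :=
          mul_le_mul_of_nonneg_right h2 (inv_pos.mpr hn).le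
      _ = ‖a - b‖ / c := by field_simp
  have e : Real.log (normAtPlace w a) - Real.log (mixedEmbedding.norm a) * (finrank ℚ F : ℝ)⁻¹ -
      (Real.log (normAtPlace w b) - Real.log (mixedEmbedding.norm b) * (finrank ℚ F : ℝ)⁻¹) =
      (Real.log (normAtPlace w a) - Real.log (normAtPlace w b)) -
      (Real.log (mixedEmbedding.norm a) - Real.log (mixedEmbedding.norm b)) *
        (finrank ℚ F : ℝ)⁻¹ := by ring
  rw [e]
  calc |(Real.log (normAtPlace w a) - Real.log (normAtPlace w b)) -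
      (Real.log (mixedEmbedding.norm a) - Real.log (mixedEmbedding.norm b)) *
        (finrank ℚ F : ℝ)⁻¹|
      ≤ |Real.log (normAtPlace w a) - Real.log (normAtPlace w b)| +
        |(Real.log (mixedEmbedding.norm a) - Real.log (mixedEmbedding.norm b)) *
        (finrank ℚ F : ℝ)⁻¹| := abs_sub _ _
    _ ≤ 2 * (‖a - b‖ / c) := by linarith

theorem FA_S14_logMap_sub_le {c : ℝ} (hc : 0 < c) {a b : mixedSpace F}
    (ha : FA_S14_Good c a) (hb : FA_S14_Good c b) :
    ‖logMap a - logMap b‖ ≤ 4 * (‖a - b‖ / c) := by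
  have hnn : 0 ≤ 4 * (‖a - b‖ / c) := by positivity
  rw [pi_norm_le_iff_of_nonneg hnn]
  intro w
  rw [Pi.sub_apply, logMap_apply, logMap_apply, Real.norm_eq_abs]
  have h := FA_S14_dev_sub_le hc ha hb w.1
  unfold FA_S14_dev at h
  rw [← mul_sub, abs_mul, abs_of_nonneg (Nat.cast_nonneg _)]
  have hm : (mult w.1 : ℝ) ≤ 2 := by
    unfold mult; split_ifs <;> norm_num
  have hd : 0 ≤ ‖a - b‖ / c := by positivity
  calc (mult w.1 : ℝ) * _ ≤ 2 * (2 * (‖a - b‖ / c)) :=
        mul_le_mul hm h (abs_nonneg _) (by norm_num)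
    _ = 4 * (‖a - b‖ / c) := by ring

end Fermat.Agent.S14
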