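import Mathlib
import Fermat.Agent.S14.BddLip2

/-!
# S14 leaf BDD, part 3c: the weight is Lipschitz on the annulus
-/

set_option autoImplicit false

open scoped NumberField Classical
open NumberField NumberField.mixedEmbedding NumberField.Units
  NumberField.Units.dirichletUnitTheorem NumberField.InfinitePlace Module

namespace Fermat.Agent.S14

theorem FA_S14_abs_prod_sub_prod_le {ι : Type*} (S : Finset ι) (f g : ι → ℝ)
    (hf : ∀ i ∈ S, 0 ≤ f i ∧ f i ≤ 1) (hg : ∀ i ∈ S, 0 ≤ g i ∧ g i ≤ 1) :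
    |∏ i ∈ S, f i - ∏ i ∈ S, g i| ≤ ∑ i ∈ S, |f i - g i| := by
  classical
  induction S using Finset.induction_on with
  | empty => simp
  | insert a S ha ih =>
    rw [Finset.prod_insert ha, Finset.prod_insert ha, Finset.sum_insert ha]
    have hfa := hf a (Finset.mem_insert_self a S)
    have hga := hg a (Finset.mem_insert_self a S)
    have ih' := ih (fun i hi => hf i (Finset.mem_insert_of_mem hi))
      (fun i hi => hg i (Finset.mem_insert_of_mem hi))
    have hPf : 0 ≤ ∏ i ∈ S, f i ∧ ∏ i ∈ S, f i ≤ 1 :=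
      ⟨Finset.prod_nonneg fun i hi => (hf i (Finset.mem_insert_of_mem hi)).1,
        Finset.prod_le_one (fun i hi => (hf i (Finset.mem_insert_of_mem hi)).1)
          (fun i hi => (hf i (Finset.mem_insert_of_mem hi)).2)⟩
    have e : f a * ∏ i ∈ S, f i - g a * ∏ i ∈ S, g i =
        (f a - g a) * ∏ i ∈ S, f i + g a * (∏ i ∈ S, f i - ∏ i ∈ S, g i) := by ring
    rw [e]
    refine (abs_add_le _ _).trans ?_
    rw [abs_mul, abs_mul, abs_of_nonneg hPf.1, abs_of_nonneg hga.1]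
    have h1 : |f a - g a| * ∏ i ∈ S, f i ≤ |f a - g a| := by
      nlinarith [abs_nonneg (f a - g a)]
    have h2 : g a * |∏ i ∈ S, f i - ∏ i ∈ S, g i| ≤ |∏ i ∈ S, f i - ∏ i ∈ S, g i| := by
      nlinarith [abs_nonneg (∏ i ∈ S, f i - ∏ i ∈ S, g i)]
    linarith

theorem FA_S14_exp_sub_le {u v P : ℝ} (hu : Real.exp u ≤ P) (hv : Real.exp v ≤ P) :
    |Real.exp u - Real.exp v| ≤ P * |u - v| := by
  have key : ∀ x y : ℝ, x ≤ y → Real.exp y ≤ P → |Real.exp x - Real.exp y| ≤ P * |x - y| := by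
    intro x y hxy hy
    have h1 : Real.exp x ≤ Real.exp y := Real.exp_le_exp.mpr hxy
    rw [abs_sub_comm, abs_of_nonneg (by linarith), abs_sub_comm, abs_of_nonneg (by linarith)]
    have h2 : x - y + 1 ≤ Real.exp (x - y) := Real.add_one_le_exp _
    have h3 : Real.exp x = Real.exp y * Real.exp (x - y) := by
      rw [← Real.exp_add]; congr 1; ring
    have hy0 : 0 < Real.exp y := Real.exp_pos y
    have h4 : Real.exp y - Real.exp x ≤ Real.exp y * (y - x) := by
      rw [h3]; nlinarith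
    exact h4.trans (mul_le_mul_of_nonneg_right hy (by linarith))
  rcases le_total u v with h | h
  · exact key u v h hv
  · have := key v u h hu
    rwa [abs_sub_comm, abs_sub_comm v u] at this

variable (F : Type) [Field F] [NumberField F]

/-- Lipschitz constant of the coordinates. -/
noncomputable def FA_S14_K : ℝ :=
  ∑ i, ‖LinearMap.toContinuousLinearMap ((FA_S14_logBasis F).coord i)‖

theorem FA_S14_K_nonneg : 0 ≤ FA_S14_K F := Finset.sum_nonneg fun _ _ => norm_nonneg _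

theorem FA_S14_bump_sub_le (v v' : logSpace F) :
    |FA_S14_bump F v - FA_S14_bump F v'| ≤ FA_S14_K F * ‖v - v'‖ := by
  unfold FA_S14_bump FA_S14_K
  refine (FA_S14_abs_prod_sub_prod_le _ _ _
    (fun i _ => ⟨FA_S14_tent_nonneg _, FA_S14_tent_le_one _⟩)
    (fun i _ => ⟨FA_S14_tent_nonneg _, FA_S14_tent_le_one _⟩)).trans ?_
  rw [Finset.sum_mul]
  refine Finset.sum_le_sum fun i _ => ?_
  refine (FA_S14_tent_lipschitz _ _).trans ?_
  have h := (LinearMap.toContinuousLinearMap ((FA_S14_logBasis F).coord i)).le_opNorm (v - v')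
  rw [Real.norm_eq_abs] at h
  have e : (LinearMap.toContinuousLinearMap ((FA_S14_logBasis F).coord i)) (v - v') =
      (FA_S14_logBasis F).repr v i - (FA_S14_logBasis F).repr v' i := by
    simp [Module.Basis.coord_apply]
  rwa [e] at h

variable {F}

/-- Lower bound for the norm on the good region. -/
theorem FA_S14_Good.pow_le_norm {c : ℝ} (hc : 0 < c) {z : mixedSpace F} (hz : FA_S14_Good c z) :
    c ^ (finrank ℚ F) ≤ mixedEmbedding.norm z := by
  rw [mixedEmbedding.norm_apply, ← sum_mult_eq, ← Finset.prod_pow_eq_pow_sum]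
  exact Finset.prod_le_prod (fun w _ => pow_nonneg hc.le _)
    (fun w _ => pow_le_pow_left₀ hc.le (hz w) _)

/-- Upper bound for `N(z)^(-s)` on the good region. -/
theorem FA_S14_Good.rpow_le {c : ℝ} (hc : 0 < c) (hc1 : c ≤ 1) {z : mixedSpace F}
    (hz : FA_S14_Good c z) {s : ℝ} (hs0 : 0 ≤ s) (hs2 : s ≤ 2) :
    (mixedEmbedding.norm z) ^ (-s) ≤ (c ^ (finrank ℚ F)) ^ (-2 : ℝ) := by
  have hcn : 0 < c ^ (finrank ℚ F) := pow_pos hc _
  have hcn1 : c ^ (finrank ℚ F) ≤ 1 := pow_le_one₀ hc.le hc1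
  calc (mixedEmbedding.norm z) ^ (-s) ≤ (c ^ (finrank ℚ F)) ^ (-s) :=
        Real.rpow_le_rpow_of_nonpos hcn (hz.pow_le_norm hc) (by linarith)
    _ ≤ (c ^ (finrank ℚ F)) ^ (-2 : ℝ) :=
        Real.rpow_le_rpow_of_exponent_ge hcn hcn1 (by linarith)

/-- The Lipschitz estimate on the good region. -/
theorem FA_S14_wt_sub_le_good {c : ℝ} (hc : 0 < c) (hc1 : c ≤ 1) {a b : mixedSpace F}
    (ha : FA_S14_Good c a) (hb : FA_S14_Good c b) {s : ℝ} (hs0 : 0 ≤ s) (hs2 : s ≤ 2) :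
    |FA_S14_wt F s a - FA_S14_wt F s b| ≤
      (c ^ (finrank ℚ F)) ^ (-2 : ℝ) * ((4 * FA_S14_K F + 2 * finrank ℚ F) / c) * ‖a - b‖ := by
  unfold FA_S14_wt
  set P := (c ^ (finrank ℚ F)) ^ (-2 : ℝ) with hP
  have hPpos : 0 ≤ P := Real.rpow_nonneg (pow_nonneg hc.le _) _
  have hNa : 0 < mixedEmbedding.norm a :=
    lt_of_le_of_ne (mixedEmbedding.norm_nonneg a) (Ne.symm (ha.norm_ne_zero hc))
  have hNb : 0 < mixedEmbedding.norm b :=
    lt_of_le_of_ne (mixedEmbedding.norm_nonneg b) (Ne.symm (hb.norm_ne_zero hc))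
  have hpa := ha.rpow_le hc hc1 hs0 hs2
  have hpb := hb.rpow_le hc hc1 hs0 hs2
  have hg := (FA_S14_bump_sub_le F (logMap a) (logMap b)).trans
    (mul_le_mul_of_nonneg_left (FA_S14_logMap_sub_le hc ha hb) (FA_S14_K_nonneg F))
  have hp : |(mixedEmbedding.norm a) ^ (-s) - (mixedEmbedding.norm b) ^ (-s)| ≤
      P * (2 * ((finrank ℚ F : ℝ) * (‖a - b‖ / c))) := by
    rw [Real.rpow_def_of_pos hNa, Real.rpow_def_of_pos hNb] at *
    refine (FA_S14_exp_sub_le hpa hpb).trans (mul_le_mul_of_nonneg_left ?_ hPpos)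
    rw [← sub_mul, abs_mul]
    have h1 := FA_S14_log_norm_sub_le hc ha hb
    have h2 : |(-s)| ≤ 2 := by rw [abs_neg, abs_of_nonneg hs0]; exact hs2
    have h3 := mul_le_mul h1 h2 (abs_nonneg (-s)) (by positivity)
    linarith
  have e : FA_S14_bump F (logMap a) * (mixedEmbedding.norm a) ^ (-s) -
      FA_S14_bump F (logMap b) * (mixedEmbedding.norm b) ^ (-s) =
      (FA_S14_bump F (logMap a) - FA_S14_bump F (logMap b)) * (mixedEmbedding.norm a) ^ (-s) +
      FA_S14_bump F (logMap b) *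
        ((mixedEmbedding.norm a) ^ (-s) - (mixedEmbedding.norm b) ^ (-s)) := by ring
  rw [e]
  refine (abs_add_le _ _).trans ?_
  rw [abs_mul, abs_mul, abs_of_nonneg (Real.rpow_nonneg hNa.le _),
    abs_of_nonneg (FA_S14_bump_nonneg F _)]
  have h1 : |FA_S14_bump F (logMap a) - FA_S14_bump F (logMap b)| * (mixedEmbedding.norm a) ^ (-s)
      ≤ (FA_S14_K F * (4 * (‖a - b‖ / c))) * P :=
    mul_le_mul hg hpa (Real.rpow_nonneg hNa.le _)
      (mul_nonneg (FA_S14_K_nonneg F) (by positivity))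
  have h2 : FA_S14_bump F (logMap b) *
      |(mixedEmbedding.norm a) ^ (-s) - (mixedEmbedding.norm b) ^ (-s)| ≤
      1 * (P * (2 * ((finrank ℚ F : ℝ) * (‖a - b‖ / c)))) :=
    mul_le_mul (FA_S14_bump_le_one F _) hp (abs_nonneg _) zero_le_one
  calc _ ≤ (FA_S14_K F * (4 * (‖a - b‖ / c))) * P +
        1 * (P * (2 * ((finrank ℚ F : ℝ) * (‖a - b‖ / c)))) := add_le_add h1 h2
    _ = P * ((4 * FA_S14_K F + 2 * finrank ℚ F) / c) * ‖a - b‖ := by
        field_simp

end Fermat.Agent.S14
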