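import Mathlib
import Fermat.Agent.S14.BddLip3
import Fermat.Agent.S14.InterfaceBdd

/-!
# S14 leaf BDD, part 4: the pointwise shift estimate `FA_S14_Target_BddPoint`
-/

set_option autoImplicit false

open scoped NumberField Classical
open NumberField NumberField.mixedEmbedding NumberField.Units
  NumberField.Units.dirichletUnitTheorem NumberField.InfinitePlace Module

namespace Fermat.Agent.S14

variable (F : Type) [Field F] [NumberField F]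

/-- The Lipschitz constant on the annulus. -/
noncomputable def FA_S14_CLip : ℝ :=
  ((FA_S14_c1 F / 2) ^ (finrank ℚ F)) ^ (-2 : ℝ) *
      ((4 * FA_S14_K F + 2 * finrank ℚ F) / (FA_S14_c1 F / 2)) +
    ((FA_S14_c1 F) ^ (finrank ℚ F)) ^ (-2 : ℝ) * (2 / FA_S14_c1 F)

theorem FA_S14_CLip_nonneg : 0 ≤ FA_S14_CLip F := by
  unfold FA_S14_CLip
  have h1 := FA_S14_c1_pos F
  have h2 := FA_S14_K_nonneg F
  have h3 : (0 : ℝ) ≤ finrank ℚ F := Nat.cast_nonneg _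
  have h4 : 0 ≤ ((FA_S14_c1 F / 2) ^ (finrank ℚ F)) ^ (-2 : ℝ) :=
    Real.rpow_nonneg (by positivity) _
  have h5 : 0 ≤ ((FA_S14_c1 F) ^ (finrank ℚ F)) ^ (-2 : ℝ) :=
    Real.rpow_nonneg (by positivity) _
  have h6 : 0 ≤ (4 * FA_S14_K F + 2 * finrank ℚ F) / (FA_S14_c1 F / 2) := by positivity
  have h7 : 0 ≤ 2 / FA_S14_c1 F := by positivity
  nlinarith [mul_nonneg h4 h6, mul_nonneg h5 h7]

variable {F}

theorem FA_S14_good_of_wt_ne_zero {s : ℝ} (hs : s ≠ 0) {a : mixedSpace F}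
    (ha : FA_S14_wt F s a ≠ 0) (hna : 1 / 2 ≤ ‖a‖) : FA_S14_Good (FA_S14_c1 F) a := by
  have hN : mixedEmbedding.norm a ≠ 0 := fun h => ha (FA_S14_wt_eq_zero_of_norm F hs h)
  have hb : FA_S14_bump F (logMap a) ≠ 0 := by
    intro h; apply ha; unfold FA_S14_wt; rw [h, zero_mul]
  exact fun w => FA_S14_normAtPlace_ge F hN hb hna w

theorem FA_S14_wt_le_of_good {s : ℝ} (hs0 : 0 ≤ s) (hs2 : s ≤ 2) {a : mixedSpace F}
    (ha : FA_S14_Good (FA_S14_c1 F) a) :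
    FA_S14_wt F s a ≤ ((FA_S14_c1 F) ^ (finrank ℚ F)) ^ (-2 : ℝ) := by
  unfold FA_S14_wt
  have h1 := ha.rpow_le (FA_S14_c1_pos F) ((FA_S14_c1_le F).trans (by norm_num)) hs0 hs2
  have h2 := FA_S14_bump_le_one F (logMap a)
  have h3 := FA_S14_bump_nonneg F (logMap a)
  have h4 : 0 ≤ (mixedEmbedding.norm a) ^ (-s) := Real.rpow_nonneg (mixedEmbedding.norm_nonneg a) _
  nlinarith

theorem FA_S14_wt_sub_le_aux {s : ℝ} (hs1 : 1 ≤ s) (hs2 : s ≤ 2) {a b : mixedSpace F}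
    (ha : FA_S14_wt F s a ≠ 0) (hna : 1 / 2 ≤ ‖a‖) (hnb : 1 / 2 ≤ ‖b‖) :
    |FA_S14_wt F s a - FA_S14_wt F s b| ≤ FA_S14_CLip F * ‖a - b‖ := by
  have hs0 : 0 ≤ s := by linarith
  have hsne : s ≠ 0 := by linarith
  have hc1 := FA_S14_c1_pos F
  have hc1le : FA_S14_c1 F ≤ 1 := (FA_S14_c1_le F).trans (by norm_num)
  have hGa := FA_S14_good_of_wt_ne_zero hsne ha hna
  set P1 := ((FA_S14_c1 F) ^ (finrank ℚ F)) ^ (-2 : ℝ) with hP1
  set P2 := ((FA_S14_c1 F / 2) ^ (finrank ℚ F)) ^ (-2 : ℝ) with hP2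
  have hP1 : 0 ≤ P1 := Real.rpow_nonneg (by positivity) _
  have hP2 : 0 ≤ P2 := Real.rpow_nonneg (by positivity) _
  have hK := FA_S14_K_nonneg F
  have hn : (0 : ℝ) ≤ finrank ℚ F := Nat.cast_nonneg _
  have hA : 0 ≤ (4 * FA_S14_K F + 2 * finrank ℚ F) / (FA_S14_c1 F / 2) := by positivity
  have hB : 0 ≤ 2 / FA_S14_c1 F := by positivity
  have hd : 0 ≤ ‖a - b‖ := norm_nonneg _
  have hCL : FA_S14_CLip F = P2 * ((4 * FA_S14_K F + 2 * finrank ℚ F) / (FA_S14_c1 F / 2)) +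
      P1 * (2 / FA_S14_c1 F) := rfl
  by_cases hsmall : ‖a - b‖ < FA_S14_c1 F / 2
  · have hGa' : FA_S14_Good (FA_S14_c1 F / 2) a := fun w => by linarith [hGa w]
    have hGb' : FA_S14_Good (FA_S14_c1 F / 2) b := fun w => by
      have := abs_le.mp (FA_S14_normAtPlace_sub_le F a b w)
      linarith [hGa w, this.2]
    have h := FA_S14_wt_sub_le_good (by positivity : 0 < FA_S14_c1 F / 2) (by linarith) hGa' hGb'
      hs0 hs2
    refine h.trans ?_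
    rw [hCL]
    nlinarith [mul_nonneg (mul_nonneg hP1 hB) hd, mul_nonneg (mul_nonneg hP2 hA) hd]
  · push Not at hsmall
    have hwa := FA_S14_wt_le_of_good hs0 hs2 hGa
    have hwb : FA_S14_wt F s b ≤ P1 := by
      by_cases hb : FA_S14_wt F s b = 0
      · rw [hb]; exact hP1
      · exact FA_S14_wt_le_of_good hs0 hs2 (FA_S14_good_of_wt_ne_zero hsne hb hnb)
    have h0a := FA_S14_wt_nonneg F s a
    have h0b := FA_S14_wt_nonneg F s b
    have h1 : |FA_S14_wt F s a - FA_S14_wt F s b| ≤ P1 := by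
      rw [abs_le]; constructor <;> linarith
    have h2 : P1 ≤ P1 * (2 / FA_S14_c1 F) * ‖a - b‖ := by
      have : 1 ≤ (2 / FA_S14_c1 F) * ‖a - b‖ := by
        rw [div_mul_eq_mul_div, le_div_iff₀ hc1]
        linarith
      nlinarith
    rw [hCL]
    nlinarith [mul_nonneg (mul_nonneg hP2 hA) hd]

/-- The weight is Lipschitz on `‖z‖ ≥ 1/2`, uniformly in `s ∈ [1,2]`. -/
theorem FA_S14_wt_sub_le {s : ℝ} (hs1 : 1 ≤ s) (hs2 : s ≤ 2) {a b : mixedSpace F}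
    (hna : 1 / 2 ≤ ‖a‖) (hnb : 1 / 2 ≤ ‖b‖) :
    |FA_S14_wt F s a - FA_S14_wt F s b| ≤ FA_S14_CLip F * ‖a - b‖ := by
  by_cases ha : FA_S14_wt F s a = 0
  · by_cases hb : FA_S14_wt F s b = 0
    · rw [ha, hb, sub_self, abs_zero]
      exact mul_nonneg (FA_S14_CLip_nonneg F) (norm_nonneg _)
    · have := FA_S14_wt_sub_le_aux hs1 hs2 hb hnb hna
      rwa [abs_sub_comm, norm_sub_rev] at this
  · exact FA_S14_wt_sub_le_aux hs1 hs2 ha hna hnb

/-- Homogeneity of the weight. -/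
theorem FA_S14_wt_smul {s : ℝ} (hs : s ≠ 0) {t : ℝ} (ht : 0 < t) (z : mixedSpace F) :
    FA_S14_wt F s (t • z) = t ^ (-((finrank ℚ F : ℝ) * s)) * FA_S14_wt F s z := by
  by_cases hz : mixedEmbedding.norm z = 0
  · have h1 : mixedEmbedding.norm (t • z) = 0 := by
      rw [mixedEmbedding.norm_smul, hz, mul_zero]
    rw [FA_S14_wt_eq_zero_of_norm F hs hz, FA_S14_wt_eq_zero_of_norm F hs h1, mul_zero]
  · unfold FA_S14_wt
    rw [logMap_real_smul hz ht.ne', mixedEmbedding.norm_smul, abs_of_pos ht,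
      Real.mul_rpow (pow_nonneg ht.le _) (mixedEmbedding.norm_nonneg z),
      ← Real.rpow_natCast, ← Real.rpow_mul ht.le]
    have e : (finrank ℚ F : ℝ) * -s = -((finrank ℚ F : ℝ) * s) := by ring
    rw [e]
    ring

theorem FA_S14_bddPoint : FA_S14_Target_BddPoint := by
  intro F _ _
  refine ⟨FA_S14_CLip F, FA_S14_CLip_nonneg F, ?_⟩
  intro s hs1 hs2 X Y hX hXY
  have hsne : s ≠ 0 := by linarith
  set t := ‖X‖ with ht
  have ht0 : 0 < t := by linarith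
  have hY0 : 0 ≤ ‖Y‖ := norm_nonneg _
  have hn : (0 : ℝ) < finrank ℚ F := Nat.cast_pos.mpr finrank_pos
  have eX : X = t • (t⁻¹ • X) := by rw [smul_smul, mul_inv_cancel₀ ht0.ne', one_smul]
  have eXY : X + Y = t • (t⁻¹ • (X + Y)) := by
    rw [smul_smul, mul_inv_cancel₀ ht0.ne', one_smul]
  have hna : 1 / 2 ≤ ‖t⁻¹ • X‖ := by
    rw [_root_.norm_smul, Real.norm_eq_abs, abs_of_pos (inv_pos.mpr ht0), ← ht,
      inv_mul_cancel₀ ht0.ne']
    norm_num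
  have hnb : 1 / 2 ≤ ‖t⁻¹ • (X + Y)‖ := by
    rw [_root_.norm_smul, Real.norm_eq_abs, abs_of_pos (inv_pos.mpr ht0)]
    have h1 : ‖X‖ - ‖Y‖ ≤ ‖X + Y‖ := by
      have := norm_sub_norm_le X (-Y)
      rwa [norm_neg, sub_neg_eq_add] at this
    have h2 : t / 2 ≤ ‖X + Y‖ := by linarith
    rw [inv_mul_eq_div, le_div_iff₀ ht0]
    linarith
  have hlip := FA_S14_wt_sub_le hs1 hs2 hnb hna
  have hdiff : t⁻¹ • (X + Y) - t⁻¹ • X = t⁻¹ • Y := by
    rw [← smul_sub, add_sub_cancel_left]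
  rw [hdiff, _root_.norm_smul, Real.norm_eq_abs, abs_of_pos (inv_pos.mpr ht0)] at hlip
  have h1 : FA_S14_wt F s (X + Y) - FA_S14_wt F s X =
      t ^ (-((finrank ℚ F : ℝ) * s)) *
        (FA_S14_wt F s (t⁻¹ • (X + Y)) - FA_S14_wt F s (t⁻¹ • X)) := by
    rw [mul_sub, ← FA_S14_wt_smul hsne ht0, ← FA_S14_wt_smul hsne ht0, ← eX, ← eXY]
  rw [h1, abs_mul, abs_of_nonneg (Real.rpow_nonneg ht0.le _)]
  have hpow : t ^ (-((finrank ℚ F : ℝ) * s)) * t⁻¹ ≤ t ^ (-(finrank ℚ F : ℝ) - 1) := by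
    have e1 : t⁻¹ = t ^ (-1 : ℝ) := by rw [Real.rpow_neg_one]
    rw [e1, ← Real.rpow_add ht0]
    apply Real.rpow_le_rpow_of_exponent_le hX
    nlinarith
  have hCL := FA_S14_CLip_nonneg F
  calc t ^ (-((finrank ℚ F : ℝ) * s)) *
        |FA_S14_wt F s (t⁻¹ • (X + Y)) - FA_S14_wt F s (t⁻¹ • X)|
      ≤ t ^ (-((finrank ℚ F : ℝ) * s)) * (FA_S14_CLip F * (t⁻¹ * ‖Y‖)) :=
        mul_le_mul_of_nonneg_left hlip (Real.rpow_nonneg ht0.le _)
    _ = FA_S14_CLip F * ‖Y‖ * (t ^ (-((finrank ℚ F : ℝ) * s)) * t⁻¹) := by ring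
    _ ≤ FA_S14_CLip F * ‖Y‖ * t ^ (-(finrank ℚ F : ℝ) - 1) :=
        mul_le_mul_of_nonneg_left hpow (mul_nonneg hCL hY0)

end Fermat.Agent.S14
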