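import Mathlib
import Fermat.Agent.S14.BddPoint

/-!
# S14 leaf BDD, part 5a: the shift estimate summed over the lattice of integers
-/

set_option autoImplicit false

open scoped NumberField Classical nonZeroDivisors
open NumberField NumberField.mixedEmbedding NumberField.Units
  NumberField.Units.dirichletUnitTheorem NumberField.InfinitePlace Module

namespace Fermat.Agent.S14

variable (F : Type) [Field F] [NumberField F]

/-- The weight of an integer. -/
noncomputable def FA_S14_wtO (s : ℝ) (x : 𝓞 F) : ℝ :=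
  FA_S14_wt F s (mixedEmbedding F ((x : 𝓞 F) : F))

theorem FA_S14_wtO_nonneg (s : ℝ) (x : 𝓞 F) : 0 ≤ FA_S14_wtO F s x := FA_S14_wt_nonneg F s _

theorem FA_S14_one_le_norm {x : 𝓞 F} (hx : x ≠ 0) :
    1 ≤ mixedEmbedding.norm (mixedEmbedding F ((x : 𝓞 F) : F)) := by
  rw [mixedEmbedding.norm_eq_norm, ← Algebra.coe_norm_int]
  have h : Algebra.norm ℤ x ≠ 0 := Algebra.norm_ne_zero_iff.mpr hx
  have h1 : (1 : ℤ) ≤ |Algebra.norm ℤ x| := Int.one_le_abs h
  have h2 : (1 : ℝ) ≤ ((|Algebra.norm ℤ x| : ℤ) : ℝ) := by exact_mod_cast h1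
  push_cast at h2 ⊢
  exact h2

theorem FA_S14_wtO_le_one {s : ℝ} (hs : 0 < s) (x : 𝓞 F) : FA_S14_wtO F s x ≤ 1 := by
  unfold FA_S14_wtO
  by_cases hx : x = 0
  · subst hx
    rw [FA_S14_wt_eq_zero_of_norm F hs.ne' (by simp)]
    exact zero_le_one
  · unfold FA_S14_wt
    have h1 := FA_S14_one_le_norm F hx
    have h2 : (mixedEmbedding.norm (mixedEmbedding F ((x : 𝓞 F) : F))) ^ (-s) ≤ 1 :=
      Real.rpow_le_one_of_one_le_of_nonpos h1 (by linarith)
    have h3 := FA_S14_bump_le_one F (logMap (mixedEmbedding F ((x : 𝓞 F) : F)))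
    have h4 := FA_S14_bump_nonneg F (logMap (mixedEmbedding F ((x : 𝓞 F) : F)))
    have h5 : 0 ≤ (mixedEmbedding.norm (mixedEmbedding F ((x : 𝓞 F) : F))) ^ (-s) :=
      Real.rpow_nonneg (mixedEmbedding.norm_nonneg _) _
    nlinarith

/-- The embedding of the integers into the mixed space. -/
noncomputable def FA_S14_emb (x : 𝓞 F) : mixedSpace F := mixedEmbedding F ((x : 𝓞 F) : F)

omit [NumberField F] in
theorem FA_S14_emb_add (x y : 𝓞 F) : FA_S14_emb F (x + y) = FA_S14_emb F x + FA_S14_emb F y := by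
  unfold FA_S14_emb; simp

theorem FA_S14_emb_injective : Function.Injective (FA_S14_emb F) := by
  intro x y h
  have := mixedEmbedding_injective F h
  exact_mod_cast this

theorem FA_S14_emb_ne_zero {x : 𝓞 F} (hx : x ≠ 0) : FA_S14_emb F x ≠ 0 := by
  intro h
  apply hx
  apply FA_S14_emb_injective F
  rw [h]; unfold FA_S14_emb; simp

omit [NumberField F] in
theorem FA_S14_emb_mem (x : 𝓞 F) : FA_S14_emb F x ∈ mixedEmbedding.integerLattice F :=
  ⟨x, rfl⟩

theorem FA_S14_rank_integerLattice :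
    (finrank ℤ (mixedEmbedding.integerLattice F) : ℝ) = (finrank ℚ F : ℝ) := by
  have h1 : finrank ℤ (mixedEmbedding.integerLattice F) = finrank ℝ (mixedSpace F) :=
    ZLattice.rank ℝ (mixedEmbedding.integerLattice F)
  rw [h1, mixedEmbedding.finrank]

theorem FA_S14_summable_lattice_rpow :
    Summable fun z : mixedEmbedding.integerLattice F => ‖z‖ ^ (-(finrank ℚ F : ℝ) - 1) := by
  apply ZLattice.summable_norm_rpow (mixedEmbedding.integerLattice F)
  rw [FA_S14_rank_integerLattice]
  linarith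

/-- The integers as points of the integer lattice. -/
noncomputable def FA_S14_embL (x : 𝓞 F) : mixedEmbedding.integerLattice F :=
  ⟨FA_S14_emb F x, FA_S14_emb_mem F x⟩

theorem FA_S14_embL_injective : Function.Injective (FA_S14_embL F) := fun _ _ hxy =>
  FA_S14_emb_injective F (congrArg Subtype.val hxy)

theorem FA_S14_norm_embL (x : 𝓞 F) : ‖FA_S14_embL F x‖ = ‖FA_S14_emb F x‖ := rfl

/-- Summability of `‖emb x‖ ^ (-n-1)` over the integers. -/
theorem FA_S14_summable_emb_rpow :
    Summable fun x : 𝓞 F => ‖FA_S14_emb F x‖ ^ (-(finrank ℚ F : ℝ) - 1) := by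
  have h := (FA_S14_summable_lattice_rpow F).comp_injective (FA_S14_embL_injective F)
  refine h.congr fun x => ?_
  simp only [Function.comp_apply, FA_S14_norm_embL]

end Fermat.Agent.S14
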