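import Mathlib
import Fermat.Agent.S14.BddShiftA

/-!
# S14 leaf BDD, part 5b: `Σ_{x ∈ 𝓞} |wt (x + y) - wt x| ≤ C_y`, uniformly in `s ∈ [1,2]`
-/

set_option autoImplicit false

open scoped NumberField Classical nonZeroDivisors
open NumberField NumberField.mixedEmbedding NumberField.Units
  NumberField.Units.dirichletUnitTheorem NumberField.InfinitePlace Module

namespace Fermat.Agent.S14

variable (F : Type) [Field F] [NumberField F]

/-- The majorant. -/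
noncomputable def FA_S14_maj (A : ℝ) (x : 𝓞 F) : ℝ :=
  A * ‖FA_S14_emb F x‖ ^ (-(finrank ℚ F : ℝ) - 1) + (if x = 0 then 2 else 0)

theorem FA_S14_maj_summable (A : ℝ) : Summable (FA_S14_maj F A) := by
  unfold FA_S14_maj
  refine Summable.add ((FA_S14_summable_emb_rpow F).mul_left A) ?_
  exact (hasSum_ite_eq (0 : 𝓞 F) (2 : ℝ)).summable

theorem FA_S14_maj_tsum (A : ℝ) :
    ∑' x, FA_S14_maj F A x =
      A * ∑' x : 𝓞 F, ‖FA_S14_emb F x‖ ^ (-(finrank ℚ F : ℝ) - 1) + 2 := by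
  unfold FA_S14_maj
  rw [Summable.tsum_add ((FA_S14_summable_emb_rpow F).mul_left A)
    (hasSum_ite_eq (0 : 𝓞 F) (2 : ℝ)).summable, tsum_mul_left,
    (hasSum_ite_eq (0 : 𝓞 F) (2 : ℝ)).tsum_eq]

theorem FA_S14_shift_pointwise (hP : FA_S14_Target_BddPoint) (y : 𝓞 F) :
    ∃ A : ℝ, ∀ s : ℝ, 1 ≤ s → s ≤ 2 → ∀ x : 𝓞 F,
      |FA_S14_wtO F s (x + y) - FA_S14_wtO F s x| ≤ FA_S14_maj F A x := by
  obtain ⟨C, hC0, hC⟩ := hP F
  set Y := FA_S14_emb F y with hY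
  set R : ℝ := max 1 (2 * ‖Y‖) with hR
  have hR1 : 1 ≤ R := le_max_left _ _
  have hR0 : 0 < R := by linarith
  have hRY : 2 * ‖Y‖ ≤ R := le_max_right _ _
  have hn : (0 : ℝ) < finrank ℚ F := Nat.cast_pos.mpr finrank_pos
  refine ⟨C * ‖Y‖ + 2 * R ^ ((finrank ℚ F : ℝ) + 1), ?_⟩
  intro s hs1 hs2 x
  have hs0 : 0 < s := by linarith
  have hRp : 0 ≤ R ^ ((finrank ℚ F : ℝ) + 1) := Real.rpow_nonneg hR0.le _
  have hCY : 0 ≤ C * ‖Y‖ := mul_nonneg hC0 (norm_nonneg _)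
  have h2 : |FA_S14_wtO F s (x + y) - FA_S14_wtO F s x| ≤ 2 := by
    have a1 := FA_S14_wtO_nonneg F s (x + y)
    have a2 := FA_S14_wtO_nonneg F s x
    have a3 := FA_S14_wtO_le_one F hs0 (x + y)
    have a4 := FA_S14_wtO_le_one F hs0 x
    rw [abs_le]; constructor <;> linarith
  unfold FA_S14_maj
  by_cases hx : x = 0
  · subst hx
    rw [if_pos rfl]
    have : 0 ≤ (C * ‖Y‖ + 2 * R ^ ((finrank ℚ F : ℝ) + 1)) *
        ‖FA_S14_emb F 0‖ ^ (-(finrank ℚ F : ℝ) - 1) :=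
      mul_nonneg (by linarith) (Real.rpow_nonneg (norm_nonneg _) _)
    linarith
  · rw [if_neg hx, add_zero]
    have hX0 : 0 < ‖FA_S14_emb F x‖ := norm_pos_iff.mpr (FA_S14_emb_ne_zero F hx)
    have hXp : 0 ≤ ‖FA_S14_emb F x‖ ^ (-(finrank ℚ F : ℝ) - 1) :=
      Real.rpow_nonneg hX0.le _
    by_cases hbig : R ≤ ‖FA_S14_emb F x‖
    · have h := hC s hs1 hs2 (FA_S14_emb F x) Y (by linarith) (by linarith)
      have e : FA_S14_wtO F s (x + y) = FA_S14_wt F s (FA_S14_emb F x + Y) := by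
        unfold FA_S14_wtO; rw [hY, ← FA_S14_emb_add]; rfl
      rw [e]
      refine h.trans ?_
      have : 0 ≤ 2 * R ^ ((finrank ℚ F : ℝ) + 1) * ‖FA_S14_emb F x‖ ^ (-(finrank ℚ F : ℝ) - 1) :=
        mul_nonneg (by linarith) hXp
      have e2 : FA_S14_wtO F s x = FA_S14_wt F s (FA_S14_emb F x) := rfl
      nlinarith
    · push Not at hbig
      refine h2.trans ?_
      have h3 : R ^ (-(finrank ℚ F : ℝ) - 1) ≤ ‖FA_S14_emb F x‖ ^ (-(finrank ℚ F : ℝ) - 1) :=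
        Real.rpow_le_rpow_of_nonpos hX0 hbig.le (by linarith)
      have h4 : R ^ ((finrank ℚ F : ℝ) + 1) * R ^ (-(finrank ℚ F : ℝ) - 1) = 1 := by
        rw [← Real.rpow_add hR0]
        have : (finrank ℚ F : ℝ) + 1 + (-(finrank ℚ F : ℝ) - 1) = 0 := by ring
        rw [this, Real.rpow_zero]
      have h5 : 1 ≤ R ^ ((finrank ℚ F : ℝ) + 1) * ‖FA_S14_emb F x‖ ^ (-(finrank ℚ F : ℝ) - 1) :=
        h4.symm.le.trans (mul_le_mul_of_nonneg_left h3 hRp)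
      have h6 : 0 ≤ C * ‖Y‖ * ‖FA_S14_emb F x‖ ^ (-(finrank ℚ F : ℝ) - 1) :=
        mul_nonneg hCY hXp
      nlinarith

/-- The shift estimate summed over the integers. -/
theorem FA_S14_shift_sum (hP : FA_S14_Target_BddPoint) (y : 𝓞 F) :
    ∃ Cy : ℝ, ∀ s : ℝ, 1 ≤ s → s ≤ 2 →
      Summable (fun x : 𝓞 F => |FA_S14_wtO F s (x + y) - FA_S14_wtO F s x|) ∧
      ∑' x : 𝓞 F, |FA_S14_wtO F s (x + y) - FA_S14_wtO F s x| ≤ Cy := by
  obtain ⟨A, hA⟩ := FA_S14_shift_pointwise F hP y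
  refine ⟨∑' x, FA_S14_maj F A x, fun s hs1 hs2 => ?_⟩
  have hsum : Summable (fun x : 𝓞 F => |FA_S14_wtO F s (x + y) - FA_S14_wtO F s x|) :=
    Summable.of_nonneg_of_le (fun _ => abs_nonneg _) (hA s hs1 hs2) (FA_S14_maj_summable F A)
  exact ⟨hsum, hsum.tsum_le_tsum (hA s hs1 hs2) (FA_S14_maj_summable F A)⟩

end Fermat.Agent.S14
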