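import Mathlib
import Fermat.Agent.S14.BddShiftB

/-!
# S14 leaf BDD, part 5c: coset decomposition and `FA_S14_Target_BddShift`
-/

set_option autoImplicit false

open scoped NumberField Classical nonZeroDivisors
open NumberField NumberField.mixedEmbedding NumberField.Units Module

namespace Fermat.Agent.S14

section abstract

variable {A : Type*} [AddCommGroup A] (K H' : AddSubgroup A)

/-- The bijection `(K ⧸ H) × H ≃ K`, `(q, h) ↦ out q + h`. -/
noncomputable def FA_S14_cosetEquiv :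
    ((K ⧸ H'.addSubgroupOf K) × (H'.addSubgroupOf K)) ≃ K where
  toFun p := Quotient.out p.1 + (p.2 : K)
  invFun g := (QuotientAddGroup.mk g,
    ⟨-(Quotient.out (QuotientAddGroup.mk g : K ⧸ H'.addSubgroupOf K)) + g,
      QuotientAddGroup.eq.mp (QuotientAddGroup.out_eq' _)⟩)
  left_inv p := by
    have h1 : (QuotientAddGroup.mk (Quotient.out p.1 + (p.2 : K)) : K ⧸ H'.addSubgroupOf K) =
        p.1 := by
      rw [QuotientAddGroup.mk_add, QuotientAddGroup.out_eq',
        (QuotientAddGroup.eq_zero_iff _).mpr p.2.2, add_zero]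
    ext
    · exact h1
    · simp only [h1]
      simp
  right_inv g := by simp

theorem FA_S14_cosetEquiv_apply (p : (K ⧸ H'.addSubgroupOf K) × (H'.addSubgroupOf K)) :
    ((FA_S14_cosetEquiv K H' p : K) : A) = ((Quotient.out p.1 : K) : A) + ((p.2 : K) : A) := rfl

/-- Abstract coset comparison. -/
theorem FA_S14_coset_compare (hle : H' ≤ K) [Fintype (K ⧸ H'.addSubgroupOf K)]
    (f : A → ℝ) (Cy : A → ℝ)
    (hK : Summable fun g : K => f (g : A)) (hH : Summable fun h : H' => f (h : A))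
    (hshift : ∀ y : A, Summable (fun x : A => |f (x + y) - f x|) ∧
      ∑' x : A, |f (x + y) - f x| ≤ Cy y) :
    |∑' g : K, f (g : A) -
        (Fintype.card (K ⧸ H'.addSubgroupOf K) : ℝ) * ∑' h : H', f (h : A)| ≤
      ∑ q : K ⧸ H'.addSubgroupOf K, Cy ((Quotient.out q : K) : A) := by
  let e := FA_S14_cosetEquiv K H'
  -- the sum over `H` equals the sum over `H'`
  let ι : (H'.addSubgroupOf K) ≃ H' := (AddSubgroup.addSubgroupOfEquivOfLe hle).toEquiv
  have hι : ∀ h : (H'.addSubgroupOf K), ((ι h : H') : A) = ((h : K) : A) := fun h => rfl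
  have hH2 : Summable fun h : (H'.addSubgroupOf K) => f ((h : K) : A) := by
    have := (ι.summable_iff (f := fun h' : H' => f (h' : A))).mpr hH
    exact this.congr fun h => by simp only [Function.comp_apply, hι]
  have hHsum : ∑' h : (H'.addSubgroupOf K), f ((h : K) : A) = ∑' h : H', f (h : A) := by
    rw [← ι.tsum_eq (fun h' : H' => f (h' : A))]
    exact tsum_congr fun h => by rw [hι]
  -- decomposition of the sum over `K`
  have hsumP : Summable fun p : (K ⧸ H'.addSubgroupOf K) × (H'.addSubgroupOf K) => f ((e p : K) : A) :=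
    (e.summable_iff (f := fun g : K => f (g : A))).mpr hK
  have hfib : ∀ q : K ⧸ H'.addSubgroupOf K, Summable fun h : (H'.addSubgroupOf K) => f ((e (q, h) : K) : A) :=
    fun q => hsumP.prod_factor q
  have hKsum : ∑' g : K, f (g : A) = ∑ q : K ⧸ H'.addSubgroupOf K, ∑' h : (H'.addSubgroupOf K), f ((e (q, h) : K) : A) := by
    rw [← e.tsum_eq (fun g : K => f (g : A)), hsumP.tsum_prod' hfib, tsum_fintype]
  have hcard : (Fintype.card (K ⧸ H'.addSubgroupOf K) : ℝ) * ∑' h : H', f (h : A) =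
      ∑ _q : K ⧸ H'.addSubgroupOf K, ∑' h : (H'.addSubgroupOf K), f ((h : K) : A) := by
    rw [Finset.sum_const, Finset.card_univ, nsmul_eq_mul, hHsum]
  rw [hKsum, hcard, ← Finset.sum_sub_distrib]
  refine (Finset.abs_sum_le_sum_abs _ _).trans (Finset.sum_le_sum fun q _ => ?_)
  set y : A := ((Quotient.out q : K) : A) with hy
  have hval : ∀ h : (H'.addSubgroupOf K), f ((e (q, h) : K) : A) = f (((h : K) : A) + y) := by
    intro h
    rw [FA_S14_cosetEquiv_apply, add_comm]
  rw [← (hfib q).tsum_sub hH2]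
  have hinj : Function.Injective (fun h : (H'.addSubgroupOf K) => ((h : K) : A)) := fun a b hab =>
    Subtype.ext (Subtype.ext hab)
  have hs1 : Summable fun h : (H'.addSubgroupOf K) => |f (((h : K) : A) + y) - f ((h : K) : A)| :=
    (hshift y).1.comp_injective hinj
  have h1 : |∑' h : (H'.addSubgroupOf K), (f ((e (q, h) : K) : A) - f ((h : K) : A))| ≤
      ∑' h : (H'.addSubgroupOf K), |f (((h : K) : A) + y) - f ((h : K) : A)| := by
    have := norm_tsum_le_tsum_norm (f := fun h : (H'.addSubgroupOf K) => f ((e (q, h) : K) : A) - f ((h : K) : A))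
      (by simpa only [hval, Real.norm_eq_abs] using hs1)
    simpa only [hval, Real.norm_eq_abs] using this
  have h2 : ∑' h : (H'.addSubgroupOf K), |f (((h : K) : A) + y) - f ((h : K) : A)| ≤
      ∑' x : A, |f (x + y) - f x| :=
    tsum_comp_le_tsum_of_inj (hshift y).1 (fun _ => abs_nonneg _) hinj
  exact h1.trans (h2.trans (hshift y).2)

end abstract

theorem FA_S14_absNorm_eq_index (F : Type) [Field F] [NumberField F] (J : Ideal (𝓞 F)) :
    Ideal.absNorm J = J.toAddSubgroup.index := by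
  rw [Ideal.absNorm_apply, Submodule.cardQuot_apply]
  rfl

theorem FA_S14_bddShift : FA_S14_Target_BddShift := by
  intro hP F _ _ J J' hle hsJ hsJ'
  have hle' : (J' : Ideal (𝓞 F)).toAddSubgroup ≤ (J : Ideal (𝓞 F)).toAddSubgroup :=
    fun x hx => hle hx
  have hKi := FA_S14_absNorm_eq_index F (J : Ideal (𝓞 F))
  have hHi := FA_S14_absNorm_eq_index F (J' : Ideal (𝓞 F))
  have hrel := AddSubgroup.relIndex_mul_index hle'
  have hJne : Ideal.absNorm (J : Ideal (𝓞 F)) ≠ 0 := Ideal.absNorm_ne_zero_of_nonZeroDivisors J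
  have hJ'ne : Ideal.absNorm (J' : Ideal (𝓞 F)) ≠ 0 := Ideal.absNorm_ne_zero_of_nonZeroDivisors J'
  rw [← hKi, ← hHi] at hrel
  have hrelne : (J' : Ideal (𝓞 F)).toAddSubgroup.relIndex (J : Ideal (𝓞 F)).toAddSubgroup ≠ 0 := by
    intro h
    rw [h, zero_mul] at hrel
    exact hJ'ne hrel.symm
  have hFI : ((J' : Ideal (𝓞 F)).toAddSubgroup.addSubgroupOf
      (J : Ideal (𝓞 F)).toAddSubgroup).FiniteIndex := ⟨hrelne⟩
  have : Finite ((J : Ideal (𝓞 F)).toAddSubgroup ⧸
      (J' : Ideal (𝓞 F)).toAddSubgroup.addSubgroupOf (J : Ideal (𝓞 F)).toAddSubgroup) :=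
    AddSubgroup.finite_quotient_of_finiteIndex
  let _ : Fintype ((J : Ideal (𝓞 F)).toAddSubgroup ⧸
      (J' : Ideal (𝓞 F)).toAddSubgroup.addSubgroupOf (J : Ideal (𝓞 F)).toAddSubgroup) :=
    Fintype.ofFinite _
  have hcard : (Fintype.card ((J : Ideal (𝓞 F)).toAddSubgroup ⧸
      (J' : Ideal (𝓞 F)).toAddSubgroup.addSubgroupOf (J : Ideal (𝓞 F)).toAddSubgroup) : ℝ) =
      (Ideal.absNorm (J' : Ideal (𝓞 F)) : ℝ) / (Ideal.absNorm (J : Ideal (𝓞 F)) : ℝ) := by
    have h1 : Fintype.card ((J : Ideal (𝓞 F)).toAddSubgroup ⧸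
        (J' : Ideal (𝓞 F)).toAddSubgroup.addSubgroupOf (J : Ideal (𝓞 F)).toAddSubgroup) =
        (J' : Ideal (𝓞 F)).toAddSubgroup.relIndex (J : Ideal (𝓞 F)).toAddSubgroup := by
      rw [← Nat.card_eq_fintype_card]; rfl
    rw [h1, eq_div_iff (Nat.cast_ne_zero.mpr hJne)]
    exact_mod_cast hrel
  choose Cy hCy using FA_S14_shift_sum F hP
  refine ⟨∑ q : (J : Ideal (𝓞 F)).toAddSubgroup ⧸
      (J' : Ideal (𝓞 F)).toAddSubgroup.addSubgroupOf (J : Ideal (𝓞 F)).toAddSubgroup,
      Cy ((Quotient.out q : (J : Ideal (𝓞 F)).toAddSubgroup) : 𝓞 F), fun s hs1 hs2 => ?_⟩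
  have key := FA_S14_coset_compare (J : Ideal (𝓞 F)).toAddSubgroup (J' : Ideal (𝓞 F)).toAddSubgroup
    hle' (FA_S14_wtO F s) Cy (hsJ s hs1) (hsJ' s hs1) (fun y => hCy y s hs1.le hs2)
  rw [hcard] at key
  exact key

end Fermat.Agent.S14
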