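import Mathlib
import Fermat.Agent.S14.InterfaceBdd

/-!
# S14 leaf BDD, sub-leaf BddZeta: the lattice sum of the weight over an ideal `J` is
`w · N(J)^(-s) · ζ(s, [J]⁻¹)`.

The nonzero elements of `J` are parametrised by pairs (integral ideal `I` in the class `[J]⁻¹`,
unit `u`): `x = u · x_I`, `(x_I) = J I`.
-/

set_option autoImplicit false
set_option linter.unusedSectionVars false
set_option linter.style.haveILetI false
set_option linter.unusedVariables false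

open scoped NumberField nonZeroDivisors Classical
open NumberField NumberField.mixedEmbedding NumberField.Units Module

namespace Fermat.Agent.S14

noncomputable section

variable {F : Type} [Field F] [NumberField F]

/-- The norm of the image of an integer in the mixed space is the norm of its ideal. -/
theorem FA_S14_bddzeta_norm (x : 𝓞 F) :
    mixedEmbedding.norm (mixedEmbedding F ((x : 𝓞 F) : F))
      = (Ideal.absNorm (Ideal.span {x}) : ℝ) := by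
  rw [mixedEmbedding.norm_eq_norm, Ideal.absNorm_span_singleton, ← Algebra.coe_norm_int,
    Nat.cast_natAbs]
  push_cast
  rfl

/-- The index set: integral ideals in the class `[J]⁻¹`. -/
abbrev FA_S14_bddzeta_A (J : (Ideal (𝓞 F))⁰) : Type :=
  {I : (Ideal (𝓞 F))⁰ // ClassGroup.mk0 I = (ClassGroup.mk0 J)⁻¹}

theorem FA_S14_bddzeta_exists_gen (J : (Ideal (𝓞 F))⁰) (I : FA_S14_bddzeta_A J) :
    ∃ x : 𝓞 F, x ≠ 0 ∧ Ideal.span {x} = (J : Ideal (𝓞 F)) * (I.1 : Ideal (𝓞 F)) := by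
  obtain ⟨x, hx0, hx⟩ := ClassGroup.mk0_eq_mk0_inv_iff.mp I.2
  exact ⟨x, hx0, by rw [← hx, mul_comm]⟩

/-- A generator of `J I`. -/
def FA_S14_bddzeta_gen (J : (Ideal (𝓞 F))⁰) (I : FA_S14_bddzeta_A J) : 𝓞 F :=
  (FA_S14_bddzeta_exists_gen J I).choose

theorem FA_S14_bddzeta_gen_ne_zero (J : (Ideal (𝓞 F))⁰) (I : FA_S14_bddzeta_A J) :
    FA_S14_bddzeta_gen J I ≠ 0 :=
  (FA_S14_bddzeta_exists_gen J I).choose_spec.1

theorem FA_S14_bddzeta_gen_span (J : (Ideal (𝓞 F))⁰) (I : FA_S14_bddzeta_A J) :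
    Ideal.span {FA_S14_bddzeta_gen J I} = (J : Ideal (𝓞 F)) * (I.1 : Ideal (𝓞 F)) :=
  (FA_S14_bddzeta_exists_gen J I).choose_spec.2

theorem FA_S14_bddzeta_gen_mem (J : (Ideal (𝓞 F))⁰) (I : FA_S14_bddzeta_A J) :
    FA_S14_bddzeta_gen J I ∈ (J : Ideal (𝓞 F)) := by
  have h : FA_S14_bddzeta_gen J I ∈ Ideal.span {FA_S14_bddzeta_gen J I} :=
    Ideal.mem_span_singleton_self _
  rw [FA_S14_bddzeta_gen_span] at h
  exact (Ideal.mul_le_left (I := (J : Ideal (𝓞 F))) (J := (I.1 : Ideal (𝓞 F)))) h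

/-- The parametrisation of the nonzero elements of `J`. -/
def FA_S14_bddzeta_par (J : (Ideal (𝓞 F))⁰) (p : FA_S14_bddzeta_A J × (𝓞 F)ˣ) :
    ↥(J : Ideal (𝓞 F)) :=
  ⟨(p.2 : 𝓞 F) * FA_S14_bddzeta_gen J p.1,
    Ideal.mul_mem_left _ _ (FA_S14_bddzeta_gen_mem J p.1)⟩

theorem FA_S14_bddzeta_par_injective (J : (Ideal (𝓞 F))⁰) :
    Function.Injective (FA_S14_bddzeta_par J) := by
  rintro ⟨I, u⟩ ⟨I', u'⟩ h
  have h1 : (u : 𝓞 F) * FA_S14_bddzeta_gen J I = (u' : 𝓞 F) * FA_S14_bddzeta_gen J I' :=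
    congrArg Subtype.val h
  have hspan : Ideal.span {FA_S14_bddzeta_gen J I} = Ideal.span {FA_S14_bddzeta_gen J I'} := by
    rw [Ideal.span_singleton_eq_span_singleton]
    refine ⟨u'⁻¹ * u, ?_⟩
    have : FA_S14_bddzeta_gen J I * ((u'⁻¹ * u : (𝓞 F)ˣ) : 𝓞 F)
        = ((u'⁻¹ : (𝓞 F)ˣ) : 𝓞 F) * ((u : 𝓞 F) * FA_S14_bddzeta_gen J I) := by
      push_cast; ring
    rw [this, h1, ← mul_assoc, ← Units.val_mul, inv_mul_cancel, Units.val_one, one_mul]
  rw [FA_S14_bddzeta_gen_span, FA_S14_bddzeta_gen_span] at hspan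
  have hJ : (J : Ideal (𝓞 F)) ≠ 0 := nonZeroDivisors.coe_ne_zero J
  have hII' : (I.1 : Ideal (𝓞 F)) = (I'.1 : Ideal (𝓞 F)) := mul_left_cancel₀ hJ hspan
  have hI : I = I' := Subtype.ext (Subtype.ext hII')
  subst hI
  have hu : (u : 𝓞 F) = (u' : 𝓞 F) := mul_right_cancel₀ (FA_S14_bddzeta_gen_ne_zero J I) h1
  rw [Units.ext hu]

theorem FA_S14_bddzeta_par_range (J : (Ideal (𝓞 F))⁰) (x : ↥(J : Ideal (𝓞 F)))
    (hx : (x : 𝓞 F) ≠ 0) : x ∈ Set.range (FA_S14_bddzeta_par J) := by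
  have hle : Ideal.span {(x : 𝓞 F)} ≤ (J : Ideal (𝓞 F)) :=
    (Ideal.span_singleton_le_iff_mem _).mpr x.2
  obtain ⟨I', hI'⟩ := Ideal.dvd_iff_le.mpr hle
  have hI'0 : I' ≠ 0 := by
    rintro rfl
    rw [mul_zero] at hI'
    exact hx (Ideal.span_singleton_eq_bot.mp hI')
  set I0 : (Ideal (𝓞 F))⁰ := ⟨I', mem_nonZeroDivisors_of_ne_zero hI'0⟩ with hI0
  have hcls : ClassGroup.mk0 I0 = (ClassGroup.mk0 J)⁻¹ := by
    rw [ClassGroup.mk0_eq_mk0_inv_iff]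
    exact ⟨x, hx, by rw [hI', mul_comm]⟩
  set I : FA_S14_bddzeta_A J := ⟨I0, hcls⟩ with hI
  have hspan : Ideal.span {FA_S14_bddzeta_gen J I} = Ideal.span {(x : 𝓞 F)} := by
    rw [FA_S14_bddzeta_gen_span, hI']
  obtain ⟨u, hu⟩ := Ideal.span_singleton_eq_span_singleton.mp hspan
  refine ⟨(I, u), Subtype.ext ?_⟩
  change (u : 𝓞 F) * FA_S14_bddzeta_gen J I = x
  rw [mul_comm]
  exact hu

theorem FA_S14_bddzeta_gen_norm (J : (Ideal (𝓞 F))⁰) (I : FA_S14_bddzeta_A J) :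
    mixedEmbedding.norm (mixedEmbedding F ((FA_S14_bddzeta_gen J I : 𝓞 F) : F))
      = (Ideal.absNorm (J : Ideal (𝓞 F)) : ℝ) * (Ideal.absNorm (I.1 : Ideal (𝓞 F)) : ℝ) := by
  rw [FA_S14_bddzeta_norm, FA_S14_bddzeta_gen_span, map_mul, Nat.cast_mul]

theorem FA_S14_bddzeta_gen_norm_ne_zero (J : (Ideal (𝓞 F))⁰) (I : FA_S14_bddzeta_A J) :
    mixedEmbedding.norm (mixedEmbedding F ((FA_S14_bddzeta_gen J I : 𝓞 F) : F)) ≠ 0 := by
  rw [FA_S14_bddzeta_gen_norm]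
  have h1 : Ideal.absNorm (J : Ideal (𝓞 F)) ≠ 0 :=
    fun h => nonZeroDivisors.coe_ne_zero J (Ideal.absNorm_eq_zero_iff.mp h)
  have h2 : Ideal.absNorm (I.1 : Ideal (𝓞 F)) ≠ 0 :=
    fun h => nonZeroDivisors.coe_ne_zero I.1 (Ideal.absNorm_eq_zero_iff.mp h)
  exact mul_ne_zero (Nat.cast_ne_zero.mpr h1) (Nat.cast_ne_zero.mpr h2)

/-- The weight at a point of the parametrisation. -/
theorem FA_S14_bddzeta_wt_par (J : (Ideal (𝓞 F))⁰) (s : ℝ) (p : FA_S14_bddzeta_A J × (𝓞 F)ˣ) :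
    FA_S14_wt F s (mixedEmbedding F (((FA_S14_bddzeta_par J p : ↥(J : Ideal (𝓞 F))) : 𝓞 F) : F))
      = FA_S14_bump F (logMap (p.2 • mixedEmbedding F ((FA_S14_bddzeta_gen J p.1 : 𝓞 F) : F)))
        * ((Ideal.absNorm (J : Ideal (𝓞 F)) : ℝ) ^ (-s)
            * (Ideal.absNorm (p.1.1 : Ideal (𝓞 F)) : ℝ) ^ (-s)) := by
  have hsmul : mixedEmbedding F (((FA_S14_bddzeta_par J p : ↥(J : Ideal (𝓞 F))) : 𝓞 F) : F)
      = p.2 • mixedEmbedding F ((FA_S14_bddzeta_gen J p.1 : 𝓞 F) : F) := by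
    rw [unitSMul_smul, ← map_mul]
    rfl
  rw [hsmul, FA_S14_wt, norm_unit_smul, FA_S14_bddzeta_gen_norm,
    Real.mul_rpow (Nat.cast_nonneg _) (Nat.cast_nonneg _)]

/-- **Sub-leaf BddZeta**. -/
theorem FA_S14_bddzeta : FA_S14_Target_BddZeta := by
  intro hZS F _ _ J s hs
  set f : ↥(J : Ideal (𝓞 F)) → ℝ :=
    fun x => FA_S14_wt F s (mixedEmbedding F ((x : 𝓞 F) : F)) with hf
  set NJ : ℝ := (Ideal.absNorm (J : Ideal (𝓞 F)) : ℝ) ^ (-s) with hNJ
  set w : ℝ := (torsionOrder F : ℝ) with hw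
  have hs0 : s ≠ 0 := by linarith
  have hzero : ∀ x ∉ Set.range (FA_S14_bddzeta_par J), f x = 0 := by
    intro x hx
    have hx0 : (x : 𝓞 F) = 0 := by
      by_contra h
      exact hx (FA_S14_bddzeta_par_range J x h)
    rw [hf]
    simp only
    rw [hx0]
    exact FA_S14_wt_eq_zero_of_norm F hs0 (by simp)
  -- the function on the parameter space
  set g : FA_S14_bddzeta_A J × (𝓞 F)ˣ → ℝ := f ∘ FA_S14_bddzeta_par J with hg
  have hgval : ∀ p, g p =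
      FA_S14_bump F (logMap (p.2 • mixedEmbedding F ((FA_S14_bddzeta_gen J p.1 : 𝓞 F) : F)))
        * (NJ * (Ideal.absNorm (p.1.1 : Ideal (𝓞 F)) : ℝ) ^ (-s)) :=
    fun p => FA_S14_bddzeta_wt_par J s p
  have hgnn : 0 ≤ g := fun p => FA_S14_wt_nonneg F s _
  have hinner : ∀ I : FA_S14_bddzeta_A J, HasSum (fun u : (𝓞 F)ˣ => g (I, u))
      (w * (NJ * (Ideal.absNorm (I.1 : Ideal (𝓞 F)) : ℝ) ^ (-s))) := by
    intro I
    have h := (FA_S14_bump_logMap_hasSum F (FA_S14_bddzeta_gen_norm_ne_zero J I)).mul_right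
      (NJ * (Ideal.absNorm (I.1 : Ideal (𝓞 F)) : ℝ) ^ (-s))
    refine h.congr_fun ?_ |>.mono_left le_rfl
    intro u
    exact hgval (I, u)
  have hzs : Summable (fun I : FA_S14_bddzeta_A J =>
      (Ideal.absNorm (I.1 : Ideal (𝓞 F)) : ℝ) ^ (-s)) :=
    (hZS F s hs).subtype _
  have houter : Summable (fun I : FA_S14_bddzeta_A J =>
      w * (NJ * (Ideal.absNorm (I.1 : Ideal (𝓞 F)) : ℝ) ^ (-s))) :=
    (hzs.mul_left NJ).mul_left w
  have hgsum : Summable g := by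
    rw [summable_prod_of_nonneg hgnn]
    refine ⟨fun I => (hinner I).summable, ?_⟩
    refine houter.congr fun I => ?_
    exact (hinner I).tsum_eq.symm
  have hfsum : Summable f :=
    (Function.Injective.summable_iff (FA_S14_bddzeta_par_injective J) hzero).mp hgsum
  refine ⟨hfsum, ?_⟩
  have hsupp : Function.support f ⊆ Set.range (FA_S14_bddzeta_par J) := by
    intro x hx
    by_contra h
    exact hx (hzero x h)
  unfold FA_S14_latSum FA_S14_zetaClass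
  rw [← Function.Injective.tsum_eq (FA_S14_bddzeta_par_injective J) hsupp]
  change ∑' p, g p = _
  rw [hgsum.tsum_prod' (fun I => (hinner I).summable)]
  simp_rw [fun I => (hinner I).tsum_eq]
  rw [tsum_mul_left, tsum_mul_left, mul_assoc]

end

end Fermat.Agent.S14
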