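import Mathlib
import Fermat.Agent.S14.InterfaceAn

/-!
# S14, leaf COMBINE (helper8): the analytic leaves give the second inequality

`FA_S14_combine : FA_S14_Target_Combine`.
-/

set_option autoImplicit false

open scoped NumberField nonZeroDivisors
open Filter Topology

namespace Fermat.Agent.S14

/-- A prime of `F` which splits completely in `M` is the relative norm of a prime of `M`,
so its class is a norm class. -/
theorem FA_S14_combine_primeClass_mem (F M : Type) [Field F] [Field M] [NumberField F]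
    [NumberField M] [Algebra F M]
    (v : IsDedekindDomain.HeightOneSpectrum (𝓞 F))
    (h : FA_S14_SplitsCompletely F M v.asIdeal) :
    FA_S14_primeClass F v ∈ FA_S14_normClasses F M := by
  haveI : v.asIdeal.IsMaximal := v.isMaximal
  obtain ⟨P, hPmax, hPover⟩ :=
    Ideal.exists_maximal_ideal_liesOver_of_isIntegral (S := 𝓞 M) v.asIdeal
  haveI := hPmax
  haveI := hPover
  have hunder : P.under (𝓞 F) = v.asIdeal := (hPover.over).symm
  have hf := (h P hPmax.isPrime hunder).2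
  have hrel : Ideal.relNorm (𝓞 F) P = v.asIdeal := by
    rw [Ideal.relNorm_eq_pow_of_isMaximal P v.asIdeal, hf, pow_one]
  have hPne : P ≠ ⊥ := by
    intro hP
    have : Ideal.relNorm (𝓞 F) P = ⊥ := by rw [hP, Ideal.relNorm_bot]
    rw [hrel] at this
    exact v.ne_bot this
  refine Subgroup.subset_closure ?_
  exact ⟨P, ⟨v.asIdeal, mem_nonZeroDivisors_of_ne_zero v.ne_bot⟩, hPne, hrel.symm, rfl⟩


/-- The characters of a finite abelian group: finitely many, as many as the group has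
elements. -/
theorem FA_S14_combine_card_char (A : Type) [CommGroup A] [Finite A] :
    Finite (A →* ℂˣ) ∧ Nat.card (A →* ℂˣ) = Nat.card A := by
  haveI : NeZero (Monoid.exponent A) := ⟨Monoid.exponent_ne_zero_of_finite⟩
  have h := CommGroup.card_monoidHom_of_hasEnoughRootsOfUnity A ℂ
  refine ⟨?_, h⟩
  apply Nat.finite_of_card_ne_zero
  rw [h]
  exact Nat.card_pos.ne'

/-- A character of a finite group has values of norm one. -/
theorem FA_S14_combine_norm_char (A : Type) [CommGroup A] [Finite A] (ψ : A →* ℂˣ) (a : A) :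
    ‖((ψ a : ℂˣ) : ℂ)‖ = 1 := by
  have h1 : ((ψ a : ℂˣ) : ℂ) ^ (Nat.card A) = 1 := by
    rw [← Units.val_pow_eq_pow_val, ← map_pow, pow_card_eq_one', map_one, Units.val_one]
  exact Complex.norm_eq_one_of_pow_eq_one h1 Nat.card_pos.ne'

/-- The local factor: for `0 ≤ t < 1` the product over all characters of
`(1 - ψ(a) t)⁻¹` has norm at least one. -/
theorem FA_S14_combine_local (hLoc : FA_S14_Target_Loc) (A : Type) [CommGroup A] [Finite A]
    [Fintype (A →* ℂˣ)] (a : A) (t : ℝ) (ht0 : 0 ≤ t) (ht1 : t < 1) :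
    1 ≤ ‖∏ ψ : A →* ℂˣ, (1 - ((ψ a : ℂˣ) : ℂ) * (t : ℂ))⁻¹‖ := by
  have h := hLoc A a t ht0 ht1
  rw [finprod_eq_prod_of_fintype] at h
  rw [norm_prod]
  simp only [norm_inv]
  rw [Finset.prod_inv_distrib]
  have hpos : 0 < ∏ ψ : A →* ℂˣ, ‖1 - ((ψ a : ℂˣ) : ℂ) * (t : ℂ)‖ := by
    apply Finset.prod_pos
    intro ψ _
    rw [norm_pos_iff]
    intro h0
    have h1 : ((ψ a : ℂˣ) : ℂ) * (t : ℂ) = 1 := by
      linear_combination -h0
    have h2 := congrArg norm h1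
    rw [norm_mul, FA_S14_combine_norm_char A ψ a, one_mul, Complex.norm_real, norm_one,
      Real.norm_of_nonneg ht0] at h2
    linarith
  exact (one_le_inv₀ hpos).mpr h


/-- `0 ≤ N𝔭^{-s} < 1` for a prime `𝔭` and `s > 0`. -/
theorem FA_S14_combine_t_lt_one (F : Type) [Field F] [NumberField F]
    (v : IsDedekindDomain.HeightOneSpectrum (𝓞 F)) (s : ℝ) (hs : 0 < s) :
    0 ≤ (Ideal.absNorm v.asIdeal : ℝ) ^ (-s) ∧ (Ideal.absNorm v.asIdeal : ℝ) ^ (-s) < 1 := by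
  refine ⟨Real.rpow_nonneg (Nat.cast_nonneg _) _, ?_⟩
  have h1 : 1 < (Ideal.absNorm v.asIdeal : ℝ) := by
    have hne1 : Ideal.absNorm v.asIdeal ≠ 1 := by
      rw [Ne, Ideal.absNorm_eq_one_iff]; exact v.isPrime.ne_top
    have hne0 : Ideal.absNorm v.asIdeal ≠ 0 := by
      rw [Ne, Ideal.absNorm_eq_zero_iff]; exact v.ne_bot
    have : 2 ≤ Ideal.absNorm v.asIdeal := by omega
    exact_mod_cast this
  exact Real.rpow_lt_one_of_one_lt_of_neg h1 (by linarith)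

/-- **Lower bound**: the product of the `L`-series over the characters of `Cl_F / NCl` is at
least the product of `(1 - N𝔮^{-s})^{-h}` over any finite set of primes which split
completely. -/
theorem FA_S14_combine_lower (hEuler : FA_S14_Target_Euler) (hLoc : FA_S14_Target_Loc)
    (F M : Type) [Field F] [Field M] [NumberField F] [NumberField M] [Algebra F M]
    [Fintype ((ClassGroup (𝓞 F) ⧸ FA_S14_normClasses F M) →* ℂˣ)]
    (s : ℝ) (hs : 1 < s)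
    (S' : Finset (IsDedekindDomain.HeightOneSpectrum (𝓞 F)))
    (hS' : ∀ v ∈ S', FA_S14_SplitsCompletely F M v.asIdeal) :
    ∏ v ∈ S', ((1 - (Ideal.absNorm v.asIdeal : ℝ) ^ (-s))⁻¹) ^
        (Fintype.card ((ClassGroup (𝓞 F) ⧸ FA_S14_normClasses F M) →* ℂˣ))
      ≤ ‖∏ ψ : (ClassGroup (𝓞 F) ⧸ FA_S14_normClasses F M) →* ℂˣ,
          FA_S14_LChar F (ψ.comp (QuotientGroup.mk' (FA_S14_normClasses F M))) s‖ := by
  classical
  have ht := fun v => FA_S14_combine_t_lt_one F v s (by linarith)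
  set g : IsDedekindDomain.HeightOneSpectrum (𝓞 F) → ℂ := fun v =>
    ∏ ψ : (ClassGroup (𝓞 F) ⧸ FA_S14_normClasses F M) →* ℂˣ,
      (1 - ((ψ (QuotientGroup.mk' (FA_S14_normClasses F M) (FA_S14_primeClass F v)) : ℂˣ) : ℂ) *
        (((Ideal.absNorm v.asIdeal : ℝ) ^ (-s) : ℝ) : ℂ))⁻¹ with hg
  have hprod : HasProd g (∏ ψ : (ClassGroup (𝓞 F) ⧸ FA_S14_normClasses F M) →* ℂˣ,
      FA_S14_LChar F (ψ.comp (QuotientGroup.mk' (FA_S14_normClasses F M))) s) := by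
    have h := hasProd_prod (s := Finset.univ)
      (f := fun (ψ : (ClassGroup (𝓞 F) ⧸ FA_S14_normClasses F M) →* ℂˣ)
        (v : IsDedekindDomain.HeightOneSpectrum (𝓞 F)) =>
        (1 - (((ψ.comp (QuotientGroup.mk' (FA_S14_normClasses F M)))
          (FA_S14_primeClass F v) : ℂˣ) : ℂ) *
          (((Ideal.absNorm v.asIdeal : ℝ) ^ (-s) : ℝ) : ℂ))⁻¹)
      (a := fun ψ => FA_S14_LChar F (ψ.comp (QuotientGroup.mk' (FA_S14_normClasses F M))) s)
      (fun ψ _ => hEuler F (ψ.comp (QuotientGroup.mk' (FA_S14_normClasses F M))) s hs)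
    exact h
  have hg1 : ∀ v, 1 ≤ ‖g v‖ := fun v =>
    FA_S14_combine_local hLoc (ClassGroup (𝓞 F) ⧸ FA_S14_normClasses F M) _ _ (ht v).1 (ht v).2
  have hgS : ∀ v ∈ S', ‖g v‖ = ((1 - (Ideal.absNorm v.asIdeal : ℝ) ^ (-s))⁻¹) ^
      (Fintype.card ((ClassGroup (𝓞 F) ⧸ FA_S14_normClasses F M) →* ℂˣ)) := by
    intro v hv
    have hmem := FA_S14_combine_primeClass_mem F M v (hS' v hv)
    have h1 : (QuotientGroup.mk' (FA_S14_normClasses F M) (FA_S14_primeClass F v)) = 1 := by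
      rw [QuotientGroup.mk'_apply, QuotientGroup.eq_one_iff]; exact hmem
    simp only [hg, h1, map_one, Units.val_one, one_mul]
    rw [Finset.prod_const, Finset.card_univ, norm_pow, norm_inv]
    congr 2
    rw [← Complex.ofReal_one, ← Complex.ofReal_sub, Complex.norm_real, Real.norm_of_nonneg]
    linarith [(ht v).2]
  have hlim : Tendsto (fun U : Finset (IsDedekindDomain.HeightOneSpectrum (𝓞 F)) =>
      ‖∏ v ∈ U, g v‖) atTop
      (𝓝 ‖∏ ψ : (ClassGroup (𝓞 F) ⧸ FA_S14_normClasses F M) →* ℂˣ,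
          FA_S14_LChar F (ψ.comp (QuotientGroup.mk' (FA_S14_normClasses F M))) s‖) :=
    (continuous_norm.tendsto _).comp hprod
  refine ge_of_tendsto hlim ?_
  filter_upwards [Filter.eventually_ge_atTop S'] with U hU
  rw [norm_prod]
  calc ∏ v ∈ S', ((1 - (Ideal.absNorm v.asIdeal : ℝ) ^ (-s))⁻¹) ^
        (Fintype.card ((ClassGroup (𝓞 F) ⧸ FA_S14_normClasses F M) →* ℂˣ))
      = ∏ v ∈ S', ‖g v‖ := Finset.prod_congr rfl (fun v hv => (hgS v hv).symm)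
    _ ≤ ∏ v ∈ U, ‖g v‖ :=
        Finset.prod_le_prod_of_subset_of_one_le hU (fun v _ => norm_nonneg _)
          (fun v _ _ => hg1 v)


/-- The `L`-series of the trivial character is the Dedekind zeta series. -/
theorem FA_S14_combine_LChar_one (F : Type) [Field F] [NumberField F] (s : ℝ) :
    FA_S14_LChar F 1 s =
      ((∑' I : (Ideal (𝓞 F))⁰, (Ideal.absNorm (I : Ideal (𝓞 F)) : ℝ) ^ (-s) : ℝ) : ℂ) := by
  unfold FA_S14_LChar
  rw [Complex.ofReal_tsum]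
  refine tsum_congr fun I => ?_
  simp

/-- **Upper bound**: the product of the `L`-series over the characters of a quotient of the
class group is `O(1/(s-1))` on `(1,2]`. -/
theorem FA_S14_combine_upper (hZUp : FA_S14_Target_ZUp) (hBdd : FA_S14_Target_Bdd)
    (F : Type) [Field F] [NumberField F] (H : Subgroup (ClassGroup (𝓞 F)))
    [Fintype ((ClassGroup (𝓞 F) ⧸ H) →* ℂˣ)] :
    ∃ C : ℝ, 0 ≤ C ∧ ∀ s : ℝ, 1 < s → s ≤ 2 →
      ‖∏ ψ : (ClassGroup (𝓞 F) ⧸ H) →* ℂˣ,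
        FA_S14_LChar F (ψ.comp (QuotientGroup.mk' H)) s‖ ≤ C / (s - 1) := by
  classical
  obtain ⟨C, hC⟩ := hZUp F
  have hne : ∀ ψ : (ClassGroup (𝓞 F) ⧸ H) →* ℂˣ, ψ ≠ 1 →
      ψ.comp (QuotientGroup.mk' H) ≠ 1 := by
    intro ψ hψ h
    apply hψ
    have h2 : ψ.comp (QuotientGroup.mk' H) =
        (1 : (ClassGroup (𝓞 F) ⧸ H) →* ℂˣ).comp (QuotientGroup.mk' H) := by
      rw [h, MonoidHom.one_comp]
    exact (MonoidHom.cancel_right (QuotientGroup.mk'_surjective H)).mp h2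
  have hB : ∀ ψ : (ClassGroup (𝓞 F) ⧸ H) →* ℂˣ, ∃ B : ℝ, 0 ≤ B ∧ (ψ ≠ 1 →
      ∀ s : ℝ, 1 < s → s ≤ 2 → ‖FA_S14_LChar F (ψ.comp (QuotientGroup.mk' H)) s‖ ≤ B) := by
    intro ψ
    by_cases hψ : ψ = 1
    · exact ⟨0, le_rfl, fun h => absurd hψ h⟩
    · obtain ⟨B, hB⟩ := hBdd F (ψ.comp (QuotientGroup.mk' H)) (hne ψ hψ)
      exact ⟨|B|, abs_nonneg _, fun _ s hs1 hs2 => (hB s hs1 hs2).trans (le_abs_self _)⟩
  choose B hB0 hB using hB
  refine ⟨|C| * ∏ ψ ∈ (Finset.univ : Finset ((ClassGroup (𝓞 F) ⧸ H) →* ℂˣ)).erase 1, B ψ,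
    mul_nonneg (abs_nonneg _) (Finset.prod_nonneg fun ψ _ => hB0 ψ), ?_⟩
  intro s hs1 hs2
  have hs0 : 0 < s - 1 := by linarith
  rw [norm_prod, ← Finset.mul_prod_erase Finset.univ _ (Finset.mem_univ
    (1 : (ClassGroup (𝓞 F) ⧸ H) →* ℂˣ))]
  have h1 : ‖FA_S14_LChar F ((1 : (ClassGroup (𝓞 F) ⧸ H) →* ℂˣ).comp (QuotientGroup.mk' H)) s‖
      ≤ |C| / (s - 1) := by
    rw [MonoidHom.one_comp, FA_S14_combine_LChar_one, Complex.norm_real, Real.norm_eq_abs]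
    have hnn : 0 ≤ ∑' I : (Ideal (𝓞 F))⁰, (Ideal.absNorm (I : Ideal (𝓞 F)) : ℝ) ^ (-s) :=
      tsum_nonneg fun I => Real.rpow_nonneg (Nat.cast_nonneg _) _
    rw [abs_of_nonneg hnn]
    exact (hC s hs1 hs2).trans (div_le_div_of_nonneg_right (le_abs_self _) hs0.le)
  have h2 : ∏ ψ ∈ (Finset.univ : Finset ((ClassGroup (𝓞 F) ⧸ H) →* ℂˣ)).erase 1,
      ‖FA_S14_LChar F (ψ.comp (QuotientGroup.mk' H)) s‖
      ≤ ∏ ψ ∈ (Finset.univ : Finset ((ClassGroup (𝓞 F) ⧸ H) →* ℂˣ)).erase 1, B ψ := by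
    apply Finset.prod_le_prod
    · intro ψ _; exact norm_nonneg _
    · intro ψ hψ
      exact hB ψ (Finset.ne_of_mem_erase hψ) s hs1 hs2
  calc ‖FA_S14_LChar F ((1 : (ClassGroup (𝓞 F) ⧸ H) →* ℂˣ).comp (QuotientGroup.mk' H)) s‖ *
        ∏ ψ ∈ (Finset.univ : Finset ((ClassGroup (𝓞 F) ⧸ H) →* ℂˣ)).erase 1,
          ‖FA_S14_LChar F (ψ.comp (QuotientGroup.mk' H)) s‖
      ≤ (|C| / (s - 1)) *
        ∏ ψ ∈ (Finset.univ : Finset ((ClassGroup (𝓞 F) ⧸ H) →* ℂˣ)).erase 1, B ψ :=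
        mul_le_mul h1 h2 (Finset.prod_nonneg fun ψ _ => norm_nonneg _)
          (div_nonneg (abs_nonneg _) hs0.le)
    _ = (|C| * ∏ ψ ∈ (Finset.univ : Finset ((ClassGroup (𝓞 F) ⧸ H) →* ℂˣ)).erase 1, B ψ) /
          (s - 1) := by ring

/-- The elementary endgame: `c/(s-1) ≤ Y^p`, `Y^(p+1) ≤ C/(s-1)` for all `s ∈ (1,2]`
(with `Y = Y(s) ≥ 1`) is impossible. -/
theorem FA_S14_combine_endgame (p : ℕ) (c C : ℝ) (hc : 0 < c) (hC : 0 ≤ C)
    (h : ∀ s : ℝ, 1 < s → s ≤ 2 → ∃ Y : ℝ, 0 ≤ Y ∧ c / (s - 1) ≤ Y ^ p ∧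
      Y ^ (p + 1) ≤ C / (s - 1)) : False := by
  have hε : 0 < c ^ (p + 1) := pow_pos hc _
  have hK : 0 ≤ C ^ p := pow_nonneg hC _
  set δ : ℝ := min 1 (c ^ (p + 1) / (2 * (C ^ p + 1))) with hδ
  have hδ0 : 0 < δ := lt_min one_pos (div_pos hε (by positivity))
  have hδ1 : δ ≤ 1 := min_le_left _ _
  have hδ2 : δ ≤ c ^ (p + 1) / (2 * (C ^ p + 1)) := min_le_right _ _
  obtain ⟨Y, hY0, h1, h2⟩ := h (1 + δ) (by linarith) (by linarith)
  rw [add_sub_cancel_left] at h1 h2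
  have h3 : (c / δ) ^ (p + 1) ≤ (C / δ) ^ p := by
    calc (c / δ) ^ (p + 1) ≤ (Y ^ p) ^ (p + 1) :=
          pow_le_pow_left₀ (div_nonneg hc.le hδ0.le) h1 _
      _ = (Y ^ (p + 1)) ^ p := by ring
      _ ≤ (C / δ) ^ p := pow_le_pow_left₀ (pow_nonneg hY0 _) h2 _
  rw [div_pow, div_pow, div_le_div_iff₀ (pow_pos hδ0 _) (pow_pos hδ0 _)] at h3
  have h4 : c ^ (p + 1) ≤ C ^ p * δ := by
    have h5 : c ^ (p + 1) * δ ^ p ≤ (C ^ p * δ) * δ ^ p := by
      calc c ^ (p + 1) * δ ^ p ≤ C ^ p * δ ^ (p + 1) := h3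
        _ = (C ^ p * δ) * δ ^ p := by ring
    exact le_of_mul_le_mul_right h5 (pow_pos hδ0 _)
  have h6 : C ^ p * δ ≤ C ^ p * (c ^ (p + 1) / (2 * (C ^ p + 1))) :=
    mul_le_mul_of_nonneg_left hδ2 hK
  have h7 : C ^ p * (c ^ (p + 1) / (2 * (C ^ p + 1))) < c ^ (p + 1) := by
    rw [mul_div_assoc', div_lt_iff₀ (by positivity)]
    nlinarith
  linarith

/-- **COMBINE**: the analytic leaves give the second inequality
`[Cl_F : NCl(F,M)] ≤ [M:F]`. -/
theorem FA_S14_combine : FA_S14_Target_Combine := by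
  intro _hZS hZUp hBdd hEuler hLoc hZLow p _hp F M _ _ _ _ _ _ hdeg
  classical
  obtain ⟨hfin, hcard⟩ :=
    FA_S14_combine_card_char (ClassGroup (𝓞 F) ⧸ FA_S14_normClasses F M)
  haveI := hfin
  letI : Fintype ((ClassGroup (𝓞 F) ⧸ FA_S14_normClasses F M) →* ℂˣ) := Fintype.ofFinite _
  have hidx : (FA_S14_normClasses F M).index =
      Fintype.card ((ClassGroup (𝓞 F) ⧸ FA_S14_normClasses F M) →* ℂˣ) := by
    rw [← Nat.card_eq_fintype_card, hcard]; rfl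
  by_contra hlt
  rw [not_le, hidx] at hlt
  obtain ⟨C, hC0, hC⟩ := FA_S14_combine_upper hZUp hBdd F (FA_S14_normClasses F M)
  obtain ⟨c, hc0, hc⟩ := hZLow F M ∅
  refine FA_S14_combine_endgame p c C hc0 hC0 ?_
  intro s hs1 hs2
  obtain ⟨S', hS', hlow⟩ := hc s hs1 hs2
  have hlower := FA_S14_combine_lower hEuler hLoc F M s hs1 S' (fun v hv => (hS' v hv).2.2)
  rw [hdeg] at hlow
  rw [Finset.prod_pow] at hlow hlower
  have hY1 : 1 ≤ ∏ v ∈ S', (1 - (Ideal.absNorm v.asIdeal : ℝ) ^ (-s))⁻¹ := by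
    apply Finset.one_le_prod
    intro v _
    have ht := FA_S14_combine_t_lt_one F v s (by linarith)
    exact (one_le_inv₀ (by linarith [ht.2])).mpr (by linarith [ht.1])
  refine ⟨∏ v ∈ S', (1 - (Ideal.absNorm v.asIdeal : ℝ) ^ (-s))⁻¹, by linarith, hlow, ?_⟩
  calc (∏ v ∈ S', (1 - (Ideal.absNorm v.asIdeal : ℝ) ^ (-s))⁻¹) ^ (p + 1)
      ≤ (∏ v ∈ S', (1 - (Ideal.absNorm v.asIdeal : ℝ) ^ (-s))⁻¹) ^
          (Fintype.card ((ClassGroup (𝓞 F) ⧸ FA_S14_normClasses F M) →* ℂˣ)) :=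
        pow_le_pow_right₀ hY1 hlt
    _ ≤ _ := hlower
    _ ≤ C / (s - 1) := hC s hs1 hs2

end Fermat.Agent.S14
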