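import Mathlib
import Fermat.Agent.S14.Interface2
import Fermat.Agent.S14.InterfaceAn

/-!
# S14 (item 75): leaves CROSS + REC (helper2) — definitions and targets

Crossing with ONE auxiliary cyclotomic field (see the note "S14 CROSS simplified"):
`K = ℚ(ζ_p)`, `L/K` unramified cyclic of degree `p`, `ℓ ≡ 1 mod p` an auxiliary prime,
`Ω' = L(ζ_ℓ)`, `Ω = L·E₀` (`E₀` the subfield of degree `p` of `ℚ(ζ_ℓ)`), `F` the "diagonal" field of degree
`p` over `K` inside `Ω`.  Then `Ω/F` is unramified cyclic of degree `p` and a prime `v ∤ ℓ` of `F` splits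
completely in `Ω` iff `N v` is a `p`-th power residue mod `ℓ`.
-/

set_option autoImplicit false

open scoped NumberField nonZeroDivisors
open IsDedekindDomain

namespace Fermat.Agent.S14

/-- `n` is a nonzero `p`-th power residue modulo `ℓ`. -/
def FA_S14_IsRes (ℓ p n : ℕ) : Prop := ∃ c : ZMod ℓ, c ≠ 0 ∧ (n : ZMod ℓ) = c ^ p

/-- **T-form of the norm classes**: the subgroup of the class group of `F` generated by the classes
of the primes outside `T` that split completely in `M`, and the `p`-th powers of the classes of the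
primes outside `T`. -/
noncomputable def FA_S14_splitClasses (F M : Type) [Field F] [Field M] [NumberField F]
    [NumberField M] [Algebra F M] (p : ℕ) (T : Finset (Ideal (𝓞 F))) :
    Subgroup (ClassGroup (𝓞 F)) :=
  Subgroup.closure
    ({c | ∃ v : HeightOneSpectrum (𝓞 F), v.asIdeal ∉ T ∧ FA_S14_SplitsCompletely F M v.asIdeal ∧
        c = FA_S14_primeClass F v} ∪
     {c | ∃ v : HeightOneSpectrum (𝓞 F), v.asIdeal ∉ T ∧ c = FA_S14_primeClass F v ^ p})

/-- **INEQ2, T-form** (what the crossing uses; it is what the analytic proof gives directly, and it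
follows from `FA_S14_Target_Ineq2` by moving ideals away from `T`). -/
def FA_S14_Target_Ineq2T : Prop :=
  ∀ (p : ℕ), p.Prime → p ≠ 2 →
  ∀ (F M : Type) [Field F] [Field M] [NumberField F] [NumberField M] [Algebra F M]
    [IsGalois F M], Module.finrank F M = p → FA_S14_Unramified F M →
    (∃ ζ : F, IsPrimitiveRoot ζ p) →
    ∀ T : Finset (Ideal (𝓞 F)), (FA_S14_splitClasses F M p T).index ≤ p

/-- **CROSS** (two inert primes of degree one with different residue characteristics). -/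
def FA_S14_Target_Cross : Prop :=
  ∀ (p : ℕ), p.Prime → 3 ≤ p →
  ∀ (K L : Type) [Field K] [Field L] [NumberField K] [NumberField L] [Algebra K L]
    [IsCyclotomicExtension {p} ℚ K] [IsGalois ℚ L] [IsGalois K L],
    Module.finrank K L = p →
    FA_S14_Unramified K L →
  ∀ (𝔮 𝔮₀ : HeightOneSpectrum (𝓞 K)) (P P₀ : Ideal (𝓞 L)) (σ σ₀ : L ≃ₐ[K] L) (u : ℕ),
    P.IsPrime → P₀.IsPrime → P.under (𝓞 K) = 𝔮.asIdeal → P₀.under (𝓞 K) = 𝔮₀.asIdeal →
    IsArithFrobAt (𝓞 K) σ P → IsArithFrobAt (𝓞 K) σ₀ P₀ → σ₀ ≠ 1 → σ = σ₀ ^ u →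
    (Ideal.absNorm 𝔮.asIdeal).Prime → (Ideal.absNorm 𝔮₀.asIdeal).Prime →
    Ideal.absNorm 𝔮.asIdeal ≠ Ideal.absNorm 𝔮₀.asIdeal →
    Ideal.absNorm 𝔮.asIdeal ≠ p → Ideal.absNorm 𝔮₀.asIdeal ≠ p →
    FA_S14_primeClass K 𝔮 * FA_S14_primeClass K 𝔮₀ ^ (u * (p - 1)) ∈ FA_S14_normClasses K L

end Fermat.Agent.S14

namespace Fermat.Agent.S14

/-- **COMBINE, T-form** (requested from the analytic route): the analytic leaves give `INEQ2` in
the T-form. -/
def FA_S14_Target_CombineT : Prop :=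
  FA_S14_Target_ZUp → FA_S14_Target_Bdd → FA_S14_Target_Euler →
    FA_S14_Target_Loc → FA_S14_Target_ZLow → FA_S14_Target_Ineq2T

/-- **ELL** (choice of the auxiliary prime; uses DENS for `K(c^{1/p}, q₀^{1/p}) / K(c^{1/p})`,
`c = q q₀^k`, and KUM): for distinct primes `q, q₀ ≠ p` there is a prime `ℓ ≡ 1 mod p`,
`ℓ ∉ {p, q, q₀}`, such that `q₀` is not a `p`-th power residue mod `ℓ` but `q q₀^k` is. -/
def FA_S14_Target_Ell : Prop :=
  ∀ (p : ℕ), p.Prime → 3 ≤ p →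
  ∀ (q q₀ k : ℕ), q.Prime → q₀.Prime → q ≠ q₀ → q ≠ p → q₀ ≠ p →
    ∃ ℓ : ℕ, ℓ.Prime ∧ ℓ ≠ p ∧ ℓ ≠ q ∧ ℓ ≠ q₀ ∧ p ∣ ℓ - 1 ∧
      ¬ FA_S14_IsRes ℓ p q₀ ∧ FA_S14_IsRes ℓ p (q * q₀ ^ k)

/-- **NORMP** (explicit reciprocity in the unramified extension `Ω/F`): `K/ℚ` Galois, `F/K` Galois
of degree `p`, every prime of `K` over `ℓ` has residue field `𝔽_ℓ`, and `F/K` is totally ramified
at every prime `Q` of `F` over `ℓ` (the whole Galois group acts trivially on `𝓞 F / Q`).  Then the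
absolute norm of an element of `𝓞 F` prime to `ℓ` is a `p`-th power residue mod `ℓ`. -/
def FA_S14_Target_NormP : Prop :=
  ∀ (p ℓ : ℕ), p.Prime → p ≠ 2 → ℓ.Prime →
  ∀ (K F : Type) [Field K] [Field F] [NumberField K] [NumberField F] [Algebra K F]
    [IsGalois ℚ K] [IsGalois K F], Module.finrank K F = p →
    (∀ 𝔩 : Ideal (𝓞 K), 𝔩.IsPrime → (ℓ : 𝓞 K) ∈ 𝔩 → Ideal.absNorm 𝔩 = ℓ) →
    (∀ Q : Ideal (𝓞 F), Q.IsPrime → (ℓ : 𝓞 F) ∈ Q →
      ∀ (g : F ≃ₐ[K] F) (x : 𝓞 F), g • x - x ∈ Q) →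
    ∀ a : 𝓞 F, (∀ Q : Ideal (𝓞 F), Q.IsPrime → (ℓ : 𝓞 F) ∈ Q → a ∉ Q) →
      FA_S14_IsRes ℓ p (Ideal.absNorm (Ideal.span {a}))

end Fermat.Agent.S14
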