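import Mathlib
import Fermat.Agent.S14.Combine
import Fermat.Agent.S14.CrossDefs

/-!
# S14, leaf COMBINE in the T-form (helper8)

`FA_S14_combineT : FA_S14_Target_CombineT`: the analytic leaves give
`[Cl_F : ⟨[v] (v ∉ T split), [v]^p (v ∉ T)⟩] ≤ p`.
-/

set_option autoImplicit false

open scoped NumberField nonZeroDivisors
open Filter Topology

namespace Fermat.Agent.S14

/-- **Lower bound**, for an arbitrary subgroup `H` of the class group: the product of the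
`L`-series over the characters of `Cl_F / H` is at least the product of `(1 - N𝔮^{-s})^{-h}` over
any finite set of primes whose classes lie in `H`. -/
theorem FA_S14_combineT_lower (hEuler : FA_S14_Target_Euler) (hLoc : FA_S14_Target_Loc)
    (F : Type) [Field F] [NumberField F] (H : Subgroup (ClassGroup (𝓞 F)))
    [Fintype ((ClassGroup (𝓞 F) ⧸ H) →* ℂˣ)]
    (s : ℝ) (hs : 1 < s)
    (S' : Finset (IsDedekindDomain.HeightOneSpectrum (𝓞 F)))
    (hS' : ∀ v ∈ S', FA_S14_primeClass F v ∈ H) :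
    ∏ v ∈ S', ((1 - (Ideal.absNorm v.asIdeal : ℝ) ^ (-s))⁻¹) ^
        (Fintype.card ((ClassGroup (𝓞 F) ⧸ H) →* ℂˣ))
      ≤ ‖∏ ψ : (ClassGroup (𝓞 F) ⧸ H) →* ℂˣ,
          FA_S14_LChar F (ψ.comp (QuotientGroup.mk' H)) s‖ := by
  classical
  have ht := fun v => FA_S14_combine_t_lt_one F v s (by linarith)
  set g : IsDedekindDomain.HeightOneSpectrum (𝓞 F) → ℂ := fun v =>
    ∏ ψ : (ClassGroup (𝓞 F) ⧸ H) →* ℂˣ,
      (1 - ((ψ (QuotientGroup.mk' H (FA_S14_primeClass F v)) : ℂˣ) : ℂ) *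
        (((Ideal.absNorm v.asIdeal : ℝ) ^ (-s) : ℝ) : ℂ))⁻¹ with hg
  have hprod : HasProd g (∏ ψ : (ClassGroup (𝓞 F) ⧸ H) →* ℂˣ,
      FA_S14_LChar F (ψ.comp (QuotientGroup.mk' H)) s) := by
    have h := hasProd_prod (s := Finset.univ)
      (f := fun (ψ : (ClassGroup (𝓞 F) ⧸ H) →* ℂˣ)
        (v : IsDedekindDomain.HeightOneSpectrum (𝓞 F)) =>
        (1 - (((ψ.comp (QuotientGroup.mk' H))
          (FA_S14_primeClass F v) : ℂˣ) : ℂ) *
          (((Ideal.absNorm v.asIdeal : ℝ) ^ (-s) : ℝ) : ℂ))⁻¹)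
      (a := fun ψ => FA_S14_LChar F (ψ.comp (QuotientGroup.mk' H)) s)
      (fun ψ _ => hEuler F (ψ.comp (QuotientGroup.mk' H)) s hs)
    exact h
  have hg1 : ∀ v, 1 ≤ ‖g v‖ := fun v =>
    FA_S14_combine_local hLoc (ClassGroup (𝓞 F) ⧸ H) _ _ (ht v).1 (ht v).2
  have hgS : ∀ v ∈ S', ‖g v‖ = ((1 - (Ideal.absNorm v.asIdeal : ℝ) ^ (-s))⁻¹) ^
      (Fintype.card ((ClassGroup (𝓞 F) ⧸ H) →* ℂˣ)) := by
    intro v hv
    have hmem := hS' v hv
    have h1 : (QuotientGroup.mk' H (FA_S14_primeClass F v)) = 1 := by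
      rw [QuotientGroup.mk'_apply, QuotientGroup.eq_one_iff]; exact hmem
    simp only [hg, h1, map_one, Units.val_one, one_mul]
    rw [Finset.prod_const, Finset.card_univ, norm_pow, norm_inv]
    congr 2
    rw [← Complex.ofReal_one, ← Complex.ofReal_sub, Complex.norm_real, Real.norm_of_nonneg]
    linarith [(ht v).2]
  have hlim : Tendsto (fun U : Finset (IsDedekindDomain.HeightOneSpectrum (𝓞 F)) =>
      ‖∏ v ∈ U, g v‖) atTop
      (𝓝 ‖∏ ψ : (ClassGroup (𝓞 F) ⧸ H) →* ℂˣ,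
          FA_S14_LChar F (ψ.comp (QuotientGroup.mk' H)) s‖) :=
    (continuous_norm.tendsto _).comp hprod
  refine ge_of_tendsto hlim ?_
  filter_upwards [Filter.eventually_ge_atTop S'] with U hU
  rw [norm_prod]
  calc ∏ v ∈ S', ((1 - (Ideal.absNorm v.asIdeal : ℝ) ^ (-s))⁻¹) ^
        (Fintype.card ((ClassGroup (𝓞 F) ⧸ H) →* ℂˣ))
      = ∏ v ∈ S', ‖g v‖ := Finset.prod_congr rfl (fun v hv => (hgS v hv).symm)
    _ ≤ ∏ v ∈ U, ‖g v‖ :=
        Finset.prod_le_prod_of_subset_of_one_le hU (fun v _ => norm_nonneg _)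
          (fun v _ _ => hg1 v)

/-- **The analytic second inequality for an arbitrary subgroup**: if `H` contains the classes of
all primes outside `T` which split completely in `M`, then `[Cl_F : H] ≤ [M : F]`. -/
theorem FA_S14_combineT_index_le (hZUp : FA_S14_Target_ZUp) (hBdd : FA_S14_Target_Bdd)
    (hEuler : FA_S14_Target_Euler) (hLoc : FA_S14_Target_Loc) (hZLow : FA_S14_Target_ZLow)
    (F M : Type) [Field F] [Field M] [NumberField F] [NumberField M] [Algebra F M]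
    [IsGalois F M] (T : Finset (Ideal (𝓞 F))) (H : Subgroup (ClassGroup (𝓞 F)))
    (hH : ∀ v : IsDedekindDomain.HeightOneSpectrum (𝓞 F), v.asIdeal ∉ T →
      FA_S14_SplitsCompletely F M v.asIdeal → FA_S14_primeClass F v ∈ H) :
    H.index ≤ Module.finrank F M := by
  classical
  obtain ⟨hfin, hcard⟩ := FA_S14_combine_card_char (ClassGroup (𝓞 F) ⧸ H)
  haveI := hfin
  letI : Fintype ((ClassGroup (𝓞 F) ⧸ H) →* ℂˣ) := Fintype.ofFinite _
  have hidx : H.index = Fintype.card ((ClassGroup (𝓞 F) ⧸ H) →* ℂˣ) := by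
    rw [← Nat.card_eq_fintype_card, hcard]; rfl
  by_contra hlt
  rw [not_le, hidx] at hlt
  obtain ⟨C, hC0, hC⟩ := FA_S14_combine_upper hZUp hBdd F H
  obtain ⟨c, hc0, hc⟩ := hZLow F M T
  refine FA_S14_combine_endgame (Module.finrank F M) c C hc0 hC0 ?_
  intro s hs1 hs2
  obtain ⟨S', hS', hlow⟩ := hc s hs1 hs2
  have hlower := FA_S14_combineT_lower hEuler hLoc F H s hs1 S'
    (fun v hv => hH v (hS' v hv).2.1 (hS' v hv).2.2)
  rw [Finset.prod_pow] at hlow hlower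
  have hY1 : 1 ≤ ∏ v ∈ S', (1 - (Ideal.absNorm v.asIdeal : ℝ) ^ (-s))⁻¹ := by
    apply Finset.one_le_prod
    intro v _
    have ht := FA_S14_combine_t_lt_one F v s (by linarith)
    exact (one_le_inv₀ (by linarith [ht.2])).mpr (by linarith [ht.1])
  refine ⟨∏ v ∈ S', (1 - (Ideal.absNorm v.asIdeal : ℝ) ^ (-s))⁻¹, by linarith, hlow, ?_⟩
  calc (∏ v ∈ S', (1 - (Ideal.absNorm v.asIdeal : ℝ) ^ (-s))⁻¹) ^ (Module.finrank F M + 1)
      ≤ (∏ v ∈ S', (1 - (Ideal.absNorm v.asIdeal : ℝ) ^ (-s))⁻¹) ^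
          (Fintype.card ((ClassGroup (𝓞 F) ⧸ H) →* ℂˣ)) :=
        pow_le_pow_right₀ hY1 hlt
    _ ≤ _ := hlower
    _ ≤ C / (s - 1) := hC s hs1 hs2

/-- **COMBINE, T-form**. -/
theorem FA_S14_combineT : FA_S14_Target_CombineT := by
  intro hZUp hBdd hEuler hLoc hZLow p _hp _hp2 F M _ _ _ _ _ _ hdeg _hunr _hζ T
  rw [← hdeg]
  refine FA_S14_combineT_index_le hZUp hBdd hEuler hLoc hZLow F M T _ ?_
  intro v hvT hv
  exact Subgroup.subset_closure (Or.inl ⟨v, hvT, hv, rfl⟩)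

end Fermat.Agent.S14
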