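import Mathlib
import Fermat.Agent.S14.CrossDefs

/-!
# S14 (item 75), leaf CROSS: sub-leaf targets for the auxiliary fields (helper2)

Setting of the crossing: `K = ℚ(ζ_p)`, `L/K` unramified Galois of degree `p`, `ℓ ≡ 1 mod p` a prime,
`Ω = L(ζ_ℓ)`, `Γ = Gal(Ω/K)`.  Inside `Ω` one takes the "diagonal" field `F` (fixed field of
`{g : ∃ j, g|_L = σ₀^j ∧ χ(g) q₀^(-j) is a p-th power}`) and `M ⊇ F` (fixed field of
`{g : g|_L = 1 ∧ χ(g) is a p-th power}`).  All targets below are stated for ABSTRACT number fields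
with the relevant towers, so that they do not depend on how `F` and `M` are constructed.

* `FA_S14_Target_CfGal`    : `L(ζ_ℓ)/K` is Galois if `L/K` is.
* `FA_S14_Target_CfCyc`    : the primes of `ℚ(ζ_p)` over `ℓ ≡ 1 mod p` have absolute norm `ℓ`.
* `FA_S14_Target_CfRam`    : `L(ζ_ℓ)/L` is totally ramified at the primes over `ℓ`: every
  `ζ ↦ ζ^n` is realised by an element of the inertia group which is trivial on `L`.
* `FA_S14_Target_CfSplit`  : if the elements of `Gal(Ω/F)` fixing `M` act on `ζ` through `p`-th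
  power residues, then the primes of `F` (not over `ℓ`) that split completely in `M` have norm a
  `p`-th power residue mod `ℓ`.
* `FA_S14_Target_CfPrime`  : if every `φ ∈ Γ` with `φ|_L = Frob_𝔮` and `φ ζ = ζ^(N𝔮)` fixes `F`,
  then there is a prime `v` of `F` over `𝔮` of residue degree one.
* `FA_S14_Target_CfTotRam` : if at every prime of `Ω` over `ℓ` the inertia group is not contained
  in `Gal(Ω/F)`, `[F:K] = p`, then `Gal(F/K)` acts trivially on the residue fields at `ℓ`.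
* `FA_S14_Target_Ineq2G`   : the analytic inequality in the general Galois form
  (`FA_S14_combineT_index_le`).
-/

set_option autoImplicit false

open scoped NumberField nonZeroDivisors
open IsDedekindDomain

namespace Fermat.Agent.S14

/-- **INEQ2, general Galois form** (= `FA_S14_combineT_index_le` once the analytic leaves are
proved): a subgroup of the class group containing the classes of almost all completely split
primes has index at most the degree. -/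
def FA_S14_Target_Ineq2G : Prop :=
  ∀ (F M : Type) [Field F] [Field M] [NumberField F] [NumberField M] [Algebra F M]
    [IsGalois F M] (T : Finset (Ideal (𝓞 F))) (H : Subgroup (ClassGroup (𝓞 F))),
    (∀ v : HeightOneSpectrum (𝓞 F), v.asIdeal ∉ T →
      FA_S14_SplitsCompletely F M v.asIdeal → FA_S14_primeClass F v ∈ H) →
    H.index ≤ Module.finrank F M

/-- **CfGal**: `L(ζ_ℓ)/K` is Galois if `L/K` is. -/
def FA_S14_Target_CfGal : Prop :=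
  ∀ (ℓ : ℕ), ℓ.Prime →
  ∀ (K L Ω : Type) [Field K] [Field L] [Field Ω] [NumberField K] [NumberField L]
    [NumberField Ω] [Algebra K L] [Algebra K Ω] [Algebra L Ω] [IsScalarTower K L Ω]
    [IsGalois K L] [IsCyclotomicExtension {ℓ} L Ω], IsGalois K Ω

/-- **CfCyc**: the primes of `ℚ(ζ_p)` over a prime `ℓ ≡ 1 mod p` have absolute norm `ℓ`. -/
def FA_S14_Target_CfCyc : Prop :=
  ∀ (p ℓ : ℕ), p.Prime → ℓ.Prime → ℓ ≠ p → p ∣ ℓ - 1 →
  ∀ (K : Type) [Field K] [NumberField K] [IsCyclotomicExtension {p} ℚ K]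
    (𝔩 : Ideal (𝓞 K)), 𝔩.IsPrime → (ℓ : 𝓞 K) ∈ 𝔩 → Ideal.absNorm 𝔩 = ℓ

/-- **CfRam**: `K = ℚ(ζ_p)`, `L/K` unramified, `ℓ ≠ p`, `Ω = L(ζ_ℓ)`.  At every prime `𝔏` of `Ω`
over `ℓ` and for every `n` prime to `ℓ` there is `g ∈ Gal(Ω/K)`, trivial on `L`, in the inertia
group of `𝔏`, with `g ζ = ζ ^ n`.
(`ℓ` is unramified in `L`, `ℓ = unit · (1 - ζ)^(ℓ-1)`, so `e(𝔏 | 𝔏 ∩ L) ≥ ℓ - 1 ≥ [Ω : L]`.) -/
def FA_S14_Target_CfRam : Prop :=
  ∀ (p ℓ : ℕ), p.Prime → ℓ.Prime → ℓ ≠ p →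
  ∀ (K L Ω : Type) [Field K] [Field L] [Field Ω] [NumberField K] [NumberField L]
    [NumberField Ω] [Algebra K L] [Algebra K Ω] [Algebra L Ω] [IsScalarTower K L Ω]
    [IsCyclotomicExtension {p} ℚ K] [IsGalois K L] [IsGalois K Ω]
    [IsCyclotomicExtension {ℓ} L Ω],
    FA_S14_Unramified K L →
  ∀ (ζ : Ω), IsPrimitiveRoot ζ ℓ →
  ∀ (𝔏 : Ideal (𝓞 Ω)), 𝔏.IsPrime → (ℓ : 𝓞 Ω) ∈ 𝔏 →
  ∀ n : ℕ, ¬ ℓ ∣ n →
    ∃ g : Ω ≃ₐ[K] Ω, (∀ x : 𝓞 Ω, g • x - x ∈ 𝔏) ∧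
      (∀ y : L, g (algebraMap L Ω y) = algebraMap L Ω y) ∧ g ζ = ζ ^ n

/-- **CfSplit**: `F ⊆ M ⊆ Ω`, `ζ ∈ Ω` with `ζ^ℓ = 1`.  If every `ψ ∈ Gal(Ω/F)` fixing `M` acts on
`ζ` by `ζ ↦ ζ^n` with `n` a `p`-th power residue mod `ℓ`, then every prime `v ∤ ℓ` of `F` which
splits completely in `M` has `N v` a `p`-th power residue mod `ℓ`.
(The Frobenius `ψ` of `Ω/F` at a prime over `v` restricts to the Frobenius of `M/F`, which is `1`;
and `ψ ζ = ζ^(N v)`.) -/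
def FA_S14_Target_CfSplit : Prop :=
  ∀ (p ℓ : ℕ), p.Prime → ℓ.Prime →
  ∀ (F M Ω : Type) [Field F] [Field M] [Field Ω] [NumberField F] [NumberField M]
    [NumberField Ω] [Algebra F M] [Algebra F Ω] [Algebra M Ω] [IsScalarTower F M Ω]
    [IsGalois F M] [IsGalois F Ω]
    (ζ : Ω), ζ ^ ℓ = 1 →
    (∀ ψ : Ω ≃ₐ[F] Ω, (∀ y : M, ψ (algebraMap M Ω y) = algebraMap M Ω y) →
      ∀ n : ℕ, ψ ζ = ζ ^ n → FA_S14_IsRes ℓ p n) →
  ∀ v : HeightOneSpectrum (𝓞 F), (ℓ : 𝓞 F) ∉ v.asIdeal →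
    FA_S14_SplitsCompletely F M v.asIdeal → FA_S14_IsRes ℓ p (Ideal.absNorm v.asIdeal)

/-- **CfPrime**: `K ⊆ L ⊆ Ω`, `K ⊆ F ⊆ Ω`, `L/K` unramified, `𝔮 ∤ ℓ` a prime of `K`, `σ` the
Frobenius of `L/K` at `P | 𝔮`.  If every `φ ∈ Gal(Ω/K)` with `φ|_L = σ` and `φ ζ = ζ^(N𝔮)` fixes
`F`, then some prime `v` of `F` over `𝔮` has residue degree one: `N_{F/K} v = 𝔮`, `N v = N 𝔮`. -/
def FA_S14_Target_CfPrime : Prop :=
  ∀ (ℓ : ℕ), ℓ.Prime →
  ∀ (K L F Ω : Type) [Field K] [Field L] [Field F] [Field Ω] [NumberField K] [NumberField L]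
    [NumberField F] [NumberField Ω] [Algebra K L] [Algebra K F] [Algebra K Ω] [Algebra L Ω]
    [Algebra F Ω] [IsScalarTower K L Ω] [IsScalarTower K F Ω]
    [IsGalois K L] [IsGalois K F] [IsGalois K Ω],
    FA_S14_Unramified K L →
  ∀ (ζ : Ω), ζ ^ ℓ = 1 →
  ∀ (𝔮 : HeightOneSpectrum (𝓞 K)) (P : Ideal (𝓞 L)) (σ : L ≃ₐ[K] L),
    P.IsPrime → P.under (𝓞 K) = 𝔮.asIdeal → IsArithFrobAt (𝓞 K) σ P →
    (ℓ : 𝓞 K) ∉ 𝔮.asIdeal →
    (∀ φ : Ω ≃ₐ[K] Ω, AlgEquiv.restrictNormalHom L φ = σ →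
      φ ζ = ζ ^ (Ideal.absNorm 𝔮.asIdeal) →
      ∀ y : F, φ (algebraMap F Ω y) = algebraMap F Ω y) →
    ∃ v : HeightOneSpectrum (𝓞 F), (ℓ : 𝓞 F) ∉ v.asIdeal ∧
      Ideal.relNorm (𝓞 K) v.asIdeal = 𝔮.asIdeal ∧
      Ideal.absNorm v.asIdeal = Ideal.absNorm 𝔮.asIdeal

/-- **CfTotRam**: `K ⊆ F ⊆ Ω`, `F/K` Galois of prime degree `p`.  If at every prime `𝔏` of `Ω` over
`ℓ` some element of the inertia group of `𝔏` in `Gal(Ω/K)` does not fix `F`, then `Gal(F/K)` acts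
trivially on `𝓞 F / Q` for every prime `Q` of `F` over `ℓ` (the hypothesis of `NormP`). -/
def FA_S14_Target_CfTotRam : Prop :=
  ∀ (p ℓ : ℕ), p.Prime →
  ∀ (K F Ω : Type) [Field K] [Field F] [Field Ω] [NumberField K] [NumberField F]
    [NumberField Ω] [Algebra K F] [Algebra K Ω] [Algebra F Ω] [IsScalarTower K F Ω]
    [IsGalois K F] [IsGalois K Ω],
    Module.finrank K F = p →
    (∀ 𝔏 : Ideal (𝓞 Ω), 𝔏.IsPrime → (ℓ : 𝓞 Ω) ∈ 𝔏 →
      ∃ g : Ω ≃ₐ[K] Ω, (∀ x : 𝓞 Ω, g • x - x ∈ 𝔏) ∧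
        ∃ y : F, g (algebraMap F Ω y) ≠ algebraMap F Ω y) →
    ∀ Q : Ideal (𝓞 F), Q.IsPrime → (ℓ : 𝓞 F) ∈ Q →
      ∀ (g : F ≃ₐ[K] F) (x : 𝓞 F), g • x - x ∈ Q

end Fermat.Agent.S14
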