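import Mathlib
import Fermat.Agent.S14.InterfaceAn

/-!
# S14, analytic INEQ2, leaf EULER (helper7), part 1: algebra

The completely multiplicative function `I ↦ χ[I] N(I)^(-s)` on the nonzero ideals, exponent
vectors on a finite set of primes, and the truncated Euler product as a finite sum.
-/

set_option autoImplicit false
set_option linter.unusedSectionVars false

open scoped NumberField nonZeroDivisors
open IsDedekindDomain

namespace Fermat.Agent.S14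

noncomputable section

variable {F : Type} [Field F] [NumberField F]

/-- A prime of `F` as a nonzero ideal. -/
def FA_S14_euler_pi (v : HeightOneSpectrum (𝓞 F)) : (Ideal (𝓞 F))⁰ :=
  ⟨v.asIdeal, mem_nonZeroDivisors_of_ne_zero v.ne_bot⟩

@[simp] theorem FA_S14_euler_pi_coe (v : HeightOneSpectrum (𝓞 F)) :
    ((FA_S14_euler_pi v : (Ideal (𝓞 F))⁰) : Ideal (𝓞 F)) = v.asIdeal := rfl

theorem FA_S14_euler_coe_ne_bot (I : (Ideal (𝓞 F))⁰) : (I : Ideal (𝓞 F)) ≠ ⊥ :=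
  nonZeroDivisors.ne_zero I.2

theorem FA_S14_euler_absNorm_pos (I : (Ideal (𝓞 F))⁰) :
    0 < Ideal.absNorm (I : Ideal (𝓞 F)) :=
  Nat.pos_of_ne_zero fun h => FA_S14_euler_coe_ne_bot I (Ideal.absNorm_eq_zero_iff.mp h)

/-- The weight `N(I)^(-s)` as a monoid homomorphism. -/
def FA_S14_euler_wt (F : Type) [Field F] [NumberField F] (s : ℝ) : (Ideal (𝓞 F))⁰ →* ℂ where
  toFun I := (((Ideal.absNorm (I : Ideal (𝓞 F)) : ℝ) ^ (-s) : ℝ) : ℂ)
  map_one' := by simp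
  map_mul' I J := by
    rw [← Complex.ofReal_mul, ← Real.mul_rpow (Nat.cast_nonneg _) (Nat.cast_nonneg _)]
    simp

/-- The term `χ[I] N(I)^(-s)` of the `L`-series as a monoid homomorphism. -/
def FA_S14_euler_term (F : Type) [Field F] [NumberField F] (χ : ClassGroup (𝓞 F) →* ℂˣ)
    (s : ℝ) : (Ideal (𝓞 F))⁰ →* ℂ :=
  ((Units.coeHom ℂ).comp (χ.comp ClassGroup.mk0)) * FA_S14_euler_wt F s

theorem FA_S14_euler_term_apply (χ : ClassGroup (𝓞 F) →* ℂˣ) (s : ℝ) (I : (Ideal (𝓞 F))⁰) :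
    FA_S14_euler_term F χ s I =
      ((χ (ClassGroup.mk0 I) : ℂˣ) : ℂ) *
        (((Ideal.absNorm (I : Ideal (𝓞 F)) : ℝ) ^ (-s) : ℝ) : ℂ) := rfl

theorem FA_S14_euler_LChar_eq (χ : ClassGroup (𝓞 F) →* ℂˣ) (s : ℝ) :
    FA_S14_LChar F χ s = ∑' I : (Ideal (𝓞 F))⁰, FA_S14_euler_term F χ s I := rfl

theorem FA_S14_euler_factor_eq (χ : ClassGroup (𝓞 F) →* ℂˣ) (s : ℝ)
    (v : HeightOneSpectrum (𝓞 F)) :
    (1 - ((χ (FA_S14_primeClass F v) : ℂˣ) : ℂ) *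
        (((Ideal.absNorm v.asIdeal : ℝ) ^ (-s) : ℝ) : ℂ))⁻¹ =
      (1 - FA_S14_euler_term F χ s (FA_S14_euler_pi v))⁻¹ := rfl

theorem FA_S14_euler_norm_chi (χ : ClassGroup (𝓞 F) →* ℂˣ) (c : ClassGroup (𝓞 F)) :
    ‖((χ c : ℂˣ) : ℂ)‖ = 1 := by
  have h1 : c ^ Fintype.card (ClassGroup (𝓞 F)) = 1 := pow_card_eq_one
  have h2 : ((χ c : ℂˣ) : ℂ) ^ Fintype.card (ClassGroup (𝓞 F)) = 1 := by
    rw [← Units.val_pow_eq_pow_val, ← map_pow, h1, map_one, Units.val_one]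
  exact Complex.norm_eq_one_of_pow_eq_one h2 Fintype.card_ne_zero

theorem FA_S14_euler_norm_term (χ : ClassGroup (𝓞 F) →* ℂˣ) (s : ℝ) (I : (Ideal (𝓞 F))⁰) :
    ‖FA_S14_euler_term F χ s I‖ = (Ideal.absNorm (I : Ideal (𝓞 F)) : ℝ) ^ (-s) := by
  rw [FA_S14_euler_term_apply, norm_mul, FA_S14_euler_norm_chi, one_mul, Complex.norm_real,
    Real.norm_of_nonneg (Real.rpow_nonneg (Nat.cast_nonneg _) _)]

theorem FA_S14_euler_summable (hZ : FA_S14_Target_ZSummable) (χ : ClassGroup (𝓞 F) →* ℂˣ)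
    {s : ℝ} (hs : 1 < s) : Summable (fun I : (Ideal (𝓞 F))⁰ => FA_S14_euler_term F χ s I) := by
  apply Summable.of_norm
  simp_rw [FA_S14_euler_norm_term]
  exact hZ F s hs

theorem FA_S14_euler_two_le (v : HeightOneSpectrum (𝓞 F)) : 2 ≤ Ideal.absNorm v.asIdeal := by
  have h0 : Ideal.absNorm v.asIdeal ≠ 0 := fun h => v.ne_bot (Ideal.absNorm_eq_zero_iff.mp h)
  have h1 : Ideal.absNorm v.asIdeal ≠ 1 :=
    fun h => v.isPrime.ne_top (Ideal.absNorm_eq_one_iff.mp h)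
  omega

theorem FA_S14_euler_norm_pi_lt (χ : ClassGroup (𝓞 F) →* ℂˣ) {s : ℝ} (hs : 0 < s)
    (v : HeightOneSpectrum (𝓞 F)) : ‖FA_S14_euler_term F χ s (FA_S14_euler_pi v)‖ < 1 := by
  rw [FA_S14_euler_norm_term, FA_S14_euler_pi_coe]
  have h2 : (1 : ℝ) < (Ideal.absNorm v.asIdeal : ℝ) := by
    have := FA_S14_euler_two_le v
    exact_mod_cast (by omega : 1 < Ideal.absNorm v.asIdeal)
  exact Real.rpow_lt_one_of_one_lt_of_neg h2 (by linarith)

end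

end Fermat.Agent.S14
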