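import Mathlib
import Fermat.Agent.S14.Euler1

/-!
# S14, analytic INEQ2, leaf EULER (helper7), part 2: exponent vectors and unique factorisation
-/

set_option autoImplicit false
set_option linter.unusedSectionVars false

open scoped NumberField nonZeroDivisors
open IsDedekindDomain

namespace Fermat.Agent.S14

noncomputable section

variable {F : Type} [Field F] [NumberField F]

/-- The nonzero ideal `∏ v ^ e v` attached to an exponent vector on a finite set of primes. -/
def FA_S14_euler_ev (S : Finset (HeightOneSpectrum (𝓞 F))) (e : ↥S → ℕ) : (Ideal (𝓞 F))⁰ :=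
  ∏ v : ↥S, FA_S14_euler_pi (v : HeightOneSpectrum (𝓞 F)) ^ e v

theorem FA_S14_euler_ev_coe (S : Finset (HeightOneSpectrum (𝓞 F))) (e : ↥S → ℕ) :
    ((FA_S14_euler_ev S e : (Ideal (𝓞 F))⁰) : Ideal (𝓞 F)) =
      ∏ v : ↥S, (v : HeightOneSpectrum (𝓞 F)).asIdeal ^ e v := by
  unfold FA_S14_euler_ev
  rw [Submonoid.coe_finsetProd]
  rfl

/-- The exponent of `v` in `∏ v ^ e v` is `e v`. -/
theorem FA_S14_euler_count_ev (S : Finset (HeightOneSpectrum (𝓞 F))) (e : ↥S → ℕ) (v : ↥S) :
    FractionalIdeal.count F (v : HeightOneSpectrum (𝓞 F))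
      (((FA_S14_euler_ev S e : (Ideal (𝓞 F))⁰) : Ideal (𝓞 F)) : FractionalIdeal (𝓞 F)⁰ F) =
      e v := by
  classical
  rw [FA_S14_euler_ev_coe, ← FractionalIdeal.coeIdealHom_apply, map_prod]
  rw [FractionalIdeal.count_prod]
  · rw [Finset.sum_eq_single v]
    · rw [map_pow, FractionalIdeal.count_pow, FractionalIdeal.coeIdealHom_apply,
        FractionalIdeal.count_self, mul_one]
    · intro u _ hu
      rw [map_pow, FractionalIdeal.count_pow, FractionalIdeal.coeIdealHom_apply,
        FractionalIdeal.count_maximal_coprime, mul_zero]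
      intro h
      exact hu (Subtype.ext h)
    · intro h
      exact absurd (Finset.mem_univ _) h
  · intro u _
    rw [map_pow]
    apply pow_ne_zero
    rw [FractionalIdeal.coeIdealHom_apply]
    exact FractionalIdeal.coeIdeal_ne_zero.mpr (u : HeightOneSpectrum (𝓞 F)).ne_bot

theorem FA_S14_euler_ev_injective (S : Finset (HeightOneSpectrum (𝓞 F))) :
    Function.Injective (FA_S14_euler_ev S) := by
  intro e e' h
  funext v
  have h1 := FA_S14_euler_count_ev S e v
  have h2 := FA_S14_euler_count_ev S e' v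
  rw [h] at h1
  exact_mod_cast h1.symm.trans h2

/-- The term of an exponent vector. -/
theorem FA_S14_euler_term_ev (χ : ClassGroup (𝓞 F) →* ℂˣ) (s : ℝ)
    (S : Finset (HeightOneSpectrum (𝓞 F))) (e : ↥S → ℕ) :
    FA_S14_euler_term F χ s (FA_S14_euler_ev S e) =
      ∏ v : ↥S, FA_S14_euler_term F χ s (FA_S14_euler_pi (v : HeightOneSpectrum (𝓞 F))) ^ e v := by
  unfold FA_S14_euler_ev
  rw [map_prod]
  refine Finset.prod_congr rfl fun v _ => ?_
  rw [map_pow]

/-- The set of ideals `∏_{v ∈ S} v ^ e v`, `e v ≤ M`. -/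
def FA_S14_euler_box (S : Finset (HeightOneSpectrum (𝓞 F))) (M : ℕ) :
    Finset (Ideal (𝓞 F))⁰ :=
  open Classical in
  (Fintype.piFinset (fun _ : ↥S => Finset.range (M + 1))).image (FA_S14_euler_ev S)

/-- The truncated Euler product as a sum over the box. -/
theorem FA_S14_euler_trunc_eq (χ : ClassGroup (𝓞 F) →* ℂˣ) (s : ℝ)
    (S : Finset (HeightOneSpectrum (𝓞 F))) (M : ℕ) :
    ∏ v ∈ S, ∑ k ∈ Finset.range (M + 1), FA_S14_euler_term F χ s (FA_S14_euler_pi v) ^ k =
      ∑ I ∈ FA_S14_euler_box S M, FA_S14_euler_term F χ s I := by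
  classical
  unfold FA_S14_euler_box
  rw [Finset.sum_image ((FA_S14_euler_ev_injective S).injOn)]
  rw [← Finset.prod_coe_sort S
    (fun v => ∑ k ∈ Finset.range (M + 1), FA_S14_euler_term F χ s (FA_S14_euler_pi v) ^ k)]
  rw [Finset.prod_univ_sum]
  refine Finset.sum_congr rfl fun e _ => ?_
  rw [FA_S14_euler_term_ev]

end

end Fermat.Agent.S14
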