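import Mathlib
import Fermat.Agent.S14.Euler2

/-!
# S14, analytic INEQ2, leaf EULER (helper7), part 3: the Euler product
-/

set_option autoImplicit false
set_option linter.unusedSectionVars false

open scoped NumberField nonZeroDivisors
open IsDedekindDomain Filter Topology

namespace Fermat.Agent.S14

noncomputable section

variable {F : Type} [Field F] [NumberField F]

/-- The primes of norm at most `N` are finitely many. -/
theorem FA_S14_euler_finite_primes (F : Type) [Field F] [NumberField F] (N : ℕ) :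
    {v : HeightOneSpectrum (𝓞 F) | Ideal.absNorm v.asIdeal ≤ N}.Finite := by
  have h := Ideal.finite_setOfPred_absNorm_le (S := 𝓞 F) N
  refine Set.Finite.of_finite_image (f := fun v : HeightOneSpectrum (𝓞 F) => v.asIdeal)
    (h.subset ?_) ?_
  · rintro I ⟨v, hv, rfl⟩
    exact hv
  · intro v _ w _ hvw
    exact HeightOneSpectrum.ext hvw

/-- The maximal power of `v` dividing `I` divides `I`. -/
theorem FA_S14_euler_maxPow_dvd (v : HeightOneSpectrum (𝓞 F)) {I : Ideal (𝓞 F)} (hI : I ≠ 0) :
    v.maxPowDividing I ∣ I := by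
  have h := finprod_mem_dvd v (Ideal.hasFiniteMulSupport hI)
  rwa [Ideal.finprod_heightOneSpectrum_factorization hI] at h

theorem FA_S14_euler_absNorm_le_of_dvd {I J : Ideal (𝓞 F)} (hJ : J ≠ 0) (h : I ∣ J) :
    Ideal.absNorm I ≤ Ideal.absNorm J := by
  have h0 : Ideal.absNorm J ≠ 0 := fun h' => hJ (Ideal.absNorm_eq_zero_iff.mp h')
  exact Nat.le_of_dvd (Nat.pos_of_ne_zero h0)
    (Ideal.absNorm_dvd_absNorm_of_le (Ideal.dvd_iff_le.mp h))

/-- Every nonzero ideal of norm at most `N` lies in the box of `S`, `M` as soon as `S` contains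
all the primes of norm at most `N` and `N ≤ M`. -/
theorem FA_S14_euler_mem_box (N : ℕ) (S : Finset (HeightOneSpectrum (𝓞 F)))
    (hS : ∀ v : HeightOneSpectrum (𝓞 F), Ideal.absNorm v.asIdeal ≤ N → v ∈ S) (M : ℕ)
    (hM : N ≤ M) (I : (Ideal (𝓞 F))⁰) (hI : Ideal.absNorm (I : Ideal (𝓞 F)) ≤ N) :
    I ∈ FA_S14_euler_box S M := by
  classical
  have hI0 : (I : Ideal (𝓞 F)) ≠ 0 := FA_S14_euler_coe_ne_bot I
  unfold FA_S14_euler_box
  rw [Finset.mem_image]
  refine ⟨fun v => (Associates.mk (v : HeightOneSpectrum (𝓞 F)).asIdeal).count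
    (Associates.mk (I : Ideal (𝓞 F))).factors, ?_, ?_⟩
  · rw [Fintype.mem_piFinset]
    intro v
    rw [Finset.mem_range, Nat.lt_succ_iff]
    set c := (Associates.mk (v : HeightOneSpectrum (𝓞 F)).asIdeal).count
      (Associates.mk (I : Ideal (𝓞 F))).factors with hc
    have hdvd : (v : HeightOneSpectrum (𝓞 F)).asIdeal ^ c ∣ (I : Ideal (𝓞 F)) :=
      FA_S14_euler_maxPow_dvd (v : HeightOneSpectrum (𝓞 F)) hI0
    have h3 := FA_S14_euler_absNorm_le_of_dvd hI0 hdvd
    rw [map_pow] at h3
    have h5 := FA_S14_euler_two_le (v : HeightOneSpectrum (𝓞 F))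
    have h6 : 2 ^ c ≤ Ideal.absNorm (v : HeightOneSpectrum (𝓞 F)).asIdeal ^ c :=
      Nat.pow_le_pow_left h5 c
    have h7 : c < 2 ^ c := Nat.lt_two_pow_self
    omega
  · apply Subtype.ext
    rw [FA_S14_euler_ev_coe]
    rw [Finset.prod_coe_sort S (fun v : HeightOneSpectrum (𝓞 F) => v.asIdeal ^
      (Associates.mk v.asIdeal).count (Associates.mk (I : Ideal (𝓞 F))).factors)]
    conv_rhs => rw [← Ideal.finprod_heightOneSpectrum_factorization hI0]
    symm
    apply finprod_eq_prod_of_mulSupport_subset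
    intro v hv
    rw [Function.mem_mulSupport] at hv
    rw [Finset.mem_coe]
    apply hS
    have hne : (Associates.mk v.asIdeal).count (Associates.mk (I : Ideal (𝓞 F))).factors ≠ 0 := by
      intro h0
      apply hv
      rw [IsDedekindDomain.HeightOneSpectrum.maxPowDividing, h0, pow_zero]
    have hdvd : v.asIdeal ∣ (I : Ideal (𝓞 F)) :=
      (Associates.count_ne_zero_iff_dvd hI0 v.irreducible).mp hne
    exact (FA_S14_euler_absNorm_le_of_dvd hI0 hdvd).trans hI

/-- The truncated Euler products over `S` tend to the product of the Euler factors. -/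
theorem FA_S14_euler_tendsto_trunc (χ : ClassGroup (𝓞 F) →* ℂˣ) {s : ℝ} (hs : 0 < s)
    (S : Finset (HeightOneSpectrum (𝓞 F))) :
    Tendsto (fun M : ℕ => ∏ v ∈ S, ∑ k ∈ Finset.range (M + 1),
        FA_S14_euler_term F χ s (FA_S14_euler_pi v) ^ k) atTop
      (𝓝 (∏ v ∈ S, (1 - FA_S14_euler_term F χ s (FA_S14_euler_pi v))⁻¹)) := by
  apply tendsto_finsetProd
  intro v _
  have h := (hasSum_geometric_of_norm_lt_one (FA_S14_euler_norm_pi_lt χ hs v)).tendsto_sum_nat
  exact h.comp (tendsto_add_atTop_nat 1)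

/-- **EULER**, assuming the summability of the Dedekind zeta series. -/
theorem FA_S14_euler_of_summable (hZ : FA_S14_Target_ZSummable) : FA_S14_Target_Euler := by
  intro F _ _ χ s hs
  have hsum := (FA_S14_euler_summable hZ χ hs).hasSum
  rw [← FA_S14_euler_LChar_eq] at hsum
  simp_rw [FA_S14_euler_factor_eq]
  classical
  rw [HasProd, SummationFilter.unconditional_filter]
  refine Metric.tendsto_atTop.mpr ?_
  intro ε hε
  rw [HasSum, SummationFilter.unconditional_filter] at hsum
  obtain ⟨T, hT⟩ := Metric.tendsto_atTop.mp hsum (ε / 2) (by linarith)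
  -- the bound for the norms of the ideals in `T`
  set N : ℕ := T.sup (fun I => Ideal.absNorm (I : Ideal (𝓞 F))) with hN
  refine ⟨(FA_S14_euler_finite_primes F N).toFinset, fun S hS => ?_⟩
  have hS' : ∀ v : HeightOneSpectrum (𝓞 F), Ideal.absNorm v.asIdeal ≤ N → v ∈ S := by
    intro v hv
    apply hS
    rw [Set.Finite.mem_toFinset]
    exact hv
  have hbound : ∀ M : ℕ, N ≤ M →
      dist (∏ v ∈ S, ∑ k ∈ Finset.range (M + 1),
        FA_S14_euler_term F χ s (FA_S14_euler_pi v) ^ k) (FA_S14_LChar F χ s) ≤ ε / 2 := by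
    intro M hM
    rw [FA_S14_euler_trunc_eq]
    apply le_of_lt
    apply hT
    intro I hI
    apply FA_S14_euler_mem_box N S hS' M hM I
    exact Finset.le_sup (f := fun I : (Ideal (𝓞 F))⁰ => Ideal.absNorm (I : Ideal (𝓞 F))) hI
  have hlim := FA_S14_euler_tendsto_trunc χ (by linarith : 0 < s) S
  have hle : dist (∏ v ∈ S, (1 - FA_S14_euler_term F χ s (FA_S14_euler_pi v))⁻¹)
      (FA_S14_LChar F χ s) ≤ ε / 2 := by
    refine le_of_tendsto (hlim.dist tendsto_const_nhds) ?_
    filter_upwards [eventually_ge_atTop N] with M hM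
    exact hbound M hM
  linarith

end

end Fermat.Agent.S14
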