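import Mathlib
import Fermat.Agent.S14.Euler3
import Fermat.Agent.S14.An1

/-!
# S14, analytic INEQ2, leaf EULER (helper7): the Euler product of `L(s,χ)` over the primes of `F`
-/

set_option autoImplicit false

namespace Fermat.Agent.S14

/-- **EULER**: `L(s,χ) = ∏_v (1 - χ[v] N(v)^(-s))⁻¹` for `s > 1`. -/
theorem FA_S14_euler : FA_S14_Target_Euler :=
  FA_S14_euler_of_summable FA_S14_an_ZSummable

end Fermat.Agent.S14
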