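import Mathlib
import Fermat.Agent.S14.InterfaceAn

/-!
# S14, leaf LOC (helper8)

`FA_S14_loc : FA_S14_Target_Loc`: for the characters of a finite abelian group `A`, `g ∈ A` and
`0 ≤ t < 1`: `∏_χ ‖1 - χ(g) t‖ ≤ 1` (the product is `(1 - t^d)^k`).
-/

set_option autoImplicit false

open Finset Polynomial

namespace Fermat.Agent.S14

/-- A nonempty finite set `S ⊂ ℂ` of `|S|`-th roots of unity is the set of all of them, so
`∏_{z ∈ S} (1 - z t) = 1 - t^{|S|}`. -/
theorem FA_S14_loc_prod_roots (S : Finset ℂ) (hS : S.Nonempty)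
    (h : ∀ z ∈ S, z ^ S.card = 1) (t : ℂ) :
    ∏ z ∈ S, (1 - z * t) = 1 - t ^ S.card := by
  have hd : S.card ≠ 0 := Finset.card_ne_zero.mpr hS
  have hprim := Complex.isPrimitiveRoot_exp S.card hd
  have hsub : S ⊆ nthRootsFinset S.card (1 : ℂ) := by
    intro z hz
    rw [mem_nthRootsFinset (Nat.pos_of_ne_zero hd)]
    exact h z hz
  have heq : S = nthRootsFinset S.card (1 : ℂ) :=
    Finset.eq_of_subset_of_card_le hsub (by rw [hprim.card_nthRootsFinset])
  have h2 := hprim.pow_sub_pow_eq_prod_sub_mul (1 : ℂ) t (Nat.pos_of_ne_zero hd)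
  rw [one_pow] at h2
  rw [h2]
  exact Finset.prod_congr heq (fun _ _ => rfl)

/-- The characters of a finite abelian group are finite in number. -/
theorem FA_S14_loc_finite (A : Type) [CommGroup A] [Finite A] : Finite (A →* ℂˣ) := by
  haveI : NeZero (Monoid.exponent A) := ⟨Monoid.exponent_ne_zero_of_finite⟩
  have h := CommGroup.card_monoidHom_of_hasEnoughRootsOfUnity A ℂ
  apply Nat.finite_of_card_ne_zero
  rw [h]
  exact Nat.card_pos.ne'

/-- **LOC**. -/
theorem FA_S14_loc : FA_S14_Target_Loc := by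
  intro A _ _ g t ht0 ht1
  classical
  haveI := FA_S14_loc_finite A
  letI : Fintype (A →* ℂˣ) := Fintype.ofFinite _
  rw [finprod_eq_prod_of_fintype, ← norm_prod]
  set ev : (A →* ℂˣ) →* ℂˣ := MonoidHom.eval g with hev
  have hevapp : ∀ χ : A →* ℂˣ, ev χ = χ g := fun χ => rfl
  set S₀ : Finset ℂˣ := (Finset.univ : Finset (A →* ℂˣ)).image ev with hS₀
  have hcomp := Finset.prod_comp (s := (Finset.univ : Finset (A →* ℂˣ)))
    (fun r : ℂˣ => (1 - (r : ℂ) * (t : ℂ))) ev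
  have hfib : ∀ r ∈ S₀, #{χ ∈ (Finset.univ : Finset (A →* ℂˣ)) | ev χ = r} =
      #{χ ∈ (Finset.univ : Finset (A →* ℂˣ)) | ev χ = 1} := by
    intro r hr
    obtain ⟨χ₀, -, rfl⟩ := Finset.mem_image.mp hr
    exact MonoidHom.card_fiber_eq_of_mem_range ev ⟨χ₀, rfl⟩ ⟨1, map_one ev⟩
  have h1 : ∏ χ : A →* ℂˣ, (1 - ((χ g : ℂˣ) : ℂ) * (t : ℂ)) =
      (∏ r ∈ S₀, (1 - (r : ℂ) * (t : ℂ))) ^
        #{χ ∈ (Finset.univ : Finset (A →* ℂˣ)) | ev χ = 1} := by
    rw [← Finset.prod_pow]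
    have h0 : ∏ b ∈ S₀, (1 - (b : ℂ) * (t : ℂ)) ^
        #{a ∈ (Finset.univ : Finset (A →* ℂˣ)) | ev a = b} =
        ∏ b ∈ S₀, (1 - (b : ℂ) * (t : ℂ)) ^
          #{χ ∈ (Finset.univ : Finset (A →* ℂˣ)) | ev χ = 1} :=
      Finset.prod_congr rfl (fun r hr => by rw [hfib r hr])
    rw [← h0]
    exact hcomp
  rw [h1, norm_pow]
  apply pow_le_one₀ (norm_nonneg _)
  -- the image in `ℂ`
  set S : Finset ℂ := S₀.image (fun r : ℂˣ => (r : ℂ)) with hS
  have hinj : Function.Injective (fun r : ℂˣ => (r : ℂ)) := Units.val_injective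
  have h2 : ∏ r ∈ S₀, (1 - (r : ℂ) * (t : ℂ)) = ∏ z ∈ S, (1 - z * (t : ℂ)) := by
    rw [hS, Finset.prod_image (fun a _ b _ hab => hinj hab)]
  have hcard : S.card = S₀.card := Finset.card_image_of_injective _ hinj
  have hSne : S.Nonempty :=
    ⟨((ev 1 : ℂˣ) : ℂ), Finset.mem_image_of_mem _ (Finset.mem_image_of_mem _ (Finset.mem_univ _))⟩
  have hcardR : Nat.card ev.range = S₀.card := by
    have h5 : (ev.range : Set ℂˣ) = (S₀ : Set ℂˣ) := by
      rw [hS₀, Finset.coe_image, Finset.coe_univ, Set.image_univ, MonoidHom.coe_range]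
    have h6 : Nat.card ev.range = Set.ncard (ev.range : Set ℂˣ) := rfl
    rw [h6, h5, Set.ncard_coe_finset]
  have hpow : ∀ z ∈ S, z ^ S.card = 1 := by
    intro z hz
    obtain ⟨r, hr, rfl⟩ := Finset.mem_image.mp hz
    obtain ⟨χ, -, rfl⟩ := Finset.mem_image.mp hr
    have h3 : (⟨ev χ, ⟨χ, rfl⟩⟩ : ev.range) ^ Nat.card ev.range = 1 := pow_card_eq_one'
    have h4 : (ev χ) ^ Nat.card ev.range = 1 := by
      have := congrArg Subtype.val h3
      simpa using this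
    rw [hcard, ← hcardR, ← Units.val_pow_eq_pow_val, h4, Units.val_one]
  rw [h2, FA_S14_loc_prod_roots S hSne hpow]
  rw [← Complex.ofReal_pow, ← Complex.ofReal_one, ← Complex.ofReal_sub, Complex.norm_real,
    Real.norm_of_nonneg]
  · linarith [pow_nonneg ht0 S.card]
  · have : t ^ S.card ≤ 1 := pow_le_one₀ ht0 ht1.le
    linarith

end Fermat.Agent.S14
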