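import Mathlib
import Fermat.Agent.S14.An1
import Fermat.Agent.S14.An2
import Fermat.Agent.S14.BddPoint
import Fermat.Agent.S14.BddZeta
import Fermat.Agent.S14.BddShiftC
import Fermat.Agent.S14.BddFinal
import Fermat.Agent.S14.Euler
import Fermat.Agent.S14.Loc
import Fermat.Agent.S14.Combine
import Fermat.Agent.S14.CombineT
import Fermat.Agent.S14.CrossField

/-!
# S14 (item 75): the analytic second inequality, assembled (helper8)

All analytic leaves are proved; this file plugs them together into closed theorems: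

* `FA_S14_bdd      : FA_S14_Target_Bdd`
* `FA_S14_ineq2An  : FA_S14_Target_Ineq2An`
* `FA_S14_ineq2    : FA_S14_Target_Ineq2`
* `FA_S14_ineq2T   : FA_S14_Target_Ineq2T`
* `FA_S14_ineq2G   : FA_S14_Target_Ineq2G`
-/

set_option autoImplicit false

open scoped NumberField

namespace Fermat.Agent.S14

/-- `L(s, χ)` is bounded near `s = 1` for nontrivial class group characters. -/
theorem FA_S14_bdd : FA_S14_Target_Bdd :=
  FA_S14_bddFinal FA_S14_an_ZSummable FA_S14_an_ZUp FA_S14_bddPoint FA_S14_bddzeta FA_S14_bddShift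

/-- The analytic second inequality (form of `InterfaceAn`). -/
theorem FA_S14_ineq2An : FA_S14_Target_Ineq2An :=
  FA_S14_combine FA_S14_an_ZSummable FA_S14_an_ZUp FA_S14_bdd FA_S14_euler FA_S14_loc
    FA_S14_an_ZLow

/-- The second inequality (form of `Interface2`). -/
theorem FA_S14_ineq2 : FA_S14_Target_Ineq2 :=
  FA_S14_ineq2_of_an FA_S14_ineq2An

/-- The second inequality, T-form (`CrossDefs`). -/
theorem FA_S14_ineq2T : FA_S14_Target_Ineq2T :=
  FA_S14_combineT FA_S14_an_ZUp FA_S14_bdd FA_S14_euler FA_S14_loc FA_S14_an_ZLow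

/-- The second inequality, general Galois form (`CrossField`). -/
theorem FA_S14_ineq2G : FA_S14_Target_Ineq2G := by
  intro F M _ _ _ _ _ _ T H hH
  exact FA_S14_combineT_index_le FA_S14_an_ZUp FA_S14_bdd FA_S14_euler FA_S14_loc FA_S14_an_ZLow
    F M T H hH

end Fermat.Agent.S14
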