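import Mathlib
import Fermat.Agent.S14.CrossField

/-!
# S14 (item 75), leaf CROSS: more sub-leaf targets (helper2)

* `FA_S14_Target_CfGroup` : the group theory of the diagonal subgroup.
* `FA_S14_Target_CfCop`   : a prime not containing `ℓ` has norm prime to `ℓ`.
* `FA_S14_Target_CfFin`   : the primes containing `ℓ` form a finite set.
* `FA_S14_Target_CfFrob`  : a Frobenius of `L/K` lifts to `φ ∈ Gal(Ω/K)` with `φ ζ = ζ^(N𝔮)`.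
* `FA_S14_Target_CfPkg`   : the fields `F ⊆ M ⊆ Ω` (fixed fields of `H_F ⊇ H_M`) with their degrees
  and the three properties used by the crossing.
-/

set_option autoImplicit false

open scoped NumberField nonZeroDivisors
open IsDedekindDomain

namespace Fermat.Agent.S14

/-- **CfGroup** (pure group theory).  `Γ` finite, `r : Γ → G` with `|G| = p`, `χ : Γ → (ℤ/ℓ)ˣ`,
`p ∣ ℓ - 1`; `(r, χ)` hits `(σ₀, q₀)` with `σ₀ ≠ 1`, and `{1} × (ℤ/ℓ)ˣ`.  Then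
`H_F = {g : ∃ j c, r g = σ₀^j ∧ χ g = q₀^j c^p}` is a normal subgroup of index `p`, and
`H_M = {g : r g = 1 ∧ χ g ∈ ((ℤ/ℓ)ˣ)^p}` is a normal subgroup of index `p` in `H_F`. -/
def FA_S14_Target_CfGroup : Prop :=
  ∀ (p ℓ : ℕ), p.Prime → ℓ.Prime → p ∣ ℓ - 1 →
  ∀ (Γ G : Type) [Group Γ] [Finite Γ] [Group G], Nat.card G = p →
  ∀ (r : Γ →* G) (χ : Γ →* (ZMod ℓ)ˣ) (σ₀ : G) (q₀ : (ZMod ℓ)ˣ), σ₀ ≠ 1 →
    (∃ φ₀ : Γ, r φ₀ = σ₀ ∧ χ φ₀ = q₀) →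
    (∀ c : (ZMod ℓ)ˣ, ∃ g : Γ, r g = 1 ∧ χ g = c) →
    ∃ HF HM : Subgroup Γ, HF.Normal ∧ HM.Normal ∧ HM ≤ HF ∧ HF.index = p ∧
      HM.relIndex HF = p ∧
      (∀ g, g ∈ HF ↔ ∃ (j : ℕ) (c : (ZMod ℓ)ˣ), r g = σ₀ ^ j ∧ χ g = q₀ ^ j * c ^ p) ∧
      (∀ g, g ∈ HM ↔ r g = 1 ∧ ∃ c : (ZMod ℓ)ˣ, χ g = c ^ p)

/-- **CfCop**: a prime of `F` not containing the prime number `ℓ` has absolute norm prime to
`ℓ`. -/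
def FA_S14_Target_CfCop : Prop :=
  ∀ (ℓ : ℕ), ℓ.Prime →
  ∀ (F : Type) [Field F] [NumberField F] (v : HeightOneSpectrum (𝓞 F)),
    (ℓ : 𝓞 F) ∉ v.asIdeal → ((Ideal.absNorm v.asIdeal : ℕ) : ZMod ℓ) ≠ 0

/-- **CfFin**: the primes of `F` containing the prime number `ℓ` form a finite set. -/
def FA_S14_Target_CfFin : Prop :=
  ∀ (ℓ : ℕ), ℓ.Prime →
  ∀ (F : Type) [Field F] [NumberField F],
    ∃ T : Finset (Ideal (𝓞 F)), ∀ Q : Ideal (𝓞 F), Q ∈ T ↔ Q.IsPrime ∧ (ℓ : 𝓞 F) ∈ Q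

/-- **CfFrob**: `K ⊆ L ⊆ Ω`, `L/K` unramified, `𝔮 ∤ ℓ`, `σ` the Frobenius of `L/K` at `P | 𝔮`.  Then
some `φ ∈ Gal(Ω/K)` (a Frobenius of `Ω/K` at a prime over `P`) restricts to `σ` and has
`φ ζ = ζ ^ (N𝔮)`. -/
def FA_S14_Target_CfFrob : Prop :=
  ∀ (ℓ : ℕ), ℓ.Prime →
  ∀ (K L Ω : Type) [Field K] [Field L] [Field Ω] [NumberField K] [NumberField L]
    [NumberField Ω] [Algebra K L] [Algebra K Ω] [Algebra L Ω] [IsScalarTower K L Ω]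
    [IsGalois K L] [IsGalois K Ω],
    FA_S14_Unramified K L →
  ∀ (ζ : Ω), ζ ^ ℓ = 1 →
  ∀ (𝔮 : HeightOneSpectrum (𝓞 K)) (P : Ideal (𝓞 L)) (σ : L ≃ₐ[K] L),
    P.IsPrime → P.under (𝓞 K) = 𝔮.asIdeal → IsArithFrobAt (𝓞 K) σ P →
    (ℓ : 𝓞 K) ∉ 𝔮.asIdeal →
    ∃ φ : Ω ≃ₐ[K] Ω, AlgEquiv.restrictNormalHom L φ = σ ∧
      φ ζ = ζ ^ (Ideal.absNorm 𝔮.asIdeal)

/-- **CfPkg** (the auxiliary fields).  `K ⊆ L ⊆ Ω = L(ζ_ℓ)`, `[L:K] = p ∣ ℓ - 1`, `Ω/K` Galois,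
`σ₀ ≠ 1` in `Gal(L/K)`, `ℓ ∤ q₀`; `(res_L, χ)` hits `(σ₀, q₀)` and `{1} × (ℤ/ℓ)ˣ`.
`F` = fixed field of `H_F = {g : ∃ j c, g|_L = σ₀^j ∧ χ(g) = q₀^j c^p}`, `M` = fixed field of
`H_M = {g : g|_L = 1 ∧ χ(g) = c^p}` (as an intermediate field of `Ω/F`).  Then `F/K` and `M/F` are
Galois of degree `p`, `L ⊆ M`, and:
* every `φ` with `φ|_L = σ₀^j`, `φ ζ = ζ^n`, `n q₀^(j(p-1))` a `p`-th power residue, fixes `F`;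
* every `g` fixing `L` and `F` acts on `ζ` through a `p`-th power residue;
* every `ψ ∈ Gal(Ω/F)` fixing `M` acts on `ζ` through a `p`-th power residue. -/
def FA_S14_Target_CfPkg : Prop :=
  ∀ (p ℓ : ℕ), p.Prime → ℓ.Prime → p ∣ ℓ - 1 →
  ∀ (K L Ω : Type) [Field K] [Field L] [Field Ω] [NumberField K] [NumberField L]
    [NumberField Ω] [Algebra K L] [Algebra K Ω] [Algebra L Ω] [IsScalarTower K L Ω]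
    [IsGalois K L] [IsGalois K Ω] [IsCyclotomicExtension {ℓ} L Ω],
    Module.finrank K L = p →
  ∀ (ζ : Ω), IsPrimitiveRoot ζ ℓ →
  ∀ (σ₀ : L ≃ₐ[K] L) (q₀ : ℕ), σ₀ ≠ 1 → ¬ ℓ ∣ q₀ →
    (∃ φ₀ : Ω ≃ₐ[K] Ω, AlgEquiv.restrictNormalHom L φ₀ = σ₀ ∧ φ₀ ζ = ζ ^ q₀) →
    (∀ n : ℕ, ¬ ℓ ∣ n → ∃ g : Ω ≃ₐ[K] Ω,
      (∀ y : L, g (algebraMap L Ω y) = algebraMap L Ω y) ∧ g ζ = ζ ^ n) →
    ∃ (F : IntermediateField K Ω) (M : IntermediateField F Ω),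
      IsGalois K F ∧ Module.finrank K F = p ∧ IsGalois F M ∧ Module.finrank F M = p ∧
      (∀ y : L, algebraMap L Ω y ∈ M) ∧
      (∀ (φ : Ω ≃ₐ[K] Ω) (j n : ℕ), AlgEquiv.restrictNormalHom L φ = σ₀ ^ j → φ ζ = ζ ^ n →
        FA_S14_IsRes ℓ p (n * q₀ ^ (j * (p - 1))) → ∀ y : F, φ (y : Ω) = y) ∧
      (∀ (g : Ω ≃ₐ[K] Ω), (∀ y : L, g (algebraMap L Ω y) = algebraMap L Ω y) →
        (∀ y : F, g (y : Ω) = y) → ∀ n : ℕ, g ζ = ζ ^ n → FA_S14_IsRes ℓ p n) ∧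
      (∀ (ψ : Ω ≃ₐ[F] Ω), (∀ y : M, ψ (y : Ω) = y) → ∀ n : ℕ, ψ ζ = ζ ^ n →
        FA_S14_IsRes ℓ p n)

end Fermat.Agent.S14
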