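import Mathlib
import Fermat.Agent.S14.CrossField2

/-!
# S14, leaf CROSS, sub-leaf CfGroup: the group theory of the diagonal subgroup
-/

set_option autoImplicit false

namespace Fermat.Agent.S14

theorem FA_S14_cfGroup : FA_S14_Target_CfGroup := by
  intro p ℓ hp hℓ hdvd Γ G _ _ _ hG r χ σ₀ q₀ hσ₀ hφ₀ hc
  obtain ⟨φ₀, hφ₀r, hφ₀χ⟩ := hφ₀
  have : Fact ℓ.Prime := ⟨hℓ⟩
  have : Fact p.Prime := ⟨hp⟩
  have hGfin : Finite G := Nat.finite_of_card_ne_zero (by rw [hG]; exact hp.ne_zero)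
  -- the order of `σ₀`
  have hσord : orderOf σ₀ = p := by
    have h1 := orderOf_dvd_natCard σ₀
    rw [hG] at h1
    rcases (Nat.dvd_prime hp).mp h1 with h | h
    · exact absurd (orderOf_eq_one_iff.mp h) hσ₀
    · exact h
  have hσp : σ₀ ^ p = 1 := by rw [← hσord]; exact pow_orderOf_eq_one σ₀
  -- `σ₀` generates `G`
  have hzp : Subgroup.zpowers σ₀ = ⊤ := by
    apply Subgroup.eq_top_of_card_eq
    rw [Nat.card_zpowers, hσord, hG]
  have hgen : ∀ x : G, ∃ j : ℕ, x = σ₀ ^ j := by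
    intro x
    have hx : x ∈ Subgroup.zpowers σ₀ := by rw [hzp]; trivial
    obtain ⟨k, hk⟩ := Subgroup.mem_zpowers_iff.mp hx
    refine ⟨(k % (orderOf σ₀ : ℤ)).toNat, ?_⟩
    rw [← hk, ← zpow_natCast, Int.toNat_of_nonneg
      (Int.emod_nonneg _ (by rw [hσord]; exact_mod_cast hp.ne_zero)), zpow_mod_orderOf]
  have hGcomm : ∀ x y : G, x * y = y * x := by
    intro x y
    obtain ⟨i, rfl⟩ := hgen x
    obtain ⟨j, rfl⟩ := hgen y
    rw [← pow_add, ← pow_add, add_comm]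
  -- the subgroup of `p`-th powers
  set P : Subgroup (ZMod ℓ)ˣ := (powMonoidHom p : (ZMod ℓ)ˣ →* (ZMod ℓ)ˣ).range with hP
  have hPmem : ∀ x : (ZMod ℓ)ˣ, x ∈ P ↔ ∃ c : (ZMod ℓ)ˣ, x = c ^ p := by
    intro x
    rw [hP, MonoidHom.mem_range]
    constructor
    · rintro ⟨c, hc⟩; exact ⟨c, hc.symm⟩
    · rintro ⟨c, hc⟩; exact ⟨c, hc.symm⟩
  have hPidx : P.index = p := by
    rw [hP, IsCyclic.index_powMonoidHom_range, Nat.card_eq_fintype_card,
      ZMod.card_units_eq_totient, Nat.totient_prime hℓ]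
    exact Nat.gcd_eq_right hdvd
  have hQcard : Nat.card ((ZMod ℓ)ˣ ⧸ P) = p := by
    rw [← Subgroup.index_eq_card]; exact hPidx
  -- the homomorphism `π`
  set π : Γ →* G × ((ZMod ℓ)ˣ ⧸ P) := r.prod ((QuotientGroup.mk' P).comp χ) with hπ
  have hπapp : ∀ g, π g = (r g, (QuotientGroup.mk (χ g) : (ZMod ℓ)ˣ ⧸ P)) := fun g => rfl
  have hπsurj : Function.Surjective π := by
    rintro ⟨x, y⟩
    obtain ⟨j, rfl⟩ := hgen x
    obtain ⟨a, rfl⟩ := QuotientGroup.mk_surjective y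
    obtain ⟨g', hg'r, hg'χ⟩ := hc (a * (q₀ ^ j)⁻¹)
    refine ⟨φ₀ ^ j * g', ?_⟩
    rw [hπapp, map_mul, map_mul, map_pow, map_pow, hφ₀r, hφ₀χ, hg'r, hg'χ, mul_one]
    congr 2
    rw [mul_comm a, mul_inv_cancel_left]
  -- the diagonal element
  set d : G × ((ZMod ℓ)ˣ ⧸ P) := (σ₀, (QuotientGroup.mk q₀ : (ZMod ℓ)ˣ ⧸ P)) with hd
  have hdpow : ∀ j : ℕ, d ^ j = (σ₀ ^ j, (QuotientGroup.mk (q₀ ^ j) : (ZMod ℓ)ˣ ⧸ P)) := by
    intro j
    rw [hd, Prod.pow_mk, ← QuotientGroup.mk_pow]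
  have hdp : d ^ p = 1 := by
    rw [hdpow, hσp]
    have : (QuotientGroup.mk (q₀ ^ p) : (ZMod ℓ)ˣ ⧸ P) = 1 := by
      rw [QuotientGroup.eq_one_iff, hPmem]
      exact ⟨q₀, rfl⟩
    rw [this]; rfl
  have hdne : d ≠ 1 := by
    intro h
    have := congrArg Prod.fst h
    exact hσ₀ this
  have hdord : orderOf d = p := by
    have h1 := orderOf_dvd_of_pow_eq_one hdp
    rcases (Nat.dvd_prime hp).mp h1 with h | h
    · exact absurd (orderOf_eq_one_iff.mp h) hdne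
    · exact h
  set D : Subgroup (G × ((ZMod ℓ)ˣ ⧸ P)) := Subgroup.zpowers d with hD
  have hDcard : Nat.card D = p := by rw [hD, Nat.card_zpowers, hdord]
  have hDmem : ∀ x, x ∈ D ↔ ∃ j : ℕ, x = d ^ j := by
    intro x
    constructor
    · intro hx
      obtain ⟨k, hk⟩ := Subgroup.mem_zpowers_iff.mp hx
      refine ⟨(k % (orderOf d : ℤ)).toNat, ?_⟩
      rw [← hk, ← zpow_natCast, Int.toNat_of_nonneg
        (Int.emod_nonneg _ (by rw [hdord]; exact_mod_cast hp.ne_zero)), zpow_mod_orderOf]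
    · rintro ⟨j, rfl⟩
      exact Subgroup.pow_mem _ (Subgroup.mem_zpowers d) j
  have hQfin : Finite ((ZMod ℓ)ˣ ⧸ P) := inferInstance
  have hcardprod : Nat.card (G × ((ZMod ℓ)ˣ ⧸ P)) = p * p := by
    rw [Nat.card_prod, hG, hQcard]
  have hDidx : D.index = p := by
    have h1 := Subgroup.card_mul_index D
    rw [hDcard, hcardprod] at h1
    exact Nat.eq_of_mul_eq_mul_left hp.pos h1
  have hcomm : ∀ a b : G × ((ZMod ℓ)ˣ ⧸ P), a * b = b * a := by
    rintro ⟨a1, a2⟩ ⟨b1, b2⟩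
    rw [Prod.mk_mul_mk, Prod.mk_mul_mk, hGcomm a1 b1, mul_comm a2 b2]
  have hDnormal : D.Normal := by
    constructor
    intro n hn g
    rw [hcomm g n, mul_inv_cancel_right]
    exact hn
  refine ⟨D.comap π, π.ker, hDnormal.comap π, MonoidHom.normal_ker π, ?_, ?_, ?_, ?_, ?_⟩
  · intro g hg
    rw [MonoidHom.mem_ker] at hg
    rw [Subgroup.mem_comap, hg]
    exact Subgroup.one_mem D
  · rw [Subgroup.index_comap_of_surjective D hπsurj]
    exact hDidx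
  · have h1 : π.ker = (⊥ : Subgroup (G × ((ZMod ℓ)ˣ ⧸ P))).comap π := rfl
    rw [h1, Subgroup.relIndex_comap, Subgroup.map_comap_eq_self_of_surjective hπsurj,
      Subgroup.relIndex_bot_left]
    exact hDcard
  · intro g
    rw [Subgroup.mem_comap, hDmem]
    constructor
    · rintro ⟨j, hj⟩
      rw [hπapp, hdpow, Prod.mk.injEq] at hj
      obtain ⟨h1, h2⟩ := hj
      rw [QuotientGroup.eq, hPmem] at h2
      obtain ⟨c, hc'⟩ := h2
      refine ⟨j, c⁻¹, h1, ?_⟩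
      have h3 : χ g = q₀ ^ j * (c ^ p)⁻¹ := by
        rw [← hc', mul_inv_rev, inv_inv, mul_inv_cancel_left]
      rw [h3, inv_pow]
    · rintro ⟨j, c, h1, h2⟩
      refine ⟨j, ?_⟩
      rw [hπapp, hdpow, Prod.mk.injEq]
      refine ⟨h1, ?_⟩
      rw [QuotientGroup.eq, hPmem]
      refine ⟨c⁻¹, ?_⟩
      rw [h2, mul_inv_rev, inv_mul_cancel_right, inv_pow]
  · intro g
    rw [MonoidHom.mem_ker, hπapp]
    constructor
    · intro h
      have h1 := congrArg Prod.fst h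
      have h2 := congrArg Prod.snd h
      simp only [Prod.fst_one, Prod.snd_one] at h1 h2
      rw [QuotientGroup.eq_one_iff, hPmem] at h2
      exact ⟨h1, h2⟩
    · rintro ⟨h1, h2⟩
      rw [Prod.mk_eq_one]
      refine ⟨h1, ?_⟩
      rw [QuotientGroup.eq_one_iff, hPmem]
      exact h2

end Fermat.Agent.S14
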