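import Mathlib
import Fermat.Agent.S14.CrossField2

/-!
# S14, leaf CROSS, sub-leaf CfPkg: the auxiliary fields `F ⊆ M ⊆ Ω`

`F` is the fixed field of `H_F`, `M` the fixed field of `H_M` (as an intermediate field of `Ω/F`),
where `H_F ⊇ H_M` are the subgroups of `Gal(Ω/K)` provided by `FA_S14_Target_CfGroup`.
-/

set_option autoImplicit false
set_option linter.unusedSectionVars false
set_option linter.style.haveILetI false
set_option linter.unusedVariables false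

open scoped NumberField nonZeroDivisors
open IsDedekindDomain IntermediateField

namespace Fermat.Agent.S14

section char

variable {K Ω : Type} [Field K] [Field Ω] [Algebra K Ω]

/-- The cyclotomic character: `g ζ = ζ ^ n` ⇒ `χ(g) = n` in `ZMod ℓ`. -/
theorem FA_S14_cfpkg_chi {ℓ : ℕ} [NeZero ℓ] {ζ : Ω} (hζ : IsPrimitiveRoot ζ ℓ)
    (g : Ω ≃ₐ[K] Ω) (n : ℕ) (hg : g ζ = ζ ^ n) :
    ((hζ.autToPow K g : (ZMod ℓ)ˣ) : ZMod ℓ) = (n : ZMod ℓ) := by
  have hspec := hζ.autToPow_spec K g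
  rw [hg] at hspec
  have hord : orderOf ζ = ℓ := hζ.eq_orderOf.symm
  have h1 : ζ ^ n = ζ ^ (n % ℓ) := by
    conv_rhs => rw [← hord]
    exact (pow_mod_orderOf ζ n).symm
  rw [h1] at hspec
  have h2 : ((hζ.autToPow K g : (ZMod ℓ)ˣ) : ZMod ℓ).val = n % ℓ :=
    hζ.pow_inj (ZMod.val_lt _) (Nat.mod_lt _ (Nat.pos_of_ne_zero (NeZero.ne ℓ))) hspec
  rw [← ZMod.natCast_zmod_val ((hζ.autToPow K g : (ZMod ℓ)ˣ) : ZMod ℓ), h2, ZMod.natCast_mod]

end char

section res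

variable {K L Ω : Type} [Field K] [Field L] [Field Ω] [Algebra K L] [Algebra K Ω] [Algebra L Ω]
  [IsScalarTower K L Ω] [Normal K L]

/-- `g|_L = 1` iff `g` fixes `L` pointwise. -/
theorem FA_S14_cfpkg_res_eq_one_iff (g : Ω ≃ₐ[K] Ω) :
    AlgEquiv.restrictNormalHom L g = 1 ↔ ∀ y : L, g (algebraMap L Ω y) = algebraMap L Ω y := by
  constructor
  · intro h y
    have := AlgEquiv.restrictNormal_commutes g L y
    rw [← this]
    congr 1
    have h2 : (AlgEquiv.restrictNormalHom L g) y = y := by rw [h]; rfl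
    exact h2
  · intro h
    ext y
    apply (algebraMap L Ω).injective
    have := AlgEquiv.restrictNormal_commutes g L y
    rw [AlgEquiv.one_apply, ← h y]
    exact this

end res

theorem FA_S14_cfpkg_comm_aux {G : Type*} [CommGroup G] (a b c : G) :
    c * (a * b * (b * c)⁻¹) = a := by
  rw [mul_inv, ← mul_assoc (a * b), mul_assoc a b, mul_inv_cancel, mul_one, mul_left_comm,
    mul_inv_cancel, mul_one]

section main

variable {K Ω : Type} [Field K] [Field Ω] [Algebra K Ω] [FiniteDimensional K Ω] [IsGalois K Ω]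

/-- Degree of the fixed field of a subgroup. -/
theorem FA_S14_cfpkg_finrank_fixedField (H : Subgroup (Ω ≃ₐ[K] Ω)) :
    Module.finrank K (fixedField H) = H.index := by
  rw [finrank_eq_fixingSubgroup_index, fixingSubgroup_fixedField]

/-- An automorphism fixing the fixed field of `H` lies in `H`. -/
theorem FA_S14_cfpkg_mem_of_fixes (H : Subgroup (Ω ≃ₐ[K] Ω)) (g : Ω ≃ₐ[K] Ω)
    (hg : ∀ y : fixedField H, g (y : Ω) = y) : g ∈ H := by
  rw [← fixingSubgroup_fixedField H, IntermediateField.mem_fixingSubgroup_iff]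
  intro x hx
  exact hg ⟨x, hx⟩

end main

/-- **Sub-leaf CfPkg** (from CfGroup). -/
theorem FA_S14_cfpkg (hgrp : FA_S14_Target_CfGroup) : FA_S14_Target_CfPkg := by
  intro p ℓ hp hℓ hdvd K L Ω _ _ _ _ _ _ _ _ _ _ _ _ _ hfin ζ hζ σ₀ q₀ hσ₀ hq₀ hφ₀ hsurj
  haveI : NeZero ℓ := ⟨hℓ.ne_zero⟩
  haveI : Fact ℓ.Prime := ⟨hℓ⟩
  haveI : Fact p.Prime := ⟨hp⟩
  set r : (Ω ≃ₐ[K] Ω) →* (L ≃ₐ[K] L) := AlgEquiv.restrictNormalHom L with hr
  set χ : (Ω ≃ₐ[K] Ω) →* (ZMod ℓ)ˣ := hζ.autToPow K with hχdef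
  have hχ : ∀ (g : Ω ≃ₐ[K] Ω) (n : ℕ), g ζ = ζ ^ n → ((χ g : (ZMod ℓ)ˣ) : ZMod ℓ) = (n : ZMod ℓ) :=
    fun g n hg => FA_S14_cfpkg_chi hζ g n hg
  have hq₀' : ((q₀ : ℕ) : ZMod ℓ) ≠ 0 := by
    rw [Ne, ZMod.natCast_eq_zero_iff]
    exact hq₀
  set u₀ : (ZMod ℓ)ˣ := Units.mk0 ((q₀ : ℕ) : ZMod ℓ) hq₀' with hu₀
  have hcardG : Nat.card (L ≃ₐ[K] L) = p := by
    rw [IsGalois.card_aut_eq_finrank, hfin]
  have hφ₀' : ∃ φ₀ : Ω ≃ₐ[K] Ω, r φ₀ = σ₀ ∧ χ φ₀ = u₀ := by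
    obtain ⟨φ₀, h1, h2⟩ := hφ₀
    refine ⟨φ₀, h1, Units.ext ?_⟩
    rw [hχ φ₀ q₀ h2]
    rfl
  have hsurj' : ∀ c : (ZMod ℓ)ˣ, ∃ g : Ω ≃ₐ[K] Ω, r g = 1 ∧ χ g = c := by
    intro c
    have hc : ¬ ℓ ∣ (c : ZMod ℓ).val := by
      rw [← ZMod.natCast_eq_zero_iff, ZMod.natCast_zmod_val]
      exact c.ne_zero
    obtain ⟨g, hg1, hg2⟩ := hsurj _ hc
    refine ⟨g, (FA_S14_cfpkg_res_eq_one_iff g).mpr hg1, Units.ext ?_⟩
    rw [hχ g _ hg2, ZMod.natCast_zmod_val]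
  obtain ⟨HF, HM, hHFn, hHMn, hle, hidx, hrel, hmemF, hmemM⟩ :=
    hgrp p ℓ hp hℓ hdvd (Ω ≃ₐ[K] Ω) (L ≃ₐ[K] L) hcardG r χ σ₀ u₀ hσ₀ hφ₀' hsurj'
  haveI := hHFn
  haveI := hHMn
  set F : IntermediateField K Ω := fixedField HF with hF
  set M' : IntermediateField K Ω := fixedField HM with hM'
  have hFM : F ≤ M' := fixedField_antitone hle
  set M : IntermediateField F Ω := extendScalars hFM with hM
  have hFgal : IsGalois K F := IsGalois.of_fixedField_normal_subgroup HF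
  have hM'gal : IsGalois K M' := IsGalois.of_fixedField_normal_subgroup HM
  have hFdeg : Module.finrank K F = p := by
    rw [hF, FA_S14_cfpkg_finrank_fixedField, hidx]
  have hM'deg : Module.finrank K M' = p * p := by
    rw [hM', FA_S14_cfpkg_finrank_fixedField, ← Subgroup.relIndex_mul_index hle, hrel, hidx]
  -- `M` over `K`
  let e : M' ≃ₐ[K] M := AlgEquiv.ofBijective
    { toFun := fun x => ⟨x.1, x.2⟩
      map_one' := rfl
      map_mul' := fun _ _ => rfl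
      map_zero' := rfl
      map_add' := fun _ _ => rfl
      commutes' := fun _ => rfl }
    ⟨fun x y h => Subtype.ext (congrArg Subtype.val h), fun y => ⟨⟨y.1, y.2⟩, rfl⟩⟩
  have hMgalK : IsGalois K M := IsGalois.of_algEquiv e
  have hMgal : IsGalois F M := IsGalois.tower_top_of_isGalois K F M
  have hMdegK : Module.finrank K M = p * p := by
    rw [← hM'deg]
    exact e.toLinearEquiv.finrank_eq.symm
  have hMdeg : Module.finrank F M = p := by
    have h := Module.finrank_mul_finrank K F M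
    rw [hFdeg, hMdegK] at h
    exact Nat.eq_of_mul_eq_mul_left hp.pos h
  refine ⟨F, M, hFgal, hFdeg, hMgal, hMdeg, ?_, ?_, ?_, ?_⟩
  · -- `L ⊆ M`
    intro y
    change algebraMap L Ω y ∈ M'
    rw [hM', mem_fixedField_iff]
    intro g hg
    have h1 : r g = 1 := ((hmemM g).mp hg).1
    exact (FA_S14_cfpkg_res_eq_one_iff g).mp h1 y
  · -- `φ` fixes `F`
    intro φ j n hφj hφn hres y
    have hφ : φ ∈ HF := by
      rw [hmemF]
      obtain ⟨c, hc0, hc⟩ := hres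
      set uc : (ZMod ℓ)ˣ := Units.mk0 c hc0 with huc
      refine ⟨j, uc * (u₀ ^ j)⁻¹, hφj, ?_⟩
      have h1 : χ φ * u₀ ^ (j * (p - 1)) = uc ^ p := by
        apply Units.ext
        push_cast
        rw [hχ φ n hφn]
        rw [show ((u₀ : (ZMod ℓ)ˣ) : ZMod ℓ) = ((q₀ : ℕ) : ZMod ℓ) from rfl,
          show ((uc : (ZMod ℓ)ˣ) : ZMod ℓ) = c from rfl, ← hc]
        push_cast
        rfl
      have h2 : (u₀ ^ j) ^ p = u₀ ^ (j * (p - 1)) * u₀ ^ j := by
        rw [← pow_mul, ← pow_add]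
        congr 1
        have := hp.pos
        rw [Nat.mul_sub, mul_one]
        have hle : j ≤ j * p := Nat.le_mul_of_pos_right j hp.pos
        omega
      rw [mul_pow, inv_pow, h2, ← h1]
      exact (FA_S14_cfpkg_comm_aux (χ φ) (u₀ ^ (j * (p - 1))) (u₀ ^ j)).symm
    have hy := (mem_fixedField_iff HF (y : Ω)).mp y.2 φ hφ
    exact hy
  · -- `g` fixing `L` and `F`
    intro g hgL hgF n hgn
    have hg : g ∈ HF := FA_S14_cfpkg_mem_of_fixes HF g hgF
    obtain ⟨j, c, hj, hc⟩ := (hmemF g).mp hg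
    have hr1 : r g = 1 := (FA_S14_cfpkg_res_eq_one_iff g).mpr hgL
    rw [hr1] at hj
    have hord : orderOf σ₀ = p := by
      refine orderOf_eq_prime ?_ hσ₀
      rw [← hcardG]
      exact pow_card_eq_one'
    have hpj : p ∣ j := by
      rw [← hord, orderOf_dvd_iff_pow_eq_one]
      exact hj.symm
    obtain ⟨k, rfl⟩ := hpj
    refine ⟨((u₀ ^ k * c : (ZMod ℓ)ˣ) : ZMod ℓ), Units.ne_zero _, ?_⟩
    rw [← hχ g n hgn, hc, ← Units.val_pow_eq_pow_val, mul_pow, ← pow_mul, mul_comm k p]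
  · -- `ψ` fixing `M`
    intro ψ hψ n hψn
    have hg : ψ.restrictScalars K ∈ HM := by
      apply FA_S14_cfpkg_mem_of_fixes HM
      intro y
      exact hψ ⟨y.1, y.2⟩
    obtain ⟨-, c, hc⟩ := (hmemM _).mp hg
    refine ⟨((c : (ZMod ℓ)ˣ) : ZMod ℓ), Units.ne_zero _, ?_⟩
    rw [← hχ (ψ.restrictScalars K) n hψn, hc, Units.val_pow_eq_pow_val]

end Fermat.Agent.S14
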