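import Mathlib
import Fermat.Agent.S14.CrossField2

/-!
# S14 (item 75), leaf CROSS: sub-leaves CfCop and CfFin (helper3)

* `FA_S14_cfCop : FA_S14_Target_CfCop` : a prime of `F` not containing `ℓ` has norm prime to `ℓ`.
* `FA_S14_cfFin : FA_S14_Target_CfFin` : the primes of `F` containing `ℓ` form a finite set.
-/

set_option autoImplicit false

open scoped NumberField nonZeroDivisors
open IsDedekindDomain

namespace Fermat.Agent.S14

/-- If the prime number `ℓ` divides the absolute norm of a nonzero prime ideal `P` of a ring of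
integers, then `ℓ ∈ P`. -/
theorem FA_S14_cfcop_mem_of_dvd (ℓ : ℕ) (hℓ : ℓ.Prime) (F : Type) [Field F] [NumberField F]
    (P : Ideal (𝓞 F)) [P.IsPrime] (hP : P ≠ ⊥) (hdvd : ℓ ∣ Ideal.absNorm P) :
    (ℓ : 𝓞 F) ∈ P := by
  haveI : Fact ℓ.Prime := ⟨hℓ⟩
  have hne : Ideal.absNorm P ≠ 0 := by
    rw [Ne, Ideal.absNorm_eq_zero_iff]; exact hP
  have hcard : Nat.card (𝓞 F ⧸ P) = Ideal.absNorm P := by
    rw [Ideal.absNorm_apply, Submodule.cardQuot_apply]
  haveI : Finite (𝓞 F ⧸ P) := Nat.finite_of_card_ne_zero (hcard ▸ hne)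
  obtain ⟨x, hx⟩ := exists_prime_addOrderOf_dvd_card' (G := 𝓞 F ⧸ P) ℓ (hcard ▸ hdvd)
  have hx0 : x ≠ 0 := by
    rintro rfl
    rw [addOrderOf_zero] at hx
    exact hℓ.one_lt.ne hx
  have h1 : ℓ • x = 0 := by
    rw [← hx]; exact addOrderOf_nsmul_eq_zero x
  rw [nsmul_eq_mul] at h1
  have h2 : ((ℓ : ℕ) : 𝓞 F ⧸ P) = 0 := (mul_eq_zero.mp h1).resolve_right hx0
  have h3 : Ideal.Quotient.mk P (ℓ : 𝓞 F) = 0 := by
    rw [map_natCast]; exact h2
  exact Ideal.Quotient.eq_zero_iff_mem.mp h3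

/-- **CfCop**. -/
theorem FA_S14_cfCop : FA_S14_Target_CfCop := by
  intro ℓ hℓ F _ _ v hv h0
  refine hv (FA_S14_cfcop_mem_of_dvd ℓ hℓ F v.asIdeal v.ne_bot ?_)
  exact (ZMod.natCast_eq_zero_iff _ _).mp h0

/-- **CfFin**. -/
theorem FA_S14_cfFin : FA_S14_Target_CfFin := by
  intro ℓ hℓ F _ _
  classical
  have hℓ0 : (ℓ : 𝓞 F) ≠ 0 := by
    exact_mod_cast hℓ.ne_zero
  have hI : Ideal.span {(ℓ : 𝓞 F)} ≠ 0 := by
    rw [Ne, Ideal.zero_eq_bot, Ideal.span_singleton_eq_bot]; exact hℓ0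
  have hfin := Ideal.finite_factors hI
  refine ⟨hfin.toFinset.image (fun v => v.asIdeal), fun Q => ?_⟩
  simp only [Finset.mem_image, Set.Finite.mem_toFinset, Set.mem_setOf_eq]
  constructor
  · rintro ⟨v, hv, rfl⟩
    refine ⟨v.isPrime, ?_⟩
    have := Ideal.le_of_dvd hv
    exact this (Ideal.mem_span_singleton_self _)
  · rintro ⟨hQ, hmem⟩
    have hQ0 : Q ≠ ⊥ := by
      rintro rfl
      exact hℓ0 (by simpa using hmem)
    refine ⟨⟨Q, hQ, hQ0⟩, ?_, rfl⟩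
    rw [Ideal.dvd_iff_le, Ideal.span_singleton_le_iff_mem]
    exact hmem

end Fermat.Agent.S14
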