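import Mathlib
import Fermat.Agent.S14.CrossField

/-!
# S14, leaf CROSS, sub-leaf CfCyc: primes of `ℚ(ζ_p)` over `ℓ ≡ 1 mod p` have absolute norm `ℓ`
-/

set_option autoImplicit false

open NumberField

namespace Fermat.Agent.S14

theorem FA_S14_cfCyc : FA_S14_Target_CfCyc := by
  intro p ℓ hp hℓ hℓp hdvd K _ _ _ 𝔩 h𝔩 hmem
  have : Fact ℓ.Prime := ⟨hℓ⟩
  have : NeZero p := ⟨hp.ne_zero⟩
  have hlies : 𝔩.LiesOver (Ideal.span {(ℓ : ℤ)}) := by
    constructor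
    have hmax : (Ideal.span {(ℓ : ℤ)}).IsMaximal :=
      (Ideal.span_singleton_prime (by exact_mod_cast hℓ.ne_zero)).mpr
        (Nat.prime_iff_prime_int.mp hℓ) |>.isMaximal (by simpa using hℓ.ne_zero)
    refine hmax.eq_of_le (Ideal.IsPrime.under ℤ 𝔩).ne_top ?_
    rw [Ideal.span_singleton_le_iff_mem, Ideal.under_def, Ideal.mem_comap]
    simpa using hmem
  have hnd : ¬ ℓ ∣ p := by
    intro h
    exact hℓp ((Nat.prime_dvd_prime_iff_eq hℓ hp).mp h)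
  have hf := IsCyclotomicExtension.Rat.inertiaDeg_eq_of_not_dvd (m := p) (p := ℓ) K 𝔩 hnd
  have hone : ((ℓ : ℕ) : ZMod p) = 1 := by
    have h1 : 1 ≤ ℓ := hℓ.one_le
    have : ((ℓ - 1 : ℕ) : ZMod p) = 0 := (ZMod.natCast_eq_zero_iff _ _).mpr hdvd
    rw [Nat.cast_sub h1, Nat.cast_one, sub_eq_zero] at this
    exact this
  rw [hone, orderOf_one] at hf
  have := Ideal.pow_inertiaDeg ℓ 𝔩
  rw [hf, pow_one] at this
  exact this.symm

end Fermat.Agent.S14
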