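import Mathlib
import Fermat.Agent.S14.Interface2

/-!
# S14, leaf ART: Frobenius elements in Galois extensions of number fields

`FA_S14_IsFrobPow n g P` : `g x ≡ x ^ n mod P` for all `x ∈ 𝓞 M`.
`IsArithFrobAt (𝓞 F) g P` is `FA_S14_IsFrobPow (Nat.card (𝓞 F ⧸ P.under (𝓞 F))) g P` (by definition).

* `FA_S14_art_inertia_trivial` : an automorphism acting trivially on `𝓞 M ⧸ P`, `e(P) = 1`, is `1`.
* `FA_S14_art_frobPow_unique` : uniqueness of `n`-Frobenius elements at unramified primes.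
* `FA_S14_art_frobPow_mul`, `FA_S14_art_frobPow_pow` : products and powers.
* `FA_S14_art_frob_pow_inertiaDeg` : `Frob ^ f = 1` at an unramified prime.
* `FA_S14_art_frob_eq_one_iff` : at an unramified prime, `Frob = 1 ↔ f = 1`.
* `FA_S14_art_frob_of_under_eq` : in an abelian extension, a Frobenius at `P` is a Frobenius at
  every prime over `P ∩ F`.
-/

set_option autoImplicit false
set_option linter.unusedSectionVars false

open scoped NumberField Pointwise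

namespace Fermat.Agent.S14

section basic

variable {F M : Type} [Field F] [Field M] [NumberField F] [NumberField M] [Algebra F M]

/-- `g x ≡ x ^ n mod P` for all integers `x` of `M`. -/
def FA_S14_IsFrobPow (n : ℕ) (g : M ≃ₐ[F] M) (P : Ideal (𝓞 M)) : Prop :=
  ∀ x : 𝓞 M, g • x - x ^ n ∈ P

theorem FA_S14_art_isFrobPow_one (P : Ideal (𝓞 M)) : FA_S14_IsFrobPow 1 (1 : M ≃ₐ[F] M) P := by
  intro x
  simp

/-- An `m`-Frobenius (`m ≠ 0`) maps `P` into `P`. -/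
theorem FA_S14_art_frobPow_smul_mem {m : ℕ} (hm : m ≠ 0) {h : M ≃ₐ[F] M} {P : Ideal (𝓞 M)}
    (h2 : FA_S14_IsFrobPow m h P) {y : 𝓞 M} (hy : y ∈ P) : h • y ∈ P := by
  have := h2 y
  have hym : y ^ m ∈ P := Ideal.pow_mem_of_mem P hy m (Nat.pos_of_ne_zero hm)
  have := add_mem this hym
  simpa using this

theorem FA_S14_art_frobPow_mul {n m : ℕ} (hm : m ≠ 0) {g h : M ≃ₐ[F] M} {P : Ideal (𝓞 M)}
    (h1 : FA_S14_IsFrobPow n g P) (h2 : FA_S14_IsFrobPow m h P) :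
    FA_S14_IsFrobPow (n * m) (h * g) P := by
  intro x
  have e : (h * g) • x - x ^ (n * m) = h • (g • x - x ^ n) + (h • (x ^ n) - (x ^ n) ^ m) := by
    rw [mul_smul, smul_sub, pow_mul]
    ring
  rw [e]
  exact add_mem (FA_S14_art_frobPow_smul_mem hm h2 (h1 x)) (h2 (x ^ n))

theorem FA_S14_art_frobPow_pow {n : ℕ} (hn : n ≠ 0) {g : M ≃ₐ[F] M} {P : Ideal (𝓞 M)}
    (h1 : FA_S14_IsFrobPow n g P) (k : ℕ) : FA_S14_IsFrobPow (n ^ k) (g ^ k) P := by
  induction k with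
  | zero => simpa using FA_S14_art_isFrobPow_one (F := F) P
  | succ k ih =>
    rw [pow_succ, pow_succ']
    exact FA_S14_art_frobPow_mul hn ih h1

variable [IsGalois F M]

theorem FA_S14_art_isFrobPow_iff (g : M ≃ₐ[F] M) (P : Ideal (𝓞 M)) :
    IsArithFrobAt (𝓞 F) g P ↔ FA_S14_IsFrobPow (Nat.card (𝓞 F ⧸ P.under (𝓞 F))) g P :=
  Iff.rfl

/-- The inertia group at an unramified prime is trivial. -/
theorem FA_S14_art_inertia_trivial (P : Ideal (𝓞 M)) [P.IsPrime] (hP : P ≠ ⊥)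
    (he : P.ramificationIdx (𝓞 F) = 1) (g : M ≃ₐ[F] M) (hg : ∀ x : 𝓞 M, g • x - x ∈ P) :
    g = 1 := by
  have hp0 : P.under (𝓞 F) ≠ ⊥ := by
    intro h
    exact hP (Ideal.eq_bot_of_comap_eq_bot h)
  have : Finite (𝓞 F ⧸ P.under (𝓞 F)) := Ideal.finiteQuotientOfFreeOfNeBot _ hp0
  have : (P.under (𝓞 F)).IsMaximal := Ring.DimensionLEOne.maximalOfPrime hp0 inferInstance
  have hcard := Ideal.card_inertia_eq_ramificationIdxIn (G := M ≃ₐ[F] M) (P.under (𝓞 F)) P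
  rw [Ideal.ramificationIdxIn_eq_ramificationIdx (P.under (𝓞 F)) P (M ≃ₐ[F] M), he] at hcard
  have hmem : g ∈ P.inertia (M ≃ₐ[F] M) := hg
  have := Subgroup.eq_bot_of_card_eq _ hcard
  rw [this] at hmem
  exact hmem

/-- Uniqueness of `n`-Frobenius elements at an unramified prime. -/
theorem FA_S14_art_frobPow_unique (P : Ideal (𝓞 M)) [P.IsPrime] (hP : P ≠ ⊥)
    (he : P.ramificationIdx (𝓞 F) = 1) {n : ℕ} {g g' : M ≃ₐ[F] M}
    (h1 : FA_S14_IsFrobPow n g P) (h2 : FA_S14_IsFrobPow n g' P) : g = g' := by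
  have : g * g'⁻¹ = 1 := by
    apply FA_S14_art_inertia_trivial P hP he
    intro y
    have a := h1 (g'⁻¹ • y)
    have b := h2 (g'⁻¹ • y)
    simpa [mul_smul] using sub_mem a b
  exact mul_inv_eq_one.1 this

/-- Uniqueness of Frobenius elements at an unramified prime. -/
theorem FA_S14_art_frob_unique (P : Ideal (𝓞 M)) [P.IsPrime] (hP : P ≠ ⊥)
    (he : P.ramificationIdx (𝓞 F) = 1) {g g' : M ≃ₐ[F] M}
    (h1 : IsArithFrobAt (𝓞 F) g P) (h2 : IsArithFrobAt (𝓞 F) g' P) : g = g' :=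
  FA_S14_art_frobPow_unique P hP he h1 h2

/-- Existence of Frobenius elements. -/
theorem FA_S14_art_frob_exists (P : Ideal (𝓞 M)) [P.IsPrime] (hP : P ≠ ⊥) :
    ∃ g : M ≃ₐ[F] M, IsArithFrobAt (𝓞 F) g P := by
  have : Finite (𝓞 M ⧸ P) := Ideal.finiteQuotientOfFreeOfNeBot P hP
  exact IsArithFrobAt.exists_of_isInvariant (𝓞 F) (M ≃ₐ[F] M) P

omit [IsGalois F M] in
/-- The cardinality of the residue field upstairs. -/
theorem FA_S14_art_card_quot (P : Ideal (𝓞 M)) [P.IsPrime] (hP : P ≠ ⊥) :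
    Nat.card (𝓞 M ⧸ P) = Nat.card (𝓞 F ⧸ P.under (𝓞 F)) ^ P.inertiaDeg (𝓞 F) := by
  have hp0 : P.under (𝓞 F) ≠ ⊥ := by
    intro h
    exact hP (Ideal.eq_bot_of_comap_eq_bot h)
  have hPmax : P.IsMaximal := Ring.DimensionLEOne.maximalOfPrime hP inferInstance
  have h𝔮max : (P.under (𝓞 F)).IsMaximal := Ideal.IsMaximal.under (𝓞 F) P
  rw [Ideal.inertiaDeg_eq_of_isMaximal (P.under (𝓞 F)) P]
  have hfinP : Finite (𝓞 M ⧸ P) := Ideal.finiteQuotientOfFreeOfNeBot P hP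
  have hfin𝔮 : Finite (𝓞 F ⧸ P.under (𝓞 F)) := Ideal.finiteQuotientOfFreeOfNeBot _ hp0
  let _ : Field (𝓞 F ⧸ P.under (𝓞 F)) := Ideal.Quotient.field _
  let _ : Field (𝓞 M ⧸ P) := Ideal.Quotient.field _
  exact Module.natCard_eq_pow_finrank

omit [IsGalois F M] in
/-- `x ^ |𝓞 M ⧸ P| ≡ x mod P`. -/
theorem FA_S14_art_pow_card_sub_mem (P : Ideal (𝓞 M)) [P.IsPrime] (hP : P ≠ ⊥) (x : 𝓞 M) :
    x - x ^ Nat.card (𝓞 M ⧸ P) ∈ P := by
  have hPmax : P.IsMaximal := Ring.DimensionLEOne.maximalOfPrime hP inferInstance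
  have hfinP : Finite (𝓞 M ⧸ P) := Ideal.finiteQuotientOfFreeOfNeBot P hP
  let _ : Field (𝓞 M ⧸ P) := Ideal.Quotient.field _
  have _ : Fintype (𝓞 M ⧸ P) := Fintype.ofFinite _
  rw [← Ideal.Quotient.eq, map_pow, Nat.card_eq_fintype_card, FiniteField.pow_card]

/-- At an unramified prime, the Frobenius has order dividing the residue degree. -/
theorem FA_S14_art_frob_pow_inertiaDeg (P : Ideal (𝓞 M)) [P.IsPrime] (hP : P ≠ ⊥)
    (he : P.ramificationIdx (𝓞 F) = 1) {g : M ≃ₐ[F] M} (hg : IsArithFrobAt (𝓞 F) g P) :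
    g ^ P.inertiaDeg (𝓞 F) = 1 := by
  have hq : Nat.card (𝓞 F ⧸ P.under (𝓞 F)) ≠ 0 := hg.card_pos.ne'
  have h1 := FA_S14_art_frobPow_pow hq ((FA_S14_art_isFrobPow_iff g P).1 hg)
    (P.inertiaDeg (𝓞 F))
  rw [← FA_S14_art_card_quot P hP] at h1
  have h2 : FA_S14_IsFrobPow (Nat.card (𝓞 M ⧸ P)) (1 : M ≃ₐ[F] M) P := by
    intro x
    rw [one_smul]
    exact FA_S14_art_pow_card_sub_mem P hP x
  exact FA_S14_art_frobPow_unique P hP he h1 h2

end basic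

end Fermat.Agent.S14
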