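import Mathlib
import Fermat.Agent.S14.Art

/-!
# S14, leaf ART, part 2: functoriality of Frobenius elements

* `FA_S14_art_frob_of_under_eq` : in an abelian extension, a Frobenius at `P` is a Frobenius at
  every prime over `P ∩ F`.
* `FA_S14_art_frobPow_restrict`, `FA_S14_art_frob_restrict` : restriction to a Galois subextension.
* `FA_S14_art_frob_tower` : `F ⊆ F' ⊆ N`: `Frob_{N/F}(Q) ^ f(Q ∩ F' | Q ∩ F)` is `Frob_{N/F'}(Q)`.
* `FA_S14_art_frob_baseChange` : the restriction to `M` of `Frob_{N/F'}(Q)` is a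
  `|𝓞 F' / Q ∩ F'|`-Frobenius at `Q ∩ M` for `M/F`.
-/

set_option autoImplicit false
set_option linter.unusedSectionVars false

open scoped NumberField Pointwise

namespace Fermat.Agent.S14

section abelian

variable {F M : Type} [Field F] [Field M] [NumberField F] [NumberField M] [Algebra F M]
  [IsGalois F M]

/-- In an abelian extension the Frobenius does not depend on the prime above. -/
theorem FA_S14_art_frob_of_under_eq (hcomm : ∀ a b : M ≃ₐ[F] M, a * b = b * a)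
    (P P' : Ideal (𝓞 M)) [P.IsPrime] [P'.IsPrime] (h : P.under (𝓞 F) = P'.under (𝓞 F))
    {g : M ≃ₐ[F] M} (hg : IsArithFrobAt (𝓞 F) g P) : IsArithFrobAt (𝓞 F) g P' := by
  obtain ⟨τ, rfl⟩ := Algebra.IsInvariant.exists_smul_of_under_eq (𝓞 F) (𝓞 M) (M ≃ₐ[F] M) P P' h
  have := hg.conj τ
  rwa [hcomm τ g, mul_inv_cancel_right] at this

end abelian

section restrict

variable {F M N : Type} [Field F] [Field M] [Field N] [NumberField F] [NumberField M]
  [NumberField N] [Algebra F M] [Algebra M N] [Algebra F N] [IsScalarTower F M N]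
  [IsGalois F M] [IsGalois F N]

/-- Restriction of an `n`-Frobenius to a Galois subextension. -/
theorem FA_S14_art_frobPow_restrict {n : ℕ} {g : N ≃ₐ[F] N} {Q : Ideal (𝓞 N)}
    (h : FA_S14_IsFrobPow n g Q) :
    FA_S14_IsFrobPow n (AlgEquiv.restrictNormalHom M g) (Q.under (𝓞 M)) := by
  intro x
  rw [Ideal.under_def, Ideal.mem_comap]
  have := h (algebraMap (𝓞 M) (𝓞 N) x)
  convert this using 1
  rw [map_sub, map_pow]
  congr 1
  apply NumberField.RingOfIntegers.ext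
  exact AlgEquiv.restrictNormal_commutes g M (x : M)

/-- Restriction of a Frobenius to a Galois subextension. -/
theorem FA_S14_art_frob_restrict {g : N ≃ₐ[F] N} {Q : Ideal (𝓞 N)}
    (h : IsArithFrobAt (𝓞 F) g Q) :
    IsArithFrobAt (𝓞 F) (AlgEquiv.restrictNormalHom M g) (Q.under (𝓞 M)) := by
  rw [FA_S14_art_isFrobPow_iff, Ideal.under_under]
  exact FA_S14_art_frobPow_restrict ((FA_S14_art_isFrobPow_iff g Q).1 h)

end restrict

section tower

variable {F F' N : Type} [Field F] [Field F'] [Field N] [NumberField F] [NumberField F']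
  [NumberField N] [Algebra F F'] [Algebra F' N] [Algebra F N] [IsScalarTower F F' N]
  [IsGalois F N] [IsGalois F' N]

/-- The cardinality of the residue field of `Q ∩ F'` in terms of that of `Q ∩ F`. -/
theorem FA_S14_art_card_under (Q : Ideal (𝓞 N)) [Q.IsPrime] (hQ : Q ≠ ⊥) :
    Nat.card (𝓞 F' ⧸ Q.under (𝓞 F')) =
      Nat.card (𝓞 F ⧸ Q.under (𝓞 F)) ^ (Q.under (𝓞 F')).inertiaDeg (𝓞 F) := by
  have h0 : Q.under (𝓞 F') ≠ ⊥ := fun h => hQ (Ideal.eq_bot_of_comap_eq_bot h)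
  have := FA_S14_art_card_quot (F := F) (Q.under (𝓞 F')) h0
  rwa [Ideal.under_under] at this

/-- `F ⊆ F' ⊆ N`: if `h ∈ Gal(N/F')` is the `f`-th power of a Frobenius `g ∈ Gal(N/F)` at `Q`,
`f = f(Q ∩ F' | Q ∩ F)`, then `h` is a Frobenius at `Q` for `N/F'`. -/
theorem FA_S14_art_frob_tower {g : N ≃ₐ[F] N} {h : N ≃ₐ[F'] N} (Q : Ideal (𝓞 N)) [Q.IsPrime]
    (hQ : Q ≠ ⊥) (hg : IsArithFrobAt (𝓞 F) g Q)
    (hh : ∀ x : N, h x = (g ^ (Q.under (𝓞 F')).inertiaDeg (𝓞 F)) x) :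
    IsArithFrobAt (𝓞 F') h Q := by
  have hq : Nat.card (𝓞 F ⧸ Q.under (𝓞 F)) ≠ 0 := hg.card_pos.ne'
  have h1 := FA_S14_art_frobPow_pow hq ((FA_S14_art_isFrobPow_iff g Q).1 hg)
    ((Q.under (𝓞 F')).inertiaDeg (𝓞 F))
  rw [← FA_S14_art_card_under Q hQ] at h1
  intro x
  have := h1 x
  convert this using 2
  apply NumberField.RingOfIntegers.ext
  exact hh x

/-- `F ⊆ F' ⊆ N`: a Frobenius `h ∈ Gal(N/F')` at `Q`, viewed in `Gal(N/F)`, is a
`|𝓞 F' / Q ∩ F'|`-Frobenius. -/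
theorem FA_S14_art_frob_restrictScalars {h : N ≃ₐ[F'] N} (Q : Ideal (𝓞 N))
    (hh : IsArithFrobAt (𝓞 F') h Q) :
    FA_S14_IsFrobPow (Nat.card (𝓞 F' ⧸ Q.under (𝓞 F'))) (h.restrictScalars F) Q := by
  intro x
  exact hh x

end tower

section baseChange

variable {F F' M N : Type} [Field F] [Field F'] [Field M] [Field N] [NumberField F]
  [NumberField F'] [NumberField M] [NumberField N] [Algebra F F'] [Algebra F' N] [Algebra F N]
  [IsScalarTower F F' N] [Algebra F M] [Algebra M N] [IsScalarTower F M N]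
  [IsGalois F M] [IsGalois F N] [IsGalois F' N]

/-- Base change: the restriction to `M` of a Frobenius of `N/F'` at `Q` is a
`|𝓞 F' / Q ∩ F'|`-Frobenius at `Q ∩ M` for `M/F`. -/
theorem FA_S14_art_frob_baseChange {h : N ≃ₐ[F'] N} (Q : Ideal (𝓞 N))
    (hh : IsArithFrobAt (𝓞 F') h Q) :
    FA_S14_IsFrobPow (Nat.card (𝓞 F' ⧸ Q.under (𝓞 F')))
      (AlgEquiv.restrictNormalHom M (h.restrictScalars F)) (Q.under (𝓞 M)) :=
  FA_S14_art_frobPow_restrict (FA_S14_art_frob_restrictScalars (F := F) Q hh)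

/-- Base change, unramified form: the restriction to `M` of the Frobenius of `N/F'` at `Q` is the
`f(Q ∩ F' | Q ∩ F)`-th power of the Frobenius of `M/F` at `Q ∩ M`. -/
theorem FA_S14_art_frob_baseChange_eq {h : N ≃ₐ[F'] N} {g : M ≃ₐ[F] M} (Q : Ideal (𝓞 N))
    [Q.IsPrime] (hQ : Q ≠ ⊥) (he : (Q.under (𝓞 M)).ramificationIdx (𝓞 F) = 1)
    (hh : IsArithFrobAt (𝓞 F') h Q) (hg : IsArithFrobAt (𝓞 F) g (Q.under (𝓞 M))) :
    AlgEquiv.restrictNormalHom M (h.restrictScalars F) =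
      g ^ (Q.under (𝓞 F')).inertiaDeg (𝓞 F) := by
  have h0 : Q.under (𝓞 M) ≠ ⊥ := fun h => hQ (Ideal.eq_bot_of_comap_eq_bot h)
  have h1 := FA_S14_art_frob_baseChange (F := F) (M := M) Q hh
  rw [FA_S14_art_card_under (F := F) Q hQ] at h1
  have hq : Nat.card (𝓞 F ⧸ (Q.under (𝓞 M)).under (𝓞 F)) ≠ 0 := hg.card_pos.ne'
  have h2 := FA_S14_art_frobPow_pow hq ((FA_S14_art_isFrobPow_iff g _).1 hg)
    ((Q.under (𝓞 F')).inertiaDeg (𝓞 F))
  rw [Ideal.under_under] at h2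
  exact FA_S14_art_frobPow_unique (Q.under (𝓞 M)) h0 he h1 h2

end baseChange

end Fermat.Agent.S14
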