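import Mathlib
import Fermat.Agent.S14.CrossField2
import Fermat.Agent.S14.Art2

/-!
# S14, leaf CROSS, sub-leaf CfFrob (helper7)

`K ⊆ L ⊆ Ω`, `L/K` unramified, `σ` the Frobenius of `L/K` at `P | 𝔮`, `𝔮 ∤ ℓ`.  The Frobenius `φ` of
`Ω/K` at a prime `𝔓 | P` restricts to `σ` and has `φ ζ = ζ ^ N𝔮` for every `ℓ`-th root of unity.
-/

set_option autoImplicit false
set_option linter.unusedSectionVars false

open scoped NumberField Pointwise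
open IsDedekindDomain

namespace Fermat.Agent.S14

/-- **CfFrob**. -/
theorem FA_S14_cfFrob : FA_S14_Target_CfFrob := by
  intro ℓ hℓ K L Ω _ _ _ _ _ _ _ _ _ _ _ _ hunr ζ hζ 𝔮 P σ hP hPu hσ hℓ𝔮
  have hP0 : P ≠ ⊥ := by
    rintro rfl
    apply 𝔮.ne_bot
    rw [← hPu]
    exact Ideal.under_bot (𝓞 K) (𝓞 L)
  -- a prime of `Ω` over `P`
  obtain ⟨𝔓, h𝔓prime, h𝔓P⟩ : ∃ 𝔓 : Ideal (𝓞 Ω), 𝔓.IsPrime ∧ 𝔓.under (𝓞 L) = P := by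
    obtain ⟨⟨𝔓, h1, h2⟩⟩ := (inferInstance : Nonempty (P.primesOver (𝓞 Ω)))
    exact ⟨𝔓, h1, h2.over.symm⟩
  have h𝔓0 : 𝔓 ≠ ⊥ := by
    rintro rfl
    apply hP0
    rw [← h𝔓P]
    exact Ideal.under_bot (𝓞 L) (𝓞 Ω)
  have h𝔓K : 𝔓.under (𝓞 K) = 𝔮.asIdeal := by
    rw [← hPu, ← h𝔓P, Ideal.under_under]
  -- the Frobenius of `Ω/K` at `𝔓`
  obtain ⟨φ, hφ⟩ := FA_S14_art_frob_exists (F := K) 𝔓 h𝔓0
  have h1 : IsArithFrobAt (𝓞 K) (AlgEquiv.restrictNormalHom L φ) (𝔓.under (𝓞 L)) :=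
    FA_S14_art_frob_restrict (M := L) hφ
  rw [h𝔓P] at h1
  have h2 : AlgEquiv.restrictNormalHom L φ = σ :=
    FA_S14_art_frob_unique P hP0 (hunr P hP hP0) h1 hσ
  -- `ℓ ∉ 𝔓`
  have hℓ𝔓 : ((ℓ : ℕ) : 𝓞 Ω) ∉ 𝔓 := by
    intro h
    apply hℓ𝔮
    rw [← h𝔓K, Ideal.under_def, Ideal.mem_comap, map_natCast]
    exact h
  -- `φ ζ = ζ ^ N𝔮`
  have hζint : IsIntegral ℤ ζ := IsIntegral.of_pow hℓ.pos (by rw [hζ]; exact isIntegral_one)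
  set z : 𝓞 Ω := ⟨ζ, hζint⟩ with hz
  have hzpow : z ^ ℓ = 1 := by
    apply NumberField.RingOfIntegers.ext
    show ζ ^ ℓ = 1
    exact hζ
  have h3 := AlgHom.IsArithFrobAt.apply_of_pow_eq_one (R := 𝓞 K) hφ hzpow hℓ𝔓
  rw [h𝔓K] at h3
  have hcardq : Nat.card (𝓞 K ⧸ 𝔮.asIdeal) = Ideal.absNorm 𝔮.asIdeal := by
    rw [Ideal.absNorm_apply, Submodule.cardQuot_apply]
  refine ⟨φ, h2, ?_⟩
  rw [← hcardq]
  exact congrArg (fun y : 𝓞 Ω => (y : Ω)) h3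

end Fermat.Agent.S14
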