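import Mathlib
import Fermat.Agent.S14.CrossField

/-!
# S14, leaf CROSS, sub-leaf CfGal: `L(ζ_ℓ)/K` is Galois if `L/K` is
-/

set_option autoImplicit false

open Polynomial

namespace Fermat.Agent.S14

theorem FA_S14_cfGal : FA_S14_Target_CfGal := by
  intro ℓ hℓ K L Ω _ _ _ _ _ _ _ _ _ _ _ _
  have : NeZero ℓ := ⟨hℓ.ne_zero⟩
  have : FiniteDimensional K L := Module.Finite.of_restrictScalars_finite ℚ K L
  have : FiniteDimensional K Ω := Module.Finite.of_restrictScalars_finite ℚ K Ω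
  obtain ⟨f, hfsep, hfsplit⟩ := IsGalois.is_separable_splitting_field K L
  have := hfsplit
  have hf0 : f ≠ 0 := hfsep.ne_zero
  have hg0 : (X ^ ℓ - 1 : K[X]) ≠ 0 := X_pow_sub_C_ne_zero hℓ.pos (1 : K)
  have hmap : (X ^ ℓ - 1 : K[X]).map (algebraMap K L) = X ^ ℓ - 1 := by
    simp
  have : IsSplittingField L Ω ((X ^ ℓ - 1 : K[X]).map (algebraMap K L)) := by
    rw [hmap]
    exact IsCyclotomicExtension.isSplittingField_X_pow_sub_one ℓ L Ω
  have : IsSplittingField K Ω (f * (X ^ ℓ - 1)) := IsSplittingField.mul (F := K) (K := L) Ω f (X ^ ℓ - 1) hf0 hg0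
  have : Normal K Ω := Normal.of_isSplittingField (f * (X ^ ℓ - 1))
  exact ⟨⟩

end Fermat.Agent.S14
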