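import Mathlib

/-!
# S14, leaf CROSS, sub-leaf CfInst: the field `Ω = L(ζ_ℓ)` as a number field over `K ⊆ L`
-/

set_option autoImplicit false
set_option linter.style.haveILetI false
set_option linter.unusedVariables false

open scoped NumberField

namespace Fermat.Agent.S14

theorem FA_S14_cfInst (ℓ : ℕ) (hℓ : ℓ.Prime) (K L : Type) [Field K] [Field L] [NumberField K]
    [NumberField L] [Algebra K L] :
    ∃ (Ω : Type) (_ : Field Ω) (_ : NumberField Ω) (_ : Algebra K Ω) (_ : Algebra L Ω),
      IsScalarTower K L Ω ∧ IsCyclotomicExtension {ℓ} L Ω := by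
  haveI : NeZero ℓ := ⟨hℓ.ne_zero⟩
  haveI hnf : NumberField (CyclotomicField ℓ L) :=
    IsCyclotomicExtension.numberField {ℓ} L (CyclotomicField ℓ L)
  letI alg : Algebra K (CyclotomicField ℓ L) :=
    ((algebraMap L (CyclotomicField ℓ L)).comp (algebraMap K L)).toAlgebra
  refine ⟨CyclotomicField ℓ L, inferInstance, hnf, alg, inferInstance, ?_, inferInstance⟩
  exact IsScalarTower.of_algebraMap_eq (fun _ => rfl)

end Fermat.Agent.S14
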