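import Mathlib
import Fermat.Agent.S14.CrossField
import Fermat.Agent.S14.Art2

/-!
# S14, leaf CROSS, sub-leaf CfPrime (helper7)

`K ⊆ L ⊆ Ω`, `K ⊆ F ⊆ Ω`, `L/K` unramified, `σ` the Frobenius of `L/K` at `P | 𝔮`.  If every
`φ ∈ Gal(Ω/K)` with `φ|_L = σ` and `φ ζ = ζ ^ N𝔮` fixes `F`, then the prime `v = 𝔓 ∩ F` of `F`
(`𝔓` a prime of `Ω` over `P`) has residue degree one over `𝔮`.
-/

set_option autoImplicit false
set_option linter.unusedSectionVars false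

open scoped NumberField Pointwise
open IsDedekindDomain

namespace Fermat.Agent.S14

section

variable {K F : Type} [Field K] [Field F] [NumberField K] [NumberField F] [Algebra K F]

/-- If `x ^ q ≡ x` modulo the prime `v` for all `x`, where `q` is the cardinality of the residue
field of the prime below, then `v` has residue degree one. -/
theorem FA_S14_cfprime_inertiaDeg_eq_one (v : Ideal (𝓞 F)) [v.IsPrime] (hv : v ≠ ⊥)
    (h : ∀ x : 𝓞 F, x - x ^ Nat.card (𝓞 K ⧸ v.under (𝓞 K)) ∈ v) :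
    v.inertiaDeg (𝓞 K) = 1 := by
  classical
  have hp0 : v.under (𝓞 K) ≠ ⊥ := fun h' => hv (Ideal.eq_bot_of_comap_eq_bot h')
  have hvmax : v.IsMaximal := Ring.DimensionLEOne.maximalOfPrime hv inferInstance
  have hfinv : Finite (𝓞 F ⧸ v) := Ideal.finiteQuotientOfFreeOfNeBot v hv
  have hfin𝔮 : Finite (𝓞 K ⧸ v.under (𝓞 K)) := Ideal.finiteQuotientOfFreeOfNeBot _ hp0
  have h𝔮max : (v.under (𝓞 K)).IsMaximal := Ideal.IsMaximal.under (𝓞 K) v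
  let _ : Field (𝓞 F ⧸ v) := Ideal.Quotient.field _
  let _ : Field (𝓞 K ⧸ v.under (𝓞 K)) := Ideal.Quotient.field _
  let _ : Fintype (𝓞 F ⧸ v) := Fintype.ofFinite _
  set q := Nat.card (𝓞 K ⧸ v.under (𝓞 K)) with hq
  have hq2 : 1 < q := Finite.one_lt_card
  have hcard := FA_S14_art_card_quot (F := K) v hv
  rw [← hq] at hcard
  -- every element of the residue field is a root of `X ^ q - X`
  have hroots : (Finset.univ : Finset (𝓞 F ⧸ v)).val ⊆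
      (Polynomial.X ^ q - Polynomial.X : Polynomial (𝓞 F ⧸ v)).roots := by
    intro y _
    obtain ⟨x, rfl⟩ := Ideal.Quotient.mk_surjective y
    rw [Polynomial.mem_roots (FiniteField.X_pow_card_sub_X_ne_zero _ hq2)]
    simp only [Polynomial.IsRoot.def, Polynomial.eval_sub, Polynomial.eval_pow,
      Polynomial.eval_X]
    rw [← map_pow, ← map_sub, Ideal.Quotient.eq_zero_iff_mem]
    have := v.neg_mem (h x)
    rwa [neg_sub] at this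
  have hle := Polynomial.card_le_degree_of_subset_roots hroots
  rw [FiniteField.X_pow_card_sub_X_natDegree_eq _ hq2, Finset.card_univ,
    ← Nat.card_eq_fintype_card, hcard] at hle
  have h2 : 1 < Nat.card (𝓞 F ⧸ v) := Finite.one_lt_card
  rw [hcard] at h2
  set f := v.inertiaDeg (𝓞 K) with hf
  have hf0 : f ≠ 0 := by
    intro h0
    rw [h0, pow_zero] at h2
    exact lt_irrefl _ h2
  have hf1 : f ≤ 1 := by
    by_contra hcon
    rw [not_le] at hcon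
    have : q ^ 2 ≤ q ^ f := Nat.pow_le_pow_right (by omega) hcon
    have : q * q ≤ q := by
      rw [← sq]
      exact this.trans hle
    nlinarith
  omega

end

/-- **CfPrime**. -/
theorem FA_S14_cfPrime : FA_S14_Target_CfPrime := by
  intro ℓ hℓ K L F Ω _ _ _ _ _ _ _ _ _ _ _ _ _ _ _ _ _ _ hunr ζ hζ 𝔮 P σ hP hPu hσ hℓ𝔮 hfix
  have hP0 : P ≠ ⊥ := by
    rintro rfl
    apply 𝔮.ne_bot
    rw [← hPu]
    exact Ideal.under_bot (𝓞 K) (𝓞 L)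
  -- a prime of `Ω` over `P`
  obtain ⟨𝔓, h𝔓prime, h𝔓P⟩ : ∃ 𝔓 : Ideal (𝓞 Ω), 𝔓.IsPrime ∧ 𝔓.under (𝓞 L) = P := by
    obtain ⟨⟨𝔓, h1, h2⟩⟩ := (inferInstance : Nonempty (P.primesOver (𝓞 Ω)))
    exact ⟨𝔓, h1, h2.over.symm⟩
  have h𝔓0 : 𝔓 ≠ ⊥ := by
    rintro rfl
    apply hP0
    rw [← h𝔓P]
    exact Ideal.under_bot (𝓞 L) (𝓞 Ω)
  have h𝔓K : 𝔓.under (𝓞 K) = 𝔮.asIdeal := by
    rw [← hPu, ← h𝔓P, Ideal.under_under]
  -- the Frobenius of `Ω/K` at `𝔓`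
  obtain ⟨φ, hφ⟩ := FA_S14_art_frob_exists (F := K) 𝔓 h𝔓0
  have h1 : IsArithFrobAt (𝓞 K) (AlgEquiv.restrictNormalHom L φ) (𝔓.under (𝓞 L)) :=
    FA_S14_art_frob_restrict (M := L) hφ
  rw [h𝔓P] at h1
  have h2 : AlgEquiv.restrictNormalHom L φ = σ :=
    FA_S14_art_frob_unique P hP0 (hunr P hP hP0) h1 hσ
  -- `ℓ ∉ 𝔓`
  have hℓ𝔓 : ((ℓ : ℕ) : 𝓞 Ω) ∉ 𝔓 := by
    intro h
    apply hℓ𝔮
    rw [← h𝔓K, Ideal.under_def, Ideal.mem_comap, map_natCast]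
    exact h
  -- `φ ζ = ζ ^ N𝔮`
  have hζint : IsIntegral ℤ ζ := IsIntegral.of_pow hℓ.pos (by rw [hζ]; exact isIntegral_one)
  set z : 𝓞 Ω := ⟨ζ, hζint⟩ with hz
  have hzpow : z ^ ℓ = 1 := by
    apply NumberField.RingOfIntegers.ext
    show ζ ^ ℓ = 1
    exact hζ
  have h3 := AlgHom.IsArithFrobAt.apply_of_pow_eq_one (R := 𝓞 K) hφ hzpow hℓ𝔓
  rw [h𝔓K] at h3
  have hcardq : Nat.card (𝓞 K ⧸ 𝔮.asIdeal) = Ideal.absNorm 𝔮.asIdeal := by
    rw [Ideal.absNorm_apply, Submodule.cardQuot_apply]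
  have h4 : φ ζ = ζ ^ (Ideal.absNorm 𝔮.asIdeal) := by
    rw [← hcardq]
    have := congrArg (fun y : 𝓞 Ω => (y : Ω)) h3
    exact this
  have hfixF := hfix φ h2 h4
  -- the prime `v = 𝔓 ∩ F`
  have hv0 : 𝔓.under (𝓞 F) ≠ ⊥ := by
    intro h
    apply 𝔮.ne_bot
    rw [← h𝔓K, ← Ideal.under_under (B := 𝓞 F), h]
    exact Ideal.under_bot (𝓞 K) (𝓞 F)
  have hvprime : (𝔓.under (𝓞 F)).IsPrime := inferInstance
  have hvK : (𝔓.under (𝓞 F)).under (𝓞 K) = 𝔮.asIdeal := by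
    rw [Ideal.under_under, h𝔓K]
  have hdeg : (𝔓.under (𝓞 F)).inertiaDeg (𝓞 K) = 1 := by
    apply FA_S14_cfprime_inertiaDeg_eq_one _ hv0
    intro x
    rw [hvK, Ideal.under_def, Ideal.mem_comap, map_sub, map_pow]
    have h5 := hφ (algebraMap (𝓞 F) (𝓞 Ω) x)
    rw [h𝔓K] at h5
    have h6 : φ • (algebraMap (𝓞 F) (𝓞 Ω) x) = algebraMap (𝓞 F) (𝓞 Ω) x := by
      apply NumberField.RingOfIntegers.ext
      exact hfixF (x : F)
    have h7 : (MulSemiringAction.toAlgHom (𝓞 K) (𝓞 Ω) φ) (algebraMap (𝓞 F) (𝓞 Ω) x) =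
        algebraMap (𝓞 F) (𝓞 Ω) x := h6
    rwa [h7] at h5
  refine ⟨⟨𝔓.under (𝓞 F), hvprime, hv0⟩, ?_, ?_, ?_⟩
  · intro h
    apply hℓ𝔓
    have : ((ℓ : ℕ) : 𝓞 F) ∈ 𝔓.under (𝓞 F) := h
    rw [Ideal.under_def, Ideal.mem_comap, map_natCast] at this
    exact this
  · have hmaxv : (𝔓.under (𝓞 F)).IsMaximal := Ring.DimensionLEOne.maximalOfPrime hv0 hvprime
    have hmaxq : 𝔮.asIdeal.IsMaximal := 𝔮.isMaximal
    have hlo : (𝔓.under (𝓞 F)).LiesOver 𝔮.asIdeal := ⟨hvK.symm⟩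
    show Ideal.relNorm (𝓞 K) (𝔓.under (𝓞 F)) = 𝔮.asIdeal
    rw [Ideal.relNorm_eq_pow_of_isMaximal (𝔓.under (𝓞 F)) 𝔮.asIdeal, hdeg, pow_one]
  · show Ideal.absNorm (𝔓.under (𝓞 F)) = Ideal.absNorm 𝔮.asIdeal
    have hc := FA_S14_art_card_quot (F := K) (𝔓.under (𝓞 F)) hv0
    rw [hdeg, pow_one, hvK] at hc
    rw [Ideal.absNorm_apply, Submodule.cardQuot_apply, Ideal.absNorm_apply,
      Submodule.cardQuot_apply]
    exact hc

end Fermat.Agent.S14
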