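import Mathlib
import Fermat.Agent.S14.CrossField

/-!
# S14, leaf CROSS, sub-leaf CfRam: `L(ζ_ℓ)/L` is totally ramified at the primes over `ℓ`

`FA_S14_cfRam : FA_S14_Target_CfRam`.
-/

set_option autoImplicit false
set_option linter.unusedSectionVars false
set_option linter.style.haveILetI false

open scoped NumberField Pointwise

namespace Fermat.Agent.S14

/-- In a domain with a primitive `ℓ`-th root of unity (`ℓ` prime): `ℓ = ∏ (1 - μ)` over the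
primitive `ℓ`-th roots of unity. -/
theorem FA_S14_cfram_prod {R : Type*} [CommRing R] [IsDomain R] {ℓ : ℕ} [Fact ℓ.Prime]
    {ζ : R} (hζ : IsPrimitiveRoot ζ ℓ) :
    (ℓ : R) = ∏ μ ∈ primitiveRoots ℓ R, (1 - μ) := by
  have h1 := Polynomial.cyclotomic_eq_prod_X_sub_primitiveRoots hζ
  have h2 := congrArg (Polynomial.eval 1) h1
  rw [Polynomial.eval_one_cyclotomic_prime, Polynomial.eval_prod] at h2
  rw [h2]
  refine Finset.prod_congr rfl fun μ _ => ?_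
  simp

/-- `ℓ ∈ 𝔏 ^ (ℓ - 1)` for a prime `𝔏 ∋ ℓ` of a domain containing a primitive `ℓ`-th root of unity. -/
theorem FA_S14_cfram_mem_pow {R : Type*} [CommRing R] [IsDomain R] {ℓ : ℕ} [Fact ℓ.Prime]
    {ζ : R} (hζ : IsPrimitiveRoot ζ ℓ) (𝔏 : Ideal R) [𝔏.IsPrime] (h : (ℓ : R) ∈ 𝔏) :
    (ℓ : R) ∈ 𝔏 ^ (ℓ - 1) := by
  classical
  have hℓ : (Fact.out : ℓ.Prime) = (Fact.out : ℓ.Prime) := rfl
  have hpos : 0 < ℓ := (Fact.out : ℓ.Prime).pos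
  haveI : NeZero ℓ := ⟨hpos.ne'⟩
  have hprod := FA_S14_cfram_prod hζ
  -- some factor lies in `𝔏`
  have h1 : ∃ μ₀ ∈ primitiveRoots ℓ R, (1 - μ₀) ∈ 𝔏 := by
    rw [hprod] at h
    exact Ideal.IsPrime.prod_mem_iff.1 h
  obtain ⟨μ₀, hμ₀, hμ₀𝔏⟩ := h1
  have hμ₀' : IsPrimitiveRoot μ₀ ℓ := (mem_primitiveRoots hpos).1 hμ₀
  -- hence all factors
  have h2 : ∀ μ ∈ primitiveRoots ℓ R, (1 - μ) ∈ 𝔏 := by
    intro μ hμ
    have hμ' : IsPrimitiveRoot μ ℓ := (mem_primitiveRoots hpos).1 hμ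
    obtain ⟨k, -, rfl⟩ := hμ₀'.eq_pow_of_pow_eq_one hμ'.pow_eq_one
    exact Ideal.mem_of_dvd 𝔏 (one_sub_dvd_one_sub_pow μ₀ k) hμ₀𝔏
  have h3 := Ideal.prod_mem_prod (I := fun _ : R => 𝔏) (x := fun μ : R => 1 - μ) h2
  rw [Finset.prod_const, hζ.card_primitiveRoots, Nat.totient_prime Fact.out, ← hprod] at h3
  exact h3

theorem FA_S14_cfRam : FA_S14_Target_CfRam := by
  intro p ℓ hp hℓ hℓp K L Ω _ _ _ _ _ _ _ _ _ _ _ _ _ _ hunr ζ hζ 𝔏 h𝔏 hℓ𝔏 n hn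
  classical
  haveI : Fact ℓ.Prime := ⟨hℓ⟩
  haveI : Fact p.Prime := ⟨hp⟩
  haveI : NeZero ℓ := ⟨hℓ.ne_zero⟩
  haveI : NeZero p := ⟨hp.ne_zero⟩
  haveI : 𝔏.IsPrime := h𝔏
  haveI : IsGalois L Ω := IsCyclotomicExtension.isGalois {ℓ} L Ω
  -- the primes below
  set 𝔩 : Ideal (𝓞 L) := 𝔏.under (𝓞 L) with h𝔩
  set 𝔨 : Ideal (𝓞 K) := 𝔩.under (𝓞 K) with h𝔨
  haveI : 𝔏.LiesOver 𝔩 := ⟨rfl⟩
  haveI : 𝔩.LiesOver 𝔨 := ⟨rfl⟩
  haveI : 𝔩.IsPrime := Ideal.IsPrime.under (𝓞 L) 𝔏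
  haveI : 𝔨.IsPrime := Ideal.IsPrime.under (𝓞 K) 𝔩
  have h𝔏0 : 𝔏 ≠ ⊥ := by
    rintro h0
    rw [h0, Ideal.mem_bot] at hℓ𝔏
    exact hℓ.ne_zero (by exact_mod_cast hℓ𝔏)
  have h𝔩0 : 𝔩 ≠ ⊥ := Ideal.under_ne_bot (𝓞 L) h𝔏0
  have h𝔨0 : 𝔨 ≠ ⊥ := Ideal.under_ne_bot (𝓞 K) h𝔩0
  -- `𝔨` lies over `ℓ`
  have hℓ𝔨 : (ℓ : 𝓞 K) ∈ 𝔨 := by
    rw [h𝔨, h𝔩, Ideal.under_def, Ideal.mem_comap, Ideal.under_def, Ideal.mem_comap, map_natCast,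
      map_natCast]
    exact hℓ𝔏
  haveI h𝔨ℓ : 𝔨.LiesOver (Ideal.span {(ℓ : ℤ)}) := by
    constructor
    have hmax : (Ideal.span {(ℓ : ℤ)}).IsMaximal :=
      (Ideal.span_singleton_prime (by exact_mod_cast hℓ.ne_zero)).2
        (Nat.prime_iff_prime_int.1 hℓ) |>.isMaximal (by
          rw [Ne, Ideal.span_singleton_eq_bot]; exact_mod_cast hℓ.ne_zero)
    refine (hmax.eq_of_le ?_ ?_)
    · exact (Ideal.IsPrime.under ℤ 𝔨).ne_top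
    · rw [Ideal.span_singleton_le_iff_mem, Ideal.under_def, Ideal.mem_comap]
      simpa using hℓ𝔨
  haveI : 𝔩.LiesOver (Ideal.span {(ℓ : ℤ)}) := Ideal.LiesOver.trans 𝔩 𝔨 _
  haveI : 𝔏.LiesOver (Ideal.span {(ℓ : ℤ)}) := Ideal.LiesOver.trans 𝔏 𝔩 _
  -- ramification indices
  have he𝔨 : 𝔨.ramificationIdx ℤ = 1 :=
    IsCyclotomicExtension.Rat.ramificationIdx_eq_of_not_dvd (m := p) ℓ K 𝔨
      (fun h => hℓp ((Nat.prime_dvd_prime_iff_eq hℓ hp).1 h))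
  have he𝔩 : 𝔩.ramificationIdx (𝓞 K) = 1 := hunr 𝔩 inferInstance h𝔩0
  have he𝔩ℤ : 𝔩.ramificationIdx ℤ = 1 := by
    rw [Ideal.ramificationIdx_tower (R := ℤ) 𝔨 𝔩, he𝔨, he𝔩]
  have he𝔏 : 𝔏.ramificationIdx ℤ = 𝔏.ramificationIdx (𝓞 L) := by
    rw [Ideal.ramificationIdx_tower (R := ℤ) 𝔩 𝔏, he𝔩ℤ, one_mul]
  -- `ℓ ∈ 𝔏 ^ (ℓ - 1)`
  have hζ' : IsPrimitiveRoot hζ.toInteger ℓ := hζ.toInteger_isPrimitiveRoot
  have hmem := FA_S14_cfram_mem_pow hζ' 𝔏 hℓ𝔏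
  have hmap : (Ideal.span {(ℓ : ℤ)}).map (algebraMap ℤ (𝓞 Ω)) = Ideal.span {(ℓ : 𝓞 Ω)} := by
    rw [Ideal.map_span, Set.image_singleton]
    simp
  have hmap0 : (Ideal.span {(ℓ : ℤ)}).map (algebraMap ℤ (𝓞 Ω)) ≠ ⊥ := by
    rw [hmap, Ne, Ideal.span_singleton_eq_bot]
    exact_mod_cast hℓ.ne_zero
  have hge : ℓ - 1 ≤ 𝔏.ramificationIdx (𝓞 L) := by
    rw [← he𝔏, Ideal.IsDedekindDomain.ramificationIdx_eq_multiplicity (Ideal.span {(ℓ : ℤ)}) 𝔏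
      hmap0]
    apply FiniteMultiplicity.le_multiplicity_of_pow_dvd
    · apply FiniteMultiplicity.of_not_isUnit
      · rw [Ideal.isUnit_iff]
        exact Ideal.IsPrime.ne_top inferInstance
      · exact hmap0
    · rw [hmap, Ideal.dvd_iff_le, Ideal.span_singleton_le_iff_mem]
      exact hmem
  -- the inertia group is everything
  have hcardI : Nat.card (𝔏.inertia (Ω ≃ₐ[L] Ω)) = 𝔏.ramificationIdx (𝓞 L) := by
    rw [Ideal.card_inertia_eq_ramificationIdxIn 𝔩 𝔏,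
      Ideal.ramificationIdxIn_eq_ramificationIdx 𝔩 𝔏 (Ω ≃ₐ[L] Ω)]
  have hinj := IsPrimitiveRoot.autToPow_injective L hζ
  have hcardG : Nat.card (Ω ≃ₐ[L] Ω) ≤ ℓ - 1 := by
    have := Nat.card_le_card_of_injective _ hinj
    rwa [Nat.card_eq_fintype_card (α := (ZMod ℓ)ˣ), ZMod.card_units] at this
  have hIle : Nat.card (𝔏.inertia (Ω ≃ₐ[L] Ω)) ≤ Nat.card (Ω ≃ₐ[L] Ω) :=
    Nat.card_le_card_of_injective _ Subtype.val_injective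
  have hItop : 𝔏.inertia (Ω ≃ₐ[L] Ω) = ⊤ := by
    apply Subgroup.eq_top_of_card_eq
    omega
  have hcardG' : Nat.card (Ω ≃ₐ[L] Ω) = Nat.card (ZMod ℓ)ˣ := by
    rw [Nat.card_eq_fintype_card (α := (ZMod ℓ)ˣ), ZMod.card_units]
    omega
  have hbij : Function.Bijective (hζ.autToPow L) :=
    hinj.bijective_of_nat_card_le hcardG'.ge
  -- the automorphism
  have hcop : Nat.Coprime n ℓ := (Nat.Coprime.symm ((Nat.Prime.coprime_iff_not_dvd hℓ).2 hn))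
  obtain ⟨g₀, hg₀⟩ := hbij.2 (ZMod.unitOfCoprime n hcop)
  have hspec := hζ.autToPow_spec L g₀
  rw [hg₀, ZMod.coe_unitOfCoprime] at hspec
  have hg₀ζ : g₀ ζ = ζ ^ n := by
    rw [← hspec, ZMod.val_natCast]
    have h1 : ζ ^ (n % orderOf ζ) = ζ ^ n := pow_mod_orderOf ζ n
    rwa [← hζ.eq_orderOf] at h1
  refine ⟨g₀.restrictScalars K, ?_, ?_, ?_⟩
  · intro x
    have h1 : g₀ ∈ 𝔏.inertia (Ω ≃ₐ[L] Ω) := by rw [hItop]; trivial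
    have h2 := h1 x
    have h3 : (g₀.restrictScalars K) • x = g₀ • x := by
      apply NumberField.RingOfIntegers.ext
      rfl
    rw [h3]
    exact h2
  · intro y
    exact g₀.commutes y
  · exact hg₀ζ

end Fermat.Agent.S14
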