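import Mathlib
import Fermat.Agent.S14.Art

/-!
# S14, leaf CROSS, sub-leaf CYCQ: Frobenius elements act on roots of unity by raising to the
power `N`

* `FA_S14_crosscyc_root_inj` : roots of unity of order prime to `P` are distinct modulo `P`;
* `FA_S14_crosscyc_frobPow` : `g x ≡ x ^ n mod P` for all `x` ⇒ `g ζ = ζ ^ n` for `ζ ^ m = 1`,
  `m ∉ P`;
* `FA_S14_crosscyc_frob` : the same for an arithmetic Frobenius, `n = N(P ∩ F)`.
-/

set_option autoImplicit false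
set_option linter.unusedSectionVars false
set_option linter.style.haveILetI false
set_option linter.unusedVariables false

open scoped NumberField Pointwise

namespace Fermat.Agent.S14

/-- If `ζ` is a primitive `m`-th root of unity in a domain and `m ∉ P` (`P` prime), then
`ζ ^ d - 1 ∉ P` for `0 < d < m`. -/
theorem FA_S14_crosscyc_pow_sub_one_notMem {R : Type*} [CommRing R] [IsDomain R] {m : ℕ}
    {ζ : R} (hζ : IsPrimitiveRoot ζ m) (P : Ideal R) (hm : (m : R) ∉ P)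
    {d : ℕ} (hd0 : 0 < d) (hdm : d < m) : ζ ^ d - 1 ∉ P := by
  intro hmem
  apply hm
  obtain ⟨n, rfl⟩ : ∃ n, m = n + 1 := ⟨m - 1, by omega⟩
  have hprod := hζ.prod_one_sub_pow_eq_order
  have hdvd : (1 - ζ ^ ((d - 1) + 1)) ∣ ∏ k ∈ Finset.range n, (1 - ζ ^ (k + 1)) :=
    Finset.dvd_prod_of_mem _ (Finset.mem_range.mpr (by omega))
  rw [hprod, show d - 1 + 1 = d by omega] at hdvd
  have h1 : (1 - ζ ^ d) ∈ P := by
    have := P.neg_mem hmem
    simpa using this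
  have := Ideal.mem_of_dvd P hdvd h1
  simpa using this

/-- Roots of unity of order prime to `P` are distinct modulo `P`. -/
theorem FA_S14_crosscyc_root_inj {R : Type*} [CommRing R] [IsDomain R] {m : ℕ}
    {ζ : R} (hζ : IsPrimitiveRoot ζ m) (P : Ideal R) [P.IsPrime] (hm : (m : R) ∉ P)
    {η η' : R} (hη : η ^ m = 1) (hη' : η' ^ m = 1) (h : η - η' ∈ P) : η = η' := by
  have hm0 : m ≠ 0 := by
    rintro rfl
    apply hm
    simp
  haveI : NeZero m := ⟨hm0⟩
  obtain ⟨i, hi, rfl⟩ := hζ.eq_pow_of_pow_eq_one hη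
  obtain ⟨j, hj, rfl⟩ := hζ.eq_pow_of_pow_eq_one hη'
  have hunit : ∀ k : ℕ, ζ ^ k ∉ P := by
    intro k hk
    have hu : IsUnit (ζ ^ k) := (hζ.isUnit hm0).pow k
    exact (Ideal.IsPrime.ne_top inferInstance) (Ideal.eq_top_of_isUnit_mem P hk hu)
  by_contra hne
  have hij : i ≠ j := fun h => hne (by rw [h])
  rcases Nat.lt_or_gt_of_ne hij with hlt | hlt
  · -- i < j
    have e : ζ ^ i - ζ ^ j = -(ζ ^ i * (ζ ^ (j - i) - 1)) := by
      rw [mul_sub, ← pow_add, show i + (j - i) = j by omega]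
      ring
    rw [e] at h
    have h' := P.neg_mem h
    rw [neg_neg] at h'
    rcases Ideal.IsPrime.mem_or_mem inferInstance h' with h1 | h1
    · exact hunit i h1
    · exact FA_S14_crosscyc_pow_sub_one_notMem hζ P hm (by omega) (by omega) h1
  · have e : ζ ^ i - ζ ^ j = ζ ^ j * (ζ ^ (i - j) - 1) := by
      rw [mul_sub, ← pow_add, show j + (i - j) = i by omega]
      ring
    rw [e] at h
    rcases Ideal.IsPrime.mem_or_mem inferInstance h with h1 | h1
    · exact hunit j h1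
    · exact FA_S14_crosscyc_pow_sub_one_notMem hζ P hm (by omega) (by omega) h1

section field

variable {F M : Type} [Field F] [Field M] [NumberField F] [NumberField M] [Algebra F M]

/-- **CYCQ**: an automorphism with `g x ≡ x ^ n mod P` raises the roots of unity of order prime
to `P` to the `n`-th power. -/
theorem FA_S14_crosscyc_frobPow {n m : ℕ} {g : M ≃ₐ[F] M} {P : Ideal (𝓞 M)} [P.IsPrime]
    (hg : FA_S14_IsFrobPow n g P) {ζ : 𝓞 M} (hζ : IsPrimitiveRoot ζ m)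
    (hm : (m : 𝓞 M) ∉ P) : g • ζ = ζ ^ n := by
  refine FA_S14_crosscyc_root_inj hζ P hm ?_ ?_ (hg ζ)
  · rw [← smul_pow', hζ.pow_eq_one, smul_one]
  · rw [← pow_mul, mul_comm, pow_mul, hζ.pow_eq_one, one_pow]

/-- The same statement in the field `M`. -/
theorem FA_S14_crosscyc_frobPow_field {n m : ℕ} {g : M ≃ₐ[F] M} {P : Ideal (𝓞 M)} [P.IsPrime]
    (hg : FA_S14_IsFrobPow n g P) {ζ : M} (hζ : IsPrimitiveRoot ζ m) (hm0 : m ≠ 0)
    (hm : (m : 𝓞 M) ∉ P) : g ζ = ζ ^ n := by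
  have hint : IsIntegral ℤ ζ := hζ.isIntegral (Nat.pos_of_ne_zero hm0)
  set ζ' : 𝓞 M := ⟨ζ, hint⟩ with hζ'
  have hζ'p : IsPrimitiveRoot ζ' m :=
    IsPrimitiveRoot.of_map_of_injective (f := algebraMap (𝓞 M) M)
      (show IsPrimitiveRoot ((ζ' : 𝓞 M) : M) m from hζ) NumberField.RingOfIntegers.coe_injective
  have h := FA_S14_crosscyc_frobPow hg hζ'p hm
  have h2 : ((g • ζ' : 𝓞 M) : M) = ((ζ' ^ n : 𝓞 M) : M) := congrArg (fun x : 𝓞 M => (x : M)) h
  have h3 : ((g • ζ' : 𝓞 M) : M) = g ζ := rfl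
  rw [h3] at h2
  rw [h2]
  rfl

variable [IsGalois F M]

/-- **CYCQ** for an arithmetic Frobenius: `σ ζ = ζ ^ N(P ∩ F)`. -/
theorem FA_S14_crosscyc_frob {m : ℕ} {g : M ≃ₐ[F] M} {P : Ideal (𝓞 M)} [P.IsPrime]
    (hg : IsArithFrobAt (𝓞 F) g P) {ζ : M} (hζ : IsPrimitiveRoot ζ m) (hm0 : m ≠ 0)
    (hm : (m : 𝓞 M) ∉ P) : g ζ = ζ ^ (Nat.card (𝓞 F ⧸ P.under (𝓞 F))) :=
  FA_S14_crosscyc_frobPow_field ((FA_S14_art_isFrobPow_iff g P).mp hg) hζ hm0 hm

end field

end Fermat.Agent.S14
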