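import Mathlib
import Fermat.Agent.S14.CrossField
import Fermat.Agent.S14.CrossCyc
import Fermat.Agent.S14.Art2

/-!
# S14, leaf CROSS, sub-leaf CfSplit

`F ⊆ M ⊆ Ω`, `ζ ∈ Ω`, `ζ ^ ℓ = 1`.  If every `ψ ∈ Gal(Ω/F)` fixing `M` acts on `ζ` through a
`p`-th power residue mod `ℓ`, then every prime `v ∤ ℓ` of `F` that splits completely in `M` has
norm a `p`-th power residue mod `ℓ`.
-/

set_option autoImplicit false
set_option linter.unusedSectionVars false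
set_option linter.style.haveILetI false
set_option linter.unusedVariables false

open scoped NumberField nonZeroDivisors Pointwise
open IsDedekindDomain

namespace Fermat.Agent.S14

section

variable {F M Ω : Type} [Field F] [Field M] [Field Ω] [NumberField F] [NumberField M]
  [NumberField Ω] [Algebra F M] [Algebra F Ω] [Algebra M Ω] [IsScalarTower F M Ω]
  [IsGalois F M] [IsGalois F Ω]

/-- A Frobenius of `Ω/F` at a prime over a prime of `F` that splits completely in `M` fixes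
`M` pointwise. -/
theorem FA_S14_cfsplit_fixes (𝔓 : Ideal (𝓞 Ω)) [𝔓.IsPrime] (h𝔓 : 𝔓 ≠ ⊥)
    (hsplit : FA_S14_SplitsCompletely F M (𝔓.under (𝓞 F)))
    {ψ : Ω ≃ₐ[F] Ω} (hψ : IsArithFrobAt (𝓞 F) ψ 𝔓) (y : M) :
    ψ (algebraMap M Ω y) = algebraMap M Ω y := by
  have hPM0 : 𝔓.under (𝓞 M) ≠ ⊥ := fun h => h𝔓 (Ideal.eq_bot_of_comap_eq_bot h)
  have hfrob : IsArithFrobAt (𝓞 F) (AlgEquiv.restrictNormalHom M ψ) (𝔓.under (𝓞 M)) :=
    FA_S14_art_frob_restrict hψ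
  obtain ⟨he, hf⟩ := hsplit (𝔓.under (𝓞 M)) inferInstance (Ideal.under_under _)
  have h1 := FA_S14_art_frob_pow_inertiaDeg (𝔓.under (𝓞 M)) hPM0 he hfrob
  rw [hf, pow_one] at h1
  have h2 := AlgEquiv.restrictNormal_commutes ψ M y
  have h3 : (AlgEquiv.restrictNormalHom M ψ) y = y := by rw [h1]; rfl
  rw [← h2]
  congr 1

end

/-- **Sub-leaf CfSplit**. -/
theorem FA_S14_cfsplit : FA_S14_Target_CfSplit := by
  intro p ℓ hp hℓ F M Ω _ _ _ _ _ _ _ _ _ _ _ _ ζ hζ hres v hv hsplit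
  haveI : Fact ℓ.Prime := ⟨hℓ⟩
  by_cases h1 : ζ = 1
  · exfalso
    obtain ⟨c, hc0, hc⟩ := hres 1 (fun y => rfl) 0 (by simp [h1])
    rw [Nat.cast_zero] at hc
    exact pow_ne_zero p hc0 hc.symm
  have hprim : IsPrimitiveRoot ζ ℓ := by
    have hord : orderOf ζ = ℓ := orderOf_eq_prime hζ h1
    rw [← hord]
    exact IsPrimitiveRoot.orderOf ζ
  -- a prime of `Ω` over `v`
  haveI := v.isPrime
  obtain ⟨⟨𝔓, h𝔓prime, h𝔓over⟩⟩ := Ideal.nonempty_primesOver (S := 𝓞 Ω) v.asIdeal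
  haveI := h𝔓prime
  have hunder : 𝔓.under (𝓞 F) = v.asIdeal := h𝔓over.over.symm
  have h𝔓0 : 𝔓 ≠ ⊥ := by
    intro h
    apply v.ne_bot
    rw [← hunder, h]
    exact Ideal.under_bot _ _
  obtain ⟨ψ, hψ⟩ := FA_S14_art_frob_exists (F := F) 𝔓 h𝔓0
  have hℓ𝔓 : ((ℓ : ℕ) : 𝓞 Ω) ∉ 𝔓 := by
    intro hmem
    apply hv
    rw [← hunder, Ideal.under_def, Ideal.mem_comap, map_natCast]
    exact hmem
  have hcyc := FA_S14_crosscyc_frob hψ hprim hℓ.ne_zero hℓ𝔓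
  have hfix := FA_S14_cfsplit_fixes (M := M) 𝔓 h𝔓0 (by rw [hunder]; exact hsplit) hψ
  have := hres ψ hfix _ hcyc
  rw [hunder] at this
  exact this

end Fermat.Agent.S14
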