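import Mathlib
import Fermat.Agent.S14.CrossField

/-!
# S14 CROSS sub-leaf CfTotRam (helper9): total ramification of `F/K` over `ℓ`

`K ⊆ F ⊆ Ω`, `F/K` Galois of prime degree.  If at every prime of `Ω` over `ℓ` the inertia group
in `Gal(Ω/K)` is not contained in `Gal(Ω/F)`, then `Gal(F/K)` acts trivially on `𝓞 F / Q` for every
prime `Q` of `F` over `ℓ`.
-/

set_option autoImplicit false

open scoped NumberField Pointwise

namespace Fermat.Agent.S14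

/-- **CfTotRam.** -/
theorem FA_S14_cfTotRam : FA_S14_Target_CfTotRam := by
  intro p ℓ hp K F Ω _ _ _ _ _ _ _ _ _ _ _ _ hdeg hΩ Q hQ hℓQ
  classical
  haveI := hQ
  -- a prime of `Ω` over `Q`
  have hker : RingHom.ker (algebraMap (𝓞 F) (𝓞 Ω)) ≤ Q := by
    intro x hx
    rw [RingHom.mem_ker] at hx
    have : x = 0 := (FaithfulSMul.algebraMap_injective (𝓞 F) (𝓞 Ω)) (by rw [map_zero]; exact hx)
    rw [this]
    exact Q.zero_mem
  obtain ⟨𝔏, h𝔏, h𝔏Q⟩ := Ideal.exists_ideal_over_prime_of_isIntegral_of_isDomain Q hker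
  have hℓ𝔏 : (ℓ : 𝓞 Ω) ∈ 𝔏 := by
    have h1 : (ℓ : 𝓞 F) ∈ 𝔏.comap (algebraMap (𝓞 F) (𝓞 Ω)) := by rw [h𝔏Q]; exact hℓQ
    rw [Ideal.mem_comap, map_natCast] at h1
    exact h1
  obtain ⟨g₀, hg₀, y₀, hy₀⟩ := hΩ 𝔏 h𝔏 hℓ𝔏
  -- its restriction to `F`
  set h : F ≃ₐ[K] F := AlgEquiv.restrictNormalHom F g₀ with hh
  have hcomm : ∀ y : F, algebraMap F Ω (h y) = g₀ (algebraMap F Ω y) := fun y =>
    AlgEquiv.restrictNormal_commutes g₀ F y
  have hne : h ≠ 1 := by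
    intro h1
    apply hy₀
    rw [← hcomm, h1, AlgEquiv.one_apply]
  have hmem : h ∈ Ideal.inertia (F ≃ₐ[K] F) Q := by
    intro x
    change h • x - x ∈ Q
    rw [← h𝔏Q, Ideal.mem_comap, map_sub]
    have e : algebraMap (𝓞 F) (𝓞 Ω) (h • x) = g₀ • algebraMap (𝓞 F) (𝓞 Ω) x := by
      apply NumberField.RingOfIntegers.ext
      exact hcomm (x : F)
    rw [e]
    exact hg₀ _
  have hcard : Nat.card (F ≃ₐ[K] F) = p := by
    rw [IsGalois.card_aut_eq_finrank, hdeg]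
  haveI : Fact p.Prime := ⟨hp⟩
  have htop : Subgroup.zpowers h = ⊤ := zpowers_eq_top_of_prime_card hcard hne
  have hle : Subgroup.zpowers h ≤ Ideal.inertia (F ≃ₐ[K] F) Q :=
    (Subgroup.zpowers_le).mpr hmem
  intro g x
  have hg : g ∈ Ideal.inertia (F ≃ₐ[K] F) Q := hle (htop ▸ Subgroup.mem_top g)
  exact hg x

end Fermat.Agent.S14
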