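import Mathlib
import Fermat.Agent.S14.CrossDefs

/-!
# S14 CROSS (helper2): the abstract crossing argument

`FA_S14_cross_abs`: if the splitting of the primes of `F` (outside `T`) in `M` is governed by the
`p`-th power residue character of the absolute norm modulo `ℓ`, principal ideals prime to `T` have
norm a `p`-th power residue, and the split classes have index `≤ p`, then an ideal (prime to `T`)
whose norm is a `p`-th power residue has its class in the split classes.
-/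

set_option autoImplicit false

open scoped NumberField nonZeroDivisors
open IsDedekindDomain

namespace Fermat.Agent.S14

/-- In `(ZMod ℓ)ˣ` (cyclic of order `ℓ - 1`), `x ^ ((ℓ-1)/p) = 1` implies that `x` is a `p`-th power. -/
theorem FA_S14_cross_res_of_pow (ℓ p : ℕ) [Fact ℓ.Prime] (hp : 0 < p) (hpℓ : p ∣ ℓ - 1)
    (x : ZMod ℓ) (hx : x ≠ 0) (h : x ^ ((ℓ - 1) / p) = 1) : ∃ c : ZMod ℓ, c ≠ 0 ∧ x = c ^ p := by
  classical
  obtain ⟨g, hg⟩ := IsCyclic.exists_generator (α := (ZMod ℓ)ˣ)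
  have hord : orderOf g = ℓ - 1 := by
    rw [orderOf_eq_card_of_forall_mem_zpowers hg, Nat.card_eq_fintype_card, ZMod.card_units]
  set u : (ZMod ℓ)ˣ := Units.mk0 x hx with hu
  obtain ⟨n, hn⟩ : ∃ n : ℕ, g ^ n = u := by
    have := hg u
    rw [← mem_powers_iff_mem_zpowers] at this
    exact this
  have hum : u ^ ((ℓ - 1) / p) = 1 := by
    apply Units.ext
    simp [hu, h]
  rw [← hn, ← pow_mul] at hum
  have hdvd : ℓ - 1 ∣ n * ((ℓ - 1) / p) := by
    have := orderOf_dvd_of_pow_eq_one hum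
    rwa [hord] at this
  obtain ⟨m, hm⟩ := hpℓ
  have hℓ1 : 0 < ℓ - 1 := by
    have := (Fact.out : ℓ.Prime).two_le; omega
  have hm0 : 0 < m := by
    rcases Nat.eq_zero_or_pos m with h0 | h0
    · rw [h0, mul_zero] at hm; omega
    · exact h0
  have hdiv : (ℓ - 1) / p = m := by rw [hm]; exact Nat.mul_div_cancel_left m hp
  rw [hdiv, hm] at hdvd
  have hpn : p ∣ n := by
    have := (Nat.mul_dvd_mul_iff_right hm0).mp hdvd
    exact this
  obtain ⟨n', rfl⟩ := hpn
  refine ⟨((g ^ n' : (ZMod ℓ)ˣ) : ZMod ℓ), Units.ne_zero _, ?_⟩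
  have : u = (g ^ n') ^ p := by rw [← hn, ← pow_mul, mul_comm]
  have h2 := congrArg (fun w : (ZMod ℓ)ˣ => (w : ZMod ℓ)) this
  simpa [hu] using h2

/-- A `p`-th power residue is killed by the exponent `(ℓ-1)/p`. -/
theorem FA_S14_cross_pow_of_res (ℓ p : ℕ) [Fact ℓ.Prime] (hpℓ : p ∣ ℓ - 1) (n : ℕ)
    (h : FA_S14_IsRes ℓ p n) : (n : ZMod ℓ) ^ ((ℓ - 1) / p) = 1 := by
  obtain ⟨c, hc, hn⟩ := h
  rw [hn, ← pow_mul, Nat.mul_div_cancel' hpℓ]
  exact ZMod.pow_card_sub_one_eq_one hc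

/-- **Clearing denominators away from `T`**. -/
theorem FA_S14_cross_den {R : Type*} [CommRing R] [IsDedekindDomain R]
    (T : Finset (Ideal R)) (hT : ∀ Q ∈ T, Q.IsPrime)
    (x y : R) (hx : x ≠ 0) (hy : y ≠ 0) (A B : Ideal R)
    (hA : ∀ Q ∈ T, ¬ A ≤ Q) (hB : ∀ Q ∈ T, ¬ B ≤ Q)
    (h : Ideal.span {x} * A = Ideal.span {y} * B) :
    ∃ a b : R, (∀ Q ∈ T, a ∉ Q) ∧ (∀ Q ∈ T, b ∉ Q) ∧ Ideal.span {a} * A = Ideal.span {b} * B := by
  classical
  -- the denominator ideal
  let D : Ideal R := Submodule.colon (Ideal.span {y} : Ideal R) ({x} : Set R)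
  have hDmem : ∀ r : R, r ∈ D ↔ r * x ∈ Ideal.span {y} := by
    intro r
    simp only [D, Submodule.mem_colon_singleton, smul_eq_mul]
  have hDQ : ∀ Q ∈ T, ¬ D ≤ Q := by
    intro Q hQ hle
    have hQp := hT Q hQ
    obtain ⟨β, hβB, hβQ⟩ := SetLike.not_le_iff_exists.mp (hB Q hQ)
    obtain ⟨α', hα'A, hα'Q⟩ := SetLike.not_le_iff_exists.mp (hA Q hQ)
    -- y β = x α
    have h1 : y * β ∈ Ideal.span {x} * A := by
      rw [h]; exact Ideal.mem_span_singleton_mul.mpr ⟨β, hβB, rfl⟩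
    obtain ⟨α, hαA, hα⟩ := Ideal.mem_span_singleton_mul.mp h1
    have h2 : x * α' ∈ Ideal.span {y} * B := by
      rw [← h]; exact Ideal.mem_span_singleton_mul.mpr ⟨α', hα'A, rfl⟩
    obtain ⟨β', hβ'B, hβ'⟩ := Ideal.mem_span_singleton_mul.mp h2
    -- α ∈ D
    have hαD : α ∈ D := by
      rw [hDmem]
      rw [mul_comm, hα]
      exact Ideal.mul_mem_right _ _ (Ideal.mem_span_singleton_self y)
    have hαQ : α ∈ Q := hle hαD
    -- α β' = β α'
    have h3 : α * β' = β * α' := by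
      have hxy : x * y ≠ 0 := mul_ne_zero hx hy
      apply mul_left_cancel₀ hxy
      calc x * y * (α * β') = (x * α) * (y * β') := by ring
        _ = (y * β) * (x * α') := by rw [hα, hβ']
        _ = x * y * (β * α') := by ring
    have h4 : β * α' ∈ Q := by rw [← h3]; exact Ideal.mul_mem_right _ _ hαQ
    rcases hQp.mem_or_mem h4 with h5 | h5
    · exact hβQ h5
    · exact hα'Q h5
  -- prime avoidance
  have hav : ¬ ((D : Set R) ⊆ ⋃ Q ∈ (T : Set (Ideal R)), (Q : Set R)) := by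
    intro hsub
    by_cases hTe : T = ∅
    · subst hTe
      simp only [Finset.coe_empty, Set.mem_empty_iff_false, Set.iUnion_of_empty,
        Set.iUnion_empty, Set.subset_empty_iff] at hsub
      have : (0 : R) ∈ (D : Set R) := D.zero_mem
      rw [hsub] at this
      exact this
    · obtain ⟨Q₀, hQ₀⟩ := Finset.nonempty_iff_ne_empty.mpr hTe
      have := (Ideal.subset_union_prime (s := T) (f := fun Q => Q) Q₀ Q₀
        (fun Q hQ _ _ => hT Q hQ) (I := D)).mp hsub
      obtain ⟨Q, hQ, hle⟩ := this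
      exact hDQ Q hQ hle
  obtain ⟨b, hbD, hb⟩ := Set.not_subset.mp hav
  have hbT : ∀ Q ∈ T, b ∉ Q := by
    intro Q hQ hbQ
    apply hb
    simp only [Set.mem_iUnion]
    exact ⟨Q, hQ, hbQ⟩
  obtain ⟨a, ha⟩ := Ideal.mem_span_singleton'.mp ((hDmem b).mp hbD)
  -- a * y = b * x
  have hab : Ideal.span {a} * A = Ideal.span {b} * B := by
    have hxne : (Ideal.span {x} : Ideal R) ≠ 0 := by
      rw [Ne, Ideal.zero_eq_bot, Ideal.span_singleton_eq_bot]; exact hx
    apply mul_left_cancel₀ hxne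
    calc Ideal.span {x} * (Ideal.span {a} * A)
        = Ideal.span {a} * (Ideal.span {x} * A) := by ring
      _ = Ideal.span {a} * (Ideal.span {y} * B) := by rw [h]
      _ = Ideal.span {a * y} * B := by
          rw [← mul_assoc, Ideal.span_singleton_mul_span_singleton]
      _ = Ideal.span {b * x} * B := by rw [ha]
      _ = Ideal.span {x} * (Ideal.span {b} * B) := by
          rw [← Ideal.span_singleton_mul_span_singleton]; ring
  refine ⟨a, b, ?_, hbT, hab⟩
  intro Q hQ haQ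
  have hQp := hT Q hQ
  have h1 : Ideal.span {a} * A ≤ Q :=
    (Ideal.mul_le_left (I := Ideal.span {a}) (J := A)).trans ((Ideal.span_singleton_le_iff_mem Q).mpr haQ)

  rw [hab, hQp.mul_le] at h1
  rcases h1 with h1 | h1
  · exact hbT Q hQ ((Ideal.span_singleton_le_iff_mem Q).mp h1)
  · exact hB Q hQ h1

end Fermat.Agent.S14
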