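import Mathlib
import Fermat.Agent.S14.CrossAbs

/-!
# S14 CROSS (helper2): the abstract crossing argument, main theorem
-/

set_option autoImplicit false

open scoped NumberField nonZeroDivisors
open IsDedekindDomain

namespace Fermat.Agent.S14

section

variable (F : Type) [Field F] [NumberField F] (ℓ p : ℕ)

/-- The `p`-th power residue character of the absolute norm (with value `0` on ideals not prime
to `ℓ`). -/
noncomputable def FA_S14_cross_kappa (I : Ideal (𝓞 F)) : ZMod ℓ :=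
  ((Ideal.absNorm I : ℕ) : ZMod ℓ) ^ ((ℓ - 1) / p)

theorem FA_S14_cross_kappa_mul (I J : Ideal (𝓞 F)) :
    FA_S14_cross_kappa F ℓ p (I * J) = FA_S14_cross_kappa F ℓ p I * FA_S14_cross_kappa F ℓ p J := by
  simp only [FA_S14_cross_kappa, map_mul, Nat.cast_mul, mul_pow]

theorem FA_S14_cross_kappa_one : FA_S14_cross_kappa F ℓ p (1 : Ideal (𝓞 F)) = 1 := by
  simp [FA_S14_cross_kappa]

theorem FA_S14_cross_kappa_pow (I : Ideal (𝓞 F)) (n : ℕ) :
    FA_S14_cross_kappa F ℓ p (I ^ n) = FA_S14_cross_kappa F ℓ p I ^ n := by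
  induction n with
  | zero => simp [FA_S14_cross_kappa]
  | succ n ih => rw [pow_succ, pow_succ, FA_S14_cross_kappa_mul, ih]

variable {F ℓ p}

theorem FA_S14_cross_kappa_ne_zero [Fact ℓ.Prime] {I : Ideal (𝓞 F)}
    (h : ((Ideal.absNorm I : ℕ) : ZMod ℓ) ≠ 0) :
    FA_S14_cross_kappa F ℓ p I ≠ 0 := pow_ne_zero _ h

theorem FA_S14_cross_kappa_pow_p [Fact ℓ.Prime] (hpℓ : p ∣ ℓ - 1) {I : Ideal (𝓞 F)}
    (h : ((Ideal.absNorm I : ℕ) : ZMod ℓ) ≠ 0) : FA_S14_cross_kappa F ℓ p I ^ p = 1 := by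
  rw [FA_S14_cross_kappa, ← pow_mul, Nat.div_mul_cancel hpℓ]
  exact ZMod.pow_card_sub_one_eq_one h

/-- Well-definedness of the character on classes of ideals prime to `T`. -/
theorem FA_S14_cross_wd [Fact ℓ.Prime] (hpℓ : p ∣ ℓ - 1)
    (T : Finset (Ideal (𝓞 F))) (hT : ∀ Q ∈ T, Q.IsPrime)
    (hprinc : ∀ a : 𝓞 F, (∀ Q ∈ T, a ∉ Q) →
      FA_S14_IsRes ℓ p (Ideal.absNorm (Ideal.span {a})))
    (I J : (Ideal (𝓞 F))⁰) (hI : ∀ Q ∈ T, ¬ (I : Ideal (𝓞 F)) ≤ Q)
    (hJ : ∀ Q ∈ T, ¬ (J : Ideal (𝓞 F)) ≤ Q)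
    (h : ClassGroup.mk0 I = ClassGroup.mk0 J) :
    FA_S14_cross_kappa F ℓ p I = FA_S14_cross_kappa F ℓ p J := by
  obtain ⟨x, y, hx, hy, hxy⟩ := ClassGroup.mk0_eq_mk0_iff.mp h
  obtain ⟨a, b, ha, hb, hab⟩ := FA_S14_cross_den T hT x y hx hy I J hI hJ hxy
  have h1 := congrArg (FA_S14_cross_kappa F ℓ p) hab
  rw [FA_S14_cross_kappa_mul, FA_S14_cross_kappa_mul] at h1
  have ka : FA_S14_cross_kappa F ℓ p (Ideal.span {a}) = 1 :=
    FA_S14_cross_pow_of_res ℓ p hpℓ _ (hprinc a ha)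
  have kb : FA_S14_cross_kappa F ℓ p (Ideal.span {b}) = 1 :=
    FA_S14_cross_pow_of_res ℓ p hpℓ _ (hprinc b hb)
  rwa [ka, kb, one_mul, one_mul] at h1

end

/-- **Abstract crossing.** -/
theorem FA_S14_cross_abs
    (p ℓ : ℕ) [Fact ℓ.Prime] (hp : p.Prime) (hpℓ : p ∣ ℓ - 1)
    (F M : Type) [Field F] [Field M] [NumberField F] [NumberField M] [Algebra F M]
    (T : Finset (Ideal (𝓞 F))) (hT : ∀ Q ∈ T, Q.IsPrime)
    (hcop : ∀ v : HeightOneSpectrum (𝓞 F), v.asIdeal ∉ T →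
      ((Ideal.absNorm v.asIdeal : ℕ) : ZMod ℓ) ≠ 0)
    (hidx : (FA_S14_splitClasses F M p T).index ≤ p)
    (hsplit : ∀ v : HeightOneSpectrum (𝓞 F), v.asIdeal ∉ T →
      FA_S14_SplitsCompletely F M v.asIdeal → FA_S14_IsRes ℓ p (Ideal.absNorm v.asIdeal))
    (hprinc : ∀ a : 𝓞 F, (∀ Q ∈ T, a ∉ Q) →
      FA_S14_IsRes ℓ p (Ideal.absNorm (Ideal.span {a})))
    (v v₀ : HeightOneSpectrum (𝓞 F)) (hv : v.asIdeal ∉ T) (hv₀ : v₀.asIdeal ∉ T)
    (h₀ : ¬ FA_S14_IsRes ℓ p (Ideal.absNorm v₀.asIdeal))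
    (k : ℕ) (hk : FA_S14_IsRes ℓ p (Ideal.absNorm v.asIdeal * Ideal.absNorm v₀.asIdeal ^ k)) :
    FA_S14_primeClass F v * FA_S14_primeClass F v₀ ^ k ∈ FA_S14_splitClasses F M p T := by
  classical
  set κ := FA_S14_cross_kappa F ℓ p with hκ
  -- coprimality of primes outside `T`
  have hcopv : ∀ w : HeightOneSpectrum (𝓞 F), w.asIdeal ∉ T → ∀ Q ∈ T, ¬ w.asIdeal ≤ Q := by
    intro w hw Q hQ hle
    have hQp := hT Q hQ
    have : w.asIdeal = Q := (w.isMaximal.eq_of_le hQp.ne_top hle)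
    exact hw (this ▸ hQ)
  -- the subgroup `D'`
  let D' : Subgroup (ClassGroup (𝓞 F)) :=
    { carrier := {c | ∃ I J : (Ideal (𝓞 F))⁰,
        (∀ Q ∈ T, ¬ (I : Ideal (𝓞 F)) ≤ Q) ∧ (∀ Q ∈ T, ¬ (J : Ideal (𝓞 F)) ≤ Q) ∧
        ((Ideal.absNorm (I : Ideal (𝓞 F)) : ℕ) : ZMod ℓ) ≠ 0 ∧
        ((Ideal.absNorm (J : Ideal (𝓞 F)) : ℕ) : ZMod ℓ) ≠ 0 ∧
        c * ClassGroup.mk0 J = ClassGroup.mk0 I ∧ κ I = κ J}
      one_mem' := by
        refine ⟨1, 1, ?_, ?_, ?_, ?_, by simp, rfl⟩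
        · intro Q hQ hle
          exact (hT Q hQ).ne_top (top_le_iff.mp (by simpa using hle))
        · intro Q hQ hle
          exact (hT Q hQ).ne_top (top_le_iff.mp (by simpa using hle))
        · simp
        · simp
      mul_mem' := by
        rintro c c' ⟨I, J, hI, hJ, nI, nJ, hc, hk⟩ ⟨I', J', hI', hJ', nI', nJ', hc', hk'⟩
        refine ⟨I * I', J * J', ?_, ?_, ?_, ?_, ?_, ?_⟩
        · intro Q hQ hle
          rcases ((hT Q hQ).mul_le).mp (by simpa using hle) with h | h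
          · exact hI Q hQ h
          · exact hI' Q hQ h
        · intro Q hQ hle
          rcases ((hT Q hQ).mul_le).mp (by simpa using hle) with h | h
          · exact hJ Q hQ h
          · exact hJ' Q hQ h
        · simp only [Submonoid.coe_mul, map_mul, Nat.cast_mul]
          exact mul_ne_zero nI nI'
        · simp only [Submonoid.coe_mul, map_mul, Nat.cast_mul]
          exact mul_ne_zero nJ nJ'
        · rw [map_mul, map_mul, ← hc, ← hc']
          exact mul_mul_mul_comm _ _ _ _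
        · simp only [Submonoid.coe_mul, hκ, FA_S14_cross_kappa_mul]
          rw [← hκ, hk, hk']
      inv_mem' := by
        rintro c ⟨I, J, hI, hJ, nI, nJ, hc, hk⟩
        refine ⟨J, I, hJ, hI, nJ, nI, ?_, hk.symm⟩
        rw [← hc]; simp }
  have hD'mem : ∀ c, c ∈ D' ↔ ∃ I J : (Ideal (𝓞 F))⁰,
        (∀ Q ∈ T, ¬ (I : Ideal (𝓞 F)) ≤ Q) ∧ (∀ Q ∈ T, ¬ (J : Ideal (𝓞 F)) ≤ Q) ∧
        ((Ideal.absNorm (I : Ideal (𝓞 F)) : ℕ) : ZMod ℓ) ≠ 0 ∧
        ((Ideal.absNorm (J : Ideal (𝓞 F)) : ℕ) : ZMod ℓ) ≠ 0 ∧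
        c * ClassGroup.mk0 J = ClassGroup.mk0 I ∧ κ I = κ J := fun c => Iff.rfl
  -- primes outside `T` as elements of `(Ideal (𝓞 F))⁰`
  let pr : HeightOneSpectrum (𝓞 F) → (Ideal (𝓞 F))⁰ :=
    fun w => ⟨w.asIdeal, mem_nonZeroDivisors_of_ne_zero w.ne_bot⟩
  have hpr : ∀ w, FA_S14_primeClass F w = ClassGroup.mk0 (pr w) := fun w => rfl
  have hone : ∀ Q ∈ T, ¬ (((1 : (Ideal (𝓞 F))⁰) : Ideal (𝓞 F))) ≤ Q := by
    intro Q hQ hle
    exact (hT Q hQ).ne_top (top_le_iff.mp (by simpa using hle))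
  have hnone : ((Ideal.absNorm (((1 : (Ideal (𝓞 F))⁰) : Ideal (𝓞 F))) : ℕ) : ZMod ℓ) ≠ 0 := by
    simp
  have hκone : κ (((1 : (Ideal (𝓞 F))⁰) : Ideal (𝓞 F))) = 1 := by
    simp [hκ, FA_S14_cross_kappa]
  -- the split classes are contained in `D'`
  have hND : FA_S14_splitClasses F M p T ≤ D' := by
    rw [FA_S14_splitClasses, Subgroup.closure_le]
    rintro c (⟨w, hw, hws, rfl⟩ | ⟨w, hw, rfl⟩)
    · refine (hD'mem _).mpr ⟨pr w, 1, hcopv w hw, hone, hcop w hw, hnone, by simp [hpr], ?_⟩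
      rw [hκone]
      exact FA_S14_cross_pow_of_res ℓ p hpℓ _ (hsplit w hw hws)
    · refine (hD'mem _).mpr ⟨pr w ^ p, 1, ?_, hone, ?_, hnone, by simp [hpr], ?_⟩
      · intro Q hQ hle
        have : w.asIdeal ≤ Q := (hT Q hQ).le_of_pow_le (by simpa [pr] using hle)
        exact hcopv w hw Q hQ this
      · simp only [pr, SubmonoidClass.coe_pow, map_pow, Nat.cast_pow]
        exact pow_ne_zero _ (hcop w hw)
      · rw [hκone]
        simp only [pr, SubmonoidClass.coe_pow, hκ, FA_S14_cross_kappa_pow]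
        exact FA_S14_cross_kappa_pow_p hpℓ (hcop w hw)
  -- the target is in `D'`
  have hcD : FA_S14_primeClass F v * FA_S14_primeClass F v₀ ^ k ∈ D' := by
    refine (hD'mem _).mpr ⟨pr v * pr v₀ ^ k, 1, ?_, hone, ?_, hnone, by simp [hpr], ?_⟩
    · intro Q hQ hle
      rcases ((hT Q hQ).mul_le).mp (by simpa using hle) with h | h
      · exact hcopv v hv Q hQ h
      · exact hcopv v₀ hv₀ Q hQ ((hT Q hQ).le_of_pow_le (by simpa [pr] using h))
    · simp only [pr, Submonoid.coe_mul, SubmonoidClass.coe_pow, map_mul, map_pow, Nat.cast_mul,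
        Nat.cast_pow]
      exact mul_ne_zero (hcop v hv) (pow_ne_zero _ (hcop v₀ hv₀))
    · rw [hκone]
      have := FA_S14_cross_pow_of_res ℓ p hpℓ _ hk
      simpa [pr, hκ, FA_S14_cross_kappa, map_mul, map_pow] using this
  -- powers of `[v₀]` outside `D'`
  have hκ₀ : κ v₀.asIdeal ≠ 1 := by
    intro h1
    apply h₀
    exact FA_S14_cross_res_of_pow ℓ p hp.pos hpℓ _ (hcop v₀ hv₀) h1
  have hpow : ∀ i : ℕ, 0 < i → i < p → FA_S14_primeClass F v₀ ^ i ∉ D' := by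
    intro i hi hip hmem
    obtain ⟨I, J, hI, hJ, nI, nJ, hc, hkIJ⟩ := (hD'mem _).mp hmem
    have hJ' : ∀ Q ∈ T, ¬ ((pr v₀ ^ i * J : (Ideal (𝓞 F))⁰) : Ideal (𝓞 F)) ≤ Q := by
      intro Q hQ hle
      rcases ((hT Q hQ).mul_le).mp (by simpa using hle) with h | h
      · exact hcopv v₀ hv₀ Q hQ ((hT Q hQ).le_of_pow_le (by simpa [pr] using h))
      · exact hJ Q hQ h
    have hmk : ClassGroup.mk0 (pr v₀ ^ i * J) = ClassGroup.mk0 I := by
      rw [map_mul, map_pow, ← hpr]; exact hc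
    have h1 := FA_S14_cross_wd hpℓ T hT hprinc (pr v₀ ^ i * J) I hJ' hI hmk
    rw [← hκ] at h1
    have h2 : κ v₀.asIdeal ^ i * κ J = κ J := by
      have : κ ((pr v₀ ^ i * J : (Ideal (𝓞 F))⁰) : Ideal (𝓞 F)) = κ v₀.asIdeal ^ i * κ J := by
        simp only [pr, Submonoid.coe_mul, SubmonoidClass.coe_pow, hκ, FA_S14_cross_kappa_mul,
          FA_S14_cross_kappa_pow]
      rw [← this, h1, hkIJ]
    have hJne : κ (J : Ideal (𝓞 F)) ≠ 0 := FA_S14_cross_kappa_ne_zero nJ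
    have h3 : κ v₀.asIdeal ^ i = 1 := by
      have := mul_right_cancel₀ hJne (h2.trans (one_mul _).symm)
      exact this
    have h4 : κ v₀.asIdeal ^ p = 1 := FA_S14_cross_kappa_pow_p hpℓ (hcop v₀ hv₀)
    -- gcd(i,p) = 1
    have hcop' : Nat.Coprime i p :=
      (Nat.coprime_comm.mp ((Nat.Prime.coprime_iff_not_dvd hp).mpr
        (fun hd => absurd (Nat.le_of_dvd hi hd) (by omega))))
    have h5 : κ v₀.asIdeal ^ (Nat.gcd i p) = 1 := pow_gcd_eq_one.mpr ⟨h3, h4⟩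
    rw [hcop', pow_one] at h5
    exact hκ₀ h5
  -- index count
  by_contra hnot
  have hfin : (FA_S14_splitClasses F M p T).index ≠ 0 := Subgroup.index_ne_zero_of_finite
  have hD'fin : D'.index ≠ 0 := Subgroup.index_ne_zero_of_finite
  have h1 := Subgroup.relIndex_mul_index hND
  have h2 : 2 ≤ (FA_S14_splitClasses F M p T).relIndex D' := by
    have hne1 : (FA_S14_splitClasses F M p T).relIndex D' ≠ 1 := by
      intro h
      exact hnot ((Subgroup.relIndex_eq_one.mp h) hcD)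
    have hne0 : (FA_S14_splitClasses F M p T).relIndex D' ≠ 0 := by
      intro h
      rw [h, zero_mul] at h1
      exact hfin h1.symm
    omega
  have h3 : p ≤ D'.index := by
    -- the cosets of `[v₀]^i`, `i < p`, are distinct
    have hinj : Function.Injective (fun i : Fin p =>
        (QuotientGroup.mk (FA_S14_primeClass F v₀ ^ (i : ℕ)) : ClassGroup (𝓞 F) ⧸ D')) := by
      intro i j hij
      by_contra hne
      have key : ∀ a b : ℕ, a < b → b < p →
          (QuotientGroup.mk (FA_S14_primeClass F v₀ ^ a) : ClassGroup (𝓞 F) ⧸ D') =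
            QuotientGroup.mk (FA_S14_primeClass F v₀ ^ b) → False := by
        intro a b hab hb h
        rw [QuotientGroup.eq] at h
        have : FA_S14_primeClass F v₀ ^ (b - a) ∈ D' := by
          have e : (FA_S14_primeClass F v₀ ^ a)⁻¹ * FA_S14_primeClass F v₀ ^ b =
              FA_S14_primeClass F v₀ ^ (b - a) := by
            rw [inv_mul_eq_iff_eq_mul, ← pow_add]
            congr 1; omega
          rwa [e] at h
        exact hpow (b - a) (by omega) (by omega) this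
      rcases lt_trichotomy (i : ℕ) (j : ℕ) with h | h | h
      · exact key i j h j.2 hij
      · exact hne (Fin.ext h)
      · exact key j i h i.2 hij.symm
    have hcard := Nat.card_le_card_of_injective _ hinj
    rw [Nat.card_eq_fintype_card, Fintype.card_fin] at hcard
    exact hcard
  have : 2 * p ≤ (FA_S14_splitClasses F M p T).index := by
    rw [← h1]; exact Nat.mul_le_mul h2 h3
  have hp2 := hp.two_le
  omega

end Fermat.Agent.S14
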