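import Mathlib
import Fermat.Agent.S14.CrossDefs

/-!
# S14 (item 75), leaf CROSS: descent of split classes along the norm (helper2)

`K ⊆ L ⊆ M`, `K ⊆ F ⊆ M`, `[L : K] = p`.  The norm `N_{F/K}` maps the subgroup of `Cl_F` generated
by the classes of the primes that split completely in `M` and by the `p`-th powers into the
subgroup of `Cl_K` generated by the norms from `L`.
-/

set_option autoImplicit false

open scoped NumberField nonZeroDivisors
open IsDedekindDomain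

namespace Fermat.Agent.S14

section

variable (K F : Type) [Field K] [Field F] [NumberField K] [NumberField F] [Algebra K F]

/-- The relative norm on nonzero ideals. -/
noncomputable def FA_S14_cross_rn0 : (Ideal (𝓞 F))⁰ →* (Ideal (𝓞 K))⁰ where
  toFun I := ⟨Ideal.relNorm (𝓞 K) (I : Ideal (𝓞 F)), mem_nonZeroDivisors_of_ne_zero (by
    rw [Ne, Ideal.zero_eq_bot, Ideal.relNorm_eq_bot_iff]
    exact nonZeroDivisors.coe_ne_zero I)⟩
  map_one' := Subtype.ext (by simp [Ideal.one_eq_top])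
  map_mul' I J := Subtype.ext (map_mul _ _ _)

@[simp]
theorem FA_S14_cross_rn0_coe (I : (Ideal (𝓞 F))⁰) :
    ((FA_S14_cross_rn0 K F I : (Ideal (𝓞 K))⁰) : Ideal (𝓞 K)) =
      Ideal.relNorm (𝓞 K) (I : Ideal (𝓞 F)) := rfl

/-- The norm is compatible with the class relation. -/
theorem FA_S14_cross_rn0_class {I J : (Ideal (𝓞 F))⁰}
    (h : ClassGroup.mk0 I = ClassGroup.mk0 J) :
    ClassGroup.mk0 (FA_S14_cross_rn0 K F I) = ClassGroup.mk0 (FA_S14_cross_rn0 K F J) := by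
  rw [ClassGroup.mk0_eq_mk0_iff] at h ⊢
  obtain ⟨x, y, hx, hy, hxy⟩ := h
  refine ⟨Algebra.intNorm (𝓞 K) (𝓞 F) x, Algebra.intNorm (𝓞 K) (𝓞 F) y, ?_, ?_, ?_⟩
  · rwa [Ne, Algebra.intNorm_eq_zero]
  · rwa [Ne, Algebra.intNorm_eq_zero]
  · have := congrArg (Ideal.relNorm (𝓞 K)) hxy
    rw [map_mul, map_mul, Ideal.relNorm_singleton, Ideal.relNorm_singleton] at this
    exact this

/-- The subgroup of classes whose norm lies in a given subgroup. -/
noncomputable def FA_S14_cross_normPre (N : Subgroup (ClassGroup (𝓞 K))) :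
    Subgroup (ClassGroup (𝓞 F)) where
  carrier := {c | ∃ I : (Ideal (𝓞 F))⁰, ClassGroup.mk0 I = c ∧
    ClassGroup.mk0 (FA_S14_cross_rn0 K F I) ∈ N}
  one_mem' := ⟨1, map_one _, by rw [map_one, map_one]; exact N.one_mem⟩
  mul_mem' := by
    rintro a b ⟨I, rfl, hI⟩ ⟨J, rfl, hJ⟩
    exact ⟨I * J, map_mul _ _ _, by rw [map_mul, map_mul]; exact N.mul_mem hI hJ⟩
  inv_mem' := by
    rintro a ⟨I, rfl, hI⟩
    obtain ⟨J, hJ⟩ := ClassGroup.mk0_surjective ((ClassGroup.mk0 I)⁻¹)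
    refine ⟨J, hJ, ?_⟩
    have h1 : ClassGroup.mk0 (I * J) = ClassGroup.mk0 (1 : (Ideal (𝓞 F))⁰) := by
      rw [map_mul, hJ, map_one, mul_inv_cancel]
    have h2 := FA_S14_cross_rn0_class K F h1
    rw [map_mul, map_mul, map_one, map_one] at h2
    have h3 : ClassGroup.mk0 (FA_S14_cross_rn0 K F J) =
        (ClassGroup.mk0 (FA_S14_cross_rn0 K F I))⁻¹ := eq_inv_of_mul_eq_one_right h2
    rw [h3]
    exact N.inv_mem hI

theorem FA_S14_cross_mem_normPre {N : Subgroup (ClassGroup (𝓞 K))} {I : (Ideal (𝓞 F))⁰}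
    (h : ClassGroup.mk0 I ∈ FA_S14_cross_normPre K F N) :
    ClassGroup.mk0 (FA_S14_cross_rn0 K F I) ∈ N := by
  obtain ⟨J, hJ, hJN⟩ := h
  rwa [← FA_S14_cross_rn0_class K F hJ]

end

section tower

variable (p : ℕ) (K L F M : Type) [Field K] [Field L] [Field F] [Field M]
  [NumberField K] [NumberField L] [NumberField F] [NumberField M]
  [Algebra K L] [Algebra K F] [Algebra K M] [Algebra L M] [Algebra F M]
  [IsScalarTower K L M] [IsScalarTower K F M]

/-- The norm of a prime of `F` that splits completely in `M` is a norm from `L`. -/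
theorem FA_S14_cross_descent_split (w : HeightOneSpectrum (𝓞 F))
    (hw : FA_S14_SplitsCompletely F M w.asIdeal) :
    ClassGroup.mk0 (FA_S14_cross_rn0 K F
      ⟨w.asIdeal, mem_nonZeroDivisors_of_ne_zero w.ne_bot⟩) ∈ FA_S14_normClasses K L := by
  have : w.asIdeal.IsMaximal := w.isMaximal
  obtain ⟨W, hWmax, hWover⟩ :=
    Ideal.exists_maximal_ideal_liesOver_of_isIntegral (S := 𝓞 M) w.asIdeal
  have hWu : W.under (𝓞 F) = w.asIdeal := (hWover.over).symm
  obtain ⟨-, hf⟩ := hw W hWmax.isPrime hWu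
  have h1 : Ideal.relNorm (𝓞 F) W = w.asIdeal := by
    rw [Ideal.relNorm_eq_pow_of_isMaximal W w.asIdeal, hf, pow_one]
  have hW0 : W ≠ ⊥ := by
    intro h
    rw [h, Ideal.relNorm_bot] at h1
    exact w.ne_bot h1.symm
  have h2 : Ideal.relNorm (𝓞 K) w.asIdeal =
      Ideal.relNorm (𝓞 K) (Ideal.relNorm (𝓞 L) W) := by
    rw [← h1, Ideal.relNorm_relNorm (𝓞 K) (𝓞 F), Ideal.relNorm_relNorm (𝓞 K) (𝓞 L)]
  refine Subgroup.subset_closure ⟨Ideal.relNorm (𝓞 L) W, _, ?_, ?_, rfl⟩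
  · rwa [Ne, Ideal.relNorm_eq_bot_iff]
  · exact h2

end tower

section pow

variable (p : ℕ) (K L : Type) [Field K] [Field L] [NumberField K] [NumberField L] [Algebra K L]

/-- The `p`-th power of a class is a norm from `L` if `[L : K] = p`. -/
theorem FA_S14_cross_descent_pow (hKL : Module.finrank K L = p) (I : (Ideal (𝓞 K))⁰) :
    ClassGroup.mk0 I ^ p ∈ FA_S14_normClasses K L := by
  have hfr : Module.finrank (𝓞 K) (𝓞 L) = p := by
    rw [← hKL]
    exact (IsFractionRing.finrank_eq (𝓞 K) K (𝓞 L) L).symm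
  have h := Ideal.relNorm_algebraMap (𝓞 L) (I : Ideal (𝓞 K))
  rw [hfr] at h
  have hI0 : (I : Ideal (𝓞 K)) ≠ ⊥ := nonZeroDivisors.coe_ne_zero I
  refine Subgroup.subset_closure
    ⟨(I : Ideal (𝓞 K)).map (algebraMap (𝓞 K) (𝓞 L)), I ^ p, ?_, ?_, (map_pow _ _ _).symm⟩
  · intro h0
    rw [h0, Ideal.relNorm_bot] at h
    exact hI0 (pow_eq_zero_iff (hKL ▸ Module.finrank_pos.ne' : p ≠ 0) |>.1 h.symm)
  · rw [h]
    rfl

end pow

section main

variable (p : ℕ) (K L F M : Type) [Field K] [Field L] [Field F] [Field M]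
  [NumberField K] [NumberField L] [NumberField F] [NumberField M]
  [Algebra K L] [Algebra K F] [Algebra K M] [Algebra L M] [Algebra F M]
  [IsScalarTower K L M] [IsScalarTower K F M]

/-- The split classes of `M/F` are mapped into the norm classes of `L/K` by the norm. -/
theorem FA_S14_cross_descent_le (hKL : Module.finrank K L = p) (T : Finset (Ideal (𝓞 F))) :
    FA_S14_splitClasses F M p T ≤ FA_S14_cross_normPre K F (FA_S14_normClasses K L) := by
  unfold FA_S14_splitClasses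
  rw [Subgroup.closure_le]
  rintro c (⟨w, -, hw, rfl⟩ | ⟨w, -, rfl⟩)
  · exact ⟨_, rfl, FA_S14_cross_descent_split K L F M w hw⟩
  · refine ⟨⟨w.asIdeal, mem_nonZeroDivisors_of_ne_zero w.ne_bot⟩ ^ p, map_pow _ _ _, ?_⟩
    rw [map_pow, map_pow]
    exact FA_S14_cross_descent_pow p K L hKL _

/-- **Descent**: if `[v][v₀]^k` is a split class of `M/F` and `N_{F/K} v = 𝔮`, `N_{F/K} v₀ = 𝔮₀`,
then `[𝔮][𝔮₀]^k` is a norm class of `L/K`. -/
theorem FA_S14_cross_descent (hKL : Module.finrank K L = p) (T : Finset (Ideal (𝓞 F)))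
    (v v₀ : HeightOneSpectrum (𝓞 F)) (𝔮 𝔮₀ : HeightOneSpectrum (𝓞 K))
    (hv : Ideal.relNorm (𝓞 K) v.asIdeal = 𝔮.asIdeal)
    (hv₀ : Ideal.relNorm (𝓞 K) v₀.asIdeal = 𝔮₀.asIdeal) (k : ℕ)
    (h : FA_S14_primeClass F v * FA_S14_primeClass F v₀ ^ k ∈ FA_S14_splitClasses F M p T) :
    FA_S14_primeClass K 𝔮 * FA_S14_primeClass K 𝔮₀ ^ k ∈ FA_S14_normClasses K L := by
  have h1 := FA_S14_cross_descent_le p K L F M hKL T h
  unfold FA_S14_primeClass at h1
  rw [← map_pow, ← map_mul] at h1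
  have h2 := FA_S14_cross_mem_normPre K F h1
  rw [map_mul, map_pow, map_mul, map_pow] at h2
  have e1 : FA_S14_cross_rn0 K F ⟨v.asIdeal, mem_nonZeroDivisors_of_ne_zero v.ne_bot⟩ =
      ⟨𝔮.asIdeal, mem_nonZeroDivisors_of_ne_zero 𝔮.ne_bot⟩ := Subtype.ext hv
  have e2 : FA_S14_cross_rn0 K F ⟨v₀.asIdeal, mem_nonZeroDivisors_of_ne_zero v₀.ne_bot⟩ =
      ⟨𝔮₀.asIdeal, mem_nonZeroDivisors_of_ne_zero 𝔮₀.ne_bot⟩ := Subtype.ext hv₀
  rw [e1, e2] at h2
  exact h2

end main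

end Fermat.Agent.S14
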