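import Mathlib
import Fermat.Agent.S14.CrossField2
import Fermat.Agent.S14.CrossAbs2
import Fermat.Agent.S14.CrossDescent

/-!
# S14 (item 75), leaf CROSS: assembly (helper2)

`FA_S14_cross_main` : the crossing for a given auxiliary prime `ℓ` and a given field `Ω = L(ζ_ℓ)`.
-/

set_option autoImplicit false

open scoped NumberField nonZeroDivisors
open IsDedekindDomain

namespace Fermat.Agent.S14

/-- A prime of `K` of prime norm `q ≠ ℓ` does not contain `ℓ`. -/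
theorem FA_S14_cross_not_mem (K : Type) [Field K] [NumberField K] (ℓ : ℕ) (hℓ : ℓ.Prime)
    (𝔮 : HeightOneSpectrum (𝓞 K)) (hq : (Ideal.absNorm 𝔮.asIdeal).Prime)
    (hne : ℓ ≠ Ideal.absNorm 𝔮.asIdeal) : (ℓ : 𝓞 K) ∉ 𝔮.asIdeal := by
  intro hmem
  have hq' : ((Ideal.absNorm 𝔮.asIdeal : ℕ) : 𝓞 K) ∈ 𝔮.asIdeal := Ideal.absNorm_mem 𝔮.asIdeal
  have hcop : IsCoprime (ℓ : ℤ) ((Ideal.absNorm 𝔮.asIdeal : ℕ) : ℤ) :=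
    Nat.isCoprime_iff_coprime.2 ((Nat.coprime_primes hℓ hq).2 hne)
  obtain ⟨a, b, hab⟩ := hcop
  have h1 : ((a : 𝓞 K) * (ℓ : 𝓞 K) + (b : 𝓞 K) * ((Ideal.absNorm 𝔮.asIdeal : ℕ) : 𝓞 K)) = 1 := by
    have := congrArg (Int.cast : ℤ → 𝓞 K) hab
    push_cast at this
    exact this
  have h2 : (1 : 𝓞 K) ∈ 𝔮.asIdeal := by
    rw [← h1]
    exact Ideal.add_mem _ (Ideal.mul_mem_left _ _ hmem) (Ideal.mul_mem_left _ _ hq')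
  exact 𝔮.isPrime.ne_top ((Ideal.eq_top_iff_one _).2 h2)

/-- There is a prime of `𝓞 Ω` containing the prime number `ℓ`. -/
theorem FA_S14_cross_exists_prime (Ω : Type) [Field Ω] [NumberField Ω] (ℓ : ℕ) (hℓ : ℓ.Prime) :
    ∃ 𝔏 : Ideal (𝓞 Ω), 𝔏.IsPrime ∧ (ℓ : 𝓞 Ω) ∈ 𝔏 := by
  have hne : Ideal.span {(ℓ : 𝓞 Ω)} ≠ ⊤ := by
    intro h
    have h1 := Ideal.absNorm_span_natCast (S := 𝓞 Ω) ℓ
    rw [h, Ideal.absNorm_top] at h1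
    have h2 : 0 < Module.finrank ℤ (𝓞 Ω) := Module.finrank_pos
    have h3 : ℓ ≤ ℓ ^ Module.finrank ℤ (𝓞 Ω) := Nat.le_self_pow h2.ne' ℓ
    have := hℓ.two_le
    omega
  obtain ⟨𝔏, hmax, hle⟩ := Ideal.exists_le_maximal _ hne
  exact ⟨𝔏, hmax.isPrime, hle (Ideal.mem_span_singleton_self _)⟩

/-- **CROSS for a given auxiliary prime and a given field `Ω = L(ζ_ℓ)`.** -/
theorem FA_S14_cross_main
    (hI2 : FA_S14_Target_Ineq2G) (hNormP : FA_S14_Target_NormP) (hCyc : FA_S14_Target_CfCyc)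
    (hRam : FA_S14_Target_CfRam) (hSplit : FA_S14_Target_CfSplit)
    (hPrime : FA_S14_Target_CfPrime) (hTot : FA_S14_Target_CfTotRam)
    (hCop : FA_S14_Target_CfCop) (hFin : FA_S14_Target_CfFin) (hFrob : FA_S14_Target_CfFrob)
    (hPkg : FA_S14_Target_CfPkg)
    (p ℓ : ℕ) (hp : p.Prime) (h3 : 3 ≤ p) (hℓ : ℓ.Prime) (hℓp : ℓ ≠ p) (hpℓ : p ∣ ℓ - 1)
    (K L Ω : Type) [Field K] [Field L] [Field Ω] [NumberField K] [NumberField L]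
    [NumberField Ω] [Algebra K L] [Algebra K Ω] [Algebra L Ω] [IsScalarTower K L Ω]
    [IsCyclotomicExtension {p} ℚ K] [IsGalois K L] [IsGalois K Ω]
    [IsCyclotomicExtension {ℓ} L Ω]
    (hdeg : Module.finrank K L = p) (hunr : FA_S14_Unramified K L)
    (𝔮 𝔮₀ : HeightOneSpectrum (𝓞 K)) (P P₀ : Ideal (𝓞 L)) (σ σ₀ : L ≃ₐ[K] L) (u : ℕ)
    (hP : P.IsPrime) (hP₀ : P₀.IsPrime) (hPu : P.under (𝓞 K) = 𝔮.asIdeal)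
    (hP₀u : P₀.under (𝓞 K) = 𝔮₀.asIdeal)
    (hσ : IsArithFrobAt (𝓞 K) σ P) (hσ₀ : IsArithFrobAt (𝓞 K) σ₀ P₀) (hσ₀1 : σ₀ ≠ 1)
    (hσu : σ = σ₀ ^ u)
    (hq : (Ideal.absNorm 𝔮.asIdeal).Prime) (hq₀ : (Ideal.absNorm 𝔮₀.asIdeal).Prime)
    (hℓq : ℓ ≠ Ideal.absNorm 𝔮.asIdeal) (hℓq₀ : ℓ ≠ Ideal.absNorm 𝔮₀.asIdeal)
    (h₀ : ¬ FA_S14_IsRes ℓ p (Ideal.absNorm 𝔮₀.asIdeal))
    (hk : FA_S14_IsRes ℓ p
      (Ideal.absNorm 𝔮.asIdeal * Ideal.absNorm 𝔮₀.asIdeal ^ (u * (p - 1)))) :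
    FA_S14_primeClass K 𝔮 * FA_S14_primeClass K 𝔮₀ ^ (u * (p - 1)) ∈
      FA_S14_normClasses K L := by
  classical
  have : Fact ℓ.Prime := ⟨hℓ⟩
  have hp2 : p ≠ 2 := by omega
  -- the root of unity
  obtain ⟨ζ, hζ⟩ := IsCyclotomicExtension.exists_isPrimitiveRoot L Ω
    (Set.mem_singleton ℓ) hℓ.ne_zero
  have hζ1 : ζ ^ ℓ = 1 := hζ.pow_eq_one
  -- `ℓ ∉ 𝔮, 𝔮₀`
  have hℓ𝔮 := FA_S14_cross_not_mem K ℓ hℓ 𝔮 hq hℓq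
  have hℓ𝔮₀ := FA_S14_cross_not_mem K ℓ hℓ 𝔮₀ hq₀ hℓq₀
  have hℓndvd : ¬ ℓ ∣ Ideal.absNorm 𝔮₀.asIdeal := by
    intro h
    exact hℓq₀ ((Nat.prime_dvd_prime_iff_eq hℓ hq₀).1 h)
  -- Frobenius lift for `𝔮₀`
  have hφ₀ := hFrob ℓ hℓ K L Ω hunr ζ hζ1 𝔮₀ P₀ σ₀ hP₀ hP₀u hσ₀ hℓ𝔮₀
  -- ramification at `ℓ`
  obtain ⟨𝔏₀, h𝔏₀p, h𝔏₀⟩ := FA_S14_cross_exists_prime Ω ℓ hℓ
  have hb : ∀ n : ℕ, ¬ ℓ ∣ n → ∃ g : Ω ≃ₐ[K] Ω,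
      (∀ y : L, g (algebraMap L Ω y) = algebraMap L Ω y) ∧ g ζ = ζ ^ n := by
    intro n hn
    obtain ⟨g, -, hg1, hg2⟩ := hRam p ℓ hp hℓ hℓp K L Ω hunr ζ hζ 𝔏₀ h𝔏₀p h𝔏₀ n hn
    exact ⟨g, hg1, hg2⟩
  -- the fields
  obtain ⟨F, M, hKF, hKFdeg, hFM, hFMdeg, hLM, H2, H3, H1⟩ :=
    hPkg p ℓ hp hℓ hpℓ K L Ω hdeg ζ hζ σ₀ (Ideal.absNorm 𝔮₀.asIdeal) hσ₀1 hℓndvd hφ₀ hb
  let algLM : Algebra L M := ((algebraMap L Ω).codRestrict M hLM).toAlgebra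
  have towLM : IsScalarTower K L M := IsScalarTower.of_algebraMap_eq (fun x => by
    apply Subtype.ext
    exact IsScalarTower.algebraMap_apply K L Ω x)
  have hGalQK : IsGalois ℚ K := IsCyclotomicExtension.isGalois {p} ℚ K
  -- the primes `v₀`, `v`
  obtain ⟨v₀, hv₀ℓ, hv₀N, hv₀a⟩ := hPrime ℓ hℓ K L F Ω hunr ζ hζ1 𝔮₀ P₀ σ₀ hP₀ hP₀u hσ₀ hℓ𝔮₀
    (fun φ hφ1 hφ2 y => H2 φ 1 _ (by rw [hφ1, pow_one]) hφ2 (by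
      refine ⟨((Ideal.absNorm 𝔮₀.asIdeal : ℕ) : ZMod ℓ), ?_, ?_⟩
      · rwa [Ne, ZMod.natCast_eq_zero_iff]
      · rw [one_mul, ← pow_succ', Nat.sub_add_cancel hp.one_le]
        push_cast
        rfl) y)
  obtain ⟨v, hvℓ, hvN, hva⟩ := hPrime ℓ hℓ K L F Ω hunr ζ hζ1 𝔮 P σ hP hPu hσ hℓ𝔮
    (fun φ hφ1 hφ2 y => H2 φ u _ (by rw [hφ1, hσu]) hφ2 hk y)
  -- the set `T`
  obtain ⟨T, hT⟩ := hFin ℓ hℓ F
  have hTmem : ∀ w : HeightOneSpectrum (𝓞 F), w.asIdeal ∉ T ↔ (ℓ : 𝓞 F) ∉ w.asIdeal := by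
    intro w
    rw [hT]
    constructor
    · intro h hmem
      exact h ⟨w.isPrime, hmem⟩
    · intro h hmem
      exact h hmem.2
  -- total ramification of `F/K` at `ℓ`
  have htot := hTot p ℓ hp K F Ω hKFdeg (by
    intro 𝔏 h𝔏p h𝔏
    obtain ⟨g, hg0, hg1, hg2⟩ := hRam p ℓ hp hℓ hℓp K L Ω hunr ζ hζ 𝔏 h𝔏p h𝔏
      (Ideal.absNorm 𝔮₀.asIdeal) hℓndvd
    refine ⟨g, hg0, ?_⟩
    by_contra hcon
    push Not at hcon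
    exact h₀ (H3 g hg1 hcon _ hg2))
  -- the crossing in `M/F`
  have hcross := FA_S14_cross_abs p ℓ hp hpℓ F M T (fun Q hQ => ((hT Q).1 hQ).1)
    (fun w hw => hCop ℓ hℓ F w ((hTmem w).1 hw))
    (by
      have := hI2 F M T (FA_S14_splitClasses F M p T) (fun w hw hs =>
        Subgroup.subset_closure (Or.inl ⟨w, hw, hs, rfl⟩))
      rwa [hFMdeg] at this)
    (fun w hw hs => hSplit p ℓ hp hℓ F M Ω ζ hζ1 (fun ψ hψ n hn => H1 ψ hψ n hn) w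
      ((hTmem w).1 hw) hs)
    (fun a ha => hNormP p ℓ hp hp2 hℓ K F hKFdeg
      (fun 𝔩 h𝔩p h𝔩 => hCyc p ℓ hp hℓ hℓp hpℓ K 𝔩 h𝔩p h𝔩)
      htot a (fun Q hQp hQ => ha Q ((hT Q).2 ⟨hQp, hQ⟩)))
    v v₀ ((hTmem v).2 hvℓ) ((hTmem v₀).2 hv₀ℓ) (by rwa [hv₀a]) (u * (p - 1))
    (by rwa [hva, hv₀a])
  exact FA_S14_cross_descent p K L F M hdeg T v v₀ 𝔮 𝔮₀ hvN hv₀N (u * (p - 1)) hcross

end Fermat.Agent.S14
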