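import Fermat.Agent.S14.Dens5

/-!
# S14, leaf DENS, part 6: primes that split completely, and the final argument
-/

set_option autoImplicit false
set_option linter.unusedSectionVars false
set_option linter.style.haveILetI false
set_option linter.unusedVariables false

open scoped NumberField
open NumberField Filter Topology

namespace Fermat.Agent.S14

noncomputable section

variable {K L : Type} [Field K] [NumberField K] [Field L] [NumberField L] [Algebra K L]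

variable (L) in
/-- The finite set of primes of `L` over a prime of `K`. -/
def FA_S14_dens_over (𝔭 : Ideal (𝓞 K)) : Finset (Ideal (𝓞 L)) :=
  (Algebra.QuasiFinite.finite_primesOver (S := 𝓞 L) 𝔭).toFinset

theorem FA_S14_dens_mem_over {𝔭 : Ideal (𝓞 K)} {𝔓 : Ideal (𝓞 L)} :
    𝔓 ∈ FA_S14_dens_over L 𝔭 ↔ 𝔓.IsPrime ∧ 𝔓.LiesOver 𝔭 := by
  simp [FA_S14_dens_over, Ideal.primesOver]

theorem FA_S14_dens_over_ne_bot {𝔭 : Ideal (𝓞 K)} (h2 : 𝔭 ≠ ⊥) {𝔓 : Ideal (𝓞 L)}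
    (h : 𝔓 ∈ FA_S14_dens_over L 𝔭) : 𝔓 ≠ ⊥ := by
  obtain ⟨h1, h3⟩ := FA_S14_dens_mem_over.mp h
  intro hbot
  apply h2
  rw [h3.over, hbot]
  exact Ideal.under_bot _ _

/-- A prime that splits completely has exactly `[L : K]` primes above it. -/
theorem FA_S14_dens_card_over {𝔭 : Ideal (𝓞 K)} (h1 : 𝔭.IsPrime)
    (hsplit : FA_S14_SplitsCompletely K L 𝔭) :
    (FA_S14_dens_over L 𝔭).card = Module.finrank K L := by
  haveI := h1
  letI : Fintype (𝔭.primesOver (𝓞 L)) :=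
    (Algebra.QuasiFinite.finite_primesOver (S := 𝓞 L) 𝔭).fintype
  have hsum := Ideal.sum_ramification_inertia_eq_finrank 𝔭 (𝓞 L)
  rw [← IsFractionRing.finrank_eq (𝓞 K) K (𝓞 L) L] at hsum
  rw [← hsum, Finset.card_eq_sum_ones, FA_S14_dens_over]
  rw [Finset.sum_set_coe (s := 𝔭.primesOver (𝓞 L))
    (f := fun q => q.ramificationIdx (𝓞 K) * q.inertiaDeg (𝓞 K))]
  refine Finset.sum_congr rfl fun 𝔓 h𝔓 => ?_
  rw [Set.mem_toFinset] at h𝔓
  obtain ⟨he, hf⟩ := hsplit 𝔓 h𝔓.1 h𝔓.2.over.symm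
  rw [he, hf]

theorem FA_S14_dens_w_over {s : ℝ} {𝔭 : Ideal (𝓞 K)}
    (hsplit : FA_S14_SplitsCompletely K L 𝔭) {𝔓 : Ideal (𝓞 L)}
    (h : 𝔓 ∈ FA_S14_dens_over L 𝔭) :
    FA_S14_dens_w L s 𝔓 = FA_S14_dens_w K s 𝔭 := by
  obtain ⟨h1, h3⟩ := FA_S14_dens_mem_over.mp h
  haveI := h1
  haveI := h3
  obtain ⟨he, hf⟩ := hsplit 𝔓 h1 h3.over.symm
  have := Ideal.absNorm_pow_inertiaDeg 𝔭 𝔓
  rw [hf, pow_one] at this
  unfold FA_S14_dens_w
  rw [this]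

theorem FA_S14_dens_sum_over {s : ℝ} {𝔭 : Ideal (𝓞 K)} (h1 : 𝔭.IsPrime)
    (hsplit : FA_S14_SplitsCompletely K L 𝔭) :
    ∑ 𝔓 ∈ FA_S14_dens_over L 𝔭, FA_S14_dens_w L s 𝔓
      = (Module.finrank K L : ℝ) * FA_S14_dens_w K s 𝔭 := by
  rw [Finset.sum_congr rfl (fun 𝔓 h𝔓 => FA_S14_dens_w_over (s := s) hsplit h𝔓),
    Finset.sum_const, nsmul_eq_mul, FA_S14_dens_card_over h1 hsplit]

open Classical in
/-- For a finite set `D` of primes of `K` that split completely in `L` there is a finite set of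
primes of `L` whose weights add up to `[L : K]` times those of `D`. -/
theorem FA_S14_dens_split_sum {s : ℝ} (D : Finset (Ideal (𝓞 K)))
    (hD : ∀ 𝔭 ∈ D, 𝔭.IsPrime ∧ 𝔭 ≠ ⊥ ∧ FA_S14_SplitsCompletely K L 𝔭) :
    ∃ G : Finset (Ideal (𝓞 L)), (∀ 𝔓 ∈ G, 𝔓.IsPrime ∧ 𝔓 ≠ ⊥) ∧
      ∑ 𝔓 ∈ G, FA_S14_dens_w L s 𝔓
        = (Module.finrank K L : ℝ) * ∑ 𝔭 ∈ D, FA_S14_dens_w K s 𝔭 := by
  refine ⟨D.biUnion (fun 𝔭 => FA_S14_dens_over L 𝔭), ?_, ?_⟩
  · intro 𝔓 h𝔓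
    obtain ⟨𝔭, h𝔭, h𝔓'⟩ := Finset.mem_biUnion.mp h𝔓
    exact ⟨(FA_S14_dens_mem_over.mp h𝔓').1, FA_S14_dens_over_ne_bot (hD 𝔭 h𝔭).2.1 h𝔓'⟩
  · rw [Finset.sum_biUnion, Finset.mul_sum]
    · exact Finset.sum_congr rfl fun 𝔭 h𝔭 => FA_S14_dens_sum_over (hD 𝔭 h𝔭).1 (hD 𝔭 h𝔭).2.2
    · intro 𝔭 _ 𝔮 _ hne
      rw [Function.onFun, Finset.disjoint_left]
      intro 𝔓 h1 h2
      apply hne
      rw [(FA_S14_dens_mem_over.mp h1).2.over, (FA_S14_dens_mem_over.mp h2).2.over]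

/-- The key inequality `ζ_K(s)^n ≤ e^{nC} ζ_L(s)`. -/
theorem FA_S14_dens_key (T : Finset (Ideal (𝓞 K)))
    (hT : ∀ 𝔭 : Ideal (𝓞 K), 𝔭.IsPrime → 𝔭 ≠ ⊥ → (Ideal.absNorm 𝔭).Prime → 𝔭 ∉ T →
      FA_S14_SplitsCompletely K L 𝔭) {s : ℝ} (hs : 1 < s) :
    FA_S14_dens_Z K s ^ (Module.finrank K L)
      ≤ Real.exp ((Module.finrank K L : ℝ) * ((T.card : ℝ) + 6 * (Module.finrank ℚ K : ℝ)))
          * FA_S14_dens_Z L s := by
  classical
  set n := Module.finrank K L with hn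
  have hn0 : n ≠ 0 := (Module.finrank_pos (R := K) (M := L)).ne'
  set C : ℝ := (T.card : ℝ) + 6 * (Module.finrank ℚ K : ℝ) with hC
  set R : ℝ := Real.exp ((n : ℝ) * C) * FA_S14_dens_Z L s with hR
  have hR0 : 0 ≤ R := mul_nonneg (Real.exp_pos _).le (FA_S14_dens_Z_nonneg s)
  set B : ℝ := R ^ ((n : ℝ)⁻¹) with hB
  have hB0 : 0 ≤ B := Real.rpow_nonneg hR0 _
  have hBn : B ^ n = R := Real.rpow_inv_natCast_pow hR0 hn0
  have hpart : ∀ N, ∑ I ∈ FA_S14_dens_ball K N, FA_S14_dens_w K s I ≤ B := by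
    intro N
    set D := (FA_S14_dens_primes K N).filter (fun 𝔭 => (Ideal.absNorm 𝔭).Prime ∧ 𝔭 ∉ T) with hDdef
    have hDspec : ∀ 𝔭 ∈ D, 𝔭.IsPrime ∧ 𝔭 ≠ ⊥ ∧ FA_S14_SplitsCompletely K L 𝔭 := by
      intro 𝔭 h𝔭
      rw [hDdef, Finset.mem_filter] at h𝔭
      have := FA_S14_dens_primes_spec N 𝔭 h𝔭.1
      exact ⟨this.1, this.2, hT 𝔭 this.1 this.2 h𝔭.2.1 h𝔭.2.2⟩
    obtain ⟨G, hG, hGsum⟩ := FA_S14_dens_split_sum (L := L) (s := s) D hDspec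
    have hL := FA_S14_dens_exp_sum_le_Z hs G hG
    have hK := FA_S14_dens_ball_le_exp hs T N
    have hpos : 0 ≤ ∑ I ∈ FA_S14_dens_ball K N, FA_S14_dens_w K s I :=
      Finset.sum_nonneg fun I _ => FA_S14_dens_w_nonneg s I
    refine le_of_pow_le_pow_left₀ hn0 hB0 ?_
    rw [hBn]
    calc (∑ I ∈ FA_S14_dens_ball K N, FA_S14_dens_w K s I) ^ n
        ≤ (Real.exp (∑ 𝔭 ∈ D, FA_S14_dens_w K s 𝔭 + C)) ^ n := pow_le_pow_left₀ hpos hK n
      _ = Real.exp ((n : ℝ) * C) * Real.exp (∑ 𝔓 ∈ G, FA_S14_dens_w L s 𝔓) := by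
          rw [← Real.exp_nat_mul, ← Real.exp_add, hGsum]
          congr 1
          ring
      _ ≤ R := mul_le_mul_of_nonneg_left hL (Real.exp_pos _).le
  have hZ := FA_S14_dens_Z_le hs B hpart
  calc FA_S14_dens_Z K s ^ n ≤ B ^ n := pow_le_pow_left₀ (FA_S14_dens_Z_nonneg s) hZ n
    _ = R := hBn

/-- **Leaf DENS**. -/
theorem FA_S14_dens : FA_S14_Target_Dens := by
  intro K L _ _ _ _ _ T hT
  by_contra hne
  set n := Module.finrank K L with hn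
  have hn0 : 0 < n := Module.finrank_pos (R := K) (M := L)
  have hn2 : 2 ≤ n := by omega
  set C : ℝ := (T.card : ℝ) + 6 * (Module.finrank ℚ K : ℝ) with hC
  have hK := FA_S14_dens_tendsto K
  have hL := FA_S14_dens_tendsto L
  have hf : Tendsto (fun s : ℝ => ((s - 1) * FA_S14_dens_Z K s) ^ n) (𝓝[>] 1)
      (𝓝 (NumberField.dedekindZeta_residue K ^ n)) := hK.pow n
  have hpow : Tendsto (fun s : ℝ => (s - 1) ^ (n - 1)) (𝓝[>] 1) (𝓝 0) := by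
    have hc : Continuous (fun s : ℝ => (s - 1) ^ (n - 1)) := by fun_prop
    have := hc.tendsto 1
    simp only [sub_self] at this
    rw [zero_pow (by omega)] at this
    exact this.mono_left nhdsWithin_le_nhds
  have hg : Tendsto (fun s : ℝ => Real.exp ((n : ℝ) * C) *
      ((s - 1) ^ (n - 1) * ((s - 1) * FA_S14_dens_Z L s))) (𝓝[>] 1)
      (𝓝 (Real.exp ((n : ℝ) * C) * (0 * NumberField.dedekindZeta_residue L))) :=
    (hpow.mul hL).const_mul _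
  have hle : (fun s : ℝ => ((s - 1) * FA_S14_dens_Z K s) ^ n) ≤ᶠ[𝓝[>] 1]
      (fun s : ℝ => Real.exp ((n : ℝ) * C) *
        ((s - 1) ^ (n - 1) * ((s - 1) * FA_S14_dens_Z L s))) := by
    filter_upwards [self_mem_nhdsWithin] with s hs
    have hs1 : (1 : ℝ) < s := hs
    have hkey := FA_S14_dens_key (L := L) T hT hs1
    have hs0 : (0 : ℝ) ≤ (s - 1) ^ n := pow_nonneg (by linarith) n
    have hsplit : (s - 1) ^ n = (s - 1) ^ (n - 1) * (s - 1) := by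
      rw [← pow_succ]
      congr 1
      omega
    calc ((s - 1) * FA_S14_dens_Z K s) ^ n = (s - 1) ^ n * FA_S14_dens_Z K s ^ n := mul_pow _ _ _
      _ ≤ (s - 1) ^ n * (Real.exp ((n : ℝ) * C) * FA_S14_dens_Z L s) :=
          mul_le_mul_of_nonneg_left hkey hs0
      _ = Real.exp ((n : ℝ) * C) * ((s - 1) ^ (n - 1) * ((s - 1) * FA_S14_dens_Z L s)) := by
          rw [hsplit]; ring
  have hfin := le_of_tendsto_of_tendsto hf hg hle
  rw [zero_mul, mul_zero] at hfin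
  have hpos : 0 < NumberField.dedekindZeta_residue K ^ n :=
    pow_pos (NumberField.dedekindZeta_residue_pos K) n
  linarith

end

end Fermat.Agent.S14
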