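import Mathlib
import Fermat.Agent.S14.Interface

/-!
# S14 (item 75): interface, leaf KUM (helper3) — splitting of primes in Kummer extensions

`F ∋ ζ` (primitive `p`-th root of unity), `M = F(α)`, `α ^ p = x ∈ F`.
Primes of `F` are `v : HeightOneSpectrum (𝓞 F)`, with the `v`-adic valuation `v.valuation F : F → ℤᵐ⁰`
(`v.valuation F z < 1` iff `z` is in the maximal ideal at `v`; `v.valuation F z = 1` iff `z` is a
`v`-unit; `∃ y, v.valuation F x = v.valuation F y ^ p` iff `p ∣ v(x)`).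
-/

set_option autoImplicit false

open scoped NumberField
open IsDedekindDomain IntermediateField

namespace Fermat.Agent.S14

/-- `x ∈ D_v`: `x / y ^ p ≡ 1 mod v ^ (p · v(1 - ζ) + 1)` for some `y ∈ Fˣ`, written without
division: `v(x - y ^ p) < v(y ^ p · (1 - ζ) ^ p)`.  For `v ∤ p` this says that `x` is a `v`-unit
times a `p`-th power and a `p`-th power residue mod `v`. -/
def FA_S14_KumD (p : ℕ) (F : Type) [Field F] [NumberField F] (ζ : F)
    (v : HeightOneSpectrum (𝓞 F)) : Set F :=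
  {x | ∃ y : F, y ≠ 0 ∧ v.valuation F (x - y ^ p) < v.valuation F (y ^ p * (1 - ζ) ^ p)}

/-- **KSPLIT**: `x ∈ D_v` ⇒ `v` splits completely in `F(x^{1/p})`. -/
def FA_S14_Target_KumSplit : Prop :=
  ∀ (p : ℕ), p.Prime → p ≠ 2 →
  ∀ (F M : Type) [Field F] [Field M] [NumberField F] [NumberField M] [Algebra F M]
    (ζ : F), IsPrimitiveRoot ζ p →
  ∀ (x : F) (α : M), α ^ p = algebraMap F M x → F⟮α⟯ = ⊤ →
  ∀ (v : HeightOneSpectrum (𝓞 F)), x ∈ FA_S14_KumD p F ζ v →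
    FA_S14_SplitsCompletely F M v.asIdeal

/-- **KUNR**: `v ∤ p` and `p ∣ v(x)` ⇒ `v` is unramified in `F(x^{1/p})`. -/
def FA_S14_Target_KumUnram : Prop :=
  ∀ (p : ℕ), p.Prime → p ≠ 2 →
  ∀ (F M : Type) [Field F] [Field M] [NumberField F] [NumberField M] [Algebra F M]
    (ζ : F), IsPrimitiveRoot ζ p →
  ∀ (x : F) (α : M), x ≠ 0 → α ^ p = algebraMap F M x → F⟮α⟯ = ⊤ →
  ∀ (v : HeightOneSpectrum (𝓞 F)), v.valuation F (p : F) = 1 →
    (∃ y : F, v.valuation F x = v.valuation F y ^ p) →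
  ∀ P : Ideal (𝓞 M), P.IsPrime → P.under (𝓞 F) = v.asIdeal → P.ramificationIdx (𝓞 F) = 1

/-- **KRAM**: `p ∤ v(x)` ⇒ `v` is totally ramified in `F(x^{1/p})` (which then has degree `p`). -/
def FA_S14_Target_KumRam : Prop :=
  ∀ (p : ℕ), p.Prime → p ≠ 2 →
  ∀ (F M : Type) [Field F] [Field M] [NumberField F] [NumberField M] [Algebra F M]
    (ζ : F), IsPrimitiveRoot ζ p →
  ∀ (x : F) (α : M), x ≠ 0 → α ^ p = algebraMap F M x → F⟮α⟯ = ⊤ →
  ∀ (v : HeightOneSpectrum (𝓞 F)), (∀ y : F, v.valuation F x ≠ v.valuation F y ^ p) →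
    Module.finrank F M = p ∧
    ∃ P : Ideal (𝓞 M), P.IsPrime ∧ Ideal.map (algebraMap (𝓞 F) (𝓞 M)) v.asIdeal = P ^ p

/-- **KRES**: for a `v`-unit `x`, `v ∤ p`: `v` splits completely in `F(x^{1/p})` iff `x` is a
`p`-th power residue mod `v`. -/
def FA_S14_Target_KumRes : Prop :=
  ∀ (p : ℕ), p.Prime → p ≠ 2 →
  ∀ (F M : Type) [Field F] [Field M] [NumberField F] [NumberField M] [Algebra F M]
    (ζ : F), IsPrimitiveRoot ζ p →
  ∀ (x : F) (α : M), α ^ p = algebraMap F M x → F⟮α⟯ = ⊤ →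
  ∀ (v : HeightOneSpectrum (𝓞 F)), v.valuation F (p : F) = 1 → v.valuation F x = 1 →
    (FA_S14_SplitsCompletely F M v.asIdeal ↔ ∃ c : F, v.valuation F (x - c ^ p) < 1)

/-- **KGEN**: a cyclic extension of degree `p` of a field containing `ζ_p` is `F(x^{1/p})`,
and the Galois group acts on `α` through multiplication by `p`-th roots of unity. -/
def FA_S14_Target_KumGen : Prop :=
  ∀ (p : ℕ), p.Prime → p ≠ 2 →
  ∀ (F M : Type) [Field F] [Field M] [NumberField F] [NumberField M] [Algebra F M]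
    (ζ : F), IsPrimitiveRoot ζ p → IsGalois F M → Module.finrank F M = p →
    ∃ (x : F) (α : M), x ≠ 0 ∧ α ^ p = algebraMap F M x ∧ F⟮α⟯ = ⊤ ∧
      (∀ y : F, y ^ p ≠ x) ∧
      ∃ σ : M ≃ₐ[F] M, σ α = algebraMap F M ζ * α ∧ ∀ τ : M ≃ₐ[F] M, τ ∈ Subgroup.zpowers σ

/-- **KDEG**: if `x` is not a `p`-th power in `F ∋ ζ_p`, then `F(x^{1/p})/F` is Galois of degree
`p`, generated by `σ` with `σ α = ζ α`. -/
def FA_S14_Target_KumDeg : Prop :=
  ∀ (p : ℕ), p.Prime → p ≠ 2 →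
  ∀ (F M : Type) [Field F] [Field M] [NumberField F] [NumberField M] [Algebra F M]
    (ζ : F), IsPrimitiveRoot ζ p →
  ∀ (x : F) (α : M), α ^ p = algebraMap F M x → F⟮α⟯ = ⊤ → (∀ y : F, y ^ p ≠ x) →
    IsGalois F M ∧ Module.finrank F M = p ∧
      ∃ σ : M ≃ₐ[F] M, σ α = algebraMap F M ζ * α ∧ ∀ τ : M ≃ₐ[F] M, τ ∈ Subgroup.zpowers σ

end Fermat.Agent.S14
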