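import Mathlib
import Fermat.Agent.S14.InterfaceKum

/-!
# S14 leaf KUM, part 1: Kummer extensions of prime degree (KDEG, KGEN)
-/

set_option autoImplicit false

open scoped NumberField
open IsDedekindDomain IntermediateField Polynomial

namespace Fermat.Agent.S14

section

variable {p : ℕ} {F M : Type} [Field F] [Field M] [Algebra F M]

/-- `M = F(α)`, `α ^ p = x`, `ζ_p ∈ F` ⇒ `M` is a splitting field of `X ^ p - x`. -/
theorem FA_S14_kum_isSplittingField (hp : p.Prime) {ζ : F} (hζ : IsPrimitiveRoot ζ p)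
    {x : F} {α : M} (hα : α ^ p = algebraMap F M x) (htop : F⟮α⟯ = ⊤) :
    IsSplittingField F M (X ^ p - C x) := by
  have hint : IsIntegral F α := by
    refine ⟨X ^ p - C x, monic_X_pow_sub_C x hp.ne_zero, ?_⟩
    simp [hα]
  constructor
  · rw [Polynomial.map_sub, Polynomial.map_pow, Polynomial.map_C, Polynomial.map_X]
    exact X_pow_sub_C_splits_of_isPrimitiveRoot
      (hζ.map_of_injective (algebraMap F M).injective) hα
  · rw [eq_top_iff, ← IntermediateField.top_toSubalgebra, ← htop,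
      IntermediateField.adjoin_simple_toSubalgebra_of_isAlgebraic hint.isAlgebraic]
    apply Algebra.adjoin_mono
    rw [Set.singleton_subset_iff, mem_rootSet_of_ne (X_pow_sub_C_ne_zero hp.pos x),
      aeval_def, eval₂_sub, eval₂_X_pow, eval₂_C, hα, sub_self]

/-- KDEG, general fields. -/
theorem FA_S14_kum_deg_field (hp : p.Prime) {ζ : F} (hζ : IsPrimitiveRoot ζ p)
    {x : F} {α : M} (hα : α ^ p = algebraMap F M x) (htop : F⟮α⟯ = ⊤)
    (hnp : ∀ y : F, y ^ p ≠ x) :
    IsGalois F M ∧ Module.finrank F M = p ∧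
      ∃ σ : M ≃ₐ[F] M, σ α = algebraMap F M ζ * α ∧ ∀ τ : M ≃ₐ[F] M, τ ∈ Subgroup.zpowers σ := by
  have : NeZero p := ⟨hp.ne_zero⟩
  have hirr : Irreducible (X ^ p - C x) := X_pow_sub_C_irreducible_of_prime hp hnp
  have hζ' : (primitiveRoots p F).Nonempty := ⟨ζ, (mem_primitiveRoots hp.pos).mpr hζ⟩
  have hsf : IsSplittingField F M (X ^ p - C x) := FA_S14_kum_isSplittingField hp hζ hα htop
  have hgal : IsGalois F M := isGalois_of_isSplittingField_X_pow_sub_C hζ' hirr M
  have hfin : Module.finrank F M = p := finrank_of_isSplittingField_X_pow_sub_C hζ' hirr M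
  refine ⟨hgal, hfin, (autEquivZmod hirr M hζ).symm (Multiplicative.ofAdd ((1 : ℕ) : ZMod p)),
    ?_, ?_⟩
  · rw [autEquivZmod_symm_apply_natCast hirr M hα hζ 1, pow_one, Algebra.smul_def]
  · intro τ
    obtain ⟨k, hk⟩ : ∃ k : ℕ, ((k : ℕ) : ZMod p) = Multiplicative.toAdd (autEquivZmod hirr M hζ τ) :=
      ⟨(Multiplicative.toAdd (autEquivZmod hirr M hζ τ)).val, ZMod.natCast_zmod_val _⟩
    refine Subgroup.mem_zpowers_iff.mpr ⟨k, ?_⟩
    apply (autEquivZmod hirr M hζ).injective
    rw [map_zpow, MulEquiv.apply_symm_apply, zpow_natCast, ← ofAdd_nsmul]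
    simp only [Nat.cast_one, nsmul_eq_mul, mul_one]
    rw [hk]; rfl

/-- If `x = y ^ p` in `F`, then `F(x^{1/p}) = F`. -/
theorem FA_S14_kum_finrank_one_of_pow (hp : p.Prime) {ζ : F} (hζ : IsPrimitiveRoot ζ p)
    {x : F} {α : M} (hα : α ^ p = algebraMap F M x) (htop : F⟮α⟯ = ⊤)
    {y : F} (hy : y ^ p = x) : Module.finrank F M = 1 := by
  have : NeZero p := ⟨hp.ne_zero⟩
  have hmem : α ∈ (⊥ : IntermediateField F M) := by
    have hζM := hζ.map_of_injective (algebraMap F M).injective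
    have h1 : α ^ p = (algebraMap F M y) ^ p := by rw [hα, ← hy, map_pow]
    rcases eq_or_ne y 0 with rfl | hy0
    · have : α = 0 := by
        have : α ^ p = 0 := by rw [h1]; simp [hp.ne_zero]
        exact pow_eq_zero_iff hp.ne_zero |>.mp this
      rw [this]; exact zero_mem _
    · have hyM : algebraMap F M y ≠ 0 := by simpa using hy0
      have h2 : (α / algebraMap F M y) ^ p = 1 := by
        rw [div_pow, h1, div_self (pow_ne_zero _ hyM)]
      obtain ⟨i, -, hi⟩ := hζM.eq_pow_of_pow_eq_one h2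
      have : α = algebraMap F M (ζ ^ i * y) := by
        rw [map_mul, map_pow, hi, div_mul_cancel₀ _ hyM]
      rw [this]
      exact IntermediateField.algebraMap_mem _ _
  have hbot : F⟮α⟯ = ⊥ := IntermediateField.adjoin_simple_eq_bot_iff.mpr hmem
  have hbt : (⊥ : IntermediateField F M) = ⊤ := hbot ▸ htop
  exact IntermediateField.bot_eq_top_iff_finrank_eq_one.mp hbt

end

theorem FA_S14_kum_deg : FA_S14_Target_KumDeg := by
  intro p hp _ F M _ _ _ _ _ ζ hζ x α hα htop hnp
  exact FA_S14_kum_deg_field hp hζ hα htop hnp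

theorem FA_S14_kum_gen : FA_S14_Target_KumGen := by
  intro p hp _ F M _ _ _ _ _ ζ hζ hgal hfin
  have : NeZero p := ⟨hp.ne_zero⟩
  have hfd : FiniteDimensional F M := Module.finite_of_finrank_pos (by rw [hfin]; exact hp.pos)
  have hcard : Nat.card (M ≃ₐ[F] M) = p := by rw [IsGalois.card_aut_eq_finrank, hfin]
  have : Fact p.Prime := ⟨hp⟩
  have hcyc : IsCyclic (M ≃ₐ[F] M) := isCyclic_of_prime_card hcard
  have hK : (primitiveRoots (Module.finrank F M) F).Nonempty := by
    rw [hfin]; exact ⟨ζ, (mem_primitiveRoots hp.pos).mpr hζ⟩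
  obtain ⟨α, ⟨x, hx⟩, htop⟩ := exists_root_adjoin_eq_top_of_isCyclic F M hK
  rw [hfin] at hx
  have hα : α ^ p = algebraMap F M x := hx.symm
  have hnp : ∀ y : F, y ^ p ≠ x := by
    intro y hy
    have := FA_S14_kum_finrank_one_of_pow hp hζ hα htop hy
    rw [hfin] at this
    exact hp.one_lt.ne' this
  have hx0 : x ≠ 0 := by
    rintro rfl
    exact hnp 0 (by simp [hp.ne_zero])
  obtain ⟨-, -, σ, hσ, hσ'⟩ := FA_S14_kum_deg_field hp hζ hα htop hnp
  exact ⟨x, α, hx0, hα, htop, hnp, σ, hσ, hσ'⟩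

end Fermat.Agent.S14
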