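import Mathlib
import Fermat.Agent.S14.KumBasic

/-!
# S14 leaf KUM, part 2: valuations and the Galois action
-/

set_option autoImplicit false
set_option linter.unusedSectionVars false

open scoped NumberField Pointwise
open IsDedekindDomain IntermediateField Polynomial

namespace Fermat.Agent.S14

/-- Abstract core of KSPLIT: if `W (β ^ p - 1) < W (1 - ζ) ^ p`, no `W`-isometric ring
endomorphism maps `β` to `ζ β`. -/
theorem FA_S14_kum_val_core {M Γ₀ : Type*} [Field M] [LinearOrderedCommGroupWithZero Γ₀]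
    (W : Valuation M Γ₀) {p : ℕ} (hp : 0 < p) {ζ : M} (hζ : IsPrimitiveRoot ζ p) {β : M}
    (h : W (β ^ p - 1) < W (1 - ζ) ^ p)
    (σ : M →+* M) (hσW : ∀ z, W (σ z) = W z) (hσβ : σ β = ζ * β) (hσζ : σ ζ = ζ) : False := by
  have hWζ : W ζ = 1 := by
    have h1 : W ζ ^ p = 1 := by rw [← map_pow, hζ.pow_eq_one, map_one]
    exact (pow_eq_one_iff_left hp.ne').mp h1
  have hprod : β ^ p - 1 = ∏ i ∈ Finset.range p, (β - ζ ^ i) := by
    have := congrArg (Polynomial.eval β) (X_pow_sub_C_eq_prod hζ hp (one_pow p))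
    simpa [Polynomial.eval_prod] using this
  have hWprod : W (β ^ p - 1) = ∏ i ∈ Finset.range p, W (β - ζ ^ i) := by
    rw [hprod, map_prod]
  -- some factor has valuation `< W (1 - ζ)`
  obtain ⟨i, hi⟩ : ∃ i, W (β - ζ ^ i) < W (1 - ζ) := by
    by_contra hcon
    push Not at hcon
    have := Finset.prod_le_prod' (s := Finset.range p) (f := fun _ => W (1 - ζ))
      (g := fun i => W (β - ζ ^ i)) (fun i _ => hcon i)
    simp only [Finset.prod_const, Finset.card_range] at this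
    rw [← hWprod] at this
    exact absurd h (not_lt.mpr this)
  -- apply σ
  have h1 : W (ζ * β - ζ ^ i) < W (1 - ζ) := by
    have : σ (β - ζ ^ i) = ζ * β - ζ ^ i := by rw [map_sub, map_pow, hσβ, hσζ]
    rw [← this, hσW]; exact hi
  have h2 : W (ζ * β - ζ ^ (i + 1)) < W (1 - ζ) := by
    have : ζ * β - ζ ^ (i + 1) = ζ * (β - ζ ^ i) := by ring
    rw [this, map_mul, hWζ, one_mul]; exact hi
  have h3 : W (1 - ζ) = W ((ζ * β - ζ ^ (i + 1)) - (ζ * β - ζ ^ i)) := by
    have : (ζ * β - ζ ^ (i + 1)) - (ζ * β - ζ ^ i) = ζ ^ i * (1 - ζ) := by ring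
    rw [this, map_mul, map_pow, hWζ, one_pow, one_mul]
  have h4 : W ((ζ * β - ζ ^ (i + 1)) - (ζ * β - ζ ^ i)) < W (1 - ζ) :=
    lt_of_le_of_lt (Valuation.map_sub _ _ _) (max_lt h2 h1)
  exact absurd h4 (by rw [← h3]; exact lt_irrefl _)

section

variable {F M : Type} [Field F] [Field M] [NumberField F] [NumberField M] [Algebra F M]

/-- The coercion of the action on `𝓞 M`. -/
theorem FA_S14_kum_coe_smul (σ : M ≃ₐ[F] M) (a : 𝓞 M) : ((σ • a : 𝓞 M) : M) = σ (a : M) := rfl

/-- A Galois automorphism fixing the prime `w` preserves the `w`-adic valuation on `𝓞 M`. -/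
theorem FA_S14_kum_intVal_smul (σ : M ≃ₐ[F] M) (w : HeightOneSpectrum (𝓞 M))
    (hσ : σ • w.asIdeal = w.asIdeal) (a : 𝓞 M) :
    w.intValuation (σ • a) = w.intValuation a := by
  have hσ' : σ⁻¹ • w.asIdeal = w.asIdeal := by
    rw [← hσ, inv_smul_smul, hσ]
  have key : ∀ (τ : M ≃ₐ[F] M), τ • w.asIdeal = w.asIdeal → ∀ (b : 𝓞 M),
      w.intValuation b ≤ w.intValuation (τ • b) := by
    intro τ hτ b
    rcases eq_or_ne b 0 with rfl | hb
    · simp
    have hτ' : τ⁻¹ • w.asIdeal = w.asIdeal := by rw [← hτ, inv_smul_smul, hτ]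
    have hτb : τ • b ≠ 0 := by
      intro h0
      apply hb
      have := congrArg (fun z => τ⁻¹ • z) h0
      simpa using this
    -- `τ • b ∈ w ^ n → b ∈ w ^ n`
    obtain ⟨n, hn⟩ : ∃ n : ℕ, w.intValuation (τ • b) = WithZero.exp (-(n : ℤ)) :=
      ⟨_, w.intValuation_eq_exp_neg_multiplicity hτb⟩
    rw [hn, w.intValuation_le_pow_iff_mem]
    have h1 : τ • b ∈ w.asIdeal ^ n := by
      rw [← w.intValuation_le_pow_iff_mem, hn]
    have h2 : τ • b ∈ τ • (w.asIdeal ^ n) := by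
      rw [smul_pow', hτ]; exact h1
    rw [Ideal.mem_pointwise_smul_iff_inv_smul_mem, inv_smul_smul] at h2
    exact h2
  apply le_antisymm
  · have := key σ⁻¹ hσ' (σ • a)
    rwa [inv_smul_smul] at this
  · exact key σ hσ a

/-- A Galois automorphism fixing the prime `w` preserves the `w`-adic valuation. -/
theorem FA_S14_kum_val_smul (σ : M ≃ₐ[F] M) (w : HeightOneSpectrum (𝓞 M))
    (hσ : σ • w.asIdeal = w.asIdeal) (z : M) :
    w.valuation M (σ z) = w.valuation M z := by
  obtain ⟨a, b, hb, rfl⟩ := IsFractionRing.div_surjective (A := 𝓞 M) z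
  have hb0 : (b : 𝓞 M) ≠ 0 := nonZeroDivisors.ne_zero hb
  rw [map_div₀, map_div₀, map_div₀]
  have ha' : σ (algebraMap (𝓞 M) M a) = algebraMap (𝓞 M) M (σ • a) := rfl
  have hb' : σ (algebraMap (𝓞 M) M b) = algebraMap (𝓞 M) M (σ • b) := rfl
  rw [ha', hb', HeightOneSpectrum.valuation_of_algebraMap, HeightOneSpectrum.valuation_of_algebraMap,
    HeightOneSpectrum.valuation_of_algebraMap, HeightOneSpectrum.valuation_of_algebraMap,
    FA_S14_kum_intVal_smul σ w hσ, FA_S14_kum_intVal_smul σ w hσ]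

end

end Fermat.Agent.S14
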