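import Mathlib
import Fermat.Agent.S14.KumVal

/-!
# S14 leaf KUM, part 3: KSPLIT
-/

set_option autoImplicit false
set_option linter.unusedSectionVars false

open scoped NumberField Pointwise
open IsDedekindDomain IntermediateField Polynomial

namespace Fermat.Agent.S14

section

variable {F M : Type} [Field F] [Field M] [NumberField F] [NumberField M] [Algebra F M]

/-- A prime of `𝓞 M` lying over a nonzero prime of `𝓞 F` is nonzero. -/
theorem FA_S14_kum_ne_bot_of_under (v : HeightOneSpectrum (𝓞 F)) (P : Ideal (𝓞 M))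
    (hPv : P.under (𝓞 F) = v.asIdeal) : P ≠ ⊥ := by
  rintro rfl
  apply v.ne_bot
  rw [← hPv]
  exact Ideal.under_bot (𝓞 F) (𝓞 M)

/-- If all decomposition groups over `v` are trivial, `v` splits completely. -/
theorem FA_S14_kum_splits_of_stabilizer [IsGalois F M] (v : HeightOneSpectrum (𝓞 F))
    (h : ∀ (P : Ideal (𝓞 M)), P.IsPrime → P.under (𝓞 F) = v.asIdeal →
      MulAction.stabilizer (M ≃ₐ[F] M) P = ⊥) :
    FA_S14_SplitsCompletely F M v.asIdeal := by
  intro P hP hPv
  have hlies : P.LiesOver v.asIdeal := ⟨hPv.symm⟩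
  have hstab := h P hP hPv
  have h1 := Ideal.card_stabilizer_eq_card_inertia_mul_finrank (G := M ≃ₐ[F] M) v.asIdeal P
  rw [hstab, Subgroup.card_bot] at h1
  have h2 := Ideal.card_inertia_eq_ramificationIdxIn (G := M ≃ₐ[F] M) v.asIdeal P
  have h3 := Ideal.ramificationIdxIn_eq_ramificationIdx v.asIdeal P (M ≃ₐ[F] M)
  have h4 : Nat.card (Ideal.inertia (M ≃ₐ[F] M) P) = 1 ∧ P.inertiaDeg (𝓞 F) = 1 :=
    mul_eq_one.mp h1.symm
  exact ⟨by rw [← h3, ← h2]; exact h4.1, h4.2⟩

/-- Degree one: everything splits completely. -/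
theorem FA_S14_kum_splits_of_finrank_one (hfin : Module.finrank F M = 1)
    (v : HeightOneSpectrum (𝓞 F)) : FA_S14_SplitsCompletely F M v.asIdeal := by
  have hbt : (⊥ : IntermediateField F M) = ⊤ :=
    IntermediateField.bot_eq_top_iff_finrank_eq_one.mpr hfin
  have hsub : Subsingleton (M ≃ₐ[F] M) := by
    refine ⟨fun σ τ => ?_⟩
    ext z
    have hz : z ∈ (⊥ : IntermediateField F M) := by rw [hbt]; trivial
    obtain ⟨c, rfl⟩ := IntermediateField.mem_bot.mp hz
    simp
  have hfd : FiniteDimensional F M := Module.finite_of_finrank_pos (by rw [hfin]; exact one_pos)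
  have hgal : IsGalois F M := by
    apply IsGalois.of_card_aut_eq_finrank
    rw [hfin]
    exact Nat.card_unique
  apply FA_S14_kum_splits_of_stabilizer v
  intro P _ _
  exact Subsingleton.elim _ _

end

theorem FA_S14_kum_split : FA_S14_Target_KumSplit := by
  intro p hp _ F M _ _ _ _ _ ζ hζ x α hα htop v hx
  by_cases hpow : ∃ y : F, y ^ p = x
  · obtain ⟨y, hy⟩ := hpow
    exact FA_S14_kum_splits_of_finrank_one
      (FA_S14_kum_finrank_one_of_pow hp hζ hα htop hy) v
  · have hnp : ∀ y : F, y ^ p ≠ x := fun y hy => hpow ⟨y, hy⟩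
    obtain ⟨hgal, hfin, σ, hσα, hσgen⟩ := FA_S14_kum_deg_field hp hζ hα htop hnp
    have hfd : FiniteDimensional F M := Module.finite_of_finrank_pos (by rw [hfin]; exact hp.pos)
    have hcard : Nat.card (M ≃ₐ[F] M) = p := by rw [IsGalois.card_aut_eq_finrank, hfin]
    have : Fact (Nat.card (M ≃ₐ[F] M)).Prime := ⟨by rw [hcard]; exact hp⟩
    apply FA_S14_kum_splits_of_stabilizer v
    intro P hP hPv
    have hlies : P.LiesOver v.asIdeal := ⟨hPv.symm⟩
    rcases Subgroup.eq_bot_or_eq_top_of_prime_card (MulAction.stabilizer (M ≃ₐ[F] M) P) with h | h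
    · exact h
    exfalso
    have hσP : σ • P = P := by
      have : σ ∈ MulAction.stabilizer (M ≃ₐ[F] M) P := by rw [h]; trivial
      exact this
    let w : HeightOneSpectrum (𝓞 M) := ⟨P, hP, FA_S14_kum_ne_bot_of_under v P hPv⟩
    have hwlies : w.asIdeal.LiesOver v.asIdeal := hlies
    obtain ⟨y, hy0, hy⟩ := hx
    set e := v.asIdeal.ramificationIdx' w.asIdeal with he
    have he0 : e ≠ 0 := Ideal.IsDedekindDomain.ramificationIdx'_ne_zero_of_liesOver w.asIdeal v.ne_bot
    have hW : ∀ z : F, w.valuation M (algebraMap F M z) = v.valuation F z ^ e :=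
      fun z => (HeightOneSpectrum.valuation_liesOver M v w z).symm
    have hyM : algebraMap F M y ≠ 0 := by simpa using hy0
    have hWy : w.valuation M (algebraMap F M y) ≠ 0 := by simpa using hyM
    -- the inequality upstairs
    have hineq : w.valuation M (algebraMap F M (x - y ^ p)) <
        w.valuation M (algebraMap F M (y ^ p * (1 - ζ) ^ p)) := by
      rw [hW, hW]
      exact pow_lt_pow_left₀ hy zero_le' he0
    have hβ : w.valuation M ((α / algebraMap F M y) ^ p - 1) <
        w.valuation M (1 - algebraMap F M ζ) ^ p := by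
      have h1 : (α / algebraMap F M y) ^ p - 1 =
          algebraMap F M (x - y ^ p) / (algebraMap F M y) ^ p := by
        rw [div_pow, hα, map_sub, map_pow]
        field_simp
      have h2 : algebraMap F M (y ^ p * (1 - ζ) ^ p) =
          (algebraMap F M y) ^ p * (1 - algebraMap F M ζ) ^ p := by
        simp [map_mul, map_pow, map_sub]
      rw [h1, map_div₀, div_lt_iff₀ (by
        rw [map_pow]; exact pow_pos (zero_lt_iff.mpr hWy) _), ← map_pow, ← map_mul, mul_comm,
        ← h2]
      exact hineq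
    refine FA_S14_kum_val_core (w.valuation M) hp.pos
      (hζ.map_of_injective (algebraMap F M).injective) hβ (σ : M →+* M)
      (fun z => FA_S14_kum_val_smul σ w hσP z) ?_ ?_
    · show σ (α / algebraMap F M y) = algebraMap F M ζ * (α / algebraMap F M y)
      rw [map_div₀, hσα, AlgEquiv.commutes, mul_div_assoc]
    · show σ (algebraMap F M ζ) = algebraMap F M ζ
      exact AlgEquiv.commutes σ ζ

end Fermat.Agent.S14
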