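import Mathlib
import Fermat.Agent.S14.KumSplit

/-!
# S14 leaf KUM, part 4: KRES (split completely ⇔ `p`-th power residue)
-/

set_option autoImplicit false
set_option linter.unusedSectionVars false

open scoped NumberField Pointwise
open IsDedekindDomain IntermediateField Polynomial

namespace Fermat.Agent.S14

/-- If `V p = 1` then `V (1 - ζ) = 1` for a primitive `p`-th root of unity `ζ`. -/
theorem FA_S14_kum_val_one_sub_zeta {F Γ₀ : Type*} [Field F] [LinearOrderedCommGroupWithZero Γ₀]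
    (V : Valuation F Γ₀) {p : ℕ} (hp : p.Prime) {ζ : F} (hζ : IsPrimitiveRoot ζ p)
    (hVp : V (p : F) = 1) : V (1 - ζ) = 1 := by
  have hVζ : V ζ = 1 := by
    have h1 : V ζ ^ p = 1 := by rw [← map_pow, hζ.pow_eq_one, map_one]
    exact (pow_eq_one_iff_left hp.ne_zero).mp h1
  have hle : ∀ k : ℕ, V (1 - ζ ^ k) ≤ 1 := by
    intro k
    apply Valuation.map_sub_le
    · simp
    · rw [map_pow, hVζ, one_pow]
  obtain ⟨m, hm⟩ : ∃ m, p = m + 1 + 1 := ⟨p - 2, by have := hp.two_le; omega⟩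
  have hζ' : IsPrimitiveRoot ζ ((m + 1) + 1) := hm ▸ hζ
  have hprod := hζ'.prod_one_sub_pow_eq_order
  rw [Finset.prod_range_succ'] at hprod
  have hcast : ((m + 1 : ℕ) : F) + 1 = (p : F) := by rw [hm]; push_cast; ring
  rw [hcast] at hprod
  have h2 := congrArg V hprod
  rw [map_mul, hVp, map_prod] at h2
  have h3 : ∏ k ∈ Finset.range m, V (1 - ζ ^ (k + 1 + 1)) ≤ 1 :=
    Finset.prod_le_one' (fun k _ => hle _)
  have h4 : V (1 - ζ ^ (0 + 1)) ≤ 1 := hle _
  have h5 : (1 : Γ₀) ≤ V (1 - ζ ^ (0 + 1)) := by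
    calc (1 : Γ₀) = (∏ k ∈ Finset.range m, V (1 - ζ ^ (k + 1 + 1))) * V (1 - ζ ^ (0 + 1)) := h2.symm
      _ ≤ 1 * V (1 - ζ ^ (0 + 1)) := mul_le_mul_left h3 _
      _ = V (1 - ζ ^ (0 + 1)) := one_mul _
  have := le_antisymm h4 h5
  simpa using this

section

variable {F M : Type} [Field F] [Field M] [NumberField F] [NumberField M] [Algebra F M]

/-- Existence of a prime above `v`. -/
theorem FA_S14_kum_exists_over (v : HeightOneSpectrum (𝓞 F)) :
    ∃ P : Ideal (𝓞 M), P.IsPrime ∧ P.under (𝓞 F) = v.asIdeal := by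
  obtain ⟨P, hP, hPv⟩ := Ideal.exists_maximal_ideal_liesOver_of_isIntegral (S := 𝓞 M) v.asIdeal
  exact ⟨P, hP.isPrime, hPv.over.symm⟩

/-- If `f(P | v) = 1`, every element of `M` which is integral at `P` is congruent mod `P` to an
element of `𝓞 F`. -/
theorem FA_S14_kum_exists_congr (v : HeightOneSpectrum (𝓞 F)) (w : HeightOneSpectrum (𝓞 M))
    (hwv : w.asIdeal.under (𝓞 F) = v.asIdeal) (hf : w.asIdeal.inertiaDeg (𝓞 F) = 1)
    (z : M) (hz : w.valuation M z ≤ 1) :
    ∃ c : 𝓞 F, w.valuation M (z - algebraMap F M (c : F)) < 1 := by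
  have hlies : w.asIdeal.LiesOver v.asIdeal := ⟨hwv.symm⟩
  obtain ⟨a, ha⟩ := w.exists_valuation_sub_lt_of_integer (K := M) hz 1
  rw [Units.val_one] at ha
  have hfin : Module.finrank (𝓞 F ⧸ v.asIdeal) (𝓞 M ⧸ w.asIdeal) = 1 := by
    rw [← Ideal.inertiaDeg_eq_of_isMaximal v.asIdeal w.asIdeal]; exact hf
  let _ : Field (𝓞 F ⧸ v.asIdeal) := Ideal.Quotient.field v.asIdeal
  let _ : Field (𝓞 M ⧸ w.asIdeal) := Ideal.Quotient.field w.asIdeal
  have hbt : (⊥ : Subalgebra (𝓞 F ⧸ v.asIdeal) (𝓞 M ⧸ w.asIdeal)) = ⊤ :=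
    Subalgebra.bot_eq_top_of_finrank_eq_one hfin
  have hmem : Ideal.Quotient.mk w.asIdeal a ∈
      (⊥ : Subalgebra (𝓞 F ⧸ v.asIdeal) (𝓞 M ⧸ w.asIdeal)) := by rw [hbt]; trivial
  obtain ⟨c', hc'⟩ := Algebra.mem_bot.mp hmem
  obtain ⟨c, rfl⟩ := Ideal.Quotient.mk_surjective c'
  rw [Ideal.Quotient.algebraMap_mk_of_liesOver, Ideal.Quotient.eq] at hc'
  refine ⟨c, ?_⟩
  have h1 : w.valuation M (algebraMap (𝓞 M) M (algebraMap (𝓞 F) (𝓞 M) c - a)) < 1 := by
    rw [HeightOneSpectrum.valuation_lt_one_iff_mem]; exact hc'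
  have h2 : z - algebraMap F M (c : F) =
      -(algebraMap (𝓞 M) M a - z) - algebraMap (𝓞 M) M (algebraMap (𝓞 F) (𝓞 M) c - a) := by
    have : algebraMap (𝓞 M) M (algebraMap (𝓞 F) (𝓞 M) c) = algebraMap F M (c : F) := rfl
    rw [map_sub, this]; ring
  rw [h2]
  refine lt_of_le_of_lt (Valuation.map_sub _ _ _) (max_lt ?_ h1)
  rw [Valuation.map_neg]; exact ha

end

theorem FA_S14_kum_res : FA_S14_Target_KumRes := by
  intro p hp hp2 F M _ _ _ _ _ ζ hζ x α hα htop v hvp hvx
  constructor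
  · -- split ⇒ residue
    intro hsplit
    obtain ⟨P, hP, hPv⟩ := FA_S14_kum_exists_over (M := M) v
    have hlies : P.LiesOver v.asIdeal := ⟨hPv.symm⟩
    let w : HeightOneSpectrum (𝓞 M) := ⟨P, hP, FA_S14_kum_ne_bot_of_under v P hPv⟩
    have hwlies : w.asIdeal.LiesOver v.asIdeal := hlies
    obtain ⟨-, hf⟩ := hsplit P hP hPv
    set e := v.asIdeal.ramificationIdx' w.asIdeal with he
    have he0 : e ≠ 0 :=
      Ideal.IsDedekindDomain.ramificationIdx'_ne_zero_of_liesOver w.asIdeal v.ne_bot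
    have hW : ∀ z : F, w.valuation M (algebraMap F M z) = v.valuation F z ^ e :=
      fun z => (HeightOneSpectrum.valuation_liesOver M v w z).symm
    have hWα : w.valuation M α = 1 := by
      have h1 : w.valuation M α ^ p = 1 := by
        rw [← map_pow, hα, hW, hvx, one_pow]
      exact (pow_eq_one_iff_left hp.ne_zero).mp h1
    obtain ⟨c, hc⟩ := FA_S14_kum_exists_congr v w hPv hf α hWα.le
    refine ⟨(c : F), ?_⟩
    have hWc : w.valuation M (algebraMap F M (c : F)) ≤ 1 := by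
      have : algebraMap F M (c : F) = algebraMap (𝓞 M) M (algebraMap (𝓞 F) (𝓞 M) c) := rfl
      rw [this]; exact w.valuation_le_one _
    have hfac : algebraMap F M (x - (c : F) ^ p) =
        (∑ i ∈ Finset.range p, α ^ i * (algebraMap F M (c : F)) ^ (p - 1 - i)) *
          (α - algebraMap F M (c : F)) := by
      rw [geom_sum₂_mul, hα, map_sub, map_pow]
    have hsum : w.valuation M
        (∑ i ∈ Finset.range p, α ^ i * (algebraMap F M (c : F)) ^ (p - 1 - i)) ≤ 1 := by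
      apply Valuation.map_sum_le
      intro i _
      rw [map_mul, map_pow, map_pow, hWα, one_pow, one_mul]
      exact pow_le_one₀ zero_le' hWc
    have hlt : w.valuation M (algebraMap F M (x - (c : F) ^ p)) < 1 := by
      rw [hfac, map_mul]
      calc _ ≤ 1 * w.valuation M (α - algebraMap F M (c : F)) := mul_le_mul_left hsum _
        _ = w.valuation M (α - algebraMap F M (c : F)) := one_mul _
        _ < 1 := hc
    rw [hW] at hlt
    by_contra hcon
    rw [not_lt] at hcon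
    exact absurd hlt (not_lt.mpr (one_le_pow₀ hcon))
  · -- residue ⇒ split
    rintro ⟨c, hc⟩
    have hVc : v.valuation F (c ^ p) = 1 := by
      have h1 : c ^ p = x - (x - c ^ p) := by ring
      rw [h1, Valuation.map_sub_eq_of_lt_left _ (by rw [hvx]; exact hc), hvx]
    have hVc1 : v.valuation F c = 1 := by
      rw [map_pow] at hVc
      exact (pow_eq_one_iff_left hp.ne_zero).mp hVc
    have hc0 : c ≠ 0 := by
      rintro rfl
      simp at hVc1
    have hV1 : v.valuation F (1 - ζ) = 1 := FA_S14_kum_val_one_sub_zeta _ hp hζ hvp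
    apply FA_S14_kum_split p hp hp2 F M ζ hζ x α hα htop v
    refine ⟨c, hc0, ?_⟩
    rw [map_mul, map_pow, map_pow, hVc1, hV1, one_pow, one_mul]
    exact hc

end Fermat.Agent.S14
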