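import Mathlib
import Fermat.Agent.S14.KumRes

/-!
# S14 leaf KUM, part 5: KUNR (`v ∤ p`, `p ∣ v(x)` ⇒ `v` unramified in `F(x^{1/p})`)
-/

set_option autoImplicit false
set_option linter.unusedSectionVars false

open scoped NumberField Pointwise
open IsDedekindDomain IntermediateField Polynomial

namespace Fermat.Agent.S14

section

variable {F M : Type} [Field F] [Field M] [NumberField F] [NumberField M] [Algebra F M]

/-- An element of the inertia group of `w` moves `w`-integral elements by elements of the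
maximal ideal. -/
theorem FA_S14_kum_val_inertia (σ : M ≃ₐ[F] M) (w : HeightOneSpectrum (𝓞 M))
    (hσ : σ ∈ Ideal.inertia (M ≃ₐ[F] M) w.asIdeal) (z : M) (hz : w.valuation M z ≤ 1) :
    w.valuation M (σ z - z) < 1 := by
  have hσP : σ • w.asIdeal = w.asIdeal := Ideal.inertia_le_stabilizer w.asIdeal hσ
  obtain ⟨n, ⟨d, hd⟩, hnd⟩ := w.exists_primeCompl_mul_eq_of_integer z hz
  have hWd : w.valuation M (algebraMap (𝓞 M) M d) = 1 := by
    rw [HeightOneSpectrum.valuation_of_algebraMap]
    exact (w.intValuation_eq_one_iff_mem_primeCompl d).mpr hd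
  have hWσd : w.valuation M (σ (algebraMap (𝓞 M) M d)) = 1 := by
    rw [FA_S14_kum_val_smul σ w hσP, hWd]
  have hin : ∀ a : 𝓞 M, w.valuation M (σ (algebraMap (𝓞 M) M a) - algebraMap (𝓞 M) M a) < 1 := by
    intro a
    have h1 : σ (algebraMap (𝓞 M) M a) - algebraMap (𝓞 M) M a =
        algebraMap (𝓞 M) M (σ • a - a) := rfl
    rw [h1, HeightOneSpectrum.valuation_lt_one_iff_mem]
    exact hσ a
  have hd0 : algebraMap (𝓞 M) M d ≠ 0 := by
    intro h0; rw [h0, map_zero] at hWd; exact zero_ne_one hWd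
  have hσd0 : σ (algebraMap (𝓞 M) M d) ≠ 0 := by
    intro h0; rw [h0, map_zero] at hWσd; exact zero_ne_one hWσd
  have hkey : (σ z - z) * (algebraMap (𝓞 M) M d * σ (algebraMap (𝓞 M) M d)) =
      (σ (algebraMap (𝓞 M) M n) - algebraMap (𝓞 M) M n) * algebraMap (𝓞 M) M d -
        algebraMap (𝓞 M) M n * (σ (algebraMap (𝓞 M) M d) - algebraMap (𝓞 M) M d) := by
    have h2 : σ z * σ (algebraMap (𝓞 M) M d) = σ (algebraMap (𝓞 M) M n) := by
      rw [← map_mul, hnd]
    have h3 : z * algebraMap (𝓞 M) M d = algebraMap (𝓞 M) M n := hnd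
    linear_combination (algebraMap (𝓞 M) M d) * h2 - (σ (algebraMap (𝓞 M) M d)) * h3
  have hlt : w.valuation M ((σ z - z) * (algebraMap (𝓞 M) M d * σ (algebraMap (𝓞 M) M d))) < 1 := by
    rw [hkey]
    refine lt_of_le_of_lt (Valuation.map_sub _ _ _) (max_lt ?_ ?_)
    · rw [map_mul, hWd, mul_one]; exact hin n
    · rw [map_mul]
      exact Right.mul_lt_one_of_le_of_lt (w.valuation_le_one n) (hin d)
  rwa [map_mul, map_mul, hWd, hWσd, mul_one, mul_one] at hlt

end

theorem FA_S14_kum_unram : FA_S14_Target_KumUnram := by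
  intro p hp _ F M _ _ _ _ _ ζ hζ x α hx0 hα htop v hvp hy P hP hPv
  obtain ⟨y, hy⟩ := hy
  by_cases hpow : ∃ z : F, z ^ p = x
  · obtain ⟨z, hz⟩ := hpow
    exact (FA_S14_kum_splits_of_finrank_one
      (FA_S14_kum_finrank_one_of_pow hp hζ hα htop hz) v P hP hPv).1
  · have hnp : ∀ z : F, z ^ p ≠ x := fun z hz => hpow ⟨z, hz⟩
    obtain ⟨hgal, hfin, σ, hσα, hσgen⟩ := FA_S14_kum_deg_field hp hζ hα htop hnp
    have hfd : FiniteDimensional F M := Module.finite_of_finrank_pos (by rw [hfin]; exact hp.pos)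
    have hcard : Nat.card (M ≃ₐ[F] M) = p := by rw [IsGalois.card_aut_eq_finrank, hfin]
    have : Fact (Nat.card (M ≃ₐ[F] M)).Prime := ⟨by rw [hcard]; exact hp⟩
    have hlies : P.LiesOver v.asIdeal := ⟨hPv.symm⟩
    have h2 := Ideal.card_inertia_eq_ramificationIdxIn (G := M ≃ₐ[F] M) v.asIdeal P
    have h3 := Ideal.ramificationIdxIn_eq_ramificationIdx v.asIdeal P (M ≃ₐ[F] M)
    rcases Subgroup.eq_bot_or_eq_top_of_prime_card (Ideal.inertia (M ≃ₐ[F] M) P) with h | h
    · rw [← h3, ← h2, h, Subgroup.card_bot]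
    exfalso
    let w : HeightOneSpectrum (𝓞 M) := ⟨P, hP, FA_S14_kum_ne_bot_of_under v P hPv⟩
    have hwlies : w.asIdeal.LiesOver v.asIdeal := hlies
    have hσI : σ ∈ Ideal.inertia (M ≃ₐ[F] M) w.asIdeal := by
      show σ ∈ Ideal.inertia (M ≃ₐ[F] M) P
      rw [h]; trivial
    set e := v.asIdeal.ramificationIdx' w.asIdeal with he
    have hW : ∀ z : F, w.valuation M (algebraMap F M z) = v.valuation F z ^ e :=
      fun z => (HeightOneSpectrum.valuation_liesOver M v w z).symm
    have hVx0 : v.valuation F x ≠ 0 := by simpa using hx0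
    have hy0 : y ≠ 0 := by
      rintro rfl
      rw [map_zero, zero_pow hp.ne_zero] at hy
      exact hVx0 hy
    have hyM : algebraMap F M y ≠ 0 := by simpa using hy0
    -- β = α / y is a `w`-unit
    have hWβ : w.valuation M (α / algebraMap F M y) = 1 := by
      have h1 : w.valuation M (α / algebraMap F M y) ^ p = 1 := by
        rw [← map_pow, div_pow, hα, ← map_pow, ← map_div₀, hW, map_div₀, map_pow, ← hy,
          div_self hVx0, one_pow]
      exact (pow_eq_one_iff_left hp.ne_zero).mp h1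
    have hV1 : v.valuation F (1 - ζ) = 1 := FA_S14_kum_val_one_sub_zeta _ hp hζ hvp
    have hlt := FA_S14_kum_val_inertia σ w hσI (α / algebraMap F M y) hWβ.le
    have h4 : σ (α / algebraMap F M y) - α / algebraMap F M y =
        -(algebraMap F M (1 - ζ) * (α / algebraMap F M y)) := by
      rw [map_div₀, hσα, AlgEquiv.commutes, map_sub, map_one]
      ring
    rw [h4, Valuation.map_neg, map_mul, hW, hV1, one_pow, one_mul, hWβ] at hlt
    exact lt_irrefl _ hlt

end Fermat.Agent.S14
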