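import Mathlib
import Fermat.Agent.S14.KumUnram

/-!
# S14 leaf KUM, part 6: KRAM (`p ∤ v(x)` ⇒ `v` totally ramified in `F(x^{1/p})`)
-/

set_option autoImplicit false
set_option linter.unusedSectionVars false

open scoped NumberField Pointwise
open IsDedekindDomain IntermediateField Polynomial

namespace Fermat.Agent.S14

/-- In `ℤᵐ⁰`: if `a ^ e = b ^ p` with `a ≠ 0`, `p` prime and `p ∤ e`, then `a` is a `p`-th
power. -/
theorem FA_S14_kum_pow_of_coprime {p e : ℕ} (hp : p.Prime) (he : ¬ p ∣ e)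
    {a b : WithZero (Multiplicative ℤ)} (ha : a ≠ 0) (h : a ^ e = b ^ p) :
    ∃ c : WithZero (Multiplicative ℤ), c ≠ 0 ∧ a = c ^ p := by
  have hb : b ≠ 0 := by
    rintro rfl
    rw [zero_pow hp.ne_zero] at h
    have he0 : e ≠ 0 := fun h0 => he (by rw [h0]; exact dvd_zero p)
    exact ha ((pow_eq_zero_iff he0).mp h)
  have hlog : (e : ℤ) * WithZero.log a = (p : ℤ) * WithZero.log b := by
    have := congrArg WithZero.log h
    rwa [WithZero.log_pow, WithZero.log_pow, nsmul_eq_mul, nsmul_eq_mul] at this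
  have hcop : IsCoprime (p : ℤ) (e : ℤ) := by
    rw [Int.isCoprime_iff_gcd_eq_one, Int.gcd_natCast_natCast]
    exact (Nat.Prime.coprime_iff_not_dvd hp).mpr he
  have hdvd : (p : ℤ) ∣ WithZero.log a := by
    have : (p : ℤ) ∣ (e : ℤ) * WithZero.log a := ⟨_, hlog⟩
    exact hcop.dvd_of_dvd_mul_left this
  obtain ⟨m, hm⟩ := hdvd
  refine ⟨WithZero.exp m, WithZero.exp_ne_zero, ?_⟩
  rw [← WithZero.exp_nsmul, nsmul_eq_mul, ← hm, WithZero.exp_log ha]

theorem FA_S14_kum_ram : FA_S14_Target_KumRam := by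
  intro p hp _ F M _ _ _ _ _ ζ hζ x α hx0 hα htop v hv
  have hnp : ∀ z : F, z ^ p ≠ x := by
    intro z hz
    exact hv z (by rw [← hz, map_pow])
  obtain ⟨hgal, hfin, σ, hσα, hσgen⟩ := FA_S14_kum_deg_field hp hζ hα htop hnp
  refine ⟨hfin, ?_⟩
  have hfd : FiniteDimensional F M := Module.finite_of_finrank_pos (by rw [hfin]; exact hp.pos)
  have hcard : Nat.card (M ≃ₐ[F] M) = p := by rw [IsGalois.card_aut_eq_finrank, hfin]
  obtain ⟨P, hP, hPv⟩ := FA_S14_kum_exists_over (M := M) v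
  have hlies : P.LiesOver v.asIdeal := ⟨hPv.symm⟩
  let w : HeightOneSpectrum (𝓞 M) := ⟨P, hP, FA_S14_kum_ne_bot_of_under v P hPv⟩
  have hwlies : w.asIdeal.LiesOver v.asIdeal := hlies
  set e := v.asIdeal.ramificationIdx' w.asIdeal with he
  have he' : e = P.ramificationIdx (𝓞 F) :=
    Ideal.ramificationIdx'_eq_ramificationIdx v.asIdeal P v.ne_bot
  have hW : ∀ z : F, w.valuation M (algebraMap F M z) = v.valuation F z ^ e :=
    fun z => (HeightOneSpectrum.valuation_liesOver M v w z).symm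
  have hVx0 : v.valuation F x ≠ 0 := by simpa using hx0
  -- `p ∣ e`
  have hpe : p ∣ e := by
    by_contra hne
    have h1 : v.valuation F x ^ e = w.valuation M α ^ p := by
      rw [← hW, ← hα, map_pow]
    obtain ⟨c, hc0, hc⟩ := FA_S14_kum_pow_of_coprime hp hne hVx0 h1
    obtain ⟨y, hy⟩ := v.valuation_surjective F c
    exact hv y (by rw [hy, hc])
  -- `e ∣ p`
  have hfund := Ideal.ncard_primesOver_mul_ramificationIdxIn_mul_inertiaDegIn v.asIdeal (𝓞 M)
    (M ≃ₐ[F] M)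
  rw [hcard, Ideal.ramificationIdxIn_eq_ramificationIdx v.asIdeal P (M ≃ₐ[F] M), ← he'] at hfund
  have hep : e = p := by
    have hdvd : e ∣ p := ⟨(v.asIdeal.primesOver (𝓞 M)).ncard * v.asIdeal.inertiaDegIn (𝓞 M), by
      rw [← hfund]; ring⟩
    exact Nat.dvd_antisymm hdvd hpe
  have hg : (v.asIdeal.primesOver (𝓞 M)).ncard = 1 := by
    rw [hep] at hfund
    have h1 : (v.asIdeal.primesOver (𝓞 M)).ncard * v.asIdeal.inertiaDegIn (𝓞 M) * p = 1 * p := by
      rw [one_mul]; linarith [hfund, mul_assoc (v.asIdeal.primesOver (𝓞 M)).ncard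
        (v.asIdeal.inertiaDegIn (𝓞 M)) p, mul_comm p (v.asIdeal.inertiaDegIn (𝓞 M))]
    have h2 := Nat.eq_of_mul_eq_mul_right hp.pos h1
    exact Nat.eq_one_of_mul_eq_one_right h2
  have hPmem : P ∈ v.asIdeal.primesOver (𝓞 M) := ⟨hP, hlies⟩
  obtain ⟨Q, hQ⟩ := Set.ncard_eq_one.mp hg
  have hPQ : P = Q := by rw [hQ] at hPmem; exact hPmem
  refine ⟨P, hP, ?_⟩
  rw [Ideal.map_algebraMap_eq_finsetProd_pow (R := 𝓞 M) v.ne_bot]
  have hset : (v.asIdeal.primesOver (𝓞 M)).toFinset = {P} := by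
    ext I
    simp only [Set.mem_toFinset, Finset.mem_singleton, hQ, Set.mem_singleton_iff, hPQ]
  rw [hset, Finset.prod_singleton, ← he', hep]

end Fermat.Agent.S14
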