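import Mathlib
import Fermat.Agent.S14.KumRam
import Fermat.Agent.S14.CrossDefs

/-!
# S14 leaf ELL (helper3), part 1: arithmetic lemmas
-/

set_option autoImplicit false
set_option linter.unusedSectionVars false

open scoped NumberField
open IsDedekindDomain IntermediateField Polynomial

namespace Fermat.Agent.S14

/-- If a natural number `n ≠ 0` is a `p`-th power in a number field of degree prime to `p`, then
all its prime valuations are divisible by `p`. -/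
theorem FA_S14_ell_padic {p : ℕ} (hp : p.Prime) {K : Type} [Field K] [NumberField K]
    (hdeg : Nat.Coprime p (Module.finrank ℚ K)) {n : ℕ} (hn : n ≠ 0) {y : K}
    (hy : (n : K) = y ^ p) (r : ℕ) [hr : Fact r.Prime] : p ∣ padicValNat r n := by
  have h1 : ((n : ℚ)) ^ (Module.finrank ℚ K) = (Algebra.norm ℚ y) ^ p := by
    have h2 : Algebra.norm ℚ ((n : K)) = (n : ℚ) ^ (Module.finrank ℚ K) := by
      have : (n : K) = algebraMap ℚ K (n : ℚ) := by simp
      rw [this, Algebra.norm_algebraMap]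
    rw [← h2, hy, map_pow]
  have hn' : (n : ℚ) ≠ 0 := by exact_mod_cast hn
  have hN0 : Algebra.norm ℚ y ≠ 0 := by
    intro h0
    rw [h0, zero_pow hp.ne_zero] at h1
    exact (pow_ne_zero _ hn') h1
  have h3 := congrArg (padicValRat r) h1
  rw [padicValRat.pow, padicValRat.pow, padicValRat.of_nat] at h3
  have h4 : (p : ℤ) ∣ (Module.finrank ℚ K : ℤ) * (padicValNat r n : ℤ) := ⟨_, h3⟩
  have hcop : IsCoprime (p : ℤ) (Module.finrank ℚ K : ℤ) := by
    rw [Int.isCoprime_iff_gcd_eq_one, Int.gcd_natCast_natCast]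
    exact hdeg
  have h5 := hcop.dvd_of_dvd_mul_left h4
  exact_mod_cast h5

/-- `padicValNat` of `q ^ a * q₀ ^ b` at `q` and `q₀`. -/
theorem FA_S14_ell_val {q q₀ : ℕ} (hq : q.Prime) (hq₀ : q₀.Prime) (hne : q ≠ q₀) (a b : ℕ) :
    padicValNat q (q ^ a * q₀ ^ b) = a ∧ padicValNat q₀ (q ^ a * q₀ ^ b) = b := by
  have := Fact.mk hq
  have := Fact.mk hq₀
  have h1 : q ^ a ≠ 0 := pow_ne_zero _ hq.ne_zero
  have h2 : q₀ ^ b ≠ 0 := pow_ne_zero _ hq₀.ne_zero
  have h3 : padicValNat q q₀ = 0 :=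
    padicValNat.eq_zero_of_not_dvd (fun h => hne ((Nat.prime_dvd_prime_iff_eq hq hq₀).mp h))
  have h4 : padicValNat q₀ q = 0 :=
    padicValNat.eq_zero_of_not_dvd (fun h => hne ((Nat.prime_dvd_prime_iff_eq hq₀ hq).mp h).symm)
  constructor
  · rw [padicValNat.mul h1 h2, padicValNat.pow, padicValNat.pow,
      padicValNat_self, h3]; simp
  · rw [padicValNat.mul h1 h2, padicValNat.pow, padicValNat.pow,
      padicValNat_self, h4]; simp

/-- `c = q q₀^k` is not a `p`-th power in `K`. -/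
theorem FA_S14_ell_c_not_pow {p : ℕ} (hp : p.Prime) {K : Type} [Field K] [NumberField K]
    (hdeg : Nat.Coprime p (Module.finrank ℚ K)) {q q₀ : ℕ} (hq : q.Prime) (hq₀ : q₀.Prime)
    (hne : q ≠ q₀) (k : ℕ) (y : K) : y ^ p ≠ ((q * q₀ ^ k : ℕ) : K) := by
  intro hy
  have := Fact.mk hq
  have hn : q * q₀ ^ k ≠ 0 := mul_ne_zero hq.ne_zero (pow_ne_zero _ hq₀.ne_zero)
  have h := FA_S14_ell_padic hp hdeg hn hy.symm q
  have hv := (FA_S14_ell_val hq hq₀ hne 1 k).1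
  rw [pow_one] at hv
  rw [hv] at h
  exact hp.one_lt.ne' (Nat.dvd_one.mp h)

/-- No relation `q₀ = y^p c^j` in `K`, `c = q q₀^k`. -/
theorem FA_S14_ell_no_rel {p : ℕ} (hp : p.Prime) {K : Type} [Field K] [NumberField K]
    (hdeg : Nat.Coprime p (Module.finrank ℚ K)) {q q₀ : ℕ} (hq : q.Prime) (hq₀ : q₀.Prime)
    (hne : q ≠ q₀) (k j : ℕ) (hj : j < p) (y : K) :
    (q₀ : K) ≠ y ^ p * ((q * q₀ ^ k : ℕ) : K) ^ j := by
  intro hy
  have := Fact.mk hq
  have := Fact.mk hq₀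
  -- `q₀ c^(p-j) = (y c)^p`
  set c : ℕ := q * q₀ ^ k with hc
  have hc0 : c ≠ 0 := mul_ne_zero hq.ne_zero (pow_ne_zero _ hq₀.ne_zero)
  have h1 : ((q₀ * c ^ (p - j) : ℕ) : K) = (y * (c : K)) ^ p := by
    push_cast
    rw [hy, mul_pow, mul_assoc, ← pow_add, Nat.add_sub_cancel' hj.le]
  have hn : q₀ * c ^ (p - j) ≠ 0 := mul_ne_zero hq₀.ne_zero (pow_ne_zero _ hc0)
  have hform : q₀ * c ^ (p - j) = q ^ (p - j) * q₀ ^ (1 + k * (p - j)) := by
    rw [hc, mul_pow, ← pow_mul]; ring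
  have hA := FA_S14_ell_padic hp hdeg hn h1 q
  have hB := FA_S14_ell_padic hp hdeg hn h1 q₀
  rw [hform] at hA hB
  rw [(FA_S14_ell_val hq hq₀ hne _ _).1] at hA
  rw [(FA_S14_ell_val hq hq₀ hne _ _).2] at hB
  have hj0 : p - j = p := by
    have hpos : 0 < p - j := Nat.sub_pos_of_lt hj
    have hle : p - j ≤ p := Nat.sub_le _ _
    exact Nat.le_antisymm hle (Nat.le_of_dvd hpos hA)
  rw [hj0] at hB
  have : p ∣ 1 := by
    have h2 : p ∣ k * p := Dvd.intro_left k rfl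
    exact (Nat.dvd_add_left h2).mp hB
  exact hp.one_lt.ne' (Nat.dvd_one.mp this)

section descent

variable {p : ℕ} {F M : Type} [Field F] [Field M] [Algebra F M]

/-- Kummer descent: in `M = F(α)`, `α^p = x`, `[M:F] = p`, every `z` with `z^p ∈ F` is
`y α^j` with `y ∈ F`. -/
theorem FA_S14_ell_descent (hp : p.Prime) [IsGalois F M] [FiniteDimensional F M]
    {ζ : F} (hζ : IsPrimitiveRoot ζ p)
    {α : M} (hα0 : α ≠ 0) (σ : M ≃ₐ[F] M) (hσα : σ α = algebraMap F M ζ * α)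
    (hσgen : ∀ τ : M ≃ₐ[F] M, τ ∈ Subgroup.zpowers σ)
    {z : M} {t : F} (hz : z ^ p = algebraMap F M t) (hz0 : z ≠ 0) :
    ∃ (j : ℕ) (y : F), j < p ∧ z = algebraMap F M y * α ^ j := by
  have : NeZero p := ⟨hp.ne_zero⟩
  have hζM := hζ.map_of_injective (algebraMap F M).injective
  have h1 : (σ z / z) ^ p = 1 := by
    rw [div_pow, ← map_pow, hz, AlgEquiv.commutes, div_self]
    rw [← hz]; exact pow_ne_zero _ hz0
  obtain ⟨j, hj, hjz⟩ := hζM.eq_pow_of_pow_eq_one h1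
  have hσz : σ z = algebraMap F M ζ ^ j * z := by
    rw [hjz, div_mul_cancel₀ _ hz0]
  set w : M := z / α ^ j with hw
  have hσw : σ w = w := by
    rw [hw, map_div₀, map_pow, hσz, hσα, mul_pow]
    have hζ0 : algebraMap F M ζ ^ j ≠ 0 := pow_ne_zero _ (hζM.ne_zero hp.ne_zero)
    rw [mul_div_mul_left _ _ hζ0]
  have hfix : ∀ τ : M ≃ₐ[F] M, τ w = w := by
    intro τ
    obtain ⟨n, rfl⟩ := Subgroup.mem_zpowers_iff.mp (hσgen τ)
    have hstab : σ ∈ MulAction.stabilizer (M ≃ₐ[F] M) w := hσw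
    have := Subgroup.zpow_mem _ hstab n
    exact this
  have hwF : w ∈ (⊥ : IntermediateField F M) := by
    rw [← IsGalois.fixedField_top (F := F) (E := M)]
    intro τ
    exact hfix τ.1
  obtain ⟨y, hy⟩ := IntermediateField.mem_bot.mp hwF
  refine ⟨j, y, hj, ?_⟩
  rw [hy, hw, div_mul_cancel₀ _ (pow_ne_zero _ hα0)]

end descent

end Fermat.Agent.S14
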