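import Mathlib
import Fermat.Agent.S14.Ell1
import Fermat.Agent.S14.Dens6

/-!
# S14 leaf ELL (helper3), part 2: residue fields of degree one and the choice of `ℓ`
-/

set_option autoImplicit false
set_option linter.unusedSectionVars false
set_option linter.style.haveILetI false

open scoped NumberField
open IsDedekindDomain IntermediateField Polynomial

namespace Fermat.Agent.S14

section resfield

variable {M : Type} [Field M] [NumberField M]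

/-- For a prime `𝔏` of absolute norm a prime `ℓ`: `ZMod ℓ → 𝓞 M ⧸ 𝔏` is bijective. -/
theorem FA_S14_ell_zmod_bij (𝔏 : Ideal (𝓞 M)) [𝔏.IsPrime] (h0 : 𝔏 ≠ ⊥) {ℓ : ℕ}
    [Fact ℓ.Prime] (hℓ : Ideal.absNorm 𝔏 = ℓ) :
    ∃ f : ZMod ℓ →+* (𝓞 M ⧸ 𝔏), Function.Bijective f := by
  have hfin : Finite (𝓞 M ⧸ 𝔏) := Ideal.finiteQuotientOfFreeOfNeBot 𝔏 h0
  have hft : Fintype (𝓞 M ⧸ 𝔏) := Fintype.ofFinite _
  have hcard : Nat.card (𝓞 M ⧸ 𝔏) = ℓ := by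
    rw [← hℓ, Ideal.absNorm_apply, Submodule.cardQuot_apply]
  have hcard' : Fintype.card (𝓞 M ⧸ 𝔏) = ℓ := by rw [← Nat.card_eq_fintype_card, hcard]
  have hchar : CharP (𝓞 M ⧸ 𝔏) ℓ := charP_of_card_eq_prime hcard'
  have hnt : Nontrivial (𝓞 M ⧸ 𝔏) := Ideal.Quotient.nontrivial_iff.mpr (Ideal.IsPrime.ne_top ‹_›)
  refine ⟨ZMod.castHom (dvd_refl ℓ) (𝓞 M ⧸ 𝔏), ?_⟩
  have hinj : Function.Injective (ZMod.castHom (dvd_refl ℓ) (𝓞 M ⧸ 𝔏)) :=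
    RingHom.injective _
  rw [Fintype.bijective_iff_injective_and_card]
  exact ⟨hinj, by rw [ZMod.card, hcard']⟩

/-- membership of a natural number in `𝔏`. -/
theorem FA_S14_ell_nat_mem (𝔏 : Ideal (𝓞 M)) [𝔏.IsPrime] {ℓ : ℕ}
    (hp : ℓ.Prime) (hℓ : Ideal.absNorm 𝔏 = ℓ) (n : ℕ) :
    (n : 𝓞 M) ∈ 𝔏 ↔ ℓ ∣ n := by
  have hmem : (ℓ : 𝓞 M) ∈ 𝔏 := by
    have := Ideal.absNorm_mem 𝔏
    rwa [hℓ] at this
  constructor
  · intro hn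
    by_contra hnd
    have hcop : Nat.Coprime ℓ n := (Nat.Prime.coprime_iff_not_dvd hp).mpr hnd
    have h1 : ((1 : ℤ) : 𝓞 M) ∈ 𝔏 := by
      have hb := Nat.gcd_eq_gcd_ab ℓ n
      rw [hcop] at hb
      have : ((1 : ℤ) : 𝓞 M) = (ℓ : 𝓞 M) * ((Nat.gcdA ℓ n : ℤ) : 𝓞 M) +
          (n : 𝓞 M) * ((Nat.gcdB ℓ n : ℤ) : 𝓞 M) := by
        have h2 : ((1 : ℤ) : 𝓞 M) = (((ℓ : ℤ) * Nat.gcdA ℓ n + (n : ℤ) * Nat.gcdB ℓ n : ℤ) : 𝓞 M) := by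
          rw [← hb]; simp
        rw [h2]; push_cast; ring
      rw [this]
      exact 𝔏.add_mem (𝔏.mul_mem_right _ hmem) (𝔏.mul_mem_right _ hn)
    rw [Int.cast_one] at h1
    exact (Ideal.IsPrime.ne_top ‹_›) ((Ideal.eq_top_iff_one 𝔏).mpr h1)
  · rintro ⟨m, rfl⟩
    push_cast
    exact 𝔏.mul_mem_right _ hmem

end resfield

end Fermat.Agent.S14
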