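import Mathlib
import Fermat.Agent.S14.Ell2

/-!
# S14 leaf ELL (helper3), part 3: the auxiliary prime `ℓ`
-/

set_option autoImplicit false
set_option linter.unusedSectionVars false
set_option linter.style.haveILetI false

open scoped NumberField
open IsDedekindDomain IntermediateField Polynomial

namespace Fermat.Agent.S14

/-- Local statement: `M₂ = M₁(q₀^{1/p})`, `c = α₁^p` in `M₁ ∋ ζ_p`, `𝔏` a prime of `M₁` of absolute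
norm a prime `ℓ`, not containing `p q q₀`, not split in `M₂`. Then `ℓ` has the properties of
ELL. -/
theorem FA_S14_ell_local {p : ℕ} (hp : p.Prime) (hp2 : p ≠ 2)
    {M₁ M₂ : Type} [Field M₁] [Field M₂] [NumberField M₁] [NumberField M₂] [Algebra M₁ M₂]
    {ζ₁ : M₁} (hζ₁ : IsPrimitiveRoot ζ₁ p) {q q₀ k : ℕ} (hq : q.Prime) (hq₀ : q₀.Prime)
    {α₁ : M₁} (hα₁ : α₁ ^ p = ((q * q₀ ^ k : ℕ) : M₁))
    {α₂ : M₂} (hα₂ : α₂ ^ p = algebraMap M₁ M₂ (q₀ : M₁)) (htop₂ : M₁⟮α₂⟯ = ⊤)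
    (𝔏 : Ideal (𝓞 M₁)) (h𝔏p : 𝔏.IsPrime) (h𝔏0 : 𝔏 ≠ ⊥) {ℓ : ℕ} (hℓ : Ideal.absNorm 𝔏 = ℓ)
    (hℓp : ℓ.Prime) (hN : ((p * q * q₀ : ℕ) : 𝓞 M₁) ∉ 𝔏)
    (hns : ¬ FA_S14_SplitsCompletely M₁ M₂ 𝔏) :
    ℓ ≠ p ∧ ℓ ≠ q ∧ ℓ ≠ q₀ ∧ p ∣ ℓ - 1 ∧
      ¬ FA_S14_IsRes ℓ p q₀ ∧ FA_S14_IsRes ℓ p (q * q₀ ^ k) := by
  have := Fact.mk hℓp
  have hmemiff := FA_S14_ell_nat_mem 𝔏 hℓp hℓ
  have hNd : ¬ ℓ ∣ p * q * q₀ := fun h => hN ((hmemiff _).mpr h)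
  have hℓp' : ℓ ≠ p := by
    rintro rfl; exact hNd (Dvd.intro _ (mul_assoc _ _ _).symm)
  have hℓq : ℓ ≠ q := by
    rintro rfl; exact hNd (Dvd.intro (p * q₀) (by ring))
  have hℓq₀ : ℓ ≠ q₀ := by
    rintro rfl; exact hNd (Dvd.intro_left (p * q) rfl)
  have hndp : ¬ ℓ ∣ p := fun h => hℓp' ((Nat.prime_dvd_prime_iff_eq hℓp hp).mp h)
  have hndq : ¬ ℓ ∣ q := fun h => hℓq ((Nat.prime_dvd_prime_iff_eq hℓp hq).mp h)
  have hndq₀ : ¬ ℓ ∣ q₀ := fun h => hℓq₀ ((Nat.prime_dvd_prime_iff_eq hℓp hq₀).mp h)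
  let w : HeightOneSpectrum (𝓞 M₁) := ⟨𝔏, h𝔏p, h𝔏0⟩
  have hWnat : ∀ n : ℕ, ¬ ℓ ∣ n → w.valuation M₁ (n : M₁) = 1 := by
    intro n hn
    have h1 : (n : M₁) = algebraMap (𝓞 M₁) M₁ (n : 𝓞 M₁) := by simp
    rw [h1, HeightOneSpectrum.valuation_eq_one_iff_notMem]
    exact fun h => hn ((hmemiff n).mp h)
  have hWnat' : ∀ n : ℤ, (ℓ : ℤ) ∣ n → w.valuation M₁ (n : M₁) < 1 := by
    intro n hn
    obtain ⟨m, rfl⟩ := hn
    have h1 : (((ℓ : ℤ) * m : ℤ) : M₁) = algebraMap (𝓞 M₁) M₁ ((ℓ : 𝓞 M₁) * (m : 𝓞 M₁)) := by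
      simp
    rw [h1, HeightOneSpectrum.valuation_lt_one_iff_mem]
    exact 𝔏.mul_mem_right _ ((hmemiff ℓ).mpr dvd_rfl)
  have hWp : w.valuation M₁ (p : M₁) = 1 := hWnat p hndp
  have hWq₀ : w.valuation M₁ (q₀ : M₁) = 1 := hWnat q₀ hndq₀
  obtain ⟨f, hf⟩ := FA_S14_ell_zmod_bij 𝔏 h𝔏0 hℓ
  have hfnat : ∀ n : ℕ, f (n : ZMod ℓ) = Ideal.Quotient.mk 𝔏 (n : 𝓞 M₁) := by
    intro n; rw [map_natCast, map_natCast]
  refine ⟨hℓp', hℓq, hℓq₀, ?_, ?_, ?_⟩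
  · -- `p ∣ ℓ - 1`
    have hζint : IsIntegral ℤ ζ₁ := by
      refine ⟨X ^ p - 1, monic_X_pow_sub_C 1 hp.ne_zero, ?_⟩
      simp [hζ₁.pow_eq_one]
    set ζ' : 𝓞 M₁ := ⟨ζ₁, hζint⟩ with hζ'
    have hζ'p : ζ' ^ p = 1 := by
      apply NumberField.RingOfIntegers.coe_injective
      exact hζ₁.pow_eq_one
    have hV1 : w.valuation M₁ (1 - ζ₁) = 1 := FA_S14_kum_val_one_sub_zeta _ hp hζ₁ hWp
    have hζ'ne : (1 - ζ') ∉ 𝔏 := by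
      have h1 : (1 - ζ₁ : M₁) = algebraMap (𝓞 M₁) M₁ (1 - ζ') := by
        rw [map_sub, map_one]; rfl
      rw [h1, HeightOneSpectrum.valuation_eq_one_iff_notMem] at hV1
      exact hV1
    obtain ⟨z, hz⟩ := hf.2 (Ideal.Quotient.mk 𝔏 ζ')
    have hzp : z ^ p = 1 := by
      apply hf.1
      rw [map_pow, hz, ← map_pow, hζ'p, map_one, map_one]
    have hz1 : z ≠ 1 := by
      rintro rfl
      rw [map_one] at hz
      apply hζ'ne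
      rw [← Ideal.Quotient.eq, map_one]
      exact hz
    have hz0 : z ≠ 0 := by
      rintro rfl
      rw [zero_pow hp.ne_zero] at hzp
      exact zero_ne_one hzp
    have := Fact.mk hp
    have hord : orderOf z = p := orderOf_eq_prime hzp hz1
    have h2 : z ^ (ℓ - 1) = 1 := ZMod.pow_card_sub_one_eq_one hz0
    rw [← hord]
    exact orderOf_dvd_of_pow_eq_one h2
  · -- `q₀` is not a residue
    rintro ⟨c, hc0, hc⟩
    apply hns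
    have hres : ∃ c' : M₁, w.valuation M₁ ((q₀ : M₁) - c' ^ p) < 1 := by
      refine ⟨((c.val : ℕ) : M₁), ?_⟩
      have h1 : ((q₀ : M₁) - ((c.val : ℕ) : M₁) ^ p) = (((q₀ : ℤ) - (c.val : ℤ) ^ p : ℤ) : M₁) := by
        push_cast; ring
      rw [h1]
      apply hWnat'
      rw [← ZMod.intCast_zmod_eq_zero_iff_dvd]
      push_cast
      rw [ZMod.natCast_zmod_val, hc, sub_self]
    exact (FA_S14_kum_res p hp hp2 M₁ M₂ ζ₁ hζ₁ (q₀ : M₁) α₂ hα₂ htop₂ w hWp hWq₀).mpr hres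
  · -- `c` is a residue
    have hαint : IsIntegral ℤ α₁ := by
      refine IsIntegral.of_pow hp.pos ?_
      rw [hα₁]
      exact isIntegral_natCast _
    set α' : 𝓞 M₁ := ⟨α₁, hαint⟩ with hα'
    have hα'p : α' ^ p = ((q * q₀ ^ k : ℕ) : 𝓞 M₁) := by
      apply NumberField.RingOfIntegers.coe_injective
      rw [map_pow, map_natCast]
      exact hα₁
    obtain ⟨z, hz⟩ := hf.2 (Ideal.Quotient.mk 𝔏 α')
    have hzp : ((q * q₀ ^ k : ℕ) : ZMod ℓ) = z ^ p := by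
      apply hf.1
      rw [hfnat, map_pow, hz, ← map_pow, hα'p]
    refine ⟨z, ?_, hzp⟩
    rintro rfl
    rw [zero_pow hp.ne_zero, ZMod.natCast_eq_zero_iff] at hzp
    rcases (Nat.Prime.dvd_mul hℓp).mp hzp with h | h
    · exact hndq h
    · exact hndq₀ (hℓp.dvd_of_dvd_pow h)

end Fermat.Agent.S14
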