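import Mathlib
import Fermat.Agent.S14.Ell3

/-!
# S14 leaf ELL (helper3): `FA_S14_ell : FA_S14_Target_Ell`
-/

set_option autoImplicit false
set_option linter.unusedSectionVars false
set_option linter.style.haveILetI false

open scoped NumberField
open IsDedekindDomain IntermediateField Polynomial

namespace Fermat.Agent.S14

/-- ELL for abstract fields `K ⊆ M₁ = K(c^{1/p}) ⊆ M₂ = M₁(q₀^{1/p})`. -/
theorem FA_S14_ell_fields {p : ℕ} (hp : p.Prime) (hp2 : p ≠ 2)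
    (K M₁ M₂ : Type) [Field K] [Field M₁] [Field M₂] [NumberField K] [NumberField M₁]
    [NumberField M₂] [Algebra K M₁] [Algebra M₁ M₂]
    (hcop : Nat.Coprime p (Module.finrank ℚ K)) {ζ : K} (hζ : IsPrimitiveRoot ζ p)
    {q q₀ : ℕ} (k : ℕ) (hq : q.Prime) (hq₀ : q₀.Prime) (hne : q ≠ q₀)
    {α₁ : M₁} (hα₁ : α₁ ^ p = algebraMap K M₁ ((q * q₀ ^ k : ℕ) : K)) (htop₁ : K⟮α₁⟯ = ⊤)
    {α₂ : M₂} (hα₂ : α₂ ^ p = algebraMap M₁ M₂ (q₀ : M₁)) (htop₂ : M₁⟮α₂⟯ = ⊤) :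
    ∃ ℓ : ℕ, ℓ.Prime ∧ ℓ ≠ p ∧ ℓ ≠ q ∧ ℓ ≠ q₀ ∧ p ∣ ℓ - 1 ∧
      ¬ FA_S14_IsRes ℓ p q₀ ∧ FA_S14_IsRes ℓ p (q * q₀ ^ k) := by
  have : NeZero p := ⟨hp.ne_zero⟩
  have hcnp : ∀ y : K, y ^ p ≠ ((q * q₀ ^ k : ℕ) : K) :=
    FA_S14_ell_c_not_pow hp hcop hq hq₀ hne k
  have hα₁' : α₁ ^ p = ((q * q₀ ^ k : ℕ) : M₁) := by rw [hα₁, map_natCast]
  obtain ⟨hgal₁, hfin₁, σ, hσα, hσgen⟩ := FA_S14_kum_deg_field hp hζ hα₁ htop₁ hcnp
  have hfd₁ : FiniteDimensional K M₁ :=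
    Module.finite_of_finrank_pos (by rw [hfin₁]; exact hp.pos)
  have hζ₁ : IsPrimitiveRoot (algebraMap K M₁ ζ) p :=
    hζ.map_of_injective (algebraMap K M₁).injective
  have hc0 : ((q * q₀ ^ k : ℕ) : M₁) ≠ 0 := by
    have : q * q₀ ^ k ≠ 0 := mul_ne_zero hq.ne_zero (pow_ne_zero _ hq₀.ne_zero)
    exact_mod_cast this
  have hα₁0 : α₁ ≠ 0 := by
    intro h0
    rw [h0, zero_pow hp.ne_zero] at hα₁'
    exact hc0 hα₁'.symm
  -- `q₀` is not a `p`-th power in `M₁`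
  have hq₀np : ∀ z : M₁, z ^ p ≠ (q₀ : M₁) := by
    intro z hz
    have hz' : z ^ p = algebraMap K M₁ ((q₀ : ℕ) : K) := by rw [hz, map_natCast]
    have hz0 : z ≠ 0 := by
      rintro rfl
      rw [zero_pow hp.ne_zero] at hz
      have : (q₀ : M₁) ≠ 0 := by exact_mod_cast hq₀.ne_zero
      exact this hz.symm
    obtain ⟨j, y, hj, hzy⟩ := FA_S14_ell_descent hp hζ hα₁0 σ hσα hσgen hz' hz0
    have hrel : ((q₀ : ℕ) : K) = y ^ p * ((q * q₀ ^ k : ℕ) : K) ^ j := by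
      apply (algebraMap K M₁).injective
      rw [← hz', hzy, mul_pow, ← pow_mul, mul_comm j p, pow_mul, hα₁, map_mul, map_pow, map_pow]
    exact FA_S14_ell_no_rel hp hcop hq hq₀ hne k j hj y hrel
  obtain ⟨hgal₂, hfin₂, -⟩ := FA_S14_kum_deg_field hp hζ₁ hα₂ htop₂ hq₀np
  -- the exceptional set
  have hN0 : Ideal.span {((p * q * q₀ : ℕ) : 𝓞 M₁)} ≠ 0 := by
    have h1 : p * q * q₀ ≠ 0 := mul_ne_zero (mul_ne_zero hp.ne_zero hq.ne_zero) hq₀.ne_zero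
    have h2 : ((p * q * q₀ : ℕ) : 𝓞 M₁) ≠ 0 := by exact_mod_cast h1
    simpa [Ideal.zero_eq_bot, Ideal.span_singleton_eq_bot] using h2
  classical
  let T : Finset (Ideal (𝓞 M₁)) :=
    (Ideal.finite_factors hN0).toFinset.image (fun v => v.asIdeal)
  have hT : ∀ 𝔏 : Ideal (𝓞 M₁), 𝔏.IsPrime → 𝔏 ≠ ⊥ → 𝔏 ∉ T →
      ((p * q * q₀ : ℕ) : 𝓞 M₁) ∉ 𝔏 := by
    intro 𝔏 h1 h2 h3 hmem
    apply h3
    rw [Finset.mem_image]
    refine ⟨⟨𝔏, h1, h2⟩, ?_, rfl⟩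
    rw [Set.Finite.mem_toFinset, Set.mem_setOf_eq, Ideal.dvd_iff_le,
      Ideal.span_singleton_le_iff_mem]
    exact hmem
  -- DENS
  have hne1 : Module.finrank M₁ M₂ ≠ 1 := by rw [hfin₂]; exact hp.one_lt.ne'
  obtain ⟨𝔏, h𝔏p, h𝔏0, hℓ, h𝔏T, hns⟩ : ∃ 𝔏 : Ideal (𝓞 M₁), 𝔏.IsPrime ∧ 𝔏 ≠ ⊥ ∧
      (Ideal.absNorm 𝔏).Prime ∧ 𝔏 ∉ T ∧ ¬ FA_S14_SplitsCompletely M₁ M₂ 𝔏 := by
    by_contra hcon
    apply hne1
    apply FA_S14_dens M₁ M₂ T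
    intro 𝔭 h1 h2 h3 h4
    by_contra h5
    exact hcon ⟨𝔭, h1, h2, h3, h4, h5⟩
  obtain ⟨h1, h2, h3, h4, h5, h6⟩ := FA_S14_ell_local hp hp2 hζ₁ hq hq₀ hα₁' hα₂ htop₂ 𝔏 h𝔏p h𝔏0
    rfl hℓ (hT 𝔏 h𝔏p h𝔏0 h𝔏T) hns
  exact ⟨Ideal.absNorm 𝔏, hℓ, h1, h2, h3, h4, h5, h6⟩

/-- Existence of `F(x^{1/p})` as a number field. -/
theorem FA_S14_ell_exists_kummer {p : ℕ} (hp : p.Prime) (F : Type) [Field F] [NumberField F]
    {ζ : F} (hζ : IsPrimitiveRoot ζ p) (x : F) (hx : ∀ y : F, y ^ p ≠ x) :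
    ∃ (M : Type) (_ : Field M) (_ : NumberField M) (_ : Algebra F M) (α : M),
      α ^ p = algebraMap F M x ∧ F⟮α⟯ = ⊤ := by
  have : NeZero p := ⟨hp.ne_zero⟩
  have hirr : Irreducible (X ^ p - C x) := X_pow_sub_C_irreducible_of_prime hp hx
  have hζ' : (primitiveRoots p F).Nonempty := ⟨ζ, (mem_primitiveRoots hp.pos).mpr hζ⟩
  refine ⟨(X ^ p - C x).SplittingField, inferInstance, NumberField.of_module_finite F _,
    inferInstance, rootOfSplitsXPowSubC hp.pos x _, rootOfSplitsXPowSubC_pow _ _, ?_⟩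
  exact IntermediateField.adjoin_root_eq_top_of_isSplittingField hζ' hirr
    (rootOfSplitsXPowSubC_pow _ _)

theorem FA_S14_ell : FA_S14_Target_Ell := by
  intro p hp hp3 q q₀ k hq hq₀ hne hqp hq₀p
  have hp2 : p ≠ 2 := by omega
  have : NeZero p := ⟨hp.ne_zero⟩
  have hcyc : IsCyclotomicExtension {p} ℚ (CyclotomicField p ℚ) :=
    CyclotomicField.isCyclotomicExtension p ℚ
  have hζ : IsPrimitiveRoot (IsCyclotomicExtension.zeta p ℚ (CyclotomicField p ℚ)) p :=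
    IsCyclotomicExtension.zeta_spec p ℚ (CyclotomicField p ℚ)
  have hdegK : Module.finrank ℚ (CyclotomicField p ℚ) = p - 1 := by
    rw [IsCyclotomicExtension.finrank (CyclotomicField p ℚ) (cyclotomic.irreducible_rat hp.pos),
      Nat.totient_prime hp]
  have hcop : Nat.Coprime p (Module.finrank ℚ (CyclotomicField p ℚ)) := by
    rw [hdegK]
    have h1 : Nat.Coprime (p - 1 + 1) (p - 1) := by simp
    rwa [Nat.sub_add_cancel hp.one_le] at h1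
  have hcnp : ∀ y : CyclotomicField p ℚ, y ^ p ≠ ((q * q₀ ^ k : ℕ) : CyclotomicField p ℚ) :=
    FA_S14_ell_c_not_pow hp hcop hq hq₀ hne k
  obtain ⟨M₁, _, _, _, α₁, hα₁, htop₁⟩ :=
    FA_S14_ell_exists_kummer hp (CyclotomicField p ℚ) hζ _ hcnp
  -- `q₀` is not a `p`-th power in `M₁`: re-derive to build `M₂`
  have hζ₁ : IsPrimitiveRoot (algebraMap (CyclotomicField p ℚ) M₁
      (IsCyclotomicExtension.zeta p ℚ (CyclotomicField p ℚ))) p :=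
    hζ.map_of_injective (algebraMap (CyclotomicField p ℚ) M₁).injective
  obtain ⟨hgal₁, hfin₁, σ, hσα, hσgen⟩ := FA_S14_kum_deg_field hp hζ hα₁ htop₁ hcnp
  have hfd₁ : FiniteDimensional (CyclotomicField p ℚ) M₁ :=
    Module.finite_of_finrank_pos (by rw [hfin₁]; exact hp.pos)
  have hα₁' : α₁ ^ p = ((q * q₀ ^ k : ℕ) : M₁) := by rw [hα₁, map_natCast]
  have hc0 : ((q * q₀ ^ k : ℕ) : M₁) ≠ 0 := by
    have : q * q₀ ^ k ≠ 0 := mul_ne_zero hq.ne_zero (pow_ne_zero _ hq₀.ne_zero)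
    exact_mod_cast this
  have hα₁0 : α₁ ≠ 0 := by
    intro h0
    rw [h0, zero_pow hp.ne_zero] at hα₁'
    exact hc0 hα₁'.symm
  have hq₀np : ∀ z : M₁, z ^ p ≠ (q₀ : M₁) := by
    intro z hz
    have hz' : z ^ p = algebraMap (CyclotomicField p ℚ) M₁ ((q₀ : ℕ) : CyclotomicField p ℚ) := by
      rw [hz, map_natCast]
    have hz0 : z ≠ 0 := by
      rintro rfl
      rw [zero_pow hp.ne_zero] at hz
      have : (q₀ : M₁) ≠ 0 := by exact_mod_cast hq₀.ne_zero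
      exact this hz.symm
    obtain ⟨j, y, hj, hzy⟩ := FA_S14_ell_descent hp hζ hα₁0 σ hσα hσgen hz' hz0
    have hrel : ((q₀ : ℕ) : CyclotomicField p ℚ) =
        y ^ p * ((q * q₀ ^ k : ℕ) : CyclotomicField p ℚ) ^ j := by
      apply (algebraMap (CyclotomicField p ℚ) M₁).injective
      rw [← hz', hzy, mul_pow, ← pow_mul, mul_comm j p, pow_mul, hα₁, map_mul, map_pow, map_pow]
    exact FA_S14_ell_no_rel hp hcop hq hq₀ hne k j hj y hrel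
  obtain ⟨M₂, _, _, _, α₂, hα₂, htop₂⟩ := FA_S14_ell_exists_kummer hp M₁ hζ₁ _ hq₀np
  exact FA_S14_ell_fields hp hp2 (CyclotomicField p ℚ) M₁ M₂ hcop hζ k hq hq₀ hne hα₁ htop₁
    hα₂ htop₂

end Fermat.Agent.S14
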