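import Mathlib
import Fermat.Agent.S14.CrossDefs

/-!
# S14 leaf NORMP (helper9): explicit reciprocity input for the crossing

`K/ℚ` Galois, `F/K` Galois of degree `p`, every prime of `K` over `ℓ` has residue field `𝔽_ℓ` and
`F/K` is totally ramified over `ℓ`.  Then for `a ∈ 𝓞 F` prime to `ℓ`, the absolute norm of `(a)` is a
nonzero `p`-th power residue modulo `ℓ`:  `N_{F/K}(a) = ∏ g a ≡ a ^ p ≡ c ^ p` modulo a prime over
`ℓ`, with `c` an integer; then take the product over the conjugates by `Gal(K/ℚ)`.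
-/

set_option autoImplicit false

open scoped NumberField Pointwise

namespace Fermat.Agent.S14

/-- If the whole Galois group acts trivially on `𝓞 F / Q` (total ramification) and the prime of
`K` below `Q` has residue field `𝔽_ℓ`, then `𝓞 F / Q` has `ℓ` elements. -/
theorem FA_S14_normp_card_quot (p ℓ : ℕ) (hp : p.Prime)
    (K F : Type) [Field K] [Field F] [NumberField K] [NumberField F] [Algebra K F] [IsGalois K F]
    (hdeg : Module.finrank K F = p)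
    (Q : Ideal (𝓞 F)) (hQ : Q.IsPrime) (hQ0 : Q ≠ ⊥)
    (hK : Ideal.absNorm (Q.under (𝓞 K)) = ℓ)
    (hF : ∀ (g : F ≃ₐ[K] F) (x : 𝓞 F), g • x - x ∈ Q) :
    Nat.card (𝓞 F ⧸ Q) = ℓ := by
  have hcardG : Nat.card (F ≃ₐ[K] F) = p := by
    rw [IsGalois.card_aut_eq_finrank, hdeg]
  have htop : Ideal.inertia (F ≃ₐ[K] F) Q = ⊤ := by
    rw [eq_top_iff]
    intro g _
    exact hF g
  have hcardI : Nat.card (Ideal.inertia (F ≃ₐ[K] F) Q) = p := by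
    rw [htop, Subgroup.card_top, hcardG]
  haveI : (Q.under (𝓞 K)).IsPrime := Ideal.IsPrime.under (𝓞 K) Q
  haveI : Q.LiesOver (Q.under (𝓞 K)) := ⟨rfl⟩
  have hQmax : Q.IsMaximal := Ring.DimensionLEOne.maximalOfPrime hQ0 hQ
  have h𝔩max : (Q.under (𝓞 K)).IsMaximal := Ideal.IsMaximal.under (𝓞 K) Q
  have h1 := Ideal.ncard_primesOver_mul_card_inertia_mul_finrank (G := (F ≃ₐ[K] F))
    (Q.under (𝓞 K)) Q
  rw [hcardI, hcardG] at h1
  have hf : Q.inertiaDeg (𝓞 K) = 1 := by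
    have hp0 := hp.pos
    have h2 : ((Q.under (𝓞 K)).primesOver (𝓞 F)).ncard * Q.inertiaDeg (𝓞 K) * p = 1 * p := by
      rw [one_mul]
      calc _ = ((Q.under (𝓞 K)).primesOver (𝓞 F)).ncard * p * Q.inertiaDeg (𝓞 K) := by ring
        _ = p := h1
    have h3 := Nat.eq_of_mul_eq_mul_right hp0 h2
    exact Nat.eq_one_of_mul_eq_one_left h3
  rw [Ideal.inertiaDeg_eq_of_isMaximal (Q.under (𝓞 K)) Q] at hf
  let _ : Field (𝓞 K ⧸ Q.under (𝓞 K)) := Ideal.Quotient.field _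
  let _ : Field (𝓞 F ⧸ Q) := Ideal.Quotient.field _
  have hmod : Nat.card (𝓞 F ⧸ Q) =
      Nat.card (𝓞 K ⧸ Q.under (𝓞 K)) ^ Module.finrank (𝓞 K ⧸ Q.under (𝓞 K)) (𝓞 F ⧸ Q) :=
    Module.natCard_eq_pow_finrank
  rw [hmod, hf, pow_one]
  rw [Ideal.absNorm_apply, Submodule.cardQuot_apply] at hK
  exact hK

/-- In a quotient with a prime number of elements every class contains an integer. -/
theorem FA_S14_normp_exists_int (ℓ : ℕ) (hℓ : ℓ.Prime) (F : Type) [Field F] [NumberField F]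
    (Q : Ideal (𝓞 F)) (hQ : Q.IsPrime) (hcard : Nat.card (𝓞 F ⧸ Q) = ℓ) (x : 𝓞 F) :
    ∃ c : ℤ, x - (c : 𝓞 F) ∈ Q := by
  haveI : Fact (Nat.card (𝓞 F ⧸ Q)).Prime := ⟨hcard ▸ hℓ⟩
  haveI : Nontrivial (𝓞 F ⧸ Q) := Ideal.Quotient.nontrivial_iff.mpr hQ.ne_top
  have h1 : AddSubgroup.zmultiples (1 : 𝓞 F ⧸ Q) = ⊤ := by
    rcases AddSubgroup.eq_bot_or_eq_top_of_prime_card (AddSubgroup.zmultiples (1 : 𝓞 F ⧸ Q))
      with h | h
    · exfalso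
      have : (1 : 𝓞 F ⧸ Q) ∈ AddSubgroup.zmultiples (1 : 𝓞 F ⧸ Q) :=
        AddSubgroup.mem_zmultiples _
      rw [h, AddSubgroup.mem_bot] at this
      exact one_ne_zero this
    · exact h
  have h2 : Ideal.Quotient.mk Q x ∈ AddSubgroup.zmultiples (1 : 𝓞 F ⧸ Q) := by
    rw [h1]
    exact AddSubgroup.mem_top _
  obtain ⟨c, hc⟩ := AddSubgroup.mem_zmultiples_iff.mp h2
  refine ⟨c, ?_⟩
  rw [← Ideal.Quotient.eq, ← hc]
  simp

/-- Coercion of a product of conjugates. -/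
theorem FA_S14_normp_coe_prod {k L : Type} [Field k] [Field L] [NumberField L] [Algebra k L]
    (s : Finset (L ≃ₐ[k] L)) (x : 𝓞 L) :
    (((∏ g ∈ s, g • x : 𝓞 L)) : L) = ∏ g ∈ s, g (x : L) := by
  classical
  induction s using Finset.induction_on with
  | empty => simp
  | insert g s hg ih =>
    rw [Finset.prod_insert hg, Finset.prod_insert hg, ← ih]
    rfl

/-- The relative norm of an integer as a product over the Galois group. -/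
theorem FA_S14_normp_algebraMap_norm (K F : Type) [Field K] [Field F] [NumberField K]
    [NumberField F] [Algebra K F] [IsGalois K F] (a : 𝓞 F) :
    algebraMap (𝓞 K) (𝓞 F) (RingOfIntegers.norm K a) = ∏ g : F ≃ₐ[K] F, g • a := by
  apply NumberField.RingOfIntegers.ext
  rw [RingOfIntegers.coe_algebraMap_norm, Algebra.norm_eq_prod_automorphisms]
  exact (FA_S14_normp_coe_prod Finset.univ a).symm

/-- The absolute norm of an integer as a product over the Galois group. -/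
theorem FA_S14_normp_int_norm (K : Type) [Field K] [NumberField K] [IsGalois ℚ K] (b : 𝓞 K) :
    ((Algebra.norm ℤ b : ℤ) : 𝓞 K) = ∏ δ : K ≃ₐ[ℚ] K, δ • b := by
  apply NumberField.RingOfIntegers.ext
  rw [FA_S14_normp_coe_prod Finset.univ b, ← Algebra.norm_eq_prod_automorphisms,
    ← Algebra.coe_norm_int]
  simp

/-- An integer lying in a prime over `ℓ` is divisible by `ℓ`. -/
theorem FA_S14_normp_dvd_of_mem (ℓ : ℕ) (hℓ : ℓ.Prime) (K : Type) [Field K] [NumberField K]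
    (𝔩 : Ideal (𝓞 K)) (h𝔩 : 𝔩.IsPrime) (hℓ𝔩 : (ℓ : 𝓞 K) ∈ 𝔩) (m : ℤ) (hm : (m : 𝓞 K) ∈ 𝔩) :
    (ℓ : ℤ) ∣ m := by
  by_contra h
  have hcop : IsCoprime (ℓ : ℤ) m :=
    (Nat.prime_iff_prime_int.mp hℓ).irreducible.coprime_iff_not_dvd.mpr h
  obtain ⟨u, v, huv⟩ := hcop
  apply h𝔩.ne_top
  rw [Ideal.eq_top_iff_one]
  have h1 : ((u * (ℓ : ℤ) + v * m : ℤ) : 𝓞 K) ∈ 𝔩 := by
    push_cast
    exact 𝔩.add_mem (𝔩.mul_mem_left _ hℓ𝔩) (𝔩.mul_mem_left _ hm)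
  rw [huv] at h1
  simpa using h1

/-- Modulo a totally ramified prime `Q` over `ℓ`, the relative norm of `a` is the `p`-th power of
an integer prime to `ℓ`. -/
theorem FA_S14_normp_local (p ℓ : ℕ) (hp : p.Prime) (hℓ : ℓ.Prime)
    (K F : Type) [Field K] [Field F] [NumberField K] [NumberField F] [Algebra K F] [IsGalois K F]
    (hdeg : Module.finrank K F = p)
    (Q : Ideal (𝓞 F)) (hQ : Q.IsPrime) (hℓQ : (ℓ : 𝓞 F) ∈ Q)
    (hK : Ideal.absNorm (Q.under (𝓞 K)) = ℓ)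
    (hF : ∀ (g : F ≃ₐ[K] F) (x : 𝓞 F), g • x - x ∈ Q)
    (a : 𝓞 F) (ha : a ∉ Q) :
    ∃ c : ℤ, ¬ (ℓ : ℤ) ∣ c ∧
      RingOfIntegers.norm K a - (c : 𝓞 K) ^ p ∈ Q.under (𝓞 K) := by
  have hQ0 : Q ≠ ⊥ := by
    intro h
    rw [h, Ideal.mem_bot] at hℓQ
    have : (ℓ : 𝓞 F) ≠ 0 := by exact_mod_cast hℓ.ne_zero
    exact this hℓQ
  have hcard := FA_S14_normp_card_quot p ℓ hp K F hdeg Q hQ hQ0 hK hF
  obtain ⟨c, hc⟩ := FA_S14_normp_exists_int ℓ hℓ F Q hQ hcard a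
  refine ⟨c, ?_, ?_⟩
  · rintro ⟨d, rfl⟩
    apply ha
    have h1 : (((ℓ : ℤ) * d : ℤ) : 𝓞 F) ∈ Q := by
      push_cast
      exact Q.mul_mem_right _ hℓQ
    have := Q.add_mem hc h1
    simpa using this
  · rw [Ideal.under_def, Ideal.mem_comap, map_sub, map_pow, map_intCast,
      FA_S14_normp_algebraMap_norm, ← Ideal.Quotient.eq, map_prod, map_pow]
    have h1 : ∀ g : F ≃ₐ[K] F, Ideal.Quotient.mk Q (g • a) = Ideal.Quotient.mk Q (c : 𝓞 F) := by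
      intro g
      rw [Ideal.Quotient.eq]
      have := Q.add_mem (hF g a) hc
      simpa using this
    rw [Finset.prod_congr rfl (fun g _ => h1 g), Finset.prod_const, Finset.card_univ,
      ← Nat.card_eq_fintype_card, IsGalois.card_aut_eq_finrank, hdeg]

/-- **Leaf NORMP.** -/
theorem FA_S14_normp : FA_S14_Target_NormP := by
  intro p ℓ hp hp2 hℓ K F _ _ _ _ _ _ _ hdeg hK hF a ha
  classical
  set b₀ : 𝓞 K := RingOfIntegers.norm K a with hb₀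
  -- local statement at every prime of `K` over `ℓ`
  have hloc : ∀ 𝔩 : Ideal (𝓞 K), 𝔩.IsPrime → (ℓ : 𝓞 K) ∈ 𝔩 →
      ∃ c : ℤ, ¬ (ℓ : ℤ) ∣ c ∧ b₀ - (c : 𝓞 K) ^ p ∈ 𝔩 := by
    intro 𝔩 h𝔩 hℓ𝔩
    haveI := h𝔩
    have hker : RingHom.ker (algebraMap (𝓞 K) (𝓞 F)) ≤ 𝔩 := by
      intro x hx
      rw [RingHom.mem_ker] at hx
      have : x = 0 := (FaithfulSMul.algebraMap_injective (𝓞 K) (𝓞 F)) (by rw [map_zero]; exact hx)
      rw [this]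
      exact 𝔩.zero_mem
    obtain ⟨Q, hQ, hQ𝔩⟩ := Ideal.exists_ideal_over_prime_of_isIntegral_of_isDomain 𝔩 hker
    have hunder : Q.under (𝓞 K) = 𝔩 := hQ𝔩
    have hℓQ : (ℓ : 𝓞 F) ∈ Q := by
      have h1 : (ℓ : 𝓞 K) ∈ Q.under (𝓞 K) := by rw [hunder]; exact hℓ𝔩
      rw [Ideal.under_def, Ideal.mem_comap, map_natCast] at h1
      exact h1
    have := FA_S14_normp_local p ℓ hp hℓ K F hdeg Q hQ hℓQ
      (by rw [hunder]; exact hK 𝔩 h𝔩 hℓ𝔩) (hF Q hQ hℓQ) a (ha Q hQ hℓQ)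
    rwa [hunder] at this
  -- a prime of `K` over `ℓ`
  obtain ⟨𝔩₀, h𝔩₀, hℓ𝔩₀⟩ : ∃ 𝔩₀ : Ideal (𝓞 K), 𝔩₀.IsPrime ∧ (ℓ : 𝓞 K) ∈ 𝔩₀ := by
    have hne : Ideal.span {(ℓ : 𝓞 K)} ≠ ⊤ := by
      intro h
      rw [Ideal.span_singleton_eq_top] at h
      have h1 : IsUnit (Algebra.norm ℤ (ℓ : 𝓞 K)) := h.map _
      have h2 : Algebra.norm ℤ (ℓ : 𝓞 K) = (ℓ : ℤ) ^ Module.finrank ℚ K := by
        have h3 : ((ℓ : ℕ) : 𝓞 K) = algebraMap ℤ (𝓞 K) (ℓ : ℤ) := by simp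
        rw [h3, Algebra.norm_algebraMap, NumberField.RingOfIntegers.rank]
      rw [h2, isUnit_pow_iff (Module.finrank_pos).ne', Int.isUnit_iff] at h1
      have := hℓ.one_lt
      rcases h1 with h1 | h1 <;> omega
    obtain ⟨M, hM, hle⟩ := Ideal.exists_le_maximal _ hne
    exact ⟨M, hM.isPrime, hle (Ideal.mem_span_singleton_self _)⟩
  -- the conjugates
  have hδ : ∀ δ : K ≃ₐ[ℚ] K, ∃ c : ℤ, ¬ (ℓ : ℤ) ∣ c ∧ δ • b₀ - (c : 𝓞 K) ^ p ∈ 𝔩₀ := by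
    intro δ
    have hprime : (δ⁻¹ • 𝔩₀).IsPrime := inferInstance
    have e1 : δ • ((ℓ : ℕ) : 𝓞 K) = ((ℓ : ℕ) : 𝓞 K) :=
      map_natCast (MulSemiringAction.toRingHom (K ≃ₐ[ℚ] K) (𝓞 K) δ) ℓ
    have hmemℓ : (ℓ : 𝓞 K) ∈ δ⁻¹ • 𝔩₀ := by
      rw [Ideal.mem_pointwise_smul_iff_inv_smul_mem, inv_inv, e1]
      exact hℓ𝔩₀
    obtain ⟨c, hc, hmem⟩ := hloc (δ⁻¹ • 𝔩₀) hprime hmemℓ
    refine ⟨c, hc, ?_⟩
    have e2 : δ • ((c : ℤ) : 𝓞 K) = ((c : ℤ) : 𝓞 K) :=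
      map_intCast (MulSemiringAction.toRingHom (K ≃ₐ[ℚ] K) (𝓞 K) δ) c
    rw [Ideal.mem_pointwise_smul_iff_inv_smul_mem, inv_inv, smul_sub, smul_pow', e2] at hmem
    exact hmem
  choose c hc hcmem using hδ
  set n : ℤ := Algebra.norm ℤ b₀ with hn
  have hnprod : ((n : ℤ) : 𝓞 K) - ((∏ δ : K ≃ₐ[ℚ] K, c δ : ℤ) : 𝓞 K) ^ p ∈ 𝔩₀ := by
    rw [FA_S14_normp_int_norm, ← Ideal.Quotient.eq, map_prod, map_pow, Int.cast_prod, map_prod,
      ← Finset.prod_pow]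
    apply Finset.prod_congr rfl
    intro δ _
    rw [← map_pow, Ideal.Quotient.eq]
    exact hcmem δ
  have hdiv : (ℓ : ℤ) ∣ n - (∏ δ : K ≃ₐ[ℚ] K, c δ) ^ p := by
    apply FA_S14_normp_dvd_of_mem ℓ hℓ K 𝔩₀ h𝔩₀ hℓ𝔩₀
    rw [Int.cast_sub, Int.cast_pow]
    exact hnprod
  have hC : ¬ (ℓ : ℤ) ∣ ∏ δ : K ≃ₐ[ℚ] K, c δ := by
    intro h
    obtain ⟨δ, -, hδ⟩ := (Prime.dvd_finsetProd_iff (Nat.prime_iff_prime_int.mp hℓ) _).mp h
    exact hc δ hδ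
  -- the absolute norm
  have hnorm : Algebra.norm ℤ a = n := by
    have h1 : ((Algebra.norm ℤ a : ℤ) : ℚ) = ((n : ℤ) : ℚ) := by
      rw [hn, Algebra.coe_norm_int, Algebra.coe_norm_int, hb₀, RingOfIntegers.coe_norm,
        Algebra.norm_norm]
    exact_mod_cast h1
  have habs : Ideal.absNorm (Ideal.span {a}) = n.natAbs := by
    rw [Ideal.absNorm_span_singleton, hnorm]
  rw [habs]
  haveI : Fact ℓ.Prime := ⟨hℓ⟩
  set C : ℤ := ∏ δ : K ≃ₐ[ℚ] K, c δ with hCdef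
  have hC0 : ((C : ℤ) : ZMod ℓ) ≠ 0 := by
    intro h
    exact hC ((ZMod.intCast_zmod_eq_zero_iff_dvd C ℓ).mp h)
  have hnC : ((n : ℤ) : ZMod ℓ) = ((C : ℤ) : ZMod ℓ) ^ p := by
    have := (ZMod.intCast_zmod_eq_zero_iff_dvd _ ℓ).mpr hdiv
    push_cast at this
    exact sub_eq_zero.mp this
  have hodd : Odd p := hp.odd_of_ne_two hp2
  rcases Int.natAbs_eq n with h | h
  · refine ⟨((C : ℤ) : ZMod ℓ), hC0, ?_⟩
    rw [← hnC]
    conv_rhs => rw [h]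
    simp
  · refine ⟨-((C : ℤ) : ZMod ℓ), neg_ne_zero.mpr hC0, ?_⟩
    rw [hodd.neg_pow, ← hnC]
    conv_rhs => rw [h]
    simp

end Fermat.Agent.S14
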