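import Mathlib
import Fermat.Agent.S14.Cross
import Fermat.Agent.S14.CfGal
import Fermat.Agent.S14.CfCyc
import Fermat.Agent.S14.CfRam
import Fermat.Agent.S14.CfSplit
import Fermat.Agent.S14.CfPrime
import Fermat.Agent.S14.CfTotRam
import Fermat.Agent.S14.CfCopFin
import Fermat.Agent.S14.CfFrob
import Fermat.Agent.S14.CfInst
import Fermat.Agent.S14.NormP
import Fermat.Agent.S14.Ell

/-!
# S14 (item 75), leaf CROSS: final form (helper2)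

`FA_S14_cross_of : FA_S14_Target_Ineq2G → FA_S14_Target_CfPkg → FA_S14_Target_Cross`.
-/

set_option autoImplicit false

open scoped NumberField nonZeroDivisors
open IsDedekindDomain

namespace Fermat.Agent.S14

/-- **CROSS** from the analytic inequality and the field package. -/
theorem FA_S14_cross_of (hI2 : FA_S14_Target_Ineq2G) (hPkg : FA_S14_Target_CfPkg) :
    FA_S14_Target_Cross := by
  intro p hp h3 K L _ _ _ _ _ _ _ _ hdeg hunr 𝔮 𝔮₀ P P₀ σ σ₀ u hP hP₀ hPu hP₀u hσ hσ₀ hσ₀1 hσu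
    hq hq₀ hqq₀ hqp hq₀p
  obtain ⟨ℓ, hℓ, hℓp, hℓq, hℓq₀, hpℓ, h₀, hk⟩ := FA_S14_ell p hp h3
    (Ideal.absNorm 𝔮.asIdeal) (Ideal.absNorm 𝔮₀.asIdeal) (u * (p - 1)) hq hq₀ hqq₀ hqp hq₀p
  obtain ⟨Ω, i1, i2, i3, i4, i5, i6⟩ := FA_S14_cfInst ℓ hℓ K L
  have i7 : IsGalois K Ω := FA_S14_cfGal ℓ hℓ K L Ω
  exact FA_S14_cross_main hI2 FA_S14_normp FA_S14_cfCyc FA_S14_cfRam FA_S14_cfsplit
    FA_S14_cfPrime FA_S14_cfTotRam FA_S14_cfCop FA_S14_cfFin FA_S14_cfFrob hPkg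
    p ℓ hp h3 hℓ hℓp hpℓ K L Ω hdeg hunr 𝔮 𝔮₀ P P₀ σ σ₀ u hP hP₀ hPu hP₀u hσ hσ₀ hσ₀1 hσu
    hq hq₀ hℓq hℓq₀ h₀ hk

end Fermat.Agent.S14
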