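import Mathlib
import Fermat.Agent.S14.CrossFinal
import Fermat.Agent.S14.CfPkg
import Fermat.Agent.S14.CfGroup

/-!
# S14 (item 75), leaf CROSS: closed form modulo the analytic inequality (helper2)
-/

set_option autoImplicit false

namespace Fermat.Agent.S14

/-- **CROSS** from the analytic inequality (general Galois form). -/
theorem FA_S14_cross_of_ineq2G (hI2 : FA_S14_Target_Ineq2G) : FA_S14_Target_Cross :=
  FA_S14_cross_of hI2 (FA_S14_cfpkg FA_S14_cfGroup)

end Fermat.Agent.S14
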