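import Mathlib

/-!
# S14, leaf STICK, part 1: finite-field lemmas

* `FA_S14_stick_sum_pow_mul_pow`: `∑ x, x ^ k * (1 - x) ^ l = 0` in a finite field when
  `k + l < #F - 1`.
* `FA_S14_stick_jacobi_map_eq_zero`: a Jacobi sum of characters that reduce to power maps
  reduces to `0`.
* `FA_S14_stick_exists_char`: the "Teichmüller" character `χ : F → R` of order `p`
  with `χ x ≡ x ^ ((#F - 1) / p)`.
-/

set_option autoImplicit false

namespace Fermat.Agent.S14

/-- In a finite field `F`, `∑ x, x ^ k * (1 - x) ^ l = 0` when `k + l < #F - 1`. -/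
theorem FA_S14_stick_sum_pow_mul_pow (F : Type*) [Field F] [Fintype F] (k l : ℕ)
    (h : k + l < Fintype.card F - 1) : ∑ x : F, x ^ k * (1 - x) ^ l = 0 := by
  have key : ∀ x : F, x ^ k * (1 - x) ^ l =
      ∑ j ∈ Finset.range (l + 1), ((-1) ^ j * (l.choose j : F)) * x ^ (k + j) := by
    intro x
    rw [sub_eq_add_neg, add_comm, add_pow, Finset.mul_sum]
    refine Finset.sum_congr rfl fun j _ => ?_
    rw [one_pow, mul_one, neg_pow, pow_add]; ring
  simp_rw [key]
  rw [Finset.sum_comm]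
  refine Finset.sum_eq_zero fun j hj => ?_
  rw [← Finset.mul_sum, FiniteField.sum_pow_lt_card_sub_one, mul_zero]
  have := Finset.mem_range.mp hj
  omega

/-- If `φ ∘ χ` and `φ ∘ ψ` are the power maps `x ↦ x ^ k`, `x ↦ x ^ l` with
`k + l < #F - 1`, then `φ (J(χ, ψ)) = 0`. -/
theorem FA_S14_stick_jacobi_map_eq_zero {F R : Type*} [Field F] [Fintype F] [CommRing R]
    (φ : R →+* F) (χ ψ : MulChar F R) (k l : ℕ)
    (hχ : ∀ x, φ (χ x) = x ^ k) (hψ : ∀ x, φ (ψ x) = x ^ l)
    (h : k + l < Fintype.card F - 1) :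
    φ (jacobiSum χ ψ) = 0 := by
  rw [jacobiSum, map_sum]
  simp only [map_mul, hχ, hψ]
  exact FA_S14_stick_sum_pow_mul_pow F k l h

/-- The character of order `p` lifting `x ↦ x ^ ((#F - 1) / p)`. -/
theorem FA_S14_stick_exists_char {R F : Type*} [CommRing R] [IsDomain R] [Field F] [Fintype F]
    (φ : R →+* F) (p : ℕ) [NeZero p] (ζ : R) (hζ : IsPrimitiveRoot ζ p)
    (hinj : ∀ ξ : R, ξ ^ p = 1 → φ ξ = 1 → ξ = 1) :
    ∃ m : ℕ, 0 < m ∧ Fintype.card F - 1 = p * m ∧ IsPrimitiveRoot (φ ζ) p ∧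
      ∃ χ : MulChar F R, (∀ x : F, φ (χ x) = x ^ m) ∧ (∀ x : F, x ≠ 0 → χ x ^ p = 1) := by
  classical
  have hp0 : 0 < p := Nat.pos_of_ne_zero (NeZero.ne p)
  have hζF : IsPrimitiveRoot (φ ζ) p := by
    refine IsPrimitiveRoot.mk_of_lt _ hp0 (by rw [← map_pow, hζ.pow_eq_one, map_one]) ?_
    intro l hl0 hlp h1
    have : ζ ^ l = 1 :=
      hinj _ (by rw [← pow_mul, mul_comm, pow_mul, hζ.pow_eq_one, one_pow]) (by rw [map_pow, h1])
    exact hζ.pow_ne_one_of_pos_of_lt hl0.ne' hlp this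
  have hdvd : p ∣ Fintype.card F - 1 := by
    apply hζF.dvd_of_pow_eq_one
    exact FiniteField.pow_card_sub_one_eq_one _ (hζF.ne_zero hp0.ne')
  obtain ⟨m, hm⟩ := hdvd
  have hcard : 1 < Fintype.card F := Fintype.one_lt_card
  have hm0 : 0 < m := by
    rcases Nat.eq_zero_or_pos m with h | h
    · subst h; omega
    · exact h
  refine ⟨m, hm0, hm, hζF, ?_⟩
  let r : rootsOfUnity p R →* rootsOfUnity p F := restrictRootsOfUnity φ p
  have hr_inj : Function.Injective r := by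
    rw [injective_iff_map_eq_one]
    intro ξ hξ
    have h1 : ((ξ : Rˣ) : R) ^ p = 1 := by
      have := (mem_rootsOfUnity p (ξ : Rˣ)).1 ξ.2
      rw [← Units.val_pow_eq_pow_val, this, Units.val_one]
    have h2 : φ ((ξ : Rˣ) : R) = 1 := by
      rw [← restrictRootsOfUnity_coe_apply φ ξ]
      show (((r ξ : rootsOfUnity p F) : Fˣ) : F) = 1
      rw [hξ]; rfl
    exact Subtype.ext (Units.ext (hinj _ h1 h2))
  have hr_bij : Function.Bijective r := by
    apply hr_inj.bijective_of_nat_card_le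
    rw [hζ.card_rootsOfUnity]
    exact card_rootsOfUnity F p
  let e : rootsOfUnity p R ≃* rootsOfUnity p F := MulEquiv.ofBijective r hr_bij
  have hpw : ∀ x : Fˣ, powMonoidHom m x ∈ rootsOfUnity p F := by
    intro x
    rw [mem_rootsOfUnity, powMonoidHom_apply, ← pow_mul, mul_comm, ← hm]
    apply Units.ext
    rw [Units.val_pow_eq_pow_val, Units.val_one]
    exact FiniteField.pow_card_sub_one_eq_one _ x.ne_zero
  let pw : Fˣ →* rootsOfUnity p F := (powMonoidHom m).codRestrict (rootsOfUnity p F) hpw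
  let χ₀ : Fˣ →* Rˣ := (Subgroup.subtype _).comp (e.symm.toMonoidHom.comp pw)
  have hχ₀ : ∀ u : Fˣ, φ ((χ₀ u : Rˣ) : R) = (u : F) ^ m := by
    intro u
    have h1 : r (e.symm (pw u)) = pw u := e.apply_symm_apply (pw u)
    have h2 : (((r (e.symm (pw u)) : rootsOfUnity p F) : Fˣ) : F)
        = φ (((e.symm (pw u) : rootsOfUnity p R) : Rˣ) : R) :=
      restrictRootsOfUnity_coe_apply φ (e.symm (pw u))
    rw [h1] at h2
    have h3 : (((pw u : rootsOfUnity p F) : Fˣ) : F) = (u : F) ^ m := by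
      show ((powMonoidHom m u : Fˣ) : F) = _
      rw [powMonoidHom_apply, Units.val_pow_eq_pow_val]
    rw [← h3, h2]
    rfl
  have hχ₀p : ∀ u : Fˣ, ((χ₀ u : Rˣ) : R) ^ p = 1 := by
    intro u
    have : (χ₀ u) ∈ rootsOfUnity p R := (e.symm (pw u)).2
    have := (mem_rootsOfUnity p _).1 this
    rw [← Units.val_pow_eq_pow_val, this, Units.val_one]
  refine ⟨MulChar.ofUnitHom χ₀, ?_, ?_⟩
  · intro x
    rcases eq_or_ne x 0 with rfl | hx
    · rw [MulChar.map_zero, map_zero, zero_pow hm0.ne']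
    · lift x to Fˣ using hx.isUnit
      rw [MulChar.ofUnitHom_coe]
      exact hχ₀ x
  · intro x hx
    lift x to Fˣ using hx.isUnit
    rw [MulChar.ofUnitHom_coe]
    exact hχ₀p x

end Fermat.Agent.S14
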