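import Fermat.Agent.S14.Interface
import Fermat.Agent.S14.StickCore

/-!
# S14, leaf STICK: Stickelberger for primes of degree one, via the Jacobi sum `J(χ, χ)`

`FA_S14_Stick : FA_S14_Target_Stick`.
-/

set_option autoImplicit false

open scoped NumberField Pointwise

namespace Fermat.Agent.S14

/-- Reduction modulo an ideal not containing `p` is injective on `p`-th roots of unity. -/
theorem FA_S14_stick_red_inj {p : ℕ} [Fact p.Prime] {K : Type} [Field K] [NumberField K]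
    [IsCyclotomicExtension {p} ℚ K] (𝔮 : Ideal (𝓞 K)) (hpq : (p : 𝓞 K) ∉ 𝔮) (ξ : 𝓞 K)
    (h1 : ξ ^ p = 1) (h2 : ξ - 1 ∈ 𝔮) : ξ = 1 := by
  by_contra hne
  have hprim : IsPrimitiveRoot ξ p := by
    have := IsPrimitiveRoot.orderOf ξ
    rwa [orderOf_eq_prime h1 hne] at this
  have hK : IsPrimitiveRoot (algebraMap (𝓞 K) K ξ) p :=
    hprim.map_of_injective NumberField.RingOfIntegers.coe_injective
  have hdvd := hK.toInteger_sub_one_dvd_prime'
  have hξ : hK.toInteger = ξ := NumberField.RingOfIntegers.ext rfl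
  rw [hξ] at hdvd
  exact hpq (Ideal.mem_of_dvd _ hdvd h2)

/-- The absolute norm is invariant under Galois conjugation. -/
theorem FA_S14_stick_absNorm_smul {K : Type} [Field K] [NumberField K] (g : K ≃ₐ[ℚ] K)
    (I : Ideal (𝓞 K)) : Ideal.absNorm (g • I) = Ideal.absNorm I := by
  rw [Ideal.absNorm_apply, Ideal.absNorm_apply, Submodule.cardQuot_apply,
    Submodule.cardQuot_apply]
  exact (Nat.card_congr (Ideal.quotientEquiv I (g • I)
    (MulSemiringAction.toRingEquiv _ (𝓞 K) g) rfl).toEquiv).symm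

/-- Galois conjugates of a maximal ideal are maximal. -/
theorem FA_S14_stick_isMaximal_smul {K : Type} [Field K] [NumberField K] (g : K ≃ₐ[ℚ] K)
    (I : Ideal (𝓞 K)) (hI : I.IsMaximal) : (g • I).IsMaximal :=
  Ideal.map_isMaximal_of_equiv (MulSemiringAction.toRingEquiv _ (𝓞 K) g)

/-- The action of `g` with `g ζ = ζ ^ a` on `ζ` as an integer. -/
theorem FA_S14_stick_smul_toInteger {p : ℕ} [NeZero p] {K : Type} [Field K] [NumberField K]
    {ζ : K} (hζ : IsPrimitiveRoot ζ p) (g : K ≃ₐ[ℚ] K) (a : ℕ) (hg : g ζ = ζ ^ a) :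
    g • hζ.toInteger = hζ.toInteger ^ a := by
  apply NumberField.RingOfIntegers.ext
  have h1 : ((g • hζ.toInteger : 𝓞 K) : K) = g (hζ.toInteger : K) := rfl
  rw [h1]
  have h2 : ((hζ.toInteger ^ a : 𝓞 K) : K) = (hζ.toInteger : K) ^ a := by
    push_cast; rfl
  rw [h2]
  have h3 : (hζ.toInteger : K) = ζ := rfl
  rw [h3, hg]

/-- Distinctness of the conjugates `(σ a)⁻¹ 𝔮` for a prime of degree one. -/
theorem FA_S14_stick_smul_ne {p : ℕ} [NeZero p] {K : Type} [Field K] [NumberField K]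
    {ζ : K} (hζ : IsPrimitiveRoot ζ p) (𝔮 : Ideal (𝓞 K))
    {F : Type} [Field F] [Fintype F] (φ : 𝓞 K →+* F) (hφ : ∀ x, φ x = 0 ↔ x ∈ 𝔮)
    (hcard : (Fintype.card F).Prime)
    (hζF : IsPrimitiveRoot (φ hζ.toInteger) p)
    (g₁ g₂ : K ≃ₐ[ℚ] K) (a b : ℕ) (ha : a < p) (hb : b < p) (hab : a ≠ b)
    (hg₁ : g₁ ζ = ζ ^ a) (hg₂ : g₂ ζ = ζ ^ b) :
    g₁⁻¹ • 𝔮 ≠ g₂⁻¹ • 𝔮 := by
  intro heq
  have : NeZero (Fintype.card F) := ⟨hcard.ne_zero⟩
  have hsn : ∀ (g : K ≃ₐ[ℚ] K) (n : ℕ), g • (n : 𝓞 K) = n := fun g n =>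
    map_natCast (MulSemiringAction.toRingHom _ (𝓞 K) g) n
  obtain ⟨n, hn⟩ : ∃ n : ℕ, φ (hζ.toInteger ^ a) = (n : F) := by
    let e := ZMod.ringEquivOfPrime F hcard rfl
    refine ⟨(e.symm (φ (hζ.toInteger ^ a))).val, ?_⟩
    have := e.apply_symm_apply (φ (hζ.toInteger ^ a))
    conv_lhs => rw [← this]
    rw [← map_natCast e, ZMod.natCast_zmod_val]
  have h1 : hζ.toInteger - n ∈ g₁⁻¹ • 𝔮 := by
    rw [Ideal.mem_pointwise_smul_iff_inv_smul_mem, inv_inv, ← hφ]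
    rw [smul_sub, FA_S14_stick_smul_toInteger hζ g₁ a hg₁, hsn, map_sub, hn,
      map_natCast, sub_self]
  rw [heq, Ideal.mem_pointwise_smul_iff_inv_smul_mem, inv_inv, ← hφ] at h1
  rw [smul_sub, FA_S14_stick_smul_toInteger hζ g₂ b hg₂, hsn, map_sub,
    map_natCast, sub_eq_zero, ← hn, map_pow, map_pow] at h1
  exact hab (hζF.pow_inj hb ha h1).symm

/-- The Jacobi sum lies in `(σ a)⁻¹ 𝔮` for `2 a < p`. -/
theorem FA_S14_stick_mem {p : ℕ} [NeZero p] {K : Type} [Field K] [NumberField K]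
    {ζ : K} (hζ : IsPrimitiveRoot ζ p) (𝔮 : Ideal (𝓞 K))
    {F : Type} [Field F] [Fintype F] (φ : 𝓞 K →+* F) (hφ : ∀ x, φ x = 0 → x ∈ 𝔮)
    (m : ℕ) (hm : Fintype.card F - 1 = p * m) (hm0 : 0 < m)
    (χ : MulChar F (𝓞 K)) (hχ1 : ∀ x, φ (χ x) = x ^ m) (hχ2 : ∀ x : F, x ≠ 0 → χ x ^ p = 1)
    (g : K ≃ₐ[ℚ] K) (a : ℕ) (ha0 : 0 < a) (ha : 2 * a < p) (hg : g ζ = ζ ^ a) :
    jacobiSum χ χ ∈ g⁻¹ • 𝔮 := by
  rw [Ideal.mem_pointwise_smul_iff_inv_smul_mem, inv_inv]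
  apply hφ
  have hζ' := hζ.toInteger_isPrimitiveRoot
  have key : ∀ x : F, g • (χ x) = χ x ^ a := by
    intro x
    rcases eq_or_ne x 0 with rfl | hx
    · rw [MulChar.map_zero, smul_zero, zero_pow ha0.ne']
    · obtain ⟨i, -, hi⟩ := hζ'.eq_pow_of_pow_eq_one (hχ2 x hx)
      rw [← hi, smul_pow', FA_S14_stick_smul_toInteger hζ g a hg, ← pow_mul, ← pow_mul, mul_comm]
  have hJ : g • jacobiSum χ χ
      = jacobiSum (χ.ringHomComp (MulSemiringAction.toRingHom _ (𝓞 K) g))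
          (χ.ringHomComp (MulSemiringAction.toRingHom _ (𝓞 K) g)) := by
    rw [jacobiSum_ringHomComp]; rfl
  rw [hJ]
  have hred : ∀ x : F, φ ((χ.ringHomComp (MulSemiringAction.toRingHom _ (𝓞 K) g)) x)
      = x ^ (a * m) := by
    intro x
    rw [MulChar.ringHomComp_apply]
    show φ (g • χ x) = _
    rw [key, map_pow, hχ1, ← pow_mul, mul_comm]
  apply FA_S14_stick_jacobi_map_eq_zero φ _ _ (a * m) (a * m) hred hred
  rw [hm]
  nlinarith

/-- An automorphism of the cyclotomic field inverting all `p`-th roots of unity. -/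
theorem FA_S14_stick_exists_inv {p : ℕ} [NeZero p] (hp0 : 0 < p) {K : Type} [Field K]
    [NumberField K] [IsCyclotomicExtension {p} ℚ K] :
    ∃ c : K ≃ₐ[ℚ] K, ∀ ξ : K, ξ ^ p = 1 → c ξ = ξ⁻¹ := by
  have hirr := Polynomial.cyclotomic.irreducible_rat hp0
  have hz : IsPrimitiveRoot (IsCyclotomicExtension.zeta p ℚ K) p :=
    IsCyclotomicExtension.zeta_spec p ℚ K
  refine ⟨IsCyclotomicExtension.fromZetaAut hz.inv hirr, fun ξ hξ => ?_⟩
  obtain ⟨i, -, rfl⟩ := hz.eq_pow_of_pow_eq_one hξ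
  rw [map_pow, IsCyclotomicExtension.fromZetaAut_spec, inv_pow]

/-- The absolute norm of the ideal generated by the Jacobi sum. -/
theorem FA_S14_stick_norm {p : ℕ} (hp : p.Prime) (hp2 : p ≠ 2) {K : Type} [Field K]
    [NumberField K] [IsCyclotomicExtension {p} ℚ K]
    {F : Type} [Field F] [Fintype F] (φ : 𝓞 K →+* F)
    (m : ℕ) (hm : Fintype.card F - 1 = p * m) (hm0 : 0 < m)
    (χ : MulChar F (𝓞 K)) (hχ1 : ∀ x, φ (χ x) = x ^ m) (hχ2 : ∀ x : F, x ≠ 0 → χ x ^ p = 1) :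
    Ideal.absNorm (Ideal.span {jacobiSum χ χ}) = (Fintype.card F) ^ ((p - 1) / 2) := by
  classical
  have : NeZero p := ⟨hp.ne_zero⟩
  have hp3 : 3 ≤ p := by
    have := hp.two_le
    omega
  set χK : MulChar F K := χ.ringHomComp (algebraMap (𝓞 K) K) with hχK
  obtain ⟨g, hg⟩ := IsCyclic.exists_generator (α := Fˣ)
  have hord : orderOf g = p * m := by
    rw [orderOf_eq_card_of_forall_mem_zpowers hg, Nat.card_eq_fintype_card, Fintype.card_units,
      hm]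
  have hgen : ∀ a : ℕ, χ (g : F) ^ a = 1 → p ∣ a := by
    intro a ha
    have h1 : ((g : F)) ^ (m * a) = 1 := by
      rw [pow_mul, ← hχ1, ← map_pow, ha, map_one]
    have h2 : g ^ (m * a) = 1 := by
      apply Units.ext; rw [Units.val_pow_eq_pow_val, h1, Units.val_one]
    have h3 := orderOf_dvd_of_pow_eq_one h2
    rw [hord, mul_comm p m] at h3
    exact (Nat.mul_dvd_mul_iff_left hm0).1 h3
  have hinjK := NumberField.RingOfIntegers.coe_injective (K := K)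
  have hχ_ne : χK ≠ 1 := by
    intro h
    have h1 : χK (g : F) = 1 := by rw [h, MulChar.one_apply_coe]
    rw [hχK, MulChar.ringHomComp_apply] at h1
    have h2 : χ (g : F) = 1 := hinjK (by rw [h1, map_one])
    have := hgen 1 (by rw [pow_one, h2])
    have := Nat.le_of_dvd one_pos this
    omega
  have hχ2_ne : χK * χK ≠ 1 := by
    intro h
    have h1 : (χK * χK) (g : F) = 1 := by rw [h, MulChar.one_apply_coe]
    rw [MulChar.mul_apply, hχK, MulChar.ringHomComp_apply, ← map_mul] at h1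
    have h2 : χ (g : F) * χ (g : F) = 1 := hinjK (by rw [h1, map_one])
    have := hgen 2 (by rw [pow_two, h2])
    have := Nat.le_of_dvd two_pos this
    omega
  have hchar : ringChar K ≠ ringChar F := by
    rw [ringChar.eq_zero]
    exact (CharP.ringChar_ne_zero_of_finite F).symm
  have hJJ := jacobiSum_mul_jacobiSum_inv hchar hχ_ne hχ_ne hχ2_ne
  obtain ⟨c, hc⟩ := FA_S14_stick_exists_inv (K := K) hp.pos
  have hcχ : χK.ringHomComp (c : K →+* K) = χK⁻¹ := by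
    apply MulChar.ext
    intro x
    rw [MulChar.ringHomComp_apply, MulChar.inv_apply_eq_inv']
    apply hc
    rw [hχK, MulChar.ringHomComp_apply, ← map_pow, hχ2 _ x.ne_zero, map_one]
  have hJc : jacobiSum χK⁻¹ χK⁻¹ = c (jacobiSum χK χK) := by
    rw [← hcχ, jacobiSum_ringHomComp]; rfl
  have hJK : jacobiSum χK χK = algebraMap (𝓞 K) K (jacobiSum χ χ) := by
    rw [hχK, jacobiSum_ringHomComp]
  rw [hJc] at hJJ
  have hN : Algebra.norm ℚ (jacobiSum χK χK) ^ 2 = (Fintype.card F : ℚ) ^ (p - 1) := by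
    have h1 := congrArg (Algebra.norm ℚ) hJJ
    rw [map_mul, Algebra.norm_eq_of_algEquiv, ← pow_two] at h1
    rw [h1]
    have h2 : ((Fintype.card F : ℕ) : K) = algebraMap ℚ K (Fintype.card F : ℚ) := by simp
    rw [h2, Algebra.norm_algebraMap,
      IsCyclotomicExtension.finrank K (Polynomial.cyclotomic.irreducible_rat hp.pos),
      Nat.totient_prime hp]
  rw [hJK, ← NumberField.RingOfIntegers.coe_eq_algebraMap, ← Algebra.coe_norm_int] at hN
  have hNZ : Algebra.norm ℤ (jacobiSum χ χ) ^ 2 = (Fintype.card F : ℤ) ^ (p - 1) := by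
    exact_mod_cast hN
  rw [Ideal.absNorm_span_singleton]
  have hh : p - 1 = (p - 1) / 2 * 2 := by
    rcases hp.eq_two_or_odd with h | h
    · exact absurd h hp2
    · omega
  have h4 : (Algebra.norm ℤ (jacobiSum χ χ)).natAbs ^ 2
      = ((Fintype.card F) ^ ((p - 1) / 2)) ^ 2 := by
    rw [← pow_mul, ← hh, ← Int.natAbs_pow, hNZ, Int.natAbs_pow, Int.natAbs_natCast]
  exact Nat.pow_left_injective (by norm_num) h4

/-- Stickelberger for a prime of degree one, with the residue field made explicit. -/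
theorem FA_S14_stick_aux {p : ℕ} (hp : p.Prime) (hp2 : p ≠ 2) {K : Type} [Field K]
    [NumberField K] [IsCyclotomicExtension {p} ℚ K] {ζ : K} (hζ : IsPrimitiveRoot ζ p)
    (𝔮 : Ideal (𝓞 K)) (hmax : 𝔮.IsMaximal) (hqp : Ideal.absNorm 𝔮 ≠ p)
    (σ : ℕ → (K ≃ₐ[ℚ] K)) (hσ : ∀ a ∈ Finset.Icc 1 ((p - 1) / 2), σ a ζ = ζ ^ a)
    {F : Type} [Field F] [Fintype F] (φ : 𝓞 K →+* F) (hφ : ∀ x, φ x = 0 ↔ x ∈ 𝔮)
    (hcard : Fintype.card F = Ideal.absNorm 𝔮) (hq : (Fintype.card F).Prime) :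
    (∏ a ∈ Finset.Icc 1 ((p - 1) / 2), (σ a)⁻¹ • 𝔮).IsPrincipal := by
  classical
  have : Fact p.Prime := ⟨hp⟩
  have : NeZero p := ⟨hp.ne_zero⟩
  have hp3 : 3 ≤ p := by
    have := hp.two_le
    omega
  have hodd : p - 1 = (p - 1) / 2 * 2 := by
    rcases hp.eq_two_or_odd with h | h
    · exact absurd h hp2
    · omega
  have hpq : (p : 𝓞 K) ∉ 𝔮 := by
    intro hmem
    have h1 : (p : F) = 0 := by
      have := (hφ _).2 hmem
      rwa [map_natCast] at this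
    have h2 : ((Fintype.card F : ℕ) : F) = 0 := Nat.cast_card_eq_zero F
    have hcop : Nat.Coprime p (Fintype.card F) :=
      (Nat.coprime_primes hp hq).2 (by rw [hcard]; exact hqp.symm)
    obtain ⟨u, v, huv⟩ := Nat.Coprime.isCoprime hcop
    have h3 : ((u * p + v * Fintype.card F : ℤ) : F) = 1 := by rw [huv]; simp
    push_cast at h3
    rw [h1, h2] at h3
    simp at h3
  have hinj : ∀ ξ : 𝓞 K, ξ ^ p = 1 → φ ξ = 1 → ξ = 1 := by
    intro ξ h1 h2
    apply FA_S14_stick_red_inj 𝔮 hpq ξ h1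
    rw [← hφ, map_sub, h2, map_one, sub_self]
  obtain ⟨m, hm0, hm, hζF, χ, hχ1, hχ2⟩ :=
    FA_S14_stick_exists_char φ p hζ.toInteger hζ.toInteger_isPrimitiveRoot hinj
  have hmem : ∀ a ∈ Finset.Icc 1 ((p - 1) / 2), jacobiSum χ χ ∈ (σ a)⁻¹ • 𝔮 := by
    intro a ha
    have ha' := Finset.mem_Icc.1 ha
    exact FA_S14_stick_mem hζ 𝔮 φ (fun x => (hφ x).1) m hm hm0 χ hχ1 hχ2 (σ a) a
      (by omega) (by omega) (hσ a ha)
  have hcop : ((Finset.Icc 1 ((p - 1) / 2) : Finset ℕ) : Set ℕ).Pairwise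
      (Function.onFun IsCoprime fun a => (σ a)⁻¹ • 𝔮) := by
    intro a ha b hb hab
    have ha' := Finset.mem_Icc.1 ha
    have hb' := Finset.mem_Icc.1 hb
    rw [Function.onFun, Ideal.isCoprime_iff_sup_eq]
    apply Ideal.IsMaximal.coprime_of_ne (FA_S14_stick_isMaximal_smul _ _ hmax)
      (FA_S14_stick_isMaximal_smul _ _ hmax)
    exact FA_S14_stick_smul_ne hζ 𝔮 φ hφ hq hζF (σ a) (σ b) a b (by omega) (by omega) hab
      (hσ a ha) (hσ b hb)
  have hdvd : (∏ a ∈ Finset.Icc 1 ((p - 1) / 2), (σ a)⁻¹ • 𝔮) ∣ Ideal.span {jacobiSum χ χ} := by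
    apply Finset.prod_dvd_of_coprime hcop
    intro a ha
    rw [Ideal.dvd_iff_le, Ideal.span_singleton_le_iff_mem]
    exact hmem a ha
  have hnP : Ideal.absNorm (∏ a ∈ Finset.Icc 1 ((p - 1) / 2), (σ a)⁻¹ • 𝔮)
      = (Fintype.card F) ^ ((p - 1) / 2) := by
    rw [map_prod]
    simp only [FA_S14_stick_absNorm_smul, Finset.prod_const, Nat.card_Icc, hcard]
    congr 1
  have hnJ := FA_S14_stick_norm hp hp2 φ m hm hm0 χ hχ1 hχ2
  obtain ⟨A, hA⟩ := hdvd
  have hA1 : Ideal.absNorm A = 1 := by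
    have h1 := congrArg Ideal.absNorm hA
    rw [map_mul, hnJ, hnP] at h1
    have hpos : 0 < (Fintype.card F) ^ ((p - 1) / 2) := pow_pos hq.pos _
    exact (Nat.eq_of_mul_eq_mul_left hpos (by rw [mul_one]; exact h1)).symm
  rw [Ideal.absNorm_eq_one_iff] at hA1
  rw [hA1, Ideal.mul_top] at hA
  exact ⟨⟨jacobiSum χ χ, hA.symm⟩⟩

/-- **Leaf STICK.** -/
theorem FA_S14_Stick : FA_S14_Target_Stick := by
  intro p hp hp2 K _ _ _ ζ hζ 𝔮 h𝔮 hq hqp σ hσ
  have h𝔮0 : 𝔮 ≠ ⊥ := by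
    rintro rfl
    rw [Ideal.absNorm_bot] at hq
    exact Nat.not_prime_zero hq
  have hmax : 𝔮.IsMaximal := h𝔮.isMaximal h𝔮0
  let _ : Field (𝓞 K ⧸ 𝔮) := Ideal.Quotient.field 𝔮
  have : Finite (𝓞 K ⧸ 𝔮) := Ideal.finiteQuotientOfFreeOfNeBot 𝔮 h𝔮0
  let _ : Fintype (𝓞 K ⧸ 𝔮) := Fintype.ofFinite _
  have hcard : Fintype.card (𝓞 K ⧸ 𝔮) = Ideal.absNorm 𝔮 := by
    rw [← Nat.card_eq_fintype_card, Ideal.absNorm_apply, Submodule.cardQuot_apply]
  exact FA_S14_stick_aux hp hp2 hζ 𝔮 hmax hqp σ hσ (Ideal.Quotient.mk 𝔮)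
    (fun x => Ideal.Quotient.eq_zero_iff_mem) hcard (hcard ▸ hq)

end Fermat.Agent.S14
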