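import Mathlib
import Fermat.Agent.S14.Interface2
import Fermat.Agent.S14.Stick

/-!
# S14, leaf FINAL: the core theorem from DENS, STICK and REC

`FA_S14_core_of : FA_S14_Target_Dens → FA_S14_Target_Stick → FA_S14_Target_Rec → FA_S14_Target_Core`.
-/

set_option autoImplicit false

open scoped NumberField Pointwise

namespace Fermat.Agent.S14

/-- If the identity is a Frobenius element at `P`, then `P` has residue degree one. -/
theorem FA_S14_final_inertiaDeg_eq_one {K L : Type} [Field K] [Field L] [NumberField K]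
    [NumberField L] [Algebra K L] [IsGalois K L] (P : Ideal (𝓞 L)) [P.IsPrime] (hP : P ≠ ⊥)
    (h : IsArithFrobAt (𝓞 K) (1 : L ≃ₐ[K] L) P) : P.inertiaDeg (𝓞 K) = 1 := by
  have hPmax : P.IsMaximal := Ring.DimensionLEOne.maximalOfPrime hP inferInstance
  have h𝔮max : (P.under (𝓞 K)).IsMaximal := Ideal.IsMaximal.under (𝓞 K) P
  rw [Ideal.inertiaDeg_eq_of_isMaximal (P.under (𝓞 K)) P]
  have hfinP : Finite (𝓞 L ⧸ P) := Ideal.finiteQuotientOfFreeOfNeBot P hP
  have hfin𝔮 : Finite (𝓞 K ⧸ P.under (𝓞 K)) := h.finite_quotient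
  let _ : Field (𝓞 K ⧸ P.under (𝓞 K)) := Ideal.Quotient.field _
  let _ : Field (𝓞 L ⧸ P) := Ideal.Quotient.field _
  set q := Nat.card (𝓞 K ⧸ P.under (𝓞 K)) with hq
  have hq1 : 1 < q := Finite.one_lt_card
  have hpow : ∀ y : 𝓞 L ⧸ P, y ^ q = y := by
    intro y
    obtain ⟨x, rfl⟩ := Ideal.Quotient.mk_surjective y
    have := h x
    rw [← map_pow, eq_comm, Ideal.Quotient.eq]
    simpa using this
  have hcard : Nat.card (𝓞 L ⧸ P) ≤ q := by
    classical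
    have _ : Fintype (𝓞 L ⧸ P) := Fintype.ofFinite _
    have hne : (Polynomial.X ^ q - Polynomial.X : Polynomial (𝓞 L ⧸ P)) ≠ 0 :=
      FiniteField.X_pow_card_sub_X_ne_zero _ hq1
    have hroots : (Finset.univ : Finset (𝓞 L ⧸ P)) ⊆
        (Polynomial.X ^ q - Polynomial.X : Polynomial (𝓞 L ⧸ P)).roots.toFinset := by
      intro y _
      rw [Multiset.mem_toFinset, Polynomial.mem_roots hne]
      simp [hpow y]
    calc Nat.card (𝓞 L ⧸ P) = (Finset.univ : Finset (𝓞 L ⧸ P)).card := by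
          rw [Nat.card_eq_fintype_card, Finset.card_univ]
      _ ≤ (Polynomial.X ^ q - Polynomial.X : Polynomial (𝓞 L ⧸ P)).roots.toFinset.card :=
          Finset.card_le_card hroots
      _ ≤ Multiset.card (Polynomial.X ^ q - Polynomial.X : Polynomial (𝓞 L ⧸ P)).roots :=
          Multiset.toFinset_card_le _
      _ ≤ (Polynomial.X ^ q - Polynomial.X : Polynomial (𝓞 L ⧸ P)).natDegree :=
          Polynomial.card_roots' _
      _ = q := FiniteField.X_pow_card_sub_X_natDegree_eq _ hq1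
  have hmod : Nat.card (𝓞 L ⧸ P) = q ^ Module.finrank (𝓞 K ⧸ P.under (𝓞 K)) (𝓞 L ⧸ P) :=
    Module.natCard_eq_pow_finrank
  have hpos : 0 < Module.finrank (𝓞 K ⧸ P.under (𝓞 K)) (𝓞 L ⧸ P) := Module.finrank_pos
  rw [hmod] at hcard
  have : Module.finrank (𝓞 K ⧸ P.under (𝓞 K)) (𝓞 L ⧸ P) ≤ 1 := by
    by_contra hlt
    push Not at hlt
    have : q ^ 2 ≤ q ^ Module.finrank (𝓞 K ⧸ P.under (𝓞 K)) (𝓞 L ⧸ P) :=
      Nat.pow_le_pow_right (by omega) hlt
    nlinarith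
  omega

/-- Restriction to `K` of the action of `Gal(L/ℚ)` on primes. -/
theorem FA_S14_final_under_smul {K L : Type} [Field K] [Field L] [NumberField K]
    [NumberField L] [Algebra K L] (τ : L ≃ₐ[ℚ] L) (σ : K ≃ₐ[ℚ] K)
    (hτσ : ∀ x : K, τ (algebraMap K L x) = algebraMap K L (σ x)) (P : Ideal (𝓞 L)) :
    (τ⁻¹ • P).under (𝓞 K) = σ⁻¹ • (P.under (𝓞 K)) := by
  ext x
  rw [Ideal.under_def, Ideal.mem_comap, Ideal.mem_pointwise_smul_iff_inv_smul_mem, inv_inv,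
    Ideal.mem_pointwise_smul_iff_inv_smul_mem, inv_inv, Ideal.under_def, Ideal.mem_comap]
  have : τ • (algebraMap (𝓞 K) (𝓞 L) x) = algebraMap (𝓞 K) (𝓞 L) (σ • x) := by
    apply NumberField.RingOfIntegers.ext
    exact hτσ x
  rw [this]

/-- Conjugating a Frobenius element by an automorphism of `L/ℚ`. -/
theorem FA_S14_final_frob_conj {K L : Type} [Field K] [Field L] [NumberField K]
    [NumberField L] [Algebra K L] [IsGalois K L] (τ : L ≃ₐ[ℚ] L) (σ : K ≃ₐ[ℚ] K)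
    (hτσ : ∀ x : K, τ (algebraMap K L x) = algebraMap K L (σ x))
    (g g' : L ≃ₐ[K] L) (hg : ∀ x : L, τ (g' (τ.symm x)) = g x) (P : Ideal (𝓞 L))
    (h : IsArithFrobAt (𝓞 K) g P) : IsArithFrobAt (𝓞 K) g' (τ⁻¹ • P) := by
  intro x
  rw [Ideal.mem_pointwise_smul_iff_inv_smul_mem, inv_inv]
  have hcard : Nat.card (𝓞 K ⧸ (τ⁻¹ • P).under (𝓞 K)) = Nat.card (𝓞 K ⧸ P.under (𝓞 K)) := by
    rw [FA_S14_final_under_smul τ σ hτσ P]
    have := FA_S14_stick_absNorm_smul σ⁻¹ (P.under (𝓞 K))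
    rwa [Ideal.absNorm_apply, Ideal.absNorm_apply, Submodule.cardQuot_apply,
      Submodule.cardQuot_apply] at this
  rw [hcard]
  have hx := h (τ • x)
  convert hx using 1
  rw [smul_sub, smul_pow']
  congr 1
  apply NumberField.RingOfIntegers.ext
  show τ (g' (x : L)) = g (τ (x : L))
  have := hg (τ (x : L))
  simpa using this

/-- Product of powers of a fixed element along a list. -/
theorem FA_S14_final_list_prod_pow {G : Type} [Group G] (g : G) (l : List ℕ) :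
    (l.map (fun a => g ^ a)).prod = g ^ l.sum := by
  induction l with
  | nil => simp
  | cons a l ih => simp [ih, pow_add]

/-- `2 (1 + 2 + … + m) = m (m + 1)`. -/
theorem FA_S14_final_sum_Icc (m : ℕ) : (∑ a ∈ Finset.Icc 1 m, a) * 2 = m * (m + 1) := by
  induction m with
  | zero => simp
  | succ n ih =>
    rw [Finset.sum_Icc_succ_top (by omega), add_mul, ih]
    ring

/-- Automorphisms `ζ ↦ ζ ^ a` of the cyclotomic field, with lifts to `L`. -/
theorem FA_S14_final_exists_lift {p : ℕ} (hp : p.Prime) {K L : Type} [Field K] [Field L]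
    [NumberField K] [NumberField L] [Algebra K L] [IsCyclotomicExtension {p} ℚ K]
    [IsGalois ℚ L] {ζ : K} (hζ : IsPrimitiveRoot ζ p) (a : ℕ) (ha : a.Coprime p) :
    ∃ (τ : L ≃ₐ[ℚ] L) (σ : K ≃ₐ[ℚ] K), σ ζ = ζ ^ a ∧
      ∀ x : K, τ (algebraMap K L x) = algebraMap K L (σ x) := by
  have hp0 : NeZero p := ⟨hp.ne_zero⟩
  have hirr := Polynomial.cyclotomic.irreducible_rat hp.pos
  have hz : IsPrimitiveRoot (IsCyclotomicExtension.zeta p ℚ K) p :=
    IsCyclotomicExtension.zeta_spec p ℚ K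
  let σ : K ≃ₐ[ℚ] K := IsCyclotomicExtension.fromZetaAut (hz.pow_of_coprime a ha) hirr
  have hσ : σ ζ = ζ ^ a := by
    obtain ⟨i, -, rfl⟩ := hz.eq_pow_of_pow_eq_one hζ.pow_eq_one
    rw [map_pow, IsCyclotomicExtension.fromZetaAut_spec, ← pow_mul, ← pow_mul, mul_comm]
  have hGal : IsGalois ℚ K := IsCyclotomicExtension.isGalois {p} ℚ K
  obtain ⟨τ, hτ⟩ := AlgEquiv.restrictNormalHom_surjective (F := ℚ) (K₁ := K) L σ
  refine ⟨τ, σ, hσ, fun x => ?_⟩
  rw [← hτ]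
  exact (AlgEquiv.restrictNormal_commutes τ K x).symm

/-- **FINAL**: the core theorem follows from DENS, STICK and REC. -/
theorem FA_S14_core_of (hD : FA_S14_Target_Dens) (hS : FA_S14_Target_Stick)
    (hR : FA_S14_Target_Rec) : FA_S14_Target_Core := by
  intro p hp h3 K L _ _ _ _ _ _ _ _ hfin hunr heqv
  have hpF : Fact p.Prime := ⟨hp⟩
  have hp0 : NeZero p := ⟨hp.ne_zero⟩
  obtain ⟨ζ, hζ⟩ := IsCyclotomicExtension.exists_isPrimitiveRoot ℚ K (Set.mem_singleton p)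
    hp.ne_zero
  -- the exceptional set: primes of norm `p`
  let T : Finset (Ideal (𝓞 K)) := (Ideal.finite_setOfPred_absNorm_eq (S := 𝓞 K) p).toFinset
  have hne1 : Module.finrank K L ≠ 1 := by rw [hfin]; exact hp.one_lt.ne'
  have hnot : ¬ (∀ 𝔭 : Ideal (𝓞 K), 𝔭.IsPrime → 𝔭 ≠ ⊥ → (Ideal.absNorm 𝔭).Prime → 𝔭 ∉ T →
      FA_S14_SplitsCompletely K L 𝔭) := fun h => hne1 (hD K L T h)
  push Not at hnot
  obtain ⟨𝔮, h𝔮p, h𝔮0, h𝔮N, h𝔮T, hns⟩ := hnot
  unfold FA_S14_SplitsCompletely at hns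
  push Not at hns
  obtain ⟨P, hPp, hPu, hPef⟩ := hns
  have hP0 : P ≠ ⊥ := by
    rintro rfl
    apply h𝔮0
    rw [← hPu]
    exact Ideal.under_bot (𝓞 K) (𝓞 L)
  have hf : P.inertiaDeg (𝓞 K) ≠ 1 := hPef (hunr P hPp hP0)
  have hfinP : Finite (𝓞 L ⧸ P) := Ideal.finiteQuotientOfFreeOfNeBot P hP0
  obtain ⟨g, hg⟩ := IsArithFrobAt.exists_of_isInvariant (𝓞 K) (L ≃ₐ[K] L) P
  have hg1 : g ≠ 1 := by
    rintro rfl
    exact hf (FA_S14_final_inertiaDeg_eq_one P hP0 hg)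
  have h𝔮Np : Ideal.absNorm 𝔮 ≠ p := by
    intro h
    apply h𝔮T
    simp only [T, Set.Finite.mem_toFinset, Set.mem_ofPred_eq]
    exact h
  -- the automorphisms
  have hcop : ∀ a ∈ Finset.Icc 1 ((p - 1) / 2), a.Coprime p := by
    intro a ha
    rw [Finset.mem_Icc] at ha
    apply Nat.Coprime.symm
    rw [Nat.Prime.coprime_iff_not_dvd hp]
    intro hdvd
    have := Nat.le_of_dvd (by omega) hdvd
    omega
  have hex : ∀ a : ℕ, ∃ (τ : L ≃ₐ[ℚ] L) (σ : K ≃ₐ[ℚ] K), a ∈ Finset.Icc 1 ((p - 1) / 2) →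
      (σ ζ = ζ ^ a ∧ ∀ x : K, τ (algebraMap K L x) = algebraMap K L (σ x)) := by
    intro a
    by_cases ha : a ∈ Finset.Icc 1 ((p - 1) / 2)
    · obtain ⟨τ, σ, h1, h2⟩ := FA_S14_final_exists_lift (L := L) hp hζ a (hcop a ha)
      exact ⟨τ, σ, fun _ => ⟨h1, h2⟩⟩
    · exact ⟨1, 1, fun h => absurd h ha⟩
  choose τ σ hτσ using hex
  -- STICK
  have hstick := hS p hp (by omega) K ζ hζ 𝔮 h𝔮p h𝔮N h𝔮Np σ (fun a ha => (hτσ a ha).1)
  -- the list for REC
  let l : List (Ideal (𝓞 L) × (L ≃ₐ[K] L) × ℕ) :=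
    (Finset.Icc 1 ((p - 1) / 2)).toList.map (fun a => ((τ a)⁻¹ • P, g ^ a, 1))
  have hl1 : ∀ x ∈ l, x.1.IsPrime ∧ x.1 ≠ ⊥ ∧ IsArithFrobAt (𝓞 K) x.2.1 x.1 := by
    intro x hx
    simp only [l, List.mem_map, Finset.mem_toList] at hx
    obtain ⟨a, ha, rfl⟩ := hx
    refine ⟨?_, ?_, ?_⟩
    · show ((τ a)⁻¹ • P).IsPrime
      exact Ideal.map_isPrime_of_equiv (MulSemiringAction.toRingEquiv _ (𝓞 L) (τ a)⁻¹)
    · show (τ a)⁻¹ • P ≠ ⊥
      intro h
      apply hP0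
      have : P = (τ a) • ((τ a)⁻¹ • P) := by rw [smul_inv_smul]
      rw [this, h, Ideal.pointwise_smul_def, Ideal.map_bot]
    · show IsArithFrobAt (𝓞 K) (g ^ a) ((τ a)⁻¹ • P)
      exact FA_S14_final_frob_conj (τ a) (σ a) (hτσ a ha).2 g (g ^ a)
        (heqv (τ a) g ζ a hζ (by
          rw [(hτσ a ha).2, (hτσ a ha).1, map_pow])) P hg
  have hl2 : ((l.map (fun x : Ideal (𝓞 L) × (L ≃ₐ[K] L) × ℕ =>
      (x.1.under (𝓞 K)) ^ x.2.2)).prod).IsPrincipal := by
    have : (l.map (fun x : Ideal (𝓞 L) × (L ≃ₐ[K] L) × ℕ => (x.1.under (𝓞 K)) ^ x.2.2)).prod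
        = ∏ a ∈ Finset.Icc 1 ((p - 1) / 2), (σ a)⁻¹ • 𝔮 := by
      rw [← Finset.prod_map_toList]
      simp only [l, List.map_map]
      congr 1
      apply List.map_congr_left
      intro a ha
      rw [Finset.mem_toList] at ha
      simp only [Function.comp_apply, pow_one]
      rw [FA_S14_final_under_smul (τ a) (σ a) (hτσ a ha).2 P, hPu]
    rw [this]
    exact hstick
  have hrec := hR p hp h3 K L hfin hunr heqv l hl1 hl2
  have hprod : (l.map (fun x : Ideal (𝓞 L) × (L ≃ₐ[K] L) × ℕ => x.2.1 ^ x.2.2)).prod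
      = g ^ (Finset.Icc 1 ((p - 1) / 2)).toList.sum := by
    rw [← FA_S14_final_list_prod_pow]
    simp only [l, List.map_map]
    congr 1
  rw [hprod] at hrec
  have hsum : (Finset.Icc 1 ((p - 1) / 2)).toList.sum = ∑ a ∈ Finset.Icc 1 ((p - 1) / 2), a := by
    rw [← Finset.sum_map_toList]
    simp
  rw [hsum] at hrec
  -- the exponent is prime to `p`
  have hgp : g ^ p = 1 := by
    have h1 : Nat.card (L ≃ₐ[K] L) = p := by rw [IsGalois.card_aut_eq_finrank, hfin]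
    rw [← h1]
    exact pow_card_eq_one'
  set m := (p - 1) / 2 with hm
  have h2N : (∑ a ∈ Finset.Icc 1 m, a) * 2 = m * (m + 1) := by
    exact FA_S14_final_sum_Icc m
  have hcopN : Nat.Coprime (∑ a ∈ Finset.Icc 1 m, a) p := by
    apply Nat.Coprime.symm
    rw [Nat.Prime.coprime_iff_not_dvd hp]
    intro hdvd
    have hdvd2 : p ∣ m * (m + 1) := by
      rw [← h2N]
      exact Dvd.dvd.mul_right hdvd 2
    rcases (Nat.Prime.dvd_mul hp).1 hdvd2 with h | h
    · have := Nat.le_of_dvd (by omega) h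
      omega
    · have := Nat.le_of_dvd (by omega) h
      omega
  have := pow_gcd_eq_one.2 ⟨hrec, hgp⟩
  rw [hcopN.gcd_eq_one, pow_one] at this
  exact hg1 this

end Fermat.Agent.S14
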