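import Mathlib

/-!
# S14 leaf GLUE, part 1: linear algebra of an extension of `χ` by the trivial character (helper9)

`V` a `ZMod p`-module with `p²` elements with an action of a group `Γ`, `C ⊂ V` a line fixed
pointwise, `Γ` acting on `V / C` through a character `χ`.
-/

set_option autoImplicit false
set_option linter.unusedSectionVars false

namespace Fermat.Agent.S14

variable {p : ℕ} [Fact p.Prime] {Γ V : Type*} [Group Γ] [AddCommGroup V] [Module (ZMod p) V]
  [DistribMulAction Γ V] [SMulCommClass Γ (ZMod p) V]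

/-- The data of an extension of `χ` by the trivial character. -/
structure FA_S14_glue_Ext (χ : Γ →* (ZMod p)ˣ) (C : Submodule (ZMod p) V) : Prop where
  fixed_sub : ∀ σ : Γ, ∀ x ∈ C, σ • x = x
  quot : ∀ σ : Γ, ∀ x : V, σ • x - ((χ σ : (ZMod p)ˣ) : ZMod p) • x ∈ C
  card_sub : Nat.card C = p
  card_total : Nat.card V = p ^ 2

variable {χ : Γ →* (ZMod p)ˣ} {C : Submodule (ZMod p) V}

lemma FA_S14_glue_finite (h : FA_S14_glue_Ext χ C) : Finite V := by
  apply Nat.finite_of_card_ne_zero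
  rw [h.card_total]
  exact pow_ne_zero _ (Fact.out : p.Prime).ne_zero

/-- There is a vector outside `C`. -/
lemma FA_S14_glue_exists_not_mem (h : FA_S14_glue_Ext χ C) : ∃ v : V, v ∉ C := by
  by_contra hcon
  have htop : C = ⊤ := by
    rw [eq_top_iff]
    intro x _
    by_contra hx
    exact hcon ⟨x, hx⟩
  have h1 := h.card_sub
  rw [htop] at h1
  have h2 : Nat.card (⊤ : Submodule (ZMod p) V) = Nat.card V :=
    Nat.card_congr (Submodule.topEquiv (R := ZMod p) (M := V)).toEquiv
  rw [h2, h.card_total] at h1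
  have hp := (Fact.out : p.Prime).one_lt
  have : p ^ 2 = p * p := pow_two p
  nlinarith

/-- `C` is a line: for `v ∉ C`, every vector is `c + k • v`. -/
lemma FA_S14_glue_decomp (h : FA_S14_glue_Ext χ C) {v : V} (hv : v ∉ C) (x : V) :
    ∃ c ∈ C, ∃ k : ZMod p, x = c + k • v := by
  haveI := FA_S14_glue_finite h
  have hp := (Fact.out : p.Prime).one_lt
  -- the submodule `C ⊔ span v` has more than `p` elements, so it is everything
  have hfin : Module.finrank (ZMod p) V = 2 := by
    have h1 : Nat.card V = p ^ Module.finrank (ZMod p) V := by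
      rw [Module.natCard_eq_pow_finrank (K := ZMod p) (V := V), Nat.card_zmod]
    rw [h.card_total] at h1
    exact (Nat.pow_right_injective hp h1).symm
  have hfinC : Module.finrank (ZMod p) C = 1 := by
    have h1 : Nat.card C = p ^ Module.finrank (ZMod p) C := by
      rw [Module.natCard_eq_pow_finrank (K := ZMod p) (V := C), Nat.card_zmod]
    rw [h.card_sub] at h1
    have h2 : p ^ 1 = p ^ Module.finrank (ZMod p) C := by rw [pow_one]; exact h1
    exact (Nat.pow_right_injective hp h2).symm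
  have hlt : C < C ⊔ Submodule.span (ZMod p) {v} := by
    refine lt_of_le_of_ne le_sup_left ?_
    intro heq
    apply hv
    rw [heq]
    exact Submodule.mem_sup_right (Submodule.mem_span_singleton_self v)
  have htop : C ⊔ Submodule.span (ZMod p) {v} = ⊤ := by
    apply Submodule.eq_top_of_finrank_eq
    have h1 := Submodule.finrank_lt_finrank_of_lt hlt
    have h2 := Submodule.finrank_le (C ⊔ Submodule.span (ZMod p) {v})
    omega
  have hx : x ∈ C ⊔ Submodule.span (ZMod p) {v} := by rw [htop]; exact Submodule.mem_top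
  obtain ⟨c, hc, w, hw, rfl⟩ := Submodule.mem_sup.mp hx
  obtain ⟨k, rfl⟩ := Submodule.mem_span_singleton.mp hw
  exact ⟨c, hc, k, rfl⟩

/-- An element acting trivially on `V` is in the kernel of `χ`. -/
lemma FA_S14_glue_chi_eq_one (h : FA_S14_glue_Ext χ C) {σ : Γ} (hσ : ∀ x : V, σ • x = x) :
    χ σ = 1 := by
  obtain ⟨v, hv⟩ := FA_S14_glue_exists_not_mem h
  have h1 := h.quot σ v
  rw [hσ v] at h1
  by_contra hne
  have hne' : (1 : ZMod p) - ((χ σ : (ZMod p)ˣ) : ZMod p) ≠ 0 := by
    intro h0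
    apply hne
    apply Units.ext
    rw [Units.val_one]
    exact (sub_eq_zero.mp h0).symm
  have h2 : ((1 : ZMod p) - ((χ σ : (ZMod p)ˣ) : ZMod p)) • v ∈ C := by
    rw [sub_smul, one_smul]
    exact h1
  apply hv
  have h3 := C.smul_mem ((1 : ZMod p) - ((χ σ : (ZMod p)ˣ) : ZMod p))⁻¹ h2
  rwa [smul_smul, inv_mul_cancel₀ hne', one_smul] at h3

/-- An element of the kernel of `χ` moves every vector by an element of `C`. -/
lemma FA_S14_glue_unip (h : FA_S14_glue_Ext χ C) {g : Γ} (hg : χ g = 1) (x : V) :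
    g • x - x ∈ C := by
  have := h.quot g x
  rwa [hg, Units.val_one, one_smul] at this

/-- An element of the kernel of `χ` fixing one vector outside `C` acts trivially. -/
lemma FA_S14_glue_trivial_of_fix (h : FA_S14_glue_Ext χ C) {g : Γ}
    {v : V} (hv : v ∉ C) (hgv : g • v = v) (x : V) : g • x = x := by
  obtain ⟨c, hc, k, rfl⟩ := FA_S14_glue_decomp h hv x
  rw [smul_add, h.fixed_sub g c hc, smul_comm, hgv]

/-- **The split case**: if the kernel of `χ` acts trivially on `V`, then `C` has a stable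
complement. -/
theorem FA_S14_glue_split (h : FA_S14_glue_Ext χ C)
    (htriv : ∀ g : Γ, χ g = 1 → ∀ x : V, g • x = x) :
    ∃ C' : Submodule (ZMod p) V, (∀ σ : Γ, ∀ x ∈ C', σ • x ∈ C') ∧ IsCompl C C' := by
  by_cases hall : ∀ σ : Γ, χ σ = 1
  · obtain ⟨C', hC'⟩ := Submodule.exists_isCompl C
    refine ⟨C', fun σ x hx => ?_, hC'⟩
    rw [htriv σ (hall σ) x]
    exact hx
  · obtain ⟨σ₀, hσ₀⟩ := not_forall.mp hall
    set c : ZMod p := ((χ σ₀ : (ZMod p)ˣ) : ZMod p) with hc
    have hc1 : c - 1 ≠ 0 := by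
      intro h0
      apply hσ₀
      apply Units.ext
      rw [Units.val_one]
      exact sub_eq_zero.mp h0
    let f : V →ₗ[ZMod p] V := DistribSMul.toLinearMap (ZMod p) V σ₀ - LinearMap.id
    have hf : ∀ x, f x = σ₀ • x - x := fun x => rfl
    -- `σ₀` commutes with everything on `V`
    have hcomm : ∀ (σ : Γ) (x : V), σ • σ₀ • x = σ₀ • σ • x := by
      intro σ x
      have h1 : χ (σ₀⁻¹ * σ⁻¹ * σ₀ * σ) = 1 := by
        rw [map_mul, map_mul, map_mul, map_inv, map_inv]
        rw [mul_comm ((χ σ₀)⁻¹) ((χ σ)⁻¹), mul_assoc ((χ σ)⁻¹), inv_mul_cancel, mul_one,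
          inv_mul_cancel]
      have h2 := htriv _ h1 x
      rw [mul_smul, mul_smul, mul_smul] at h2
      have h3 := congrArg (fun y => σ • σ₀ • y) h2
      simp only [smul_inv_smul] at h3
      exact h3.symm
    refine ⟨LinearMap.range f, ?_, ?_⟩
    · rintro σ _ ⟨x, rfl⟩
      refine ⟨σ • x, ?_⟩
      rw [hf, hf, smul_sub, hcomm]
    · constructor
      · rw [Submodule.disjoint_def]
        rintro y hyC ⟨x, rfl⟩
        -- `(c - 1) x ∈ C`
        have h1 := h.quot σ₀ x
        have h2 : (c - 1) • x ∈ C := by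
          have : (c - 1) • x = (σ₀ • x - x) - (σ₀ • x - c • x) := by
            rw [sub_smul, one_smul]; abel
          rw [this]
          exact C.sub_mem hyC h1
        have h3 := C.smul_mem (c - 1)⁻¹ h2
        rw [smul_smul, inv_mul_cancel₀ hc1, one_smul] at h3
        rw [hf, h.fixed_sub σ₀ x h3, sub_self]
      · rw [codisjoint_iff, eq_top_iff]
        intro x _
        have h1 := h.quot σ₀ x
        have e : x = (c - 1)⁻¹ • (-(σ₀ • x - c • x)) + f ((c - 1)⁻¹ • x) := by
          rw [hf, smul_comm σ₀ ((c - 1)⁻¹) x, ← smul_sub, ← smul_add]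
          have : -(σ₀ • x - c • x) + (σ₀ • x - x) = (c - 1) • x := by
            rw [sub_smul, one_smul]; abel
          rw [this, smul_smul, inv_mul_cancel₀ hc1, one_smul]
        rw [e]
        exact Submodule.add_mem_sup (C.smul_mem _ (C.neg_mem h1)) ⟨_, rfl⟩

/-- **Local splitting**: an element of the kernel of `χ` stabilising a complement of `C` acts
trivially on `V`. -/
theorem FA_S14_glue_local (h : FA_S14_glue_Ext χ C) {C' : Submodule (ZMod p) V}
    (hC' : IsCompl C C') {g : Γ} (hg : χ g = 1) (hgC' : ∀ x ∈ C', g • x ∈ C') (x : V) :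
    g • x = x := by
  have hx : x ∈ C ⊔ C' := by rw [hC'.sup_eq_top]; exact Submodule.mem_top
  obtain ⟨c, hc, w, hw, rfl⟩ := Submodule.mem_sup.mp hx
  have h1 : g • w - w ∈ C ⊓ C' :=
    ⟨FA_S14_glue_unip h hg w, C'.sub_mem (hgC' w hw) hw⟩
  rw [hC'.inf_eq_bot, Submodule.mem_bot] at h1
  rw [smul_add, h.fixed_sub g c hc, sub_eq_zero.mp h1]

/-- The cocycle `b(g) = g v - v` is additive on the kernel of `χ`. -/
lemma FA_S14_glue_b_mul (h : FA_S14_glue_Ext χ C) {g g' : Γ} (hg' : χ g' = 1) (v : V) :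
    (g * g') • v - v = (g • v - v) + (g' • v - v) := by
  have h1 := FA_S14_glue_unip h hg' v
  have h2 := h.fixed_sub g _ h1
  rw [smul_sub] at h2
  rw [mul_smul]
  have : g • g' • v = g • v + (g' • v - v) := by
    rw [← h2]; abel
  rw [this]; abel

/-- **Equivariance**: `b(τ g τ⁻¹) = χ(τ)⁻¹ b(g)`, in the form `χ(τ) • b(τ g τ⁻¹) = b(g)`,
evaluated at any vector `v`. -/
lemma FA_S14_glue_b_conj (h : FA_S14_glue_Ext χ C) {g : Γ} (hg : χ g = 1) (τ : Γ) (v : V) :
    ((χ τ : (ZMod p)ˣ) : ZMod p) • ((τ * g * τ⁻¹) • v - v) = g • v - v := by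
  set a : ZMod p := ((χ τ : (ZMod p)ˣ) : ZMod p) with ha
  have ha0 : a ≠ 0 := (χ τ).ne_zero
  -- `w := τ⁻¹ v`, `τ w = v`, and `τ⁻¹ v ≡ a⁻¹ v mod C`
  have h1 := h.quot τ (τ⁻¹ • v)
  rw [smul_inv_smul] at h1
  -- h1 : v - a • τ⁻¹ v ∈ C
  set d : V := v - a • (τ⁻¹ • v) with hd
  have hτinv : τ⁻¹ • v = a⁻¹ • (v - d) := by
    rw [hd, sub_sub_cancel, smul_smul, inv_mul_cancel₀ ha0, one_smul]
  -- `g` fixes `d`
  have hgd : g • d = d := h.fixed_sub g d h1
  have hb := FA_S14_glue_unip h hg v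
  have hτb : τ • (g • v - v) = g • v - v := h.fixed_sub τ _ hb
  have e1 : g • τ⁻¹ • v = τ⁻¹ • v + a⁻¹ • (g • v - v) := by
    rw [hτinv, smul_comm g, smul_sub, hgd, ← smul_add]
    congr 1
    abel
  have e2 : (τ * g * τ⁻¹) • v = v + a⁻¹ • (g • v - v) := by
    rw [mul_smul, mul_smul, e1, smul_add, smul_inv_smul, smul_comm τ, hτb]
  rw [e2, add_sub_cancel_left, smul_smul, mul_inv_cancel₀ ha0, one_smul]

end Fermat.Agent.S14
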