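import Mathlib
import Fermat.Agent.S14.GlueAlg

/-!
# S14 leaf GLUE, part 2: the kernel of the action inside the kernel of `χ` (helper9)

`H₀ = {σ | σ acts trivially on V}`, `N = ker χ`.  In the non-split case `[N : H₀] = p`, and
`τ g ^ a τ⁻¹ ≡ g mod H₀` for `g ∈ N`, `a ≡ χ τ`.
-/

set_option autoImplicit false
set_option linter.unusedSectionVars false

namespace Fermat.Agent.S14

variable {p : ℕ} [Fact p.Prime] {Γ V : Type*} [Group Γ] [AddCommGroup V] [Module (ZMod p) V]
  [DistribMulAction Γ V] [SMulCommClass Γ (ZMod p) V]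

/-- The subgroup of the elements acting trivially on `V`. -/
def FA_S14_glue_H0 (Γ V : Type*) [Group Γ] [AddCommGroup V] [DistribMulAction Γ V] :
    Subgroup Γ where
  carrier := {σ | ∀ v : V, σ • v = v}
  one_mem' := fun v => one_smul _ v
  mul_mem' := fun {a b} ha hb v => by rw [mul_smul, hb v, ha v]
  inv_mem' := fun {a} ha v => by
    have := congrArg (fun y => a⁻¹ • y) (ha v)
    simp only [inv_smul_smul] at this
    exact this.symm

lemma FA_S14_glue_mem_H0 {Γ V : Type*} [Group Γ] [AddCommGroup V] [DistribMulAction Γ V]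
    (σ : Γ) : σ ∈ FA_S14_glue_H0 Γ V ↔ ∀ v : V, σ • v = v := Iff.rfl

instance FA_S14_glue_H0_normal {Γ V : Type*} [Group Γ] [AddCommGroup V] [DistribMulAction Γ V] :
    (FA_S14_glue_H0 Γ V).Normal where
  conj_mem := fun n hn g v => by
    rw [mul_smul, mul_smul, hn, smul_inv_smul]

variable {χ : Γ →* (ZMod p)ˣ} {C : Submodule (ZMod p) V}

lemma FA_S14_glue_H0_le_ker (h : FA_S14_glue_Ext χ C) : FA_S14_glue_H0 Γ V ≤ χ.ker := by
  intro σ hσ
  rw [MonoidHom.mem_ker]
  exact FA_S14_glue_chi_eq_one h hσ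

/-- The cocycle as a group homomorphism `ker χ → C`. -/
noncomputable def FA_S14_glue_bHom (h : FA_S14_glue_Ext χ C) (v : V) :
    χ.ker →* Multiplicative C where
  toFun g := Multiplicative.ofAdd ⟨(g : Γ) • v - v, FA_S14_glue_unip h (MonoidHom.mem_ker.mp g.2) v⟩
  map_one' := by
    apply Multiplicative.toAdd.injective
    apply Subtype.ext
    simp
  map_mul' g g' := by
    apply Multiplicative.toAdd.injective
    apply Subtype.ext
    change ((g : Γ) * (g' : Γ)) • v - v = ((g : Γ) • v - v) + ((g' : Γ) • v - v)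
    exact FA_S14_glue_b_mul h (MonoidHom.mem_ker.mp g'.2) v

lemma FA_S14_glue_bHom_apply (h : FA_S14_glue_Ext χ C) (v : V) (g : χ.ker) :
    ((Multiplicative.toAdd (FA_S14_glue_bHom h v g) : C) : V) = (g : Γ) • v - v := rfl

lemma FA_S14_glue_bHom_ker (h : FA_S14_glue_Ext χ C) {v : V} (hv : v ∉ C) :
    (FA_S14_glue_bHom h v).ker = (FA_S14_glue_H0 Γ V).subgroupOf χ.ker := by
  ext g
  rw [MonoidHom.mem_ker, Subgroup.mem_subgroupOf, FA_S14_glue_mem_H0]
  constructor
  · intro hg
    have h1 : (g : Γ) • v - v = 0 := by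
      rw [← FA_S14_glue_bHom_apply h v g, hg]
      rfl
    exact FA_S14_glue_trivial_of_fix h hv (sub_eq_zero.mp h1)
  · intro hg
    apply Multiplicative.toAdd.injective
    apply Subtype.ext
    rw [FA_S14_glue_bHom_apply, hg v, sub_self]
    rfl

/-- **Non-split case**: the kernel of the action has index `p` in the kernel of `χ`. -/
theorem FA_S14_glue_relIndex (h : FA_S14_glue_Ext χ C)
    (hns : ∃ g : Γ, χ g = 1 ∧ ∃ x : V, g • x ≠ x) :
    (FA_S14_glue_H0 Γ V).relIndex χ.ker = p := by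
  obtain ⟨v, hv⟩ := FA_S14_glue_exists_not_mem h
  have hp : p.Prime := Fact.out
  rw [Subgroup.relIndex, ← FA_S14_glue_bHom_ker h hv, Subgroup.index_ker]
  have hcardC : Nat.card (Multiplicative C) = p := by
    rw [Nat.card_congr Multiplicative.toAdd]
    exact h.card_sub
  haveI : Finite (Multiplicative C) := by
    apply Nat.finite_of_card_ne_zero
    rw [hcardC]
    exact hp.ne_zero
  have hdvd : Nat.card (FA_S14_glue_bHom h v).range ∣ p := by
    have := Subgroup.card_subgroup_dvd_card (FA_S14_glue_bHom h v).range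
    rwa [hcardC] at this
  rcases (Nat.dvd_prime hp).mp hdvd with h1 | h1
  · exfalso
    obtain ⟨g, hg, x, hx⟩ := hns
    apply hx
    have hbot : (FA_S14_glue_bHom h v).range = ⊥ := Subgroup.card_eq_one.mp h1
    have hker : (FA_S14_glue_bHom h v).ker = ⊤ := by
      rw [eq_top_iff]
      intro y _
      rw [MonoidHom.mem_ker]
      have hy : FA_S14_glue_bHom h v y ∈ (FA_S14_glue_bHom h v).range := ⟨y, rfl⟩
      rw [hbot] at hy
      exact Subgroup.mem_bot.mp hy
    have hgm : (⟨g, MonoidHom.mem_ker.mpr hg⟩ : χ.ker) ∈ (FA_S14_glue_bHom h v).ker := by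
      rw [hker]
      exact Subgroup.mem_top _
    rw [FA_S14_glue_bHom_ker h hv, Subgroup.mem_subgroupOf] at hgm
    exact hgm x
  · exact h1

/-- `b(g ^ a) = a • b(g)` on the kernel of `χ`. -/
lemma FA_S14_glue_b_pow (h : FA_S14_glue_Ext χ C) {g : Γ} (hg : χ g = 1) (v : V) (a : ℕ) :
    (g ^ a) • v - v = (a : ZMod p) • (g • v - v) := by
  induction a with
  | zero => simp
  | succ n ih =>
    rw [pow_succ, FA_S14_glue_b_mul h hg v, ih, Nat.cast_succ, add_smul, one_smul]

/-- **Equivariance**: if `a ≡ χ τ`, then `τ g ^ a τ⁻¹` acts on `V` as `g`, for `g ∈ ker χ`. -/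
theorem FA_S14_glue_conj_pow (h : FA_S14_glue_Ext χ C) {g : Γ} (hg : χ g = 1) (τ : Γ) (a : ℕ)
    (ha : (a : ZMod p) = ((χ τ : (ZMod p)ˣ) : ZMod p)) (x : V) :
    (τ * g ^ a * τ⁻¹) • x = g • x := by
  obtain ⟨v, hv⟩ := FA_S14_glue_exists_not_mem h
  have hga : χ (g ^ a) = 1 := by rw [map_pow, hg, one_pow]
  have h1 := FA_S14_glue_b_conj h hga τ v
  rw [FA_S14_glue_b_pow h hg v a, ha] at h1
  have hc0 : ((χ τ : (ZMod p)ˣ) : ZMod p) ≠ 0 := (χ τ).ne_zero
  have h2 : (τ * g ^ a * τ⁻¹) • v - v = g • v - v := by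
    have := congrArg (fun y => (((χ τ : (ZMod p)ˣ) : ZMod p))⁻¹ • y) h1
    simp only [smul_smul, inv_mul_cancel₀ hc0, one_smul] at this
    exact this
  have h3 : (τ * g ^ a * τ⁻¹) • v = g • v := by
    have := congrArg (fun y => y + v) h2
    simpa using this
  -- `g⁻¹ * (τ g^a τ⁻¹)` fixes `v`
  have h4 : (g⁻¹ * (τ * g ^ a * τ⁻¹)) • v = v := by
    rw [mul_smul, h3, inv_smul_smul]
  have h5 := FA_S14_glue_trivial_of_fix h hv h4 x
  rw [mul_smul] at h5
  have := congrArg (fun y => g • y) h5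
  simpa using this

end Fermat.Agent.S14
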