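import Mathlib
import Fermat.Prelude.Def_ExtCitation_KummerBridge
import Fermat.Agent.Lib.FrobeniusExists

/-!
# S14 leaf GLUE, part 3: the mod `p` cyclotomic character and `ℚ(ζ_p) ⊂ ℚ̄` (helper9)
-/

set_option autoImplicit false

namespace Fermat.Agent.S14

local notation "Qb" => AlgebraicClosure ℚ
local notation "Γ" => (AlgebraicClosure ℚ ≃ₐ[ℚ] AlgebraicClosure ℚ)

attribute [local instance] Lib.FA_isAlgebraic_Qb Lib.FA_isAlgClosure_Qb

variable (p : ℕ) [Fact p.Prime]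

theorem FA_S14_glue_exists_zeta : ∃ ζ : Qb, IsPrimitiveRoot ζ p := by
  haveI : NeZero p := ⟨(Fact.out : p.Prime).ne_zero⟩
  haveI : NeZero (p : Qb) := ⟨Nat.cast_ne_zero.mpr (NeZero.ne p)⟩
  exact HasEnoughRootsOfUnity.exists_primitiveRoot Qb p

variable {p}

lemma FA_S14_glue_pow_eq_pow_iff {ζ : Qb} (hζ : IsPrimitiveRoot ζ p) (n m : ℕ) :
    ζ ^ n = ζ ^ m ↔ n ≡ m [MOD p] := by
  have hfin : IsOfFinOrder ζ :=
    isOfFinOrder_iff_pow_eq_one.mpr ⟨p, (Fact.out : p.Prime).pos, hζ.pow_eq_one⟩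
  rw [hfin.pow_eq_pow_iff_modEq, ← hζ.eq_orderOf]

/-- `σ ζ = ζ ^ cycloExp σ` for every `p`-th root of unity `ζ`. -/
theorem FA_S14_glue_cyc_spec (σ : Γ) {ζ : Qb} (hζ : ζ ^ p = 1) :
    σ ζ = ζ ^ (ExtCitation.cycloExp p σ) := by
  haveI : NeZero p := ⟨(Fact.out : p.Prime).ne_zero⟩
  have hζ0 : ζ ≠ 0 := by
    intro h0
    rw [h0, zero_pow (NeZero.ne p)] at hζ
    exact zero_ne_one hζ
  have ht : (Units.mk0 ζ hζ0) ∈ rootsOfUnity p Qb := by
    rw [mem_rootsOfUnity]
    apply Units.ext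
    simpa using hζ
  have := modularCyclotomicCharacter.spec Qb (ExtCitation.card_rootsOfUnity_eq_self p)
    (σ : Qb ≃+* Qb) ht
  simpa [ExtCitation.cycloExp] using this

/-- `σ ζ = ζ ^ a` determines `χ σ`. -/
theorem FA_S14_glue_cyc_eq (σ : Γ) {ζ : Qb} (hζ : IsPrimitiveRoot ζ p) (a : ℕ)
    (h : σ ζ = ζ ^ a) :
    (a : ZMod p) = ((ExtCitation.cycloChar p σ : (ZMod p)ˣ) : ZMod p) := by
  rw [ExtCitation.coe_cycloChar]
  have h1 := FA_S14_glue_cyc_spec σ hζ.pow_eq_one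
  rw [h] at h1
  have h2 := (FA_S14_glue_pow_eq_pow_iff hζ _ _).mp h1
  exact (ZMod.natCast_eq_natCast_iff a _ p).mpr h2

/-- The kernel of `χ` is the stabiliser of `ζ`. -/
theorem FA_S14_glue_cyc_ker (σ : Γ) {ζ : Qb} (hζ : IsPrimitiveRoot ζ p) :
    ExtCitation.cycloChar p σ = 1 ↔ σ ζ = ζ := by
  constructor
  · intro h
    have h1 := FA_S14_glue_cyc_spec σ hζ.pow_eq_one
    have h2 : ((ExtCitation.cycloExp p σ : ℕ) : ZMod p) = ((1 : ℕ) : ZMod p) := by
      rw [← ExtCitation.coe_cycloChar, h]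
      simp
    have h3 := (ZMod.natCast_eq_natCast_iff _ _ p).mp h2
    have h4 : ζ ^ (ExtCitation.cycloExp p σ) = ζ ^ 1 := (FA_S14_glue_pow_eq_pow_iff hζ _ _).mpr h3
    rw [h1, h4, pow_one]
  · intro h
    have h1 := FA_S14_glue_cyc_eq σ hζ 1 (by rw [h, pow_one])
    apply Units.ext
    rw [← h1]
    simp

/-- The fixing subgroup of `ℚ(ζ)` is the kernel of `χ`. -/
theorem FA_S14_glue_cyc_fixing {ζ : Qb} (hζ : IsPrimitiveRoot ζ p) :
    (IntermediateField.adjoin ℚ {ζ}).fixingSubgroup = (ExtCitation.cycloChar p).ker := by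
  ext σ
  rw [MonoidHom.mem_ker, FA_S14_glue_cyc_ker σ hζ, IntermediateField.mem_fixingSubgroup_iff]
  constructor
  · intro h
    exact h ζ (IntermediateField.mem_adjoin_simple_self ℚ ζ)
  · intro h x hx
    have hle : IntermediateField.adjoin ℚ {ζ} ≤
        IntermediateField.fixedField (Subgroup.zpowers σ) := by
      rw [IntermediateField.adjoin_le_iff]
      intro y hy
      rw [Set.mem_singleton_iff] at hy
      subst hy
      rw [SetLike.mem_coe, IntermediateField.mem_fixedField_iff]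
      intro f hf
      obtain ⟨k, rfl⟩ := Subgroup.mem_zpowers_iff.mp hf
      have hfix : σ ∈ MulAction.stabilizer Γ y := by
        rw [MulAction.mem_stabilizer_iff]
        exact h
      have := (MulAction.stabilizer Γ y).zpow_mem hfix k
      rw [MulAction.mem_stabilizer_iff] at this
      exact this
    have := hle hx
    rw [IntermediateField.mem_fixedField_iff] at this
    exact this σ (Subgroup.mem_zpowers σ)

/-- `ℚ(ζ)` is a `p`-th cyclotomic extension of `ℚ`. -/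
theorem FA_S14_glue_cyc_isCyclotomic {ζ : Qb} (hζ : IsPrimitiveRoot ζ p) :
    IsCyclotomicExtension {p} ℚ (IntermediateField.adjoin ℚ {ζ}) := by
  haveI : NeZero p := ⟨(Fact.out : p.Prime).ne_zero⟩
  haveI : Algebra.IsIntegral ℚ Qb := Algebra.IsAlgebraic.isIntegral
  exact hζ.intermediateField_adjoin_isCyclotomicExtension ℚ

end Fermat.Agent.S14
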