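import Mathlib
import Fermat.Agent.S14.Interface

/-!
# S14 leaf GLUE, part 4: trivial inertia groups ⇒ unramified (helper9)
-/

set_option autoImplicit false

open scoped NumberField Pointwise

namespace Fermat.Agent.S14

/-- Every nonzero prime of a ring of integers contains a prime number. -/
theorem FA_S14_glue_exists_prime_mem (L : Type) [Field L] [NumberField L]
    (P : Ideal (𝓞 L)) (hP : P.IsPrime) (hP0 : P ≠ ⊥) :
    ∃ ℓ : ℕ, ℓ.Prime ∧ ((ℓ : ℕ) : 𝓞 L) ∈ P := by
  have hn0 : Ideal.absNorm P ≠ 0 := by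
    rw [Ne, Ideal.absNorm_eq_zero_iff]
    exact hP0
  have hmem : ((Ideal.absNorm P : ℕ) : 𝓞 L) ∈ P := Ideal.absNorm_mem P
  -- induction on the factorisation
  have key : ∀ n : ℕ, n ≠ 0 → ((n : ℕ) : 𝓞 L) ∈ P → ∃ ℓ : ℕ, ℓ.Prime ∧ ((ℓ : ℕ) : 𝓞 L) ∈ P := by
    intro n
    induction n using Nat.strong_induction_on with
    | _ n ih =>
      intro hn hnP
      have hn1 : n ≠ 1 := by
        rintro rfl
        apply hP.ne_top
        rw [Ideal.eq_top_iff_one]
        simpa using hnP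
      obtain ⟨q, hq, hqn⟩ := Nat.exists_prime_and_dvd hn1
      obtain ⟨m, rfl⟩ := hqn
      have h1 : ((q : ℕ) : 𝓞 L) * ((m : ℕ) : 𝓞 L) ∈ P := by
        have : (((q * m : ℕ)) : 𝓞 L) = ((q : ℕ) : 𝓞 L) * ((m : ℕ) : 𝓞 L) := by push_cast; rfl
        rwa [this] at hnP
      rcases hP.mem_or_mem h1 with h2 | h2
      · exact ⟨q, hq, h2⟩
      · have hm0 : m ≠ 0 := by
          rintro rfl
          exact hn (mul_zero q)
        have hlt : m < q * m := by
          have := hq.one_lt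
          have hmpos : 0 < m := Nat.pos_of_ne_zero hm0
          nlinarith
        exact ih m hlt hm0 h2
  exact key _ hn0 hmem

/-- A Galois extension of number fields all of whose inertia groups are trivial is unramified. -/
theorem FA_S14_glue_unramified_of_inertia (K L : Type) [Field K] [Field L] [NumberField K]
    [NumberField L] [Algebra K L] [IsGalois K L]
    (h : ∀ P : Ideal (𝓞 L), P.IsPrime → P ≠ ⊥ →
      ∀ g : L ≃ₐ[K] L, (∀ y : 𝓞 L, g • y - y ∈ P) → g = 1) :
    FA_S14_Unramified K L := by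
  intro P hP hP0
  have hbot : Ideal.inertia (L ≃ₐ[K] L) P = ⊥ := by
    rw [Subgroup.eq_bot_iff_forall]
    intro g hg
    exact h P hP hP0 g hg
  have hcard : Nat.card (Ideal.inertia (L ≃ₐ[K] L) P) = 1 := by
    rw [hbot]
    exact Subgroup.card_bot
  haveI : (P.under (𝓞 K)).IsPrime := Ideal.IsPrime.under (𝓞 K) P
  haveI : P.LiesOver (P.under (𝓞 K)) := ⟨rfl⟩
  have h4 := Ideal.card_inertia_eq_ramificationIdxIn (G := (L ≃ₐ[K] L)) (P.under (𝓞 K)) P
  have h5 := Ideal.ramificationIdxIn_eq_ramificationIdx (P.under (𝓞 K)) P (L ≃ₐ[K] L)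
  rw [← h4, hcard] at h5
  exact h5.symm

end Fermat.Agent.S14
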