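import Mathlib
import Fermat.Agent.S14.Interface2
import Fermat.Agent.S14.GlueCyc
import Fermat.Agent.S14.GlueRam
import Fermat.Agent.S13.MinkLift

/-!
# S14 leaf GLUE, part 5: from `Gal(ℚ̄/ℚ)` to number fields (helper9)

For intermediate fields `E ≤ F` of `ℚ̄/ℚ` with `F/ℚ` finite Galois: the degree `[F : E]` as a
relative index, lifting of automorphisms, unramifiedness of `F/E` from the inertia subgroups of
the valuation subrings of `ℚ̄`; and the reduction `FA_S14_glue_field` of the non-split case to the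
core theorem.
-/

set_option autoImplicit false

open scoped NumberField Pointwise

namespace Fermat.Agent.S14

local notation "Qb" => AlgebraicClosure ℚ
local notation "Γ" => (AlgebraicClosure ℚ ≃ₐ[ℚ] AlgebraicClosure ℚ)
local notation "Zb" => integralClosure ℤ (AlgebraicClosure ℚ)

attribute [local instance] Lib.FA_isAlgebraic_Qb Lib.FA_isAlgClosure_Qb Lib.FA_isInvariant_Zb
  Lib.FA_topZb Lib.FA_discZb Lib.FA_contSMul_Zb

/-- The core with arbitrary `ℚ`-algebra instances. -/
theorem FA_S14_glue_core' (hcore : FA_S14_Target_Core) (p : ℕ) (hp : p.Prime) (h3 : 3 ≤ p)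
    (K L : Type) [Field K] [Field L] [NumberField K] [NumberField L] [Algebra K L]
    [iK : Algebra ℚ K] [iL : Algebra ℚ L]
    [IsCyclotomicExtension {p} ℚ K] [IsGalois ℚ L] [IsGalois K L]
    (hfin : Module.finrank K L = p) (hunr : FA_S14_Unramified K L)
    (heq : ∀ (τ : L ≃ₐ[ℚ] L) (g : L ≃ₐ[K] L) (ζ : K) (a : ℕ), IsPrimitiveRoot ζ p →
      τ (algebraMap K L ζ) = (algebraMap K L ζ) ^ a →
      ∀ x : L, τ ((g ^ a) (τ.symm x)) = g x) : False := by
  obtain rfl : iK = DivisionRing.toRatAlgebra := Subsingleton.elim _ _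
  obtain rfl : iL = DivisionRing.toRatAlgebra := Subsingleton.elim _ _
  exact hcore p hp h3 K L hfin hunr heq

section tower

variable {E F : IntermediateField ℚ Qb}

/-- The algebra structure of `F` over `E` for `E ≤ F`. -/
@[reducible] noncomputable def FA_S14_glue_alg (h : E ≤ F) : Algebra E F :=
  (IntermediateField.inclusion h).toRingHom.toAlgebra

lemma FA_S14_glue_alg_apply (h : E ≤ F) (x : E) :
    ((@algebraMap E F _ _ (FA_S14_glue_alg h) x : F) : Qb) = (x : Qb) := rfl

lemma FA_S14_glue_tower (h : E ≤ F) :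
    @IsScalarTower ℚ E F _ (FA_S14_glue_alg h).toSMul _ := by
  letI := FA_S14_glue_alg h
  exact IsScalarTower.of_algebraMap_eq (fun x => rfl)

lemma FA_S14_glue_tower' (h : E ≤ F) :
    @IsScalarTower E F Qb (FA_S14_glue_alg h).toSMul _ _ := by
  letI := FA_S14_glue_alg h
  exact IsScalarTower.of_algebraMap_eq (fun x => rfl)

lemma FA_S14_glue_isGalois (h : E ≤ F) [IsGalois ℚ F] :
    @IsGalois E _ F _ (FA_S14_glue_alg h) := by
  letI := FA_S14_glue_alg h
  haveI := FA_S14_glue_tower h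
  exact IsGalois.tower_top_of_isGalois ℚ E F

lemma FA_S14_glue_finrank (h : E ≤ F) [FiniteDimensional ℚ E] :
    @Module.finrank E F _ _ (FA_S14_glue_alg h).toModule =
      F.fixingSubgroup.relIndex E.fixingSubgroup := by
  letI := FA_S14_glue_alg h
  haveI := FA_S14_glue_tower h
  have h1 := Module.finrank_mul_finrank ℚ E F
  have h2 : Module.finrank ℚ E = E.fixingSubgroup.index :=
    IntermediateField.finrank_eq_fixingSubgroup_index Qb E
  have h3 : Module.finrank ℚ F = F.fixingSubgroup.index :=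
    IntermediateField.finrank_eq_fixingSubgroup_index Qb F
  have h4 := Subgroup.relIndex_mul_index (IntermediateField.fixingSubgroup_le h)
  have h5 : 0 < Module.finrank ℚ E := Module.finrank_pos
  rw [h2, h3, ← h4, mul_comm] at h1
  rw [h2] at h5
  exact Nat.eq_of_mul_eq_mul_right h5 h1

/-- Lifting automorphisms of `F/ℚ` to `ℚ̄`. -/
lemma FA_S14_glue_lift_rat [Normal ℚ F] (τ : F ≃ₐ[ℚ] F) :
    ∃ τ' : Γ, ∀ x : F, τ' (x : Qb) = ((τ x : F) : Qb) := by
  obtain ⟨τ', hτ'⟩ := AlgEquiv.restrictNormalHom_surjective (F := ℚ) (K₁ := F) Qb τ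
  refine ⟨τ', fun x => ?_⟩
  rw [← hτ']
  exact (AlgEquiv.restrictNormal_commutes τ' F x).symm

/-- Lifting automorphisms of `F/E` to `ℚ̄`. -/
lemma FA_S14_glue_lift (h : E ≤ F) [Normal ℚ F]
    (g : @AlgEquiv E F F _ _ _ (FA_S14_glue_alg h) (FA_S14_glue_alg h)) :
    ∃ g' : Γ, g' ∈ E.fixingSubgroup ∧ ∀ x : F, g' (x : Qb) = ((g x : F) : Qb) := by
  letI := FA_S14_glue_alg h
  haveI := FA_S14_glue_tower h
  obtain ⟨g', hg'⟩ := FA_S14_glue_lift_rat (g.restrictScalars ℚ)
  refine ⟨g', ?_, hg'⟩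
  rw [IntermediateField.mem_fixingSubgroup_iff]
  intro x hx
  have h1 := hg' ⟨x, h hx⟩
  have h2 : g (algebraMap E F ⟨x, hx⟩) = algebraMap E F ⟨x, hx⟩ := g.commutes _
  have h3 : (g.restrictScalars ℚ) ⟨x, h hx⟩ = ⟨x, h hx⟩ := h2
  rw [h3] at h1
  exact h1

/-- **Unramifiedness from the inertia subgroups of `Gal(ℚ̄/ℚ)`.** -/
theorem FA_S14_glue_unram (h : E ≤ F) [NumberField E] [NumberField F] [IsGalois ℚ F]
    (hram : ∀ (A : ValuationSubring Qb) (q : ℕ), q.Prime → A.LiesOverPrime q →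
      ∀ σ ∈ A.inertiaSubgroupIn ℚ, σ ∈ E.fixingSubgroup → σ ∈ F.fixingSubgroup) :
    @FA_S14_Unramified E F _ _ _ _ (FA_S14_glue_alg h) := by
  classical
  letI := FA_S14_glue_alg h
  haveI := FA_S14_glue_isGalois h
  apply FA_S14_glue_unramified_of_inertia
  intro P hP hP0 g hg
  obtain ⟨ℓ, hℓ, hℓP⟩ := FA_S14_glue_exists_prime_mem F P hP hP0
  -- the map `𝓞 F → Zb`
  have hι : ∀ r : 𝓞 F, IsIntegral ℤ (((r : F) : Qb)) := fun r =>
    (NumberField.RingOfIntegers.isIntegral_coe r).map (IsScalarTower.toAlgHom ℤ F Qb)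
  let ι : 𝓞 F →+* Zb :=
    { toFun := fun r => ⟨((r : F) : Qb), hι r⟩
      map_one' := by apply Subtype.ext; simp
      map_mul' := fun a b => by apply Subtype.ext; simp
      map_zero' := by apply Subtype.ext; simp
      map_add' := fun a b => by apply Subtype.ext; simp }
  have hιinj : Function.Injective ι := by
    intro a b hab
    have h1 : ((ι a : Zb) : Qb) = ((ι b : Zb) : Qb) := congrArg Subtype.val hab
    exact NumberField.RingOfIntegers.ext (Subtype.ext h1)
  -- a prime of `Zb` over `P`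
  obtain ⟨Q, hQ, hQP⟩ : ∃ Q : Ideal Zb, Q.IsPrime ∧ Q.comap ι = P := by
    letI : Algebra (𝓞 F) Zb := ι.toAlgebra
    haveI : Algebra.IsIntegral (𝓞 F) Zb := by
      refine ⟨fun b => ?_⟩
      have hb : IsIntegral ℤ b := Algebra.IsIntegral.isIntegral b
      exact hb.tower_top
    have hker : RingHom.ker (algebraMap (𝓞 F) Zb) ≤ P := by
      intro x hx
      rw [RingHom.mem_ker] at hx
      have : x = 0 := hιinj (by rw [map_zero]; exact hx)
      rw [this]
      exact P.zero_mem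
    haveI := hP
    exact Ideal.exists_ideal_over_prime_of_isIntegral_of_isDomain P hker
  haveI := hQ
  have hℓQ : (ℓ : Zb) ∈ Q := by
    have h1 : ι ((ℓ : ℕ) : 𝓞 F) = ((ℓ : ℕ) : Zb) := map_natCast ι ℓ
    rw [← h1, ← Ideal.mem_comap, hQP]
    exact hℓP
  have h1Q : (1 : Zb) ∉ Q := (Ideal.ne_top_iff_one Q).mp hQ.ne_top
  set A : ValuationSubring Qb := Lib.FA_valSubring Q ℓ hℓ.ne_zero hℓQ with hAdef
  have hA : A.LiesOverPrime ℓ := by
    refine Lib.FA_mem_nonunits_valSubring (ℓ : Zb) 1 hℓQ h1Q ?_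
    simp
  have hQle : ∀ b ∈ Q, b ∈ S13.FA_S13_d_primeOf A := by
    intro b hb
    rw [S13.FA_S13_d_mem_primeOf]
    refine Lib.FA_mem_nonunits_valSubring b 1 hb h1Q ?_
    simp
  obtain ⟨g', hg'E, hg'⟩ := FA_S14_glue_lift h g
  have hnorm : F.fixingSubgroup.Normal := (InfiniteGalois.normal_iff_isGalois F).mpr ‹IsGalois ℚ F›
  have hcl : IsClosed (F.fixingSubgroup : Set Γ) := InfiniteGalois.fixingSubgroup_isClosed F
  obtain ⟨h0, hh0, hσ⟩ :=
    S13.FA_S13_d_lift F.fixingSubgroup hnorm hcl A ℓ hℓ.ne_zero hA g' (by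
      intro b hb
      have hbF : (b : Qb) ∈ F := by
        rw [← InfiniteGalois.fixedField_fixingSubgroup F, IntermediateField.mem_fixedField_iff]
        intro f hf
        exact congrArg Subtype.val (hb f hf)
      have hbint : IsIntegral ℤ (⟨(b : Qb), hbF⟩ : F) := by
        have h1 : IsIntegral ℤ (algebraMap F Qb ⟨(b : Qb), hbF⟩) := b.2
        exact (isIntegral_algebraMap_iff (algebraMap F Qb).injective).mp h1
      obtain ⟨y, hy⟩ : ∃ y : 𝓞 F, ((y : F) : Qb) = (b : Qb) := ⟨⟨⟨(b : Qb), hbF⟩, hbint⟩, rfl⟩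
      have h1 := hg y
      rw [← hQP, Ideal.mem_comap] at h1
      have h2 : ι (g • y - y) = g' • b - b := by
        apply Subtype.ext
        change (((g • y - y : 𝓞 F) : F) : Qb) = g' • (b : Qb) - (b : Qb)
        rw [← hy]
        change _ = g' ((y : F) : Qb) - ((y : F) : Qb)
        rw [hg']
        rfl
      rw [h2] at h1
      exact hQle _ h1)
  have h1 := hram A ℓ hℓ hA _ hσ
    (E.fixingSubgroup.mul_mem (IntermediateField.fixingSubgroup_le h hh0) hg'E)
  have h2 : g' ∈ F.fixingSubgroup := by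
    have := F.fixingSubgroup.mul_mem (F.fixingSubgroup.inv_mem hh0) h1
    simpa using this
  ext x
  rw [← hg', AlgEquiv.one_apply]
  exact (IntermediateField.mem_fixingSubgroup_iff F g').mp h2 x x.2

/-- Powers of lifts. -/
lemma FA_S14_glue_lift_pow (h : E ≤ F) :
    letI := FA_S14_glue_alg h
    ∀ (g : F ≃ₐ[E] F) (g' : Γ), (∀ x : F, g' (x : Qb) = ((g x : F) : Qb)) →
      ∀ (a : ℕ) (x : F), (g' ^ a) (x : Qb) = (((g ^ a) x : F) : Qb) := by
  letI := FA_S14_glue_alg h
  intro g g' hg' a x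
  induction a generalizing x with
  | zero => simp
  | succ n ih =>
    rw [pow_succ, pow_succ, AlgEquiv.mul_apply, AlgEquiv.mul_apply, hg', ih]

end tower

/-- **GLUE, field part**: an open normal subgroup `H` of index `p` in the kernel of the mod `p`
cyclotomic character `χ`, on which `Gal(ℚ̄/ℚ)` acts by conjugation through `χ⁻¹` modulo `H`, and
such that every inertia element in `ker χ` lies in `H`, contradicts the core theorem. -/
theorem FA_S14_glue_field (hcore : FA_S14_Target_Core) {p : ℕ} [Fact p.Prime] (h3 : 3 ≤ p)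
    (H : Subgroup Γ) (hn : H.Normal) (hH : IsOpen (H : Set Γ))
    (hHle : H ≤ (ExtCitation.cycloChar p).ker)
    (hidx : H.relIndex (ExtCitation.cycloChar p).ker = p)
    (hconj : ∀ (τ g : Γ) (a : ℕ), ExtCitation.cycloChar p g = 1 →
      (a : ZMod p) = ((ExtCitation.cycloChar p τ : (ZMod p)ˣ) : ZMod p) →
      g⁻¹ * (τ * g ^ a * τ⁻¹) ∈ H)
    (hram : ∀ (A : ValuationSubring Qb) (q : ℕ), q.Prime → A.LiesOverPrime q →
      ∀ σ ∈ A.inertiaSubgroupIn ℚ, ExtCitation.cycloChar p σ = 1 → σ ∈ H) : False := by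
  have hp : p.Prime := Fact.out
  obtain ⟨ζ, hζ⟩ := FA_S14_glue_exists_zeta p
  have hclosed : IsClosed (H : Set Γ) := Subgroup.isClosed_of_isOpen H hH
  obtain ⟨E, hE⟩ : ∃ E : IntermediateField ℚ Qb, E = IntermediateField.adjoin ℚ {ζ} := ⟨_, rfl⟩
  obtain ⟨F, hF⟩ : ∃ F : IntermediateField ℚ Qb, F = IntermediateField.fixedField H := ⟨_, rfl⟩
  have hEfix : E.fixingSubgroup = (ExtCitation.cycloChar p).ker := by
    rw [hE]
    exact FA_S14_glue_cyc_fixing hζ
  have hFfix : F.fixingSubgroup = H := by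
    rw [hF]
    exact InfiniteGalois.fixingSubgroup_fixedField ⟨H, hclosed⟩
  have hEF : E ≤ F := by
    intro x hx
    rw [hF, IntermediateField.mem_fixedField_iff]
    intro f hf
    have hf' : f ∈ E.fixingSubgroup := by
      rw [hEfix]
      exact hHle hf
    exact (IntermediateField.mem_fixingSubgroup_iff E f).mp hf' x hx
  haveI : IsCyclotomicExtension {p} ℚ E := hE ▸ FA_S14_glue_cyc_isCyclotomic hζ
  haveI : FiniteDimensional ℚ E := IsCyclotomicExtension.finiteDimensional {p} ℚ E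
  haveI : NumberField E := NumberField.of_module_finite ℚ E
  haveI : FiniteDimensional ℚ F := by
    apply (InfiniteGalois.isOpen_iff_finite F).mp
    rw [hFfix]
    exact hH
  haveI : NumberField F := NumberField.of_module_finite ℚ F
  haveI : IsGalois ℚ F := hF ▸ IsGalois.of_fixedField_normal_subgroup H
  letI := FA_S14_glue_alg hEF
  haveI := FA_S14_glue_isGalois hEF
  refine FA_S14_glue_core' hcore p hp h3 E F ?_ ?_ ?_
  · rw [FA_S14_glue_finrank hEF, hEfix, hFfix, hidx]
  · apply FA_S14_glue_unram hEF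
    intro A q hq hA σ hσ hσE
    rw [hFfix]
    rw [hEfix] at hσE
    exact hram A q hq hA σ hσ (MonoidHom.mem_ker.mp hσE)
  · intro τ g ζ' a hζ' hτ x
    obtain ⟨τ', hτ'⟩ := FA_S14_glue_lift_rat τ
    obtain ⟨g', hg'E, hg'⟩ := FA_S14_glue_lift hEF g
    have hζQ : IsPrimitiveRoot ((ζ' : E) : Qb) p :=
      hζ'.map_of_injective (f := algebraMap E Qb) (algebraMap E Qb).injective
    have hτζ : τ' ((ζ' : E) : Qb) = ((ζ' : E) : Qb) ^ a := by
      have h1 := congrArg (fun z : F => (z : Qb)) hτ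
      have h2 := hτ' (algebraMap E F ζ')
      change τ' ((ζ' : E) : Qb) = _ at h2
      rw [h2]
      exact h1
    have ha := FA_S14_glue_cyc_eq τ' hζQ a hτζ
    have hgker : ExtCitation.cycloChar p g' = 1 := by
      rw [hEfix] at hg'E
      exact MonoidHom.mem_ker.mp hg'E
    have hmem := hconj τ' g' a hgker ha
    rw [← hFfix, IntermediateField.mem_fixingSubgroup_iff] at hmem
    have h1 := hmem x x.2
    -- `h1 : (g'⁻¹ * (τ' * g' ^ a * τ'⁻¹)) x = x`
    have h2 : (τ' * g' ^ a * τ'⁻¹) (x : Qb) = g' (x : Qb) := by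
      have := congrArg (fun y => g' y) h1
      simpa [AlgEquiv.mul_apply] using this
    have h3 : τ'⁻¹ (x : Qb) = ((τ.symm x : F) : Qb) := by
      have := hτ' (τ.symm x)
      rw [AlgEquiv.apply_symm_apply] at this
      rw [← this]
      simp [AlgEquiv.aut_inv]
    apply Subtype.ext
    rw [← hτ', ← FA_S14_glue_lift_pow hEF g g' hg' a, ← h3, ← hg', ← h2]
    rfl

end Fermat.Agent.S14
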