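import Mathlib
import Fermat.Prelude.Def_ExtCitation_AdmissibleExtension_v2
import Fermat.Agent.S14.GlueAlg2
import Fermat.Agent.S14.GlueField

/-!
# S14 leaf GLUE: `FA_S14_Target_Core → ExtVanishingCts p` (helper9)

Let `V ⊃ C` be an admissible extension.  If the kernel of the mod `p` cyclotomic character acts
trivially on `V`, then `C` has a stable complement (Maschke-type argument, `FA_S14_glue_split`).
Otherwise the fixed field `L` of the kernel of the action is a cyclic extension of degree `p` of
`K = ℚ(ζ_p)`, Galois over `ℚ`, unramified at all finite primes, with `Gal(K/ℚ)` acting on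
`Gal(L/K)` through `ω⁻¹`: this contradicts the core theorem.
-/

set_option autoImplicit false

namespace Fermat.Agent.S14

local notation "Qb" => AlgebraicClosure ℚ
local notation "Γ" => (AlgebraicClosure ℚ ≃ₐ[ℚ] AlgebraicClosure ℚ)

/-- **Leaf GLUE.** -/
theorem FA_S14_glue (hcore : FA_S14_Target_Core) {p : ℕ} [Fact p.Prime] (h3 : 3 ≤ p) :
    ExtCitation.ExtVanishingCts p := by
  intro V _ _ _ _ C hadm
  have hExt : FA_S14_glue_Ext (ExtCitation.cycloChar p) C :=
    ⟨hadm.fixed_sub, fun σ x => by
      rw [ExtCitation.coe_cycloChar]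
      exact hadm.cyclo_quot σ x, hadm.card_sub, hadm.card_total⟩
  by_cases htriv : ∀ g : Γ, ExtCitation.cycloChar p g = 1 → ∀ x : V, g • x = x
  · exact FA_S14_glue_split hExt htriv
  · exfalso
    obtain ⟨g₀, hg₀'⟩ := not_forall.mp htriv
    obtain ⟨hg₀, hg₀''⟩ := Classical.not_imp.mp hg₀'
    obtain ⟨x₀, hx₀⟩ := not_forall.mp hg₀''
    refine FA_S14_glue_field hcore h3 (FA_S14_glue_H0 Γ V) inferInstance hadm.open_kernel
      (FA_S14_glue_H0_le_ker hExt) (FA_S14_glue_relIndex hExt ⟨g₀, hg₀, x₀, hx₀⟩) ?_ ?_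
    · intro τ g a hg ha
      rw [FA_S14_glue_mem_H0]
      intro v
      rw [mul_smul, FA_S14_glue_conj_pow hExt hg τ a ha v, inv_smul_smul]
    · intro A q hq hA σ hσ hχ
      rw [FA_S14_glue_mem_H0]
      by_cases hqp : q = p
      · subst hqp
        obtain ⟨C', hC', hcompl⟩ := hadm.locally_split A hA
        have hσD : σ ∈ A.decompositionSubgroup ℚ := by
          obtain ⟨s, -, rfl⟩ := Subgroup.mem_map.mp hσ
          exact s.2
        exact FA_S14_glue_local hExt hcompl hχ (hC' σ hσD)
      · exact hadm.unramified_outside q hq hqp A hA σ hσ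

end Fermat.Agent.S14
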