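import Mathlib
import Fermat.Agent.R.H92Abs
import Fermat.Agent.R.H92Alg

/-!
# S14, leaf HERB (abstract part): the Herbrand quotient inequality

`E` a finitely generated abelian group, `s` an endomorphism with `s ^ p = 1` (`p` prime),
`D = 1 - s`, `N = ∑_{i<p} s^i`.  If `rk E + 1 = p (rk E^s + 1)` and `|E[p]| ≤ p` then
`[ker N : D E]` and `[ker D : N E]` are finite and `p * [ker D : N E] ≤ [ker N : D E]`.
(For unit groups, equality holds, but only `≥` is needed.)
-/

set_option autoImplicit false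

open Module Polynomial

namespace Fermat.Agent.S14

open Fermat.Agent.R

variable {E : Type*} [AddCommGroup E]

/-- The relative index of a subgroup `H ≤ K` with `p • K ≤ H` is a power of `p`. -/
theorem FA_S14_herb_relIndex_pow (p : ℕ) (hp : p.Prime) (H K : AddSubgroup E)
    (hpK : ∀ x ∈ K, p • x ∈ H) (hfin : H.relIndex K ≠ 0) :
    ∃ e : ℕ, H.relIndex K = p ^ e := by
  have : Fact p.Prime := ⟨hp⟩
  set H' : AddSubgroup K := H.addSubgroupOf K with hH'
  have hidx : H.relIndex K = Nat.card (K ⧸ H') := by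
    rw [AddSubgroup.relIndex, AddSubgroup.index_eq_card]
  have hfinQ : Finite (K ⧸ H') := by
    apply Nat.finite_of_card_ne_zero
    rw [← hidx]; exact hfin
  have hkill : ∀ x : K ⧸ H', p • x = 0 := by
    intro x
    induction x using QuotientAddGroup.induction_on with
    | H y =>
      rw [← QuotientAddGroup.mk_nsmul, QuotientAddGroup.eq_zero_iff]
      rw [hH', AddSubgroup.mem_addSubgroupOf]
      simpa using hpK y.1 y.2
  let inst : Module (ZMod p) (K ⧸ H') := AddCommGroup.zmodModule hkill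
  have hMF : Module.Finite (ZMod p) (K ⧸ H') := Module.Finite.of_finite
  refine ⟨Module.finrank (ZMod p) (K ⧸ H'), ?_⟩
  have h := @Module.natCard_eq_pow_finrank (ZMod p) (K ⧸ H') _ _ inst hMF
  rw [hidx, h, Nat.card_zmod]

theorem FA_S14_herb_arith (p r₀ m e h₀ h₁ c₀ cM : ℕ) (hp : 2 ≤ p)
    (hm : m + r₀ + 1 = p * (r₀ + 1))
    (hd : p ^ m * cM ≤ (p ^ e) ^ (p - 1))
    (heq : h₁ * (p ^ r₀ * c₀) = p ^ e * h₀)
    (hc0 : c₀ ≤ cM) (hc0p : c₀ ≤ p) (hc01 : 1 ≤ c₀) :
    p * h₀ ≤ h₁ := by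
  obtain ⟨k, rfl⟩ : ∃ k, p = k + 2 := ⟨p - 2, by omega⟩
  have hk : k + 2 - 1 = k + 1 := by omega
  rw [hk] at hd
  have hm' : m = (k + 1) * (r₀ + 1) := by
    have : (k + 2) * (r₀ + 1) = (k + 1) * (r₀ + 1) + r₀ + 1 := by ring
    omega
  have hp1 : 1 < k + 2 := by omega
  have hppos : 0 < k + 2 := by omega
  rw [← pow_mul] at hd
  -- e ≥ r₀ + 1, and e ≥ r₀ + 2 if cM > 1
  have he1 : r₀ + 1 ≤ e := by
    by_contra hcon
    push Not at hcon
    have h1 : e * (k + 1) < m := by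
      rw [hm']
      have : e * (k + 1) < (r₀ + 1) * (k + 1) := Nat.mul_lt_mul_of_pos_right hcon (by omega)
      linarith [mul_comm (k + 1) (r₀ + 1)]
    have h2 : (k + 2) ^ (e * (k + 1)) < (k + 2) ^ m := Nat.pow_lt_pow_right hp1 h1
    have h3 : (k + 2) ^ m ≤ (k + 2) ^ m * cM :=
      Nat.le_mul_of_pos_right _ (lt_of_lt_of_le hc01 hc0)
    omega
  rcases Nat.eq_or_lt_of_le hc01 with hc | hc
  · -- c₀ = 1
    rw [← hc, mul_one] at heq
    have h4 : (k + 2) ^ e = (k + 2) ^ r₀ * (k + 2) ^ (e - r₀) := by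
      rw [← pow_add]; congr 1; omega
    have h5 : (k + 2) ^ 1 ≤ (k + 2) ^ (e - r₀) := Nat.pow_le_pow_right hppos (by omega)
    rw [pow_one] at h5
    have h6 : h₁ * (k + 2) ^ r₀ = (k + 2) ^ r₀ * ((k + 2) ^ (e - r₀) * h₀) := by
      rw [heq, h4]; ring
    have h7 : h₁ = (k + 2) ^ (e - r₀) * h₀ := by
      have hpos : 0 < (k + 2) ^ r₀ := by positivity
      apply Nat.eq_of_mul_eq_mul_left hpos
      rw [← h6]; ring
    rw [h7]
    exact Nat.mul_le_mul_right _ h5
  · -- c₀ > 1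
    have hcM : 1 < cM := lt_of_lt_of_le hc hc0
    have he2 : r₀ + 2 ≤ e := by
      by_contra hcon
      push Not at hcon
      have hee : e = r₀ + 1 := by omega
      have h1 : e * (k + 1) = m := by
        rw [hm', hee]; ring
      rw [h1] at hd
      have hpos : 0 < (k + 2) ^ m := by positivity
      have : (k + 2) ^ m * 1 < (k + 2) ^ m * cM := Nat.mul_lt_mul_of_pos_left hcM hpos
      omega
    have h4 : (k + 2) ^ e = (k + 2) ^ r₀ * ((k + 2) * ((k + 2) * (k + 2) ^ (e - r₀ - 2))) := by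
      have : e = r₀ + (1 + (1 + (e - r₀ - 2))) := by omega
      conv_lhs => rw [this]
      rw [pow_add, pow_add, pow_add, pow_one]
    have hpos : 0 < (k + 2) ^ r₀ := by positivity
    have h6 : (k + 2) ^ r₀ * (h₁ * c₀) =
        (k + 2) ^ r₀ * ((k + 2) * ((k + 2) * (k + 2) ^ (e - r₀ - 2)) * h₀) := by
      have : (k + 2) ^ r₀ * (h₁ * c₀) = h₁ * ((k + 2) ^ r₀ * c₀) := by ring
      rw [this, heq, h4]; ring
    have h7 : h₁ * c₀ = (k + 2) * ((k + 2) * (k + 2) ^ (e - r₀ - 2)) * h₀ :=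
      Nat.eq_of_mul_eq_mul_left hpos h6
    have h8 : 1 ≤ (k + 2) ^ (e - r₀ - 2) := Nat.one_le_pow _ _ hppos
    have h9 : (k + 2) * ((k + 2) * h₀) ≤ h₁ * c₀ := by
      rw [h7]
      have : (k + 2) * ((k + 2) * (k + 2) ^ (e - r₀ - 2)) * h₀
          = ((k + 2) * ((k + 2) * h₀)) * (k + 2) ^ (e - r₀ - 2) := by ring
      rw [this]
      exact Nat.le_mul_of_pos_right _ h8
    have h10 : h₁ * c₀ ≤ h₁ * (k + 2) := Nat.mul_le_mul_left _ hc0p
    have h11 : (k + 2) * ((k + 2) * h₀) ≤ (k + 2) * h₁ := by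
      calc (k + 2) * ((k + 2) * h₀) ≤ h₁ * c₀ := h9
        _ ≤ h₁ * (k + 2) := h10
        _ = (k + 2) * h₁ := by ring
    exact Nat.le_of_mul_le_mul_left h11 hppos

/-- **Herbrand quotient inequality** (abstract form). -/
theorem FA_S14_herb_abstract [Module.Finite ℤ E] (p : ℕ) (hp : p.Prime)
    (s : Module.End ℤ E) (hs : s ^ p = 1)
    (hrank : finrank ℤ E + 1 = p * (finrank ℤ (LinearMap.ker (1 - s)) + 1))
    (hcard : Nat.card (nsmulAddMonoidHom p : E →+ E).ker ≤ p) :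
    ((1 - s : Module.End ℤ E).toAddMonoidHom.range).relIndex
        ((∑ i ∈ Finset.range p, s ^ i : Module.End ℤ E).toAddMonoidHom.ker) ≠ 0 ∧
    ((∑ i ∈ Finset.range p, s ^ i : Module.End ℤ E).toAddMonoidHom.range).relIndex
        ((1 - s : Module.End ℤ E).toAddMonoidHom.ker) ≠ 0 ∧
    p * ((∑ i ∈ Finset.range p, s ^ i : Module.End ℤ E).toAddMonoidHom.range).relIndex
        ((1 - s : Module.End ℤ E).toAddMonoidHom.ker) ≤
      ((1 - s : Module.End ℤ E).toAddMonoidHom.range).relIndex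
        ((∑ i ∈ Finset.range p, s ^ i : Module.End ℤ E).toAddMonoidHom.ker) := by
  obtain ⟨Q₁, Q₂, hc1, hc2, hND, hpQ, hDQ⟩ := FA_R_end_identities p hp s hs
  set D : Module.End ℤ E := 1 - s with hD
  set Nm : Module.End ℤ E := ∑ i ∈ Finset.range p, s ^ i with hNm
  -- commutation facts
  have hsN : Commute s Nm := by
    rw [hNm]; exact Commute.sum_right _ _ _ (fun i _ => (Commute.refl s).pow_right i)
  have hDNc : Commute D Nm := by
    rw [hD]; exact (Commute.one_left Nm).sub_left hsN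
  have hDN : D * Nm = 0 := by rw [hDNc.eq]; exact hND
  have hQ1N : Commute Q₁ Nm := by
    rw [hNm]; exact Commute.sum_right _ _ _ (fun i _ => hc1.pow_right i)
  have hQ2N : Commute Q₂ Nm := by
    rw [hNm]; exact Commute.sum_right _ _ _ (fun i _ => hc2.pow_right i)
  -- pointwise facts
  have hND' : ∀ x, Nm (D x) = 0 := fun x => by
    have := congrArg (fun f : Module.End ℤ E => f x) hND; simpa using this
  have hDN' : ∀ x, D (Nm x) = 0 := fun x => by
    have := congrArg (fun f : Module.End ℤ E => f x) hDN; simpa using this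
  have hfix : ∀ x, D x = 0 → ∀ i : ℕ, (s ^ i) x = x := by
    intro x hx i
    have hsx : s x = x := by
      have : x - s x = 0 := by simpa [hD] using hx
      exact (sub_eq_zero.mp this).symm
    induction i with
    | zero => simp
    | succ i ih => rw [pow_succ, Module.End.mul_apply, hsx, ih]
  have hN0 : ∀ x, D x = 0 → Nm x = p • x := by
    intro x hx
    rw [hNm, LinearMap.sum_apply]
    simp [hfix x hx]
  -- the groups
  set Dg : E →+ E := D.toAddMonoidHom with hDg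
  set Ng : E →+ E := Nm.toAddMonoidHom with hNg
  let P : E →+ E := nsmulAddMonoidHom p
  set M : AddSubgroup E := Ng.ker with hMdef
  set E₀ : AddSubgroup E := Dg.ker with hE₀def
  have hMmem : ∀ x, x ∈ M ↔ Nm x = 0 := fun x => Iff.rfl
  have hE₀mem : ∀ x, x ∈ E₀ ↔ D x = 0 := fun x => Iff.rfl
  have hPapp : ∀ x, P x = p • x := fun x => rfl
  have : Module.Finite ℤ ↥M := FA_R_finite_addSubgroup_ker Nm
  have : Module.Finite ℤ ↥E₀ := FA_R_finite_addSubgroup_ker D
  have : Finite ↥P.ker := FA_R_finite_ker_nsmul p hp.ne_zero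
  -- ranks
  have hrk := FA_R_finrank_ker_add E p hp.ne_zero Nm D hDN' hN0
  have hrM : finrank ℤ ↥M = finrank ℤ ↥(LinearMap.ker Nm) := FA_R_finrank_addSubgroup_ker Nm
  have hrE₀ : finrank ℤ ↥E₀ = finrank ℤ ↥(LinearMap.ker D) := FA_R_finrank_addSubgroup_ker D
  -- indices via Lemma B
  have ha := FA_R_relIndex_nsmul M p hp.ne_zero
  have hb := FA_R_relIndex_nsmul E₀ p hp.ne_zero
  -- cardinalities of p-torsion
  have hc0M : E₀ ⊓ P.ker ≤ M ⊓ P.ker := by
    intro x hx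
    refine ⟨(hMmem x).mpr ?_, hx.2⟩
    rw [hN0 x hx.1]
    exact hx.2
  have hfinM : Finite ↥(M ⊓ P.ker) :=
    Finite.of_injective (fun x : ↥(M ⊓ P.ker) => (⟨x.1, x.2.2⟩ : ↥P.ker))
      (fun x y h => Subtype.ext (congrArg (fun z : ↥P.ker => (z : E)) h))
  have hfinE₀ : Finite ↥(E₀ ⊓ P.ker) :=
    Finite.of_injective (fun x : ↥(E₀ ⊓ P.ker) => (⟨x.1, x.2.2⟩ : ↥P.ker))
      (fun x y h => Subtype.ext (congrArg (fun z : ↥P.ker => (z : E)) h))
  have hcard0M : Nat.card ↥(E₀ ⊓ P.ker) ≤ Nat.card ↥(M ⊓ P.ker) :=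
    AddSubgroup.card_le_of_le hc0M
  have hcard0 : Nat.card ↥(E₀ ⊓ P.ker) ≤ p :=
    (AddSubgroup.card_le_of_le inf_le_right).trans hcard
  have hcard01 : 1 ≤ Nat.card ↥(E₀ ⊓ P.ker) := Nat.card_pos
  have hcardM1 : 1 ≤ Nat.card ↥(M ⊓ P.ker) := Nat.card_pos
  -- inclusions
  have hDM : M.map Dg ≤ M := by
    rintro _ ⟨x, -, rfl⟩
    exact hND' x
  have hPD : M.map P ≤ M.map Dg := by
    rintro _ ⟨x, hx, rfl⟩
    refine ⟨Q₁ x, (hMmem _).mpr ?_, ?_⟩
    · have := congrArg (fun f : Module.End ℤ E => f x) hQ1N.eq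
      simp only [Module.End.mul_apply] at this
      rw [← this, (hMmem x).mp hx, map_zero]
    · have := congrArg (fun f : Module.End ℤ E => f x) hpQ
      simp only [LinearMap.add_apply, Module.End.mul_apply] at this
      rw [(hMmem x).mp hx, zero_add] at this
      show D (Q₁ x) = p • x
      rw [← this]
      simp
  let F : ℕ → (E →+ E) := fun k => (D ^ k).toAddMonoidHom
  have hF0 : F 0 = AddMonoidHom.id E := by
    ext x; simp [F]
  have hFs : ∀ k, F (k + 1) = (F k).comp Dg := by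
    intro k; ext x; simp [F, Dg, pow_succ]
  have hFP : M.map (F (p - 1)) ≤ M.map P := by
    rintro _ ⟨x, hx, rfl⟩
    refine ⟨Q₂ x, (hMmem _).mpr ?_, ?_⟩
    · have := congrArg (fun f : Module.End ℤ E => f x) hQ2N.eq
      simp only [Module.End.mul_apply] at this
      rw [← this, (hMmem x).mp hx, map_zero]
    · have := congrArg (fun f : Module.End ℤ E => f x) hDQ
      simp only [LinearMap.add_apply, Module.End.mul_apply] at this
      rw [(hMmem x).mp hx, zero_add] at this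
      rw [hPapp]
      show p • Q₂ x = (D ^ (p - 1)) x
      rw [this]
      simp
  obtain ⟨hFle, hFdvd⟩ := FA_R_relIndex_map_pow Dg M hDM F hF0 hFs (p - 1)
  -- a ≠ 0
  have ha0 : (M.map P).relIndex M ≠ 0 := by
    rw [ha]
    exact Nat.mul_ne_zero (pow_ne_zero _ hp.ne_zero) (Nat.one_le_iff_ne_zero.mp hcardM1)
  have hb0 : (E₀.map P).relIndex E₀ ≠ 0 := by
    rw [hb]
    exact Nat.mul_ne_zero (pow_ne_zero _ hp.ne_zero) (Nat.one_le_iff_ne_zero.mp hcard01)
  have hda : (M.map Dg).relIndex M ∣ (M.map P).relIndex M :=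
    AddSubgroup.relIndex_dvd_of_le_left M hPD
  have hd0 : (M.map Dg).relIndex M ≠ 0 := fun h => ha0 (by rw [h] at hda; exact zero_dvd_iff.mp hda)
  have hae : (M.map P).relIndex M ∣ (M.map (F (p - 1))).relIndex M :=
    AddSubgroup.relIndex_dvd_of_le_left M hFP
  have h1 : (M.map P).relIndex M ≤ ((M.map Dg).relIndex M) ^ (p - 1) :=
    Nat.le_of_dvd (Nat.pos_of_ne_zero (pow_ne_zero _ hd0)) (hae.trans hFdvd)
  -- d is a power of p
  obtain ⟨e, he⟩ := FA_S14_herb_relIndex_pow p hp (M.map Dg) M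
    (fun x hx => hPD ⟨x, hx, rfl⟩) hd0
  -- the two chains
  have hDrange : Dg.range ≤ M := by
    rintro _ ⟨x, rfl⟩
    exact hND' x
  have hNrange : Ng.range ≤ E₀ := by
    rintro _ ⟨x, rfl⟩
    exact hDN' x
  have hMDle : M.map Dg ≤ Dg.range := by
    rintro _ ⟨x, -, rfl⟩
    exact ⟨x, rfl⟩
  have hd_eq : (M.map Dg).relIndex Dg.range = (M ⊔ E₀).index := by
    have h := AddSubgroup.relIndex_map_map Dg M ⊤
    rw [← AddMonoidHom.range_eq_map, top_sup_eq, AddSubgroup.relIndex_top_right] at h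
    exact h
  have hNgE₀ : AddSubgroup.map Ng (M ⊔ E₀) = AddSubgroup.map P E₀ := by
    rw [AddSubgroup.map_sup, (AddSubgroup.map_eq_bot_iff M).mpr le_rfl, bot_sup_eq]
    ext y
    constructor
    · rintro ⟨x, hx, rfl⟩
      exact ⟨x, hx, (hN0 x hx).symm⟩
    · rintro ⟨x, hx, rfl⟩
      exact ⟨x, hx, hN0 x hx⟩
  have hd_eq2 : (AddSubgroup.map P E₀).relIndex Ng.range = (M ⊔ E₀).index := by
    have h := AddSubgroup.relIndex_map_map Ng (M ⊔ E₀) ⊤
    rw [hNgE₀, ← AddMonoidHom.range_eq_map, top_sup_eq, AddSubgroup.relIndex_top_right] at h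
    rw [h]
    congr 1
    exact sup_eq_left.mpr le_sup_left
  have hPE₀le : AddSubgroup.map P E₀ ≤ Ng.range := by
    rintro _ ⟨x, hx, rfl⟩
    exact ⟨x, hN0 x hx⟩
  have hchain1 : (M.map Dg).relIndex M = (M ⊔ E₀).index * Dg.range.relIndex M := by
    rw [← hd_eq]
    exact (AddSubgroup.relIndex_mul_relIndex _ _ _ hMDle hDrange).symm
  have hchain2 : (E₀.map P).relIndex E₀ = (M ⊔ E₀).index * Ng.range.relIndex E₀ := by
    rw [← hd_eq2]
    exact (AddSubgroup.relIndex_mul_relIndex _ _ _ hPE₀le hNrange).symm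
  have hI0 : (M ⊔ E₀).index ≠ 0 := fun h => hd0 (by rw [hchain1, h, zero_mul])
  have hh1 : Dg.range.relIndex M ≠ 0 := fun h => hd0 (by rw [hchain1, h, mul_zero])
  have hh0 : Ng.range.relIndex E₀ ≠ 0 := fun h => hb0 (by rw [hchain2, h, mul_zero])
  refine ⟨hh1, hh0, ?_⟩
  -- the arithmetic
  have heq : Dg.range.relIndex M * (p ^ finrank ℤ ↥E₀ * Nat.card ↥(E₀ ⊓ P.ker))
      = p ^ e * Ng.range.relIndex E₀ := by
    rw [← hb, ← he, hchain1, hchain2]; ring
  refine FA_S14_herb_arith p (finrank ℤ ↥E₀) (finrank ℤ ↥M) e _ _ _ _ hp.two_le ?_ ?_ heq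
    hcard0M hcard0 hcard01
  · rw [hrM, hrE₀]
    omega
  · rw [← he, ← ha]
    exact h1

end Fermat.Agent.S14
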