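import Mathlib
import Fermat.Agent.S14.Interface2
import Fermat.Agent.S14.HerbAbs

/-!
# S14, leaf HERB: `FA_S14_herbAbs : FA_S14_Target_HerbAbs`
-/

set_option autoImplicit false

open Module

namespace Fermat.Agent.S14

theorem FA_S14_herbAbs : FA_S14_Target_HerbAbs := by
  intro E _ _ p hp s hs hrank hcard
  have hcard' : Nat.card (nsmulAddMonoidHom p : E →+ E).ker ≤ p := by
    refine le_trans (le_of_eq ?_) hcard
    refine Nat.card_congr ⟨fun x => ⟨x.1, ?_⟩, fun y => ⟨y.1, ?_⟩, fun _ => rfl, fun _ => rfl⟩
    · have := x.2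
      rw [AddMonoidHom.mem_ker, nsmulAddMonoidHom_apply] at this
      rw [LinearMap.mem_ker]
      simpa using this
    · have := y.2
      rw [LinearMap.mem_ker] at this
      rw [AddMonoidHom.mem_ker, nsmulAddMonoidHom_apply]
      simpa using this
  exact FA_S14_herb_abstract p hp s hs hrank hcard'

end Fermat.Agent.S14
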