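import Mathlib
import Fermat.Agent.S14.HerbTarget
import Fermat.Agent.R.H92Units
import Fermat.Agent.R.H92Rank
import Fermat.Agent.R.H92Fixed

/-!
# S14, leaf HERB for the unit group of a cyclic extension of odd prime degree

`M/F` Galois of odd prime degree `p`, `σ` a generator, `s = FA_R_unitEnd σ` the action of `σ` on
`Additive (𝓞 M)ˣ`, `N = ∑_{i<p} s^i`.  Then `p · [ker (1 - s) : range N] ≤ [ker N : range (1 - s)]`
(both indices finite): `|H¹(G, E_M)| ≥ p · |Ĥ⁰(G, E_M)|`.

`ker (1 - s)` is the image of the units of `F` (`FA_R_unitIncl_range`).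
-/

set_option autoImplicit false

open NumberField Module

namespace Fermat.Agent.S14

open Fermat.Agent.R

variable {F M : Type} [Field F] [Field M] [NumberField F] [NumberField M] [Algebra F M]
  [IsGalois F M]

theorem FA_S14_herb_units (p : ℕ) (hp : p.Prime) (hp2 : p ≠ 2) (hdeg : Module.finrank F M = p)
    (σ : M ≃ₐ[F] M) (hσ : ∀ x, x ∈ Subgroup.zpowers σ) :
    (LinearMap.range (1 - FA_R_unitEnd σ)).toAddSubgroup.relIndex
        (LinearMap.ker (∑ i ∈ Finset.range p, (FA_R_unitEnd σ) ^ i)).toAddSubgroup ≠ 0 ∧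
    (LinearMap.range (∑ i ∈ Finset.range p, (FA_R_unitEnd σ) ^ i)).toAddSubgroup.relIndex
        (LinearMap.ker (1 - FA_R_unitEnd σ)).toAddSubgroup ≠ 0 ∧
    p * (LinearMap.range (∑ i ∈ Finset.range p, (FA_R_unitEnd σ) ^ i)).toAddSubgroup.relIndex
        (LinearMap.ker (1 - FA_R_unitEnd σ)).toAddSubgroup
      ≤ (LinearMap.range (1 - FA_R_unitEnd σ)).toAddSubgroup.relIndex
        (LinearMap.ker (∑ i ∈ Finset.range p, (FA_R_unitEnd σ) ^ i)).toAddSubgroup := by
  classical
  have hodd : Odd p := hp.odd_of_ne_two hp2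
  have hfd : FiniteDimensional F M := Module.finite_of_finrank_pos (by rw [hdeg]; exact hp.pos)
  have hord : orderOf σ = p := by
    rw [orderOf_eq_card_of_forall_mem_zpowers hσ, IsGalois.card_aut_eq_finrank, hdeg]
  have hσp : σ ^ p = 1 := by rw [← hord]; exact pow_orderOf_eq_one σ
  have hs : (FA_R_unitEnd σ) ^ p = 1 := by rw [← FA_R_unitEnd_pow, hσp, FA_R_unitEnd_one]
  have hrank : finrank ℤ (Additive (𝓞 M)ˣ) + 1
      = p * (finrank ℤ (LinearMap.ker (1 - FA_R_unitEnd σ)) + 1) := by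
    rw [Units.finrank_eq, FA_R_finrank_fixed_units σ hσ, FA_R_rank_relation p hodd hdeg]
  exact FA_S14_herb_abstract p hp (FA_R_unitEnd σ) hs hrank
    (FA_R_card_ker_nsmul_units p hp.ne_zero)

end Fermat.Agent.S14
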