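import Fermat.Agent.S14.Ineq1Cls
import Fermat.Agent.S14.HerbUnits

/-!
# S14, leaf INEQ1: the first inequality for an unramified cyclic extension of odd prime degree

`FA_S14_Ineq1 : FA_S14_Target_Ineq1`: the norm classes are not the whole class group.

Proof.  `A = Cl_M`, `B = Cl_F`, `s = σ` on `A`, `N : A → B` the norm, `j : B → A` extension.
If `N` is onto then `|B| ≤ |A^s|`.  The map `θ : A^s → E_F / N E_M` (if `σ𝔄 = α 𝔄`,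
`θ [𝔄] = N α`) has its fibres in cosets of `j B` (Hilbert 90 + invariant ideals are extended),
and `ψ : ker N_E → ker j` (`η = α / σ α`, `(α) = 𝔞 𝓞_M`, `ψ η = [𝔞]`) has its fibres in cosets of
`(1 - σ) E_M`.  With the Herbrand quotient of the units (`FA_S14_herb_units`, helper6):
`|A^s| ≤ |B| / p`.
-/

set_option autoImplicit false
set_option linter.unusedSectionVars false
set_option linter.style.haveILetI false

open NumberField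
open scoped Pointwise nonZeroDivisors

namespace Fermat.Agent.S14

open Fermat.Agent.R

variable {F M : Type} [Field F] [Field M] [NumberField F] [NumberField M]
  [Algebra F M] [IsGalois F M]

/-- The relation `θ`. -/
def FA_S14_ineq1_Theta (F : Type) {M : Type} [Field F] [Field M] [NumberField F] [NumberField M]
    [Algebra F M] [IsGalois F M] (σ : M ≃ₐ[F] M)
    (a : ClassGroup (𝓞 M)) (t : Additive (𝓞 M)ˣ) : Prop :=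
  ∃ (𝔄 : Ideal (𝓞 M)) (h𝔄 : 𝔄 ≠ ⊥) (x y : 𝓞 M), FA_S14_ineq1_cls 𝔄 h𝔄 = a ∧ x ≠ 0 ∧ y ≠ 0 ∧
    Ideal.span {x} * (σ • 𝔄) = Ideal.span {y} * 𝔄 ∧
    FA_S14_ineq1_NG F y = ((t.toMul : (𝓞 M)ˣ) : 𝓞 M) * FA_S14_ineq1_NG F x

/-- The relation `ψ`. -/
def FA_S14_ineq1_Psi (F : Type) {M : Type} [Field F] [Field M] [NumberField F] [NumberField M]
    [Algebra F M] [IsGalois F M] (σ : M ≃ₐ[F] M)
    (k : Additive (𝓞 M)ˣ) (b : ClassGroup (𝓞 F)) : Prop :=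
  ∃ (α : 𝓞 M) (𝔞 : Ideal (𝓞 F)) (h𝔞 : 𝔞 ≠ ⊥), α ≠ 0 ∧ FA_S14_ineq1_cls 𝔞 h𝔞 = b ∧
    𝔞.map (algebraMap (𝓞 F) (𝓞 M)) = Ideal.span {α} ∧
    α = (σ • α) * ((k.toMul : (𝓞 M)ˣ) : 𝓞 M)

theorem FA_S14_ineq1_smul_natCast (σ : M ≃ₐ[F] M) (n : ℕ) : σ • (n : 𝓞 M) = n :=
  map_natCast (MulSemiringAction.toRingHom _ (𝓞 M) σ) n

theorem FA_S14_ineq1_smul_algebraMap (σ : M ≃ₐ[F] M) (c : 𝓞 F) :
    σ • (algebraMap (𝓞 F) (𝓞 M) c) = algebraMap (𝓞 F) (𝓞 M) c := by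
  apply RingOfIntegers.ext
  show σ (algebraMap F M c) = _
  rw [AlgEquiv.commutes]
  rfl

theorem FA_S14_ineq1_smul_mul_ideal (σ : M ≃ₐ[F] M) (I J : Ideal (𝓞 M)) :
    σ • (I * J) = (σ • I) * (σ • J) := by
  rw [Ideal.pointwise_smul_def, Ideal.map_mul]
  rfl

/-- Existence part of `θ`. -/
theorem FA_S14_ineq1_theta_exists (σ : M ≃ₐ[F] M)
    (s : ClassGroup (𝓞 M) →* ClassGroup (𝓞 M))
    (hs : ∀ (I : Ideal (𝓞 M)) (hI : I ≠ ⊥),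
      s (FA_S14_ineq1_cls I hI) = FA_S14_ineq1_cls (σ • I) (FA_S14_ineq1_smul_ne_bot F σ hI))
    (a : ClassGroup (𝓞 M)) (ha : s a = a) :
    ∃ t ∈ (LinearMap.ker (1 - FA_R_unitEnd σ)).toAddSubgroup, FA_S14_ineq1_Theta F σ a t := by
  obtain ⟨𝔄, h𝔄, rfl⟩ := FA_S14_ineq1_cls_surjective a
  rw [hs, FA_S14_ineq1_cls_eq_iff] at ha
  obtain ⟨x, y, hx, hy, hxy⟩ := ha
  obtain ⟨t, ht1, ht2⟩ := FA_S14_ineq1_exists_unit F σ h𝔄 hx hxy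
  refine ⟨Additive.ofMul t, ?_, 𝔄, h𝔄, x, y, rfl, hx, hy, hxy, ?_⟩
  · show Additive.ofMul t ∈ LinearMap.ker (1 - FA_R_unitEnd σ)
    rw [FA_R_mem_ker_iff, toMul_ofMul]
    exact congrArg (fun z : 𝓞 M => (z : M)) ht2
  · rw [toMul_ofMul]
    exact ht1

/-- Fibre part of `θ`. -/
theorem FA_S14_ineq1_theta_fibre (hunr : FA_S14_Unramified F M) (p : ℕ) (σ : M ≃ₐ[F] M)
    (hσ : ∀ x, x ∈ Subgroup.zpowers σ) (hord : orderOf σ = p)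
    (j : ClassGroup (𝓞 F) →* ClassGroup (𝓞 M))
    (hj : ∀ (𝔞 : Ideal (𝓞 F)) (h : 𝔞 ≠ ⊥), j (FA_S14_ineq1_cls 𝔞 h)
        = FA_S14_ineq1_cls (𝔞.map (algebraMap (𝓞 F) (𝓞 M))) (FA_S14_ineq1_map_ne_bot h))
    (a a' : ClassGroup (𝓞 M)) (t t' : Additive (𝓞 M)ˣ)
    (hΘ : FA_S14_ineq1_Theta F σ a t) (hΘ' : FA_S14_ineq1_Theta F σ a' t')
    (hR : t - t' ∈ (LinearMap.range (∑ i ∈ Finset.range p, (FA_R_unitEnd σ) ^ i)).toAddSubgroup) :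
    ∃ b, a = a' * j b := by
  obtain ⟨𝔄, h𝔄, x, y, rfl, hx, hy, hxy, hN⟩ := hΘ
  obtain ⟨𝔄', h𝔄', x', y', rfl, hx', hy', hxy', hN'⟩ := hΘ'
  obtain ⟨e, he⟩ := hR
  -- the unit `ε` with `t = t' * N ε`
  have htt : ((t.toMul : (𝓞 M)ˣ) : 𝓞 M)
      = ((t'.toMul : (𝓞 M)ˣ) : 𝓞 M) * FA_S14_ineq1_NG F ((e.toMul : (𝓞 M)ˣ) : 𝓞 M) := by
    rw [← FA_S14_ineq1_Nm_toMul p σ hσ hord e, he]
    have : t = t' + (t - t') := by abel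
    conv_lhs => rw [this]
    rw [toMul_add, Units.val_mul]
  set ε : (𝓞 M)ˣ := e.toMul with hε
  have hε0 : (ε : 𝓞 M) ≠ 0 := ε.ne_zero
  -- Hilbert 90
  have hNuv : FA_S14_ineq1_NG F (y * x') = FA_S14_ineq1_NG F (x * y' * (ε : 𝓞 M)) := by
    rw [FA_S14_ineq1_NG_mul, FA_S14_ineq1_NG_mul, FA_S14_ineq1_NG_mul, hN, hN', htt]
    ring
  obtain ⟨b, hb0, hb⟩ := FA_S14_ineq1_hilbert90 F σ hσ (mul_ne_zero hy hx')
    (mul_ne_zero (mul_ne_zero hx hy') hε0) hNuv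
  -- the complement `ℭ` of `𝔄'`
  have hn0 : ((Ideal.absNorm 𝔄' : ℕ) : 𝓞 M) ≠ 0 := by
    rw [Ne, Nat.cast_eq_zero, Ideal.absNorm_eq_zero_iff]
    exact h𝔄'
  obtain ⟨ℭ, hℭ⟩ : 𝔄' ∣ Ideal.span {((Ideal.absNorm 𝔄' : ℕ) : 𝓞 M)} := by
    rw [Ideal.dvd_iff_le, Ideal.span_singleton_le_iff_mem]
    exact Ideal.absNorm_mem 𝔄'
  have hℭ0 : ℭ ≠ ⊥ := by
    rintro rfl
    rw [Ideal.mul_bot] at hℭ
    exact FA_S14_ineq1_span_ne_bot hn0 hℭ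
  -- `(x') ℭ = (y') σ ℭ`
  have hσℭ : Ideal.span {((Ideal.absNorm 𝔄' : ℕ) : 𝓞 M)} = (σ • 𝔄') * (σ • ℭ) := by
    rw [← FA_S14_ineq1_smul_mul_ideal, ← hℭ, FA_S14_ineq1_smul_span, FA_S14_ineq1_smul_natCast]
  have hc1 : Ideal.span {x'} * ℭ = Ideal.span {y'} * (σ • ℭ) := by
    have h1 : 𝔄' * (Ideal.span {y'} * (σ • ℭ)) = 𝔄' * (Ideal.span {x'} * ℭ) := by
      calc 𝔄' * (Ideal.span {y'} * (σ • ℭ)) = (Ideal.span {y'} * 𝔄') * (σ • ℭ) := by ring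
        _ = (Ideal.span {x'} * (σ • 𝔄')) * (σ • ℭ) := by rw [hxy']
        _ = Ideal.span {x'} * ((σ • 𝔄') * (σ • ℭ)) := by ring
        _ = Ideal.span {x'} * (𝔄' * ℭ) := by rw [← hσℭ, hℭ]
        _ = 𝔄' * (Ideal.span {x'} * ℭ) := by ring
    exact (mul_left_cancel₀ (by rwa [Ideal.zero_eq_bot]) h1).symm
  -- the invariant ideal
  set ℑ : Ideal (𝓞 M) := Ideal.span {b} * 𝔄 * ℭ with hℑ
  have hℑ0 : ℑ ≠ ⊥ := mul_ne_zero (mul_ne_zero (FA_S14_ineq1_span_ne_bot hb0) h𝔄) hℭ0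
  have hεtop : (Ideal.span {(ε : 𝓞 M)} : Ideal (𝓞 M)) = 1 := by
    rw [Ideal.one_eq_top, Ideal.span_singleton_eq_top]
    exact ε.isUnit
  have hσℑ : σ • ℑ = ℑ := by
    have h1 : (Ideal.span {x} * Ideal.span {y'}) * (σ • ℑ)
        = (Ideal.span {x} * Ideal.span {y'}) * ℑ := by
      calc (Ideal.span {x} * Ideal.span {y'}) * (σ • ℑ)
          = Ideal.span {σ • b} * (Ideal.span {x} * (σ • 𝔄)) * (Ideal.span {y'} * (σ • ℭ)) := by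
            rw [hℑ, FA_S14_ineq1_smul_mul_ideal, FA_S14_ineq1_smul_mul_ideal,
              FA_S14_ineq1_smul_span]
            ring
        _ = Ideal.span {σ • b} * (Ideal.span {y} * 𝔄) * (Ideal.span {x'} * ℭ) := by
            rw [hxy, hc1]
        _ = Ideal.span {(σ • b) * (y * x')} * (𝔄 * ℭ) := by
            rw [← Ideal.span_singleton_mul_span_singleton,
              ← Ideal.span_singleton_mul_span_singleton]
            ring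
        _ = Ideal.span {b * (x * y' * (ε : 𝓞 M))} * (𝔄 * ℭ) := by rw [hb]
        _ = (Ideal.span {x} * Ideal.span {y'}) * ℑ := by
            rw [hℑ, ← Ideal.span_singleton_mul_span_singleton,
              ← Ideal.span_singleton_mul_span_singleton,
              ← Ideal.span_singleton_mul_span_singleton, hεtop]
            ring
    exact mul_left_cancel₀ (mul_ne_zero (FA_S14_ineq1_span_ne_bot hx)
      (FA_S14_ineq1_span_ne_bot hy')) h1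
  obtain ⟨𝔟, h𝔟0, h𝔟⟩ := FA_S14_ineq1_extended hunr σ hσ ℑ hℑ0 hσℑ
  refine ⟨FA_S14_ineq1_cls 𝔟 h𝔟0, ?_⟩
  rw [hj, FA_S14_ineq1_cls_congr _ hℑ0 h𝔟]
  have h2 : FA_S14_ineq1_cls ℑ hℑ0 = FA_S14_ineq1_cls 𝔄 h𝔄 * FA_S14_ineq1_cls ℭ hℭ0 := by
    rw [FA_S14_ineq1_cls_congr hℑ0
      (mul_ne_zero (mul_ne_zero (FA_S14_ineq1_span_ne_bot hb0) h𝔄) hℭ0) hℑ,
      FA_S14_ineq1_cls_mul (mul_ne_zero (FA_S14_ineq1_span_ne_bot hb0) h𝔄) hℭ0,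
      FA_S14_ineq1_cls_mul (FA_S14_ineq1_span_ne_bot hb0) h𝔄, FA_S14_ineq1_cls_span hb0, one_mul]
  have h3 : FA_S14_ineq1_cls 𝔄' h𝔄' * FA_S14_ineq1_cls ℭ hℭ0 = 1 := by
    rw [← FA_S14_ineq1_cls_mul h𝔄' hℭ0,
      ← FA_S14_ineq1_cls_congr (FA_S14_ineq1_span_ne_bot hn0) (mul_ne_zero h𝔄' hℭ0) hℭ,
      FA_S14_ineq1_cls_span hn0]
  rw [h2]
  calc FA_S14_ineq1_cls 𝔄 h𝔄
      = FA_S14_ineq1_cls 𝔄 h𝔄 * (FA_S14_ineq1_cls 𝔄' h𝔄' * FA_S14_ineq1_cls ℭ hℭ0) := by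
        rw [h3, mul_one]
    _ = FA_S14_ineq1_cls 𝔄' h𝔄' * (FA_S14_ineq1_cls 𝔄 h𝔄 * FA_S14_ineq1_cls ℭ hℭ0) := by
        rw [mul_left_comm]

/-- Existence part of `ψ`. -/
theorem FA_S14_ineq1_psi_exists (hunr : FA_S14_Unramified F M) (p : ℕ) (σ : M ≃ₐ[F] M)
    (hσ : ∀ x, x ∈ Subgroup.zpowers σ) (hord : orderOf σ = p)
    (j : ClassGroup (𝓞 F) →* ClassGroup (𝓞 M))
    (hj : ∀ (𝔞 : Ideal (𝓞 F)) (h : 𝔞 ≠ ⊥), j (FA_S14_ineq1_cls 𝔞 h)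
        = FA_S14_ineq1_cls (𝔞.map (algebraMap (𝓞 F) (𝓞 M))) (FA_S14_ineq1_map_ne_bot h))
    (k : Additive (𝓞 M)ˣ)
    (hk : k ∈ (LinearMap.ker (∑ i ∈ Finset.range p, (FA_R_unitEnd σ) ^ i)).toAddSubgroup) :
    ∃ b, j b = 1 ∧ FA_S14_ineq1_Psi F σ k b := by
  have hk' : (∑ i ∈ Finset.range p, (FA_R_unitEnd σ) ^ i) k = 0 := hk
  have hNk : FA_S14_ineq1_NG F ((k.toMul : (𝓞 M)ˣ) : 𝓞 M) = 1 := by
    rw [← FA_S14_ineq1_Nm_toMul p σ hσ hord k, hk']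
    rfl
  have hN1 : FA_S14_ineq1_NG F (1 : 𝓞 M) = 1 := by
    unfold FA_S14_ineq1_NG
    simp
  obtain ⟨α, hα0, hα⟩ := FA_S14_ineq1_hilbert90 F σ hσ (k.toMul : (𝓞 M)ˣ).ne_zero
    (one_ne_zero) (hNk.trans hN1.symm)
  rw [mul_one] at hα
  have hinv : σ • (Ideal.span {α} : Ideal (𝓞 M)) = Ideal.span {α} := by
    rw [FA_S14_ineq1_smul_span]
    conv_rhs => rw [hα]
    rw [mul_comm]
    exact (Ideal.span_singleton_mul_left_unit (k.toMul : (𝓞 M)ˣ).isUnit _).symm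
  obtain ⟨𝔞, h𝔞0, h𝔞⟩ := FA_S14_ineq1_extended hunr σ hσ _ (FA_S14_ineq1_span_ne_bot hα0) hinv
  refine ⟨FA_S14_ineq1_cls 𝔞 h𝔞0, ?_, α, 𝔞, h𝔞0, hα0, rfl, h𝔞, hα⟩
  rw [hj, FA_S14_ineq1_cls_congr _ (FA_S14_ineq1_span_ne_bot hα0) h𝔞, FA_S14_ineq1_cls_span hα0]

/-- Fibre part of `ψ`. -/
theorem FA_S14_ineq1_psi_fibre (σ : M ≃ₐ[F] M) (k k' : Additive (𝓞 M)ˣ)
    (b : ClassGroup (𝓞 F))
    (hΨ : FA_S14_ineq1_Psi F σ k b) (hΨ' : FA_S14_ineq1_Psi F σ k' b) :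
    k - k' ∈ (LinearMap.range (1 - FA_R_unitEnd σ)).toAddSubgroup := by
  obtain ⟨α, 𝔞, h𝔞, hα0, hb, hmap, hα⟩ := hΨ
  obtain ⟨α', 𝔞', h𝔞', hα0', hb', hmap', hα'⟩ := hΨ'
  rw [← hb', FA_S14_ineq1_cls_eq_iff] at hb
  obtain ⟨c, c', hc, hc', hcc⟩ := hb
  have h1 := congrArg (Ideal.map (algebraMap (𝓞 F) (𝓞 M))) hcc
  rw [Ideal.map_mul, Ideal.map_mul, hmap, hmap', Ideal.map_span, Ideal.map_span,
    Set.image_singleton, Set.image_singleton, Ideal.span_singleton_mul_span_singleton,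
    Ideal.span_singleton_mul_span_singleton, Ideal.span_singleton_eq_span_singleton] at h1
  obtain ⟨ε, hε⟩ := h1
  -- `ιc α ε = ιc' α'`
  set ιc := algebraMap (𝓞 F) (𝓞 M) c with hιc
  set ιc' := algebraMap (𝓞 F) (𝓞 M) c' with hιc'
  have hιc0 : ιc ≠ 0 := by
    rw [hιc, Ne, map_eq_zero_iff _ (FaithfulSMul.algebraMap_injective (𝓞 F) (𝓞 M))]
    exact hc
  have hσα0 : σ • α ≠ 0 := by rwa [Ne, smul_eq_zero_iff_eq]
  have h2 : ιc * (σ • α) * (σ • (ε : 𝓞 M)) = ιc' * (σ • α') := by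
    have := congrArg (fun z => σ • z) hε
    simp only [smul_mul', hιc, hιc', FA_S14_ineq1_smul_algebraMap] at this
    exact this
  -- `σε η' = η ε`
  have h3 : (σ • (ε : 𝓞 M)) * ((k'.toMul : (𝓞 M)ˣ) : 𝓞 M)
      = ((k.toMul : (𝓞 M)ˣ) : 𝓞 M) * (ε : 𝓞 M) := by
    apply mul_left_cancel₀ (mul_ne_zero hιc0 hσα0)
    calc ιc * (σ • α) * ((σ • (ε : 𝓞 M)) * ((k'.toMul : (𝓞 M)ˣ) : 𝓞 M))
        = (ιc * (σ • α) * (σ • (ε : 𝓞 M))) * ((k'.toMul : (𝓞 M)ˣ) : 𝓞 M) := by ring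
      _ = ιc' * ((σ • α') * ((k'.toMul : (𝓞 M)ˣ) : 𝓞 M)) := by rw [h2]; ring
      _ = ιc' * α' := by rw [← hα']
      _ = ιc * α * (ε : 𝓞 M) := hε.symm
      _ = ιc * ((σ • α) * ((k.toMul : (𝓞 M)ˣ) : 𝓞 M)) * (ε : 𝓞 M) := by rw [← hα]
      _ = ιc * (σ • α) * (((k.toMul : (𝓞 M)ˣ) : 𝓞 M) * (ε : 𝓞 M)) := by ring
  -- conclusion in `Additive (𝓞 M)ˣ`
  refine ⟨-(Additive.ofMul ε), ?_⟩
  rw [LinearMap.sub_apply, Module.End.one_apply, map_neg, FA_R_unitEnd_apply, toMul_ofMul]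
  apply Additive.toMul.injective
  apply Units.ext
  have h4 : (FA_R_unitAut σ ε : (𝓞 M)ˣ) * k'.toMul = k.toMul * ε := by
    apply Units.ext
    rw [Units.val_mul, Units.val_mul, FA_S14_ineq1_unitAut_coe]
    exact h3
  have h5 : Additive.toMul (-Additive.ofMul ε - -Additive.ofMul (FA_R_unitAut σ ε))
      = ε⁻¹ * FA_R_unitAut σ ε := by
    rw [sub_neg_eq_add, toMul_add, toMul_neg, toMul_ofMul, toMul_ofMul]
  have h6 : Additive.toMul (k - k') = k.toMul * (k'.toMul)⁻¹ := by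
    rw [sub_eq_add_neg, toMul_add, toMul_neg]
  rw [h5, h6]
  congr 1
  rw [eq_mul_inv_iff_mul_eq, mul_assoc, h4, ← mul_assoc, mul_comm ε⁻¹, inv_mul_cancel_right]

/-- **Leaf INEQ1.** -/
theorem FA_S14_Ineq1 : FA_S14_Target_Ineq1 := by
  intro p hp hp2 F M _ _ _ _ _ _ hdeg hunr htop
  classical
  haveI : Fact p.Prime := ⟨hp⟩
  have hcard : Nat.card (M ≃ₐ[F] M) = p := by rw [IsGalois.card_aut_eq_finrank, hdeg]
  haveI := isCyclic_of_prime_card hcard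
  obtain ⟨σ, hσ⟩ := IsCyclic.exists_generator (α := M ≃ₐ[F] M)
  have hord : orderOf σ = p := by
    rw [orderOf_eq_card_of_forall_mem_zpowers hσ, hcard]
  obtain ⟨s, hs⟩ := FA_S14_ineq1_exists_s (F := F) σ
  obtain ⟨j, hj⟩ := FA_S14_ineq1_exists_j (F := F) (M := M)
  obtain ⟨N, hN⟩ := FA_S14_ineq1_exists_N (F := F) (M := M)
  obtain ⟨-, hu, hw⟩ := FA_S14_herb_units p hp hp2 hdeg σ hσ
  refine FA_S14_ineq1_count s N j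
    (LinearMap.ker (1 - FA_R_unitEnd σ)).toAddSubgroup
    (LinearMap.range (∑ i ∈ Finset.range p, (FA_R_unitEnd σ) ^ i)).toAddSubgroup
    (LinearMap.ker (∑ i ∈ Finset.range p, (FA_R_unitEnd σ) ^ i)).toAddSubgroup
    (LinearMap.range (1 - FA_R_unitEnd σ)).toAddSubgroup
    p hp.two_le hu hw ?_ ?_ (FA_S14_ineq1_Theta F σ) ?_ ?_ (FA_S14_ineq1_Psi F σ) ?_ ?_
  · -- `N ∘ s = N`
    intro a
    obtain ⟨I, hI, rfl⟩ := FA_S14_ineq1_cls_surjective a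
    rw [hs, hN, hN]
    exact FA_S14_ineq1_cls_congr _ _ (Ideal.relNorm_smul (𝓞 F) σ I)
  · -- `N` is onto
    rw [← MonoidHom.range_eq_top, eq_top_iff, ← htop, FA_S14_normClasses, Subgroup.closure_le]
    rintro c ⟨J, I, hJ, hIJ, rfl⟩
    refine ⟨FA_S14_ineq1_cls J hJ, ?_⟩
    rw [hN]
    exact FA_S14_ineq1_cls_congr _ (mem_nonZeroDivisors_iff_ne_zero.1 I.2) hIJ.symm
  · exact fun a ha => FA_S14_ineq1_theta_exists σ s hs a ha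
  · intro a a' t t' _ _ _ _ hΘ hΘ' hR
    exact FA_S14_ineq1_theta_fibre hunr p σ hσ hord j hj a a' t t' hΘ hΘ' hR
  · exact fun k hk => FA_S14_ineq1_psi_exists hunr p σ hσ hord j hj k hk
  · intro k k' b _ _ hΨ hΨ'
    exact FA_S14_ineq1_psi_fibre σ k k' b hΨ hΨ'

end Fermat.Agent.S14
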