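import Mathlib
import Fermat.Agent.S14.Art2

/-!
# S14, leaf ART, part 3: the Artin map with values in the abelianization

* `FA_S14_frobAb F M 𝔭 : Abelianization (M ≃ₐ[F] M)` : the Frobenius class of a prime `𝔭` of `F`.
* `FA_S14_artin F M I` : the Artin symbol of an ideal `I` of `𝓞 F` (product over the prime factors).
* `FA_S14_artin_mul`, `FA_S14_artin_pow`, `FA_S14_artin_prime`, `FA_S14_frobAb_eq`.
* `FA_S14_artin_relNorm` : norms have trivial Artin symbol (unramified extension).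
* `FA_S14_rec_of_artin` : if all principal ideals have trivial Artin symbol then the list form of
  reciprocity (`FA_S14_Target_Rec`) holds.
-/

set_option autoImplicit false
set_option linter.unusedSectionVars false

open scoped NumberField Pointwise
open UniqueFactorizationMonoid

namespace Fermat.Agent.S14

section artin

variable (F M : Type) [Field F] [Field M] [NumberField F] [NumberField M] [Algebra F M]
  [IsGalois F M]

open Classical in
/-- The Frobenius class of a prime `𝔭` of `F` in the abelianization of `Gal(M/F)`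
(junk value `1` if `𝔭` is not a nonzero prime). -/
noncomputable def FA_S14_frobAb (𝔭 : Ideal (𝓞 F)) : Abelianization (M ≃ₐ[F] M) :=
  if h : ∃ (g : M ≃ₐ[F] M) (P : Ideal (𝓞 M)), P.IsPrime ∧ P ≠ ⊥ ∧ P.under (𝓞 F) = 𝔭 ∧
      IsArithFrobAt (𝓞 F) g P
  then Abelianization.of h.choose else 1

/-- The Artin symbol of an ideal of `𝓞 F` (junk value `1` for the zero ideal). -/
noncomputable def FA_S14_artin (I : Ideal (𝓞 F)) : Abelianization (M ≃ₐ[F] M) :=
  ((normalizedFactors I).map (FA_S14_frobAb F M)).prod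

variable {F M}

/-- The ramification index is constant on the primes above a given prime. -/
theorem FA_S14_art_ramificationIdx_smul (P : Ideal (𝓞 M)) [P.IsPrime] (τ : M ≃ₐ[F] M) :
    (τ • P).ramificationIdx (𝓞 F) = P.ramificationIdx (𝓞 F) := by
  have : (τ • P).IsPrime := Ideal.map_isPrime_of_equiv (MulSemiringAction.toRingEquiv _ (𝓞 M) τ)
  have h1 : (τ • P).LiesOver (P.under (𝓞 F)) := by
    constructor
    have := Ideal.under_smul (𝓞 F) P τ
    exact this.symm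
  have h2 : P.LiesOver (P.under (𝓞 F)) := ⟨rfl⟩
  exact Ideal.ramificationIdx_eq_of_isGaloisGroup (P.under (𝓞 F)) (τ • P) P (M ≃ₐ[F] M)

/-- The Frobenius class of `𝔭 = P ∩ F` is the class of any Frobenius element at `P`, if `P` is
unramified. -/
theorem FA_S14_frobAb_eq (P : Ideal (𝓞 M)) [P.IsPrime] (hP : P ≠ ⊥)
    (he : P.ramificationIdx (𝓞 F) = 1) {g : M ≃ₐ[F] M} (hg : IsArithFrobAt (𝓞 F) g P) :
    FA_S14_frobAb F M (P.under (𝓞 F)) = Abelianization.of g := by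
  have hex : ∃ (g : M ≃ₐ[F] M) (P' : Ideal (𝓞 M)), P'.IsPrime ∧ P' ≠ ⊥ ∧
      P'.under (𝓞 F) = P.under (𝓞 F) ∧ IsArithFrobAt (𝓞 F) g P' := ⟨g, P, inferInstance, hP, rfl, hg⟩
  rw [FA_S14_frobAb, dif_pos hex]
  obtain ⟨P', hP'p, hP'0, hP'u, hg'⟩ := hex.choose_spec
  obtain ⟨τ, rfl⟩ := Algebra.IsInvariant.exists_smul_of_under_eq (𝓞 F) (𝓞 M) (M ≃ₐ[F] M) P P'
    hP'u.symm
  have h1 := hg.conj τ
  have he' : (τ • P).ramificationIdx (𝓞 F) = 1 := by
    rw [FA_S14_art_ramificationIdx_smul, he]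
  have := FA_S14_art_frob_unique (τ • P) hP'0 he' hg' h1
  rw [this]
  simp [mul_comm]

theorem FA_S14_artin_mul {I J : Ideal (𝓞 F)} (hI : I ≠ ⊥) (hJ : J ≠ ⊥) :
    FA_S14_artin F M (I * J) = FA_S14_artin F M I * FA_S14_artin F M J := by
  unfold FA_S14_artin
  rw [normalizedFactors_mul hI hJ, Multiset.map_add, Multiset.prod_add]

theorem FA_S14_artin_top : FA_S14_artin F M (⊤ : Ideal (𝓞 F)) = 1 := by
  unfold FA_S14_artin
  rw [← Ideal.one_eq_top, normalizedFactors_one]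
  simp

theorem FA_S14_artin_pow {I : Ideal (𝓞 F)} (hI : I ≠ ⊥) (n : ℕ) :
    FA_S14_artin F M (I ^ n) = FA_S14_artin F M I ^ n := by
  induction n with
  | zero => rw [pow_zero, pow_zero, Ideal.one_eq_top, FA_S14_artin_top]
  | succ n ih => rw [pow_succ, pow_succ, FA_S14_artin_mul (pow_ne_zero n hI) hI, ih]

theorem FA_S14_artin_prime (𝔭 : Ideal (𝓞 F)) [𝔭.IsPrime] (h𝔭 : 𝔭 ≠ ⊥) :
    FA_S14_artin F M 𝔭 = FA_S14_frobAb F M 𝔭 := by
  unfold FA_S14_artin
  rw [normalizedFactors_irreducible (Ideal.prime_of_isPrime h𝔭 inferInstance).irreducible]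
  simp

/-- The Artin symbol of `P ∩ F`, `P` an unramified prime of `M`. -/
theorem FA_S14_artin_under (P : Ideal (𝓞 M)) [P.IsPrime] (hP : P ≠ ⊥)
    (he : P.ramificationIdx (𝓞 F) = 1) {g : M ≃ₐ[F] M} (hg : IsArithFrobAt (𝓞 F) g P) :
    FA_S14_artin F M (P.under (𝓞 F)) = Abelianization.of g := by
  have hp0 : P.under (𝓞 F) ≠ ⊥ := fun h => hP (Ideal.eq_bot_of_comap_eq_bot h)
  rw [FA_S14_artin_prime _ hp0, FA_S14_frobAb_eq P hP he hg]

/-- Norms of ideals have trivial Artin symbol (unramified extension). -/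
theorem FA_S14_artin_relNorm (hunr : FA_S14_Unramified F M) (J : Ideal (𝓞 M)) (hJ : J ≠ ⊥) :
    FA_S14_artin F M (Ideal.relNorm (𝓞 F) J) = 1 := by
  suffices h : J ≠ ⊥ ∧ FA_S14_artin F M (Ideal.relNorm (𝓞 F) J) = 1 from h.2
  rw [← Ideal.prod_normalizedFactors_eq_self hJ]
  refine Multiset.prod_induction
    (fun I : Ideal (𝓞 M) => I ≠ ⊥ ∧ FA_S14_artin F M (Ideal.relNorm (𝓞 F) I) = 1) _ ?_ ?_ ?_
  · rintro a b ⟨ha, ha'⟩ ⟨hb, hb'⟩
    refine ⟨mul_ne_zero ha hb, ?_⟩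
    rw [map_mul, FA_S14_artin_mul (by rwa [Ne, Ideal.relNorm_eq_bot_iff])
      (by rwa [Ne, Ideal.relNorm_eq_bot_iff]), ha', hb', mul_one]
  · refine ⟨one_ne_zero, ?_⟩
    rw [map_one, Ideal.one_eq_top, FA_S14_artin_top]
  · intro Q hQ
    have hQ0 : Q ≠ ⊥ := ne_zero_of_mem_normalizedFactors hQ
    rw [Ideal.mem_normalizedFactors_iff hJ] at hQ
    have hQp : Q.IsPrime := hQ.1
    refine ⟨hQ0, ?_⟩
    have hQmax : Q.IsMaximal := Ring.DimensionLEOne.maximalOfPrime hQ0 hQ.1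
    have hp0 : Q.under (𝓞 F) ≠ ⊥ := fun h => hQ0 (Ideal.eq_bot_of_comap_eq_bot h)
    have hpmax : (Q.under (𝓞 F)).IsMaximal := Ideal.IsMaximal.under (𝓞 F) Q
    obtain ⟨g, hg⟩ := FA_S14_art_frob_exists (F := F) Q hQ0
    have he := hunr Q hQ.1 hQ0
    rw [Ideal.relNorm_eq_pow_of_isMaximal Q (Q.under (𝓞 F)), FA_S14_artin_pow hp0,
      FA_S14_artin_under Q hQ0 he hg, ← map_pow, FA_S14_art_frob_pow_inertiaDeg Q hQ0 he hg,
      map_one]

/-- `Abelianization.of` is injective on a commutative group. -/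
theorem FA_S14_art_of_injective {G : Type} [Group G] (hcomm : ∀ a b : G, a * b = b * a) :
    Function.Injective (Abelianization.of : G →* Abelianization G) := by
  rw [injective_iff_map_eq_one]
  intro g hg
  have hmem : g ∈ (Abelianization.of : G →* Abelianization G).ker := hg
  rw [Abelianization.ker_of, commutator_def, Subgroup.commutator_eq_bot_iff_le_centralizer.2
    (fun x _ => by
      rw [Subgroup.mem_centralizer_iff]
      intro y _
      exact hcomm y x)] at hmem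
  exact hmem

/-- The Artin symbol of a product of powers of primes, given by a list. -/
theorem FA_S14_artin_list (hunr : FA_S14_Unramified F M)
    (l : List (Ideal (𝓞 M) × (M ≃ₐ[F] M) × ℕ))
    (hl : ∀ x ∈ l, x.1.IsPrime ∧ x.1 ≠ ⊥ ∧ IsArithFrobAt (𝓞 F) x.2.1 x.1) :
    (l.map (fun x : Ideal (𝓞 M) × (M ≃ₐ[F] M) × ℕ => (x.1.under (𝓞 F)) ^ x.2.2)).prod ≠ ⊥ ∧
    FA_S14_artin F M
        (l.map (fun x : Ideal (𝓞 M) × (M ≃ₐ[F] M) × ℕ => (x.1.under (𝓞 F)) ^ x.2.2)).prod =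
      Abelianization.of
        (l.map (fun x : Ideal (𝓞 M) × (M ≃ₐ[F] M) × ℕ => x.2.1 ^ x.2.2)).prod := by
  induction l with
  | nil =>
    simp only [List.map_nil, List.prod_nil, map_one]
    exact ⟨one_ne_zero, by rw [Ideal.one_eq_top, FA_S14_artin_top]⟩
  | cons x l ih =>
    obtain ⟨hxp, hx0, hxg⟩ := hl x (List.mem_cons_self)
    obtain ⟨ih1, ih2⟩ := ih (fun y hy => hl y (List.mem_cons_of_mem _ hy))
    have hp0 : x.1.under (𝓞 F) ≠ ⊥ := fun h => hx0 (Ideal.eq_bot_of_comap_eq_bot h)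
    simp only [List.map_cons, List.prod_cons, map_mul, map_pow]
    refine ⟨mul_ne_zero (pow_ne_zero _ hp0) ih1, ?_⟩
    rw [FA_S14_artin_mul (pow_ne_zero _ hp0) ih1, FA_S14_artin_pow hp0,
      FA_S14_artin_under x.1 hx0 (hunr x.1 hxp hx0) hxg, ih2]

/-- **Reciprocity in list form** from the triviality of the Artin symbol on principal ideals. -/
theorem FA_S14_rec_of_artin (hcomm : ∀ a b : M ≃ₐ[F] M, a * b = b * a)
    (hunr : FA_S14_Unramified F M)
    (hprin : ∀ α : 𝓞 F, α ≠ 0 → FA_S14_artin F M (Ideal.span {α}) = 1)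
    (l : List (Ideal (𝓞 M) × (M ≃ₐ[F] M) × ℕ))
    (hl : ∀ x ∈ l, x.1.IsPrime ∧ x.1 ≠ ⊥ ∧ IsArithFrobAt (𝓞 F) x.2.1 x.1)
    (hp : ((l.map (fun x : Ideal (𝓞 M) × (M ≃ₐ[F] M) × ℕ =>
      (x.1.under (𝓞 F)) ^ x.2.2)).prod).IsPrincipal) :
    (l.map (fun x : Ideal (𝓞 M) × (M ≃ₐ[F] M) × ℕ => x.2.1 ^ x.2.2)).prod = 1 := by
  obtain ⟨h0, h1⟩ := FA_S14_artin_list hunr l hl
  obtain ⟨α, hα⟩ := hp.principal
  have hα' : (l.map (fun x : Ideal (𝓞 M) × (M ≃ₐ[F] M) × ℕ =>
      (x.1.under (𝓞 F)) ^ x.2.2)).prod = Ideal.span {α} := hα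
  have hα0 : α ≠ 0 := by
    rintro rfl
    apply h0
    rw [hα']
    simp
  rw [hα', hprin α hα0] at h1
  apply FA_S14_art_of_injective hcomm
  rw [← h1, map_one]

/-- A group of prime order is commutative. -/
theorem FA_S14_art_comm_of_finrank {p : ℕ} (hp : p.Prime) (hfin : Module.finrank F M = p)
    (a b : M ≃ₐ[F] M) : a * b = b * a := by
  have h1 : Nat.card (M ≃ₐ[F] M) = p := by rw [IsGalois.card_aut_eq_finrank, hfin]
  have : Fact p.Prime := ⟨hp⟩
  have hc : IsCyclic (M ≃ₐ[F] M) := isCyclic_of_prime_card h1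
  exact (isMulCommutative_iff.1 hc.isMulCommutative) a b

end artin

end Fermat.Agent.S14
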