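import Mathlib
import Fermat.Agent.S14.Final
import Fermat.Agent.S14.Art3

/-!
# S14, REC assembly, part 1: an inert prime of `K = ℚ(ζ_p)` has absolute degree one

`L/K` as in the core theorem.  If the Frobenius at a prime `P` of `L` is nontrivial, then
the stabiliser of `𝔭 = P ∩ K` in `Gal(K/ℚ)` is trivial (`FA_S14_rec_stab_trivial`), hence
`𝔭` has prime absolute norm, different from `p` (`FA_S14_rec_eqv`).
-/

set_option autoImplicit false
set_option linter.unusedSectionVars false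

open scoped NumberField Pointwise

namespace Fermat.Agent.S14

/-- If the Frobenius at `P` is nontrivial, then no nontrivial automorphism of `K/ℚ` fixes
`P ∩ K`. -/
theorem FA_S14_rec_stab_trivial {p : ℕ} (hp : p.Prime) {K L : Type} [Field K] [Field L]
    [NumberField K] [NumberField L] [Algebra K L] [IsCyclotomicExtension {p} ℚ K]
    [IsGalois ℚ L] [IsGalois K L] (hfin : Module.finrank K L = p)
    (hunr : FA_S14_Unramified K L)
    (heqv : ∀ (τ : L ≃ₐ[ℚ] L) (g : L ≃ₐ[K] L) (ζ : K) (a : ℕ), IsPrimitiveRoot ζ p →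
      τ (algebraMap K L ζ) = (algebraMap K L ζ) ^ a →
      ∀ x : L, τ ((g ^ a) (τ.symm x)) = g x)
    (P : Ideal (𝓞 L)) [P.IsPrime] (hP : P ≠ ⊥) {g : L ≃ₐ[K] L}
    (hg : IsArithFrobAt (𝓞 K) g P) (hg1 : g ≠ 1) (δ : K ≃ₐ[ℚ] K)
    (hδ : δ • P.under (𝓞 K) = P.under (𝓞 K)) : δ = 1 := by
  have hp0 : NeZero p := ⟨hp.ne_zero⟩
  have hpF : Fact p.Prime := ⟨hp⟩
  obtain ⟨ζ, hζ⟩ := IsCyclotomicExtension.exists_isPrimitiveRoot ℚ K (Set.mem_singleton p)
    hp.ne_zero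
  set a : ℕ := (hζ.autToPow ℚ δ : ZMod p).val with ha
  have hδζ : δ ζ = ζ ^ a := (hζ.autToPow_spec ℚ δ).symm
  have hGal : IsGalois ℚ K := IsCyclotomicExtension.isGalois {p} ℚ K
  obtain ⟨τ, hτ⟩ := AlgEquiv.restrictNormalHom_surjective (F := ℚ) (K₁ := K) L δ
  have hτδ : ∀ x : K, τ (algebraMap K L x) = algebraMap K L (δ x) := by
    intro x
    rw [← hτ]
    exact (AlgEquiv.restrictNormal_commutes τ K x).symm
  have h1 := FA_S14_final_frob_conj τ δ hτδ g (g ^ a)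
    (heqv τ g ζ a hζ (by rw [hτδ, hδζ, map_pow])) P hg
  have hu : (τ⁻¹ • P).under (𝓞 K) = P.under (𝓞 K) := by
    rw [FA_S14_final_under_smul τ δ hτδ P]
    conv_lhs => rw [← hδ]
    rw [inv_smul_smul]
  have hprime : (τ⁻¹ • P).IsPrime :=
    Ideal.map_isPrime_of_equiv (MulSemiringAction.toRingEquiv _ (𝓞 L) τ⁻¹)
  have hcomm := FA_S14_art_comm_of_finrank (F := K) (M := L) hp hfin
  have h2 := FA_S14_art_frob_of_under_eq hcomm (τ⁻¹ • P) P hu h1
  have h3 : g ^ a = g := FA_S14_art_frob_unique P hP (hunr P inferInstance hP) h2 hg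
  have hgp : g ^ p = 1 := by
    have h1 : Nat.card (L ≃ₐ[K] L) = p := by rw [IsGalois.card_aut_eq_finrank, hfin]
    rw [← h1]
    exact pow_card_eq_one'
  have hord : orderOf g = p := by
    rcases (Nat.dvd_prime hp).1 (orderOf_dvd_of_pow_eq_one hgp) with h | h
    · exact absurd (orderOf_eq_one_iff.1 h) hg1
    · exact h
  have ha1 : a = 1 := by
    have halt : a < p := ZMod.val_lt _
    rcases Nat.eq_zero_or_pos a with h0 | hpos
    · rw [h0, pow_zero] at h3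
      exact absurd h3.symm hg1
    · have h4 : g ^ (a - 1) = 1 := by
        have : g ^ (a - 1) * g = g := by
          rw [← pow_succ, Nat.sub_add_cancel hpos, h3]
        exact mul_eq_right.1 this
      have h5 : p ∣ a - 1 := by
        rw [← hord]
        exact orderOf_dvd_of_pow_eq_one h4
      rcases Nat.eq_zero_or_pos (a - 1) with h6 | h6
      · omega
      · have := Nat.le_of_dvd h6 h5
        omega
  apply hζ.autToPow_injective ℚ
  rw [map_one]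
  apply Units.ext
  apply ZMod.val_injective
  rw [← ha, ha1]
  simp only [Units.val_one]
  rw [ZMod.val_one'']
  have := hp.two_le
  omega

/-- A prime of `K` with trivial stabiliser in `Gal(K/ℚ)` has prime absolute norm. -/
theorem FA_S14_rec_absNorm_prime {K : Type} [Field K] [NumberField K] [IsGalois ℚ K]
    (𝔭 : Ideal (𝓞 K)) [𝔭.IsPrime] (h𝔭 : 𝔭 ≠ ⊥)
    (hstab : ∀ δ : K ≃ₐ[ℚ] K, δ • 𝔭 = 𝔭 → δ = 1) : (Ideal.absNorm 𝔭).Prime := by
  have hp0 : 𝔭.under ℤ ≠ ⊥ := fun h' => h𝔭 (Ideal.eq_bot_of_comap_eq_bot h')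
  have hmaxZ : (𝔭.under ℤ).IsMaximal := Ring.DimensionLEOne.maximalOfPrime hp0 inferInstance
  have hmax : 𝔭.IsMaximal := Ring.DimensionLEOne.maximalOfPrime h𝔭 inferInstance
  have hcard := Ideal.card_stabilizer_eq (G := K ≃ₐ[ℚ] K) (𝔭.under ℤ) 𝔭
  have hbot : MulAction.stabilizer (K ≃ₐ[ℚ] K) 𝔭 = ⊥ := by
    rw [eq_bot_iff]
    intro δ hδ
    rw [Subgroup.mem_bot]
    exact hstab δ (MulAction.mem_stabilizer_iff.1 hδ)
  rw [hbot, Subgroup.card_bot] at hcard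
  have hf : (𝔭.under ℤ).inertiaDegIn (𝓞 K) = 1 := by
    have := Nat.eq_one_of_mul_eq_one_left hcard.symm
    exact this
  rw [Ideal.inertiaDegIn_eq_inertiaDeg (𝔭.under ℤ) 𝔭 (K ≃ₐ[ℚ] K),
    ← Ideal.inertiaDeg'_eq_inertiaDeg (𝔭.under ℤ) 𝔭] at hf
  have hN := Ideal.absNorm_eq_pow_inertiaDeg'_of_liesOver 𝔭 (𝔭.under ℤ) inferInstance hp0
  rw [hf, pow_one] at hN
  rw [hN]
  have : NeZero 𝔭 := ⟨h𝔭⟩
  exact Nat.absNorm_under_prime 𝔭

/-- The only prime of `ℤ[ζ_p]` containing `p` is `(ζ - 1)`. -/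
theorem FA_S14_rec_prime_over_p {p : ℕ} [NeZero p] (hp : p.Prime) (hp2 : p ≠ 2) {K : Type}
    [Field K] [NumberField K] [IsCyclotomicExtension {p} ℚ K] {ζ : K} (hζ : IsPrimitiveRoot ζ p)
    (I : Ideal (𝓞 K)) [I.IsPrime] (hI : (p : 𝓞 K) ∈ I) :
    I = Ideal.span {hζ.toInteger - 1} := by
  have hpF : Fact p.Prime := ⟨hp⟩
  have hprime : Prime (hζ.toInteger - 1) := hζ.zeta_sub_one_prime'
  have hmem : hζ.toInteger - 1 ∈ I := by
    obtain ⟨r, hr⟩ := exists_add_pow_prime_eq hp hζ.toInteger (-1)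
    have hodd : Odd p := hp.odd_of_ne_two hp2
    have h1 : hζ.toInteger ^ p = 1 := hζ.toInteger_isPrimitiveRoot.pow_eq_one
    have h2 : (hζ.toInteger - 1) ^ p = (p : 𝓞 K) * (hζ.toInteger * (-1) * r) := by
      rw [sub_eq_add_neg, hr, h1, hodd.neg_one_pow]
      ring
    have h3 : (hζ.toInteger - 1) ^ p ∈ I := by
      rw [h2]
      exact Ideal.mul_mem_right _ _ hI
    exact Ideal.IsPrime.mem_of_pow_mem inferInstance p h3
  have hsp : (Ideal.span {hζ.toInteger - 1} : Ideal (𝓞 K)).IsPrime :=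
    (Ideal.span_singleton_prime hprime.ne_zero).2 hprime
  have hne : (Ideal.span {hζ.toInteger - 1} : Ideal (𝓞 K)) ≠ ⊥ := by
    rw [Ne, Ideal.span_singleton_eq_bot]
    exact hprime.ne_zero
  have hmax : (Ideal.span {hζ.toInteger - 1} : Ideal (𝓞 K)).IsMaximal :=
    Ring.DimensionLEOne.maximalOfPrime hne hsp
  exact (hmax.eq_of_le (Ideal.IsPrime.ne_top inferInstance)
    ((Ideal.span_singleton_le_iff_mem I).2 hmem)).symm

/-- A prime of `K = ℚ(ζ_p)` with trivial stabiliser in `Gal(K/ℚ)` does not contain `p`. -/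
theorem FA_S14_rec_absNorm_ne {p : ℕ} (hp : p.Prime) (hp2 : p ≠ 2) {K : Type} [Field K]
    [NumberField K] [IsCyclotomicExtension {p} ℚ K]
    (𝔭 : Ideal (𝓞 K)) [𝔭.IsPrime]
    (hstab : ∀ δ : K ≃ₐ[ℚ] K, δ • 𝔭 = 𝔭 → δ = 1) : Ideal.absNorm 𝔭 ≠ p := by
  intro hN
  have hp0 : NeZero p := ⟨hp.ne_zero⟩
  obtain ⟨ζ, hζ⟩ := IsCyclotomicExtension.exists_isPrimitiveRoot ℚ K (Set.mem_singleton p)
    hp.ne_zero
  have hmem : (p : 𝓞 K) ∈ 𝔭 := by
    have := Ideal.absNorm_mem 𝔭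
    rwa [hN] at this
  obtain ⟨c, hc⟩ := FA_S14_stick_exists_inv (p := p) hp.pos (K := K)
  have hc1 : c ≠ 1 := by
    intro h
    have h1 := hc ζ hζ.pow_eq_one
    rw [h, AlgEquiv.one_apply] at h1
    have h2 : ζ ^ 2 = 1 := by
      have hz : ζ ≠ 0 := hζ.ne_zero hp.ne_zero
      calc ζ ^ 2 = ζ * ζ := sq ζ
        _ = ζ * ζ⁻¹ := by rw [← h1]
        _ = 1 := mul_inv_cancel₀ hz
    have := hζ.dvd_of_pow_eq_one 2 h2
    have := Nat.le_of_dvd (by norm_num) this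
    have := hp.two_le
    omega
  apply hc1
  apply hstab
  have hprime : (c • 𝔭).IsPrime :=
    Ideal.map_isPrime_of_equiv (MulSemiringAction.toRingEquiv _ (𝓞 K) c)
  have hmem' : (p : 𝓞 K) ∈ c • 𝔭 := by
    rw [Ideal.mem_pointwise_smul_iff_inv_smul_mem]
    have : c⁻¹ • (p : 𝓞 K) = p := map_natCast (MulSemiringAction.toRingHom _ (𝓞 K) c⁻¹) p
    rw [this]
    exact hmem
  rw [FA_S14_rec_prime_over_p hp hp2 hζ (c • 𝔭) hmem']
  exact (FA_S14_rec_prime_over_p hp hp2 hζ 𝔭 hmem).symm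

/-- **EQV**: a prime of `K` over which the Frobenius of `L/K` is nontrivial has prime absolute
norm, different from `p`. -/
theorem FA_S14_rec_eqv {p : ℕ} (hp : p.Prime) (hp2 : p ≠ 2) {K L : Type} [Field K] [Field L]
    [NumberField K] [NumberField L] [Algebra K L] [IsCyclotomicExtension {p} ℚ K]
    [IsGalois ℚ L] [IsGalois K L] (hfin : Module.finrank K L = p)
    (hunr : FA_S14_Unramified K L)
    (heqv : ∀ (τ : L ≃ₐ[ℚ] L) (g : L ≃ₐ[K] L) (ζ : K) (a : ℕ), IsPrimitiveRoot ζ p →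
      τ (algebraMap K L ζ) = (algebraMap K L ζ) ^ a →
      ∀ x : L, τ ((g ^ a) (τ.symm x)) = g x)
    (P : Ideal (𝓞 L)) [P.IsPrime] (hP : P ≠ ⊥) {g : L ≃ₐ[K] L}
    (hg : IsArithFrobAt (𝓞 K) g P) (hg1 : g ≠ 1) :
    (Ideal.absNorm (P.under (𝓞 K))).Prime ∧ Ideal.absNorm (P.under (𝓞 K)) ≠ p := by
  have hGal : IsGalois ℚ K := IsCyclotomicExtension.isGalois {p} ℚ K
  have hp0 : P.under (𝓞 K) ≠ ⊥ := fun h' => hP (Ideal.eq_bot_of_comap_eq_bot h')
  have hstab := FA_S14_rec_stab_trivial hp hfin hunr heqv P hP hg hg1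
  exact ⟨FA_S14_rec_absNorm_prime _ hp0 hstab, FA_S14_rec_absNorm_ne hp hp2 _ hstab⟩

end Fermat.Agent.S14
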