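import Mathlib
import Fermat.Agent.S14.Rec1
import Fermat.Agent.S14.CrossDefs

/-!
# S14, REC assembly, part 2: reciprocity from CROSS, INEQ1 and DENS

`FA_S14_rec_of_cross : FA_S14_Target_Cross → FA_S14_Target_Ineq1 → FA_S14_Target_Dens →
  FA_S14_Target_Rec`.
-/

set_option autoImplicit false
set_option linter.unusedSectionVars false

open scoped NumberField Pointwise nonZeroDivisors
open IsDedekindDomain

namespace Fermat.Agent.S14

/-- Induction on nonzero ideals of a Dedekind domain. -/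
theorem FA_S14_rec_ideal_induction {R : Type} [CommRing R] [IsDedekindDomain R]
    (S : Ideal R → Prop) (h1 : S ⊤)
    (hmul : ∀ I J : Ideal R, I ≠ ⊥ → J ≠ ⊥ → S I → S J → S (I * J))
    (hprime : ∀ 𝔭 : Ideal R, 𝔭.IsPrime → 𝔭 ≠ ⊥ → S 𝔭) (I : Ideal R) (hI : I ≠ ⊥) : S I := by
  suffices h : I ≠ ⊥ ∧ S I from h.2
  rw [← Ideal.prod_normalizedFactors_eq_self hI]
  refine Multiset.prod_induction (fun J : Ideal R => J ≠ ⊥ ∧ S J) _ ?_ ?_ ?_
  · rintro a b ⟨ha, ha'⟩ ⟨hb, hb'⟩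
    exact ⟨mul_ne_zero ha hb, hmul a b ha hb ha' hb'⟩
  · exact ⟨one_ne_zero, by rw [Ideal.one_eq_top]; exact h1⟩
  · intro Q hQ
    have hQ0 : Q ≠ ⊥ := UniqueFactorizationMonoid.ne_zero_of_mem_normalizedFactors hQ
    rw [Ideal.mem_normalizedFactors_iff hI] at hQ
    exact ⟨hQ0, hprime Q hQ.1 hQ0⟩

/-- In a group of prime order every element is a power of a given nontrivial element. -/
theorem FA_S14_rec_cyclic {G : Type} [Group G] {p : ℕ} (hp : p.Prime) (hcard : Nat.card G = p)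
    {σ₀ : G} (hσ₀ : σ₀ ≠ 1) (g : G) : ∃ u : ℕ, g = σ₀ ^ u := by
  have : Fact p.Prime := ⟨hp⟩
  have : Finite G := Nat.finite_of_card_ne_zero (by rw [hcard]; exact hp.ne_zero)
  have htop := zpowers_eq_top_of_prime_card hcard hσ₀
  have hg : g ∈ Subgroup.zpowers σ₀ := by rw [htop]; exact Subgroup.mem_top g
  rw [← mem_powers_iff_mem_zpowers] at hg
  obtain ⟨u, hu⟩ := hg
  exact ⟨u, hu.symm⟩

section setting

variable {K L : Type} [Field K] [Field L] [NumberField K] [NumberField L] [Algebra K L]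
  [IsGalois K L]

/-- The class of a nonzero ideal. -/
noncomputable def FA_S14_rec_cls (I : Ideal (𝓞 K)) (hI : I ≠ ⊥) : ClassGroup (𝓞 K) :=
  ClassGroup.mk0 ⟨I, mem_nonZeroDivisors_of_ne_zero hI⟩

theorem FA_S14_rec_cls_mul {I J : Ideal (𝓞 K)} (hI : I ≠ ⊥) (hJ : J ≠ ⊥) :
    FA_S14_rec_cls (I * J) (mul_ne_zero hI hJ) = FA_S14_rec_cls I hI * FA_S14_rec_cls J hJ := by
  unfold FA_S14_rec_cls
  rw [← map_mul]
  rfl

theorem FA_S14_rec_cls_top : FA_S14_rec_cls (⊤ : Ideal (𝓞 K)) top_ne_bot = 1 := by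
  unfold FA_S14_rec_cls
  rw [ClassGroup.mk0_eq_one_iff]
  exact ⟨⟨1, by simp⟩⟩

/-- The class of the relative norm of a nonzero ideal lies in the norm classes. -/
theorem FA_S14_rec_relNorm_mem (J : Ideal (𝓞 L)) (hJ : J ≠ ⊥)
    (h : Ideal.relNorm (𝓞 K) J ≠ ⊥) :
    FA_S14_rec_cls (Ideal.relNorm (𝓞 K) J) h ∈ FA_S14_normClasses K L := by
  apply Subgroup.subset_closure
  exact ⟨J, ⟨Ideal.relNorm (𝓞 K) J, mem_nonZeroDivisors_of_ne_zero h⟩, hJ, rfl, rfl⟩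

/-- `p`-th powers of classes are norm classes. -/
theorem FA_S14_rec_pow_mem {p : ℕ} (hfin : Module.finrank K L = p) (I : Ideal (𝓞 K))
    (hI : I ≠ ⊥) : FA_S14_rec_cls I hI ^ p ∈ FA_S14_normClasses K L := by
  have h1 : Ideal.relNorm (𝓞 K) (Ideal.map (algebraMap (𝓞 K) (𝓞 L)) I) = I ^ p := by
    rw [Ideal.relNorm_algebraMap, ← IsFractionRing.finrank_eq (𝓞 K) K (𝓞 L) L, hfin]
  have h0 : Ideal.map (algebraMap (𝓞 K) (𝓞 L)) I ≠ ⊥ := by
    intro h
    rw [h, Ideal.relNorm_bot] at h1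
    exact pow_ne_zero p hI h1.symm
  have h2 := FA_S14_rec_relNorm_mem (K := K) _ h0 (by rw [h1]; exact pow_ne_zero p hI)
  convert h2 using 1
  unfold FA_S14_rec_cls
  rw [← map_pow]
  congr 1
  exact Subtype.ext h1.symm

/-- A prime with trivial Frobenius is a norm. -/
theorem FA_S14_rec_split_mem (P : Ideal (𝓞 L)) [P.IsPrime] (hP : P ≠ ⊥)
    (hg : IsArithFrobAt (𝓞 K) (1 : L ≃ₐ[K] L) P) (h0 : P.under (𝓞 K) ≠ ⊥) :
    FA_S14_rec_cls (P.under (𝓞 K)) h0 ∈ FA_S14_normClasses K L := by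
  have hf := FA_S14_final_inertiaDeg_eq_one P hP hg
  have hPmax : P.IsMaximal := Ring.DimensionLEOne.maximalOfPrime hP inferInstance
  have hpmax : (P.under (𝓞 K)).IsMaximal := Ideal.IsMaximal.under (𝓞 K) P
  have h1 : Ideal.relNorm (𝓞 K) P = P.under (𝓞 K) := by
    rw [Ideal.relNorm_eq_pow_of_isMaximal P (P.under (𝓞 K)), hf, pow_one]
  have h2 := FA_S14_rec_relNorm_mem (K := K) P hP (by rw [h1]; exact h0)
  convert h2 using 1
  unfold FA_S14_rec_cls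
  congr 1
  exact Subtype.ext h1.symm

/-- DENS: a prime with nontrivial Frobenius outside a finite set. -/
theorem FA_S14_rec_exists_inert (hD : FA_S14_Target_Dens) {p : ℕ} (hp : p.Prime)
    (hfin : Module.finrank K L = p) (hunr : FA_S14_Unramified K L)
    (T : Finset (Ideal (𝓞 K))) :
    ∃ (P : Ideal (𝓞 L)) (g : L ≃ₐ[K] L), P.IsPrime ∧ P ≠ ⊥ ∧ IsArithFrobAt (𝓞 K) g P ∧
      g ≠ 1 ∧ P.under (𝓞 K) ∉ T := by
  have hne1 : Module.finrank K L ≠ 1 := by rw [hfin]; exact hp.one_lt.ne'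
  have hnot : ¬ (∀ 𝔭 : Ideal (𝓞 K), 𝔭.IsPrime → 𝔭 ≠ ⊥ → (Ideal.absNorm 𝔭).Prime → 𝔭 ∉ T →
      FA_S14_SplitsCompletely K L 𝔭) := fun h => hne1 (hD K L T h)
  push Not at hnot
  obtain ⟨𝔮, h𝔮p, h𝔮0, h𝔮N, h𝔮T, hns⟩ := hnot
  unfold FA_S14_SplitsCompletely at hns
  push Not at hns
  obtain ⟨P, hPp, hPu, hPef⟩ := hns
  have hP0 : P ≠ ⊥ := by
    rintro rfl
    apply h𝔮0
    rw [← hPu]
    exact Ideal.under_bot (𝓞 K) (𝓞 L)
  have hf : P.inertiaDeg (𝓞 K) ≠ 1 := hPef (hunr P hPp hP0)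
  obtain ⟨g, hg⟩ := FA_S14_art_frob_exists (F := K) P hP0
  refine ⟨P, g, hPp, hP0, hg, ?_, by rw [hPu]; exact h𝔮T⟩
  rintro rfl
  exact hf (FA_S14_final_inertiaDeg_eq_one P hP0 hg)

end setting

/-- Computation in the quotient by the norm classes. -/
theorem FA_S14_rec_quot {A : Type} [CommGroup A] (H : Subgroup A) {x y : A} {u p : ℕ}
    (hp : 0 < p) (h1 : x * y ^ (u * (p - 1)) ∈ H) (h2 : y ^ p ∈ H) :
    (QuotientGroup.mk x : A ⧸ H) = (QuotientGroup.mk y : A ⧸ H) ^ u := by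
  have e1 : (QuotientGroup.mk x : A ⧸ H) * (QuotientGroup.mk y : A ⧸ H) ^ (u * (p - 1)) = 1 := by
    rw [← QuotientGroup.mk_pow, ← QuotientGroup.mk_mul]
    exact (QuotientGroup.eq_one_iff _).2 h1
  have e2 : (QuotientGroup.mk y : A ⧸ H) ^ p = 1 := by
    rw [← QuotientGroup.mk_pow]
    exact (QuotientGroup.eq_one_iff _).2 h2
  have e3 : u * p = u * (p - 1) + u := by
    have : p = (p - 1) + 1 := by omega
    conv_lhs => rw [this]
    ring
  calc (QuotientGroup.mk x : A ⧸ H)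
      = (QuotientGroup.mk x : A ⧸ H) * ((QuotientGroup.mk y : A ⧸ H) ^ p) ^ u := by
        rw [e2, one_pow, mul_one]
    _ = (QuotientGroup.mk x : A ⧸ H) * (QuotientGroup.mk y : A ⧸ H) ^ (u * (p - 1))
          * (QuotientGroup.mk y : A ⧸ H) ^ u := by
        rw [← pow_mul, mul_comm p u, e3, pow_add, mul_assoc]
    _ = (QuotientGroup.mk y : A ⧸ H) ^ u := by rw [e1, one_mul]

end Fermat.Agent.S14
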