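import Mathlib
import Fermat.Agent.S14.Rec2

/-!
# S14, REC assembly, part 3: `FA_S14_rec_of_cross`

`FA_S14_rec_of_cross : FA_S14_Target_Cross → FA_S14_Target_Ineq1 → FA_S14_Target_Dens →
  FA_S14_Target_Rec`.
-/

set_option autoImplicit false
set_option linter.unusedSectionVars false

open scoped NumberField Pointwise nonZeroDivisors
open IsDedekindDomain

namespace Fermat.Agent.S14

/-- The class of a prime, in the two notations. -/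
theorem FA_S14_rec_primeClass_eq {K : Type} [Field K] [NumberField K]
    (v : HeightOneSpectrum (𝓞 K)) :
    FA_S14_primeClass K v = FA_S14_rec_cls v.asIdeal v.ne_bot := rfl

/-- **CROSS in quotient form**: for two primes with nontrivial Frobenius and different residue
characteristics, `[𝔮] ≡ [𝔮₀] ^ u` modulo the norm classes if `Frob_𝔮 = Frob_𝔮₀ ^ u`. -/
theorem FA_S14_rec_cross_quot (hC : FA_S14_Target_Cross) {p : ℕ} (hp : p.Prime) (h3 : 3 ≤ p)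
    {K L : Type} [Field K] [Field L] [NumberField K] [NumberField L] [Algebra K L]
    [IsCyclotomicExtension {p} ℚ K] [IsGalois ℚ L] [IsGalois K L]
    (hfin : Module.finrank K L = p) (hunr : FA_S14_Unramified K L)
    (heqv : ∀ (τ : L ≃ₐ[ℚ] L) (g : L ≃ₐ[K] L) (ζ : K) (a : ℕ), IsPrimitiveRoot ζ p →
      τ (algebraMap K L ζ) = (algebraMap K L ζ) ^ a →
      ∀ x : L, τ ((g ^ a) (τ.symm x)) = g x)
    (P P₀ : Ideal (𝓞 L)) [P.IsPrime] [P₀.IsPrime] (hP : P ≠ ⊥) (hP₀ : P₀ ≠ ⊥)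
    {σ σ₀ : L ≃ₐ[K] L} (hσ : IsArithFrobAt (𝓞 K) σ P) (hσ₀ : IsArithFrobAt (𝓞 K) σ₀ P₀)
    (hσ1 : σ ≠ 1) (hσ₀1 : σ₀ ≠ 1) (u : ℕ) (hu : σ = σ₀ ^ u)
    (hne : Ideal.absNorm (P.under (𝓞 K)) ≠ Ideal.absNorm (P₀.under (𝓞 K)))
    (h0 : P.under (𝓞 K) ≠ ⊥) (h00 : P₀.under (𝓞 K) ≠ ⊥) :
    (QuotientGroup.mk (FA_S14_rec_cls (P.under (𝓞 K)) h0) :
        ClassGroup (𝓞 K) ⧸ FA_S14_normClasses K L) =
      (QuotientGroup.mk (FA_S14_rec_cls (P₀.under (𝓞 K)) h00) :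
        ClassGroup (𝓞 K) ⧸ FA_S14_normClasses K L) ^ u := by
  have hp2 : p ≠ 2 := by omega
  obtain ⟨hq, hqp⟩ := FA_S14_rec_eqv hp hp2 hfin hunr heqv P hP hσ hσ1
  obtain ⟨hq₀, hq₀p⟩ := FA_S14_rec_eqv hp hp2 hfin hunr heqv P₀ hP₀ hσ₀ hσ₀1
  let v : HeightOneSpectrum (𝓞 K) := ⟨P.under (𝓞 K), inferInstance, h0⟩
  let v₀ : HeightOneSpectrum (𝓞 K) := ⟨P₀.under (𝓞 K), inferInstance, h00⟩
  have key := hC p hp h3 K L hfin hunr v v₀ P P₀ σ σ₀ u inferInstance inferInstance rfl rfl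
    hσ hσ₀ hσ₀1 hu hq hq₀ hne hqp hq₀p
  rw [FA_S14_rec_primeClass_eq, FA_S14_rec_primeClass_eq] at key
  exact FA_S14_rec_quot _ hp.pos key (FA_S14_rec_pow_mem hfin _ h00)

/-- **REC** from CROSS, INEQ1 and DENS. -/
theorem FA_S14_rec_of_cross (hC : FA_S14_Target_Cross) (hI1 : FA_S14_Target_Ineq1)
    (hD : FA_S14_Target_Dens) : FA_S14_Target_Rec := by
  intro p hp h3 K L _ _ _ _ _ _ _ _ hfin hunr heqv l hl hprin
  have hp2 : p ≠ 2 := by omega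
  have hcomm := FA_S14_art_comm_of_finrank (F := K) (M := L) hp hfin
  refine FA_S14_rec_of_artin hcomm hunr ?_ l hl hprin
  -- two reference primes
  obtain ⟨P₀, σ₀, hP₀p, hP₀0, hσ₀, hσ₀1, -⟩ := FA_S14_rec_exists_inert hD hp hfin hunr ∅
  have h00 : P₀.under (𝓞 K) ≠ ⊥ := fun h' => hP₀0 (Ideal.eq_bot_of_comap_eq_bot h')
  let T₁ : Finset (Ideal (𝓞 K)) :=
    (Ideal.finite_setOfPred_absNorm_eq (S := 𝓞 K) (Ideal.absNorm (P₀.under (𝓞 K)))).toFinset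
  obtain ⟨P₁, σ₁, hP₁p, hP₁0, hσ₁, hσ₁1, hT₁⟩ := FA_S14_rec_exists_inert hD hp hfin hunr T₁
  have h10 : P₁.under (𝓞 K) ≠ ⊥ := fun h' => hP₁0 (Ideal.eq_bot_of_comap_eq_bot h')
  have hq10 : Ideal.absNorm (P₁.under (𝓞 K)) ≠ Ideal.absNorm (P₀.under (𝓞 K)) := by
    intro h
    apply hT₁
    simp only [T₁, Set.Finite.mem_toFinset, Set.mem_ofPred_eq]
    exact h
  have hcard : Nat.card (L ≃ₐ[K] L) = p := by rw [IsGalois.card_aut_eq_finrank, hfin]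
  obtain ⟨u₁, hu₁⟩ := FA_S14_rec_cyclic hp hcard hσ₀1 σ₁
  have hc10 := FA_S14_rec_cross_quot hC hp h3 hfin hunr heqv P₁ P₀ hP₁0 hP₀0 hσ₁ hσ₀ hσ₁1 hσ₀1
    u₁ hu₁ hq10 h10 h00
  set H := FA_S14_normClasses K L with hH
  set c₀ : ClassGroup (𝓞 K) ⧸ H := QuotientGroup.mk (FA_S14_rec_cls (P₀.under (𝓞 K)) h00)
    with hc₀
  have hc₀p : c₀ ^ p = 1 := by
    rw [hc₀, ← QuotientGroup.mk_pow]
    exact (QuotientGroup.eq_one_iff _).2 (FA_S14_rec_pow_mem hfin _ h00)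
  have hσ₀p : σ₀ ^ p = 1 := by
    rw [← hcard]
    exact pow_card_eq_one'
  -- the statement for primes
  have hprime : ∀ 𝔭 : Ideal (𝓞 K), 𝔭.IsPrime → ∀ h𝔭 : 𝔭 ≠ ⊥, ∃ u : ℕ,
      FA_S14_artin K L 𝔭 = (Abelianization.of σ₀) ^ u ∧
      (QuotientGroup.mk (FA_S14_rec_cls 𝔭 h𝔭) : ClassGroup (𝓞 K) ⧸ H) = c₀ ^ u := by
    intro 𝔭 h𝔭p h𝔭
    obtain ⟨P, -, hPp, hPu⟩ := Ideal.exists_ideal_over_prime_of_isIntegral 𝔭 (⊥ : Ideal (𝓞 L))
      (by simp)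
    have hPu' : P.under (𝓞 K) = 𝔭 := hPu
    subst hPu'
    have hP0 : P ≠ ⊥ := by
      rintro rfl
      exact h𝔭 (Ideal.under_bot (𝓞 K) (𝓞 L))
    obtain ⟨g, hg⟩ := FA_S14_art_frob_exists (F := K) P hP0
    have hart := FA_S14_artin_under P hP0 (hunr P hPp hP0) hg
    by_cases hg1 : g = 1
    · subst hg1
      refine ⟨0, by rw [hart, map_one, pow_zero], ?_⟩
      rw [pow_zero]
      exact (QuotientGroup.eq_one_iff _).2 (FA_S14_rec_split_mem P hP0 hg h𝔭)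
    · by_cases hq : Ideal.absNorm (P.under (𝓞 K)) = Ideal.absNorm (P₀.under (𝓞 K))
      · -- go through the second reference prime
        have hq1 : Ideal.absNorm (P.under (𝓞 K)) ≠ Ideal.absNorm (P₁.under (𝓞 K)) := by
          rw [hq]
          exact hq10.symm
        obtain ⟨u', hu'⟩ := FA_S14_rec_cyclic hp hcard hσ₁1 g
        have h1 := FA_S14_rec_cross_quot hC hp h3 hfin hunr heqv P P₁ hP0 hP₁0 hg hσ₁ hg1 hσ₁1
          u' hu' hq1 h𝔭 h10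
        refine ⟨u₁ * u', ?_, ?_⟩
        · rw [hart, hu', hu₁, ← pow_mul, map_pow]
        · rw [h1, hc10, ← pow_mul]
      · obtain ⟨u, hu⟩ := FA_S14_rec_cyclic hp hcard hσ₀1 g
        have h1 := FA_S14_rec_cross_quot hC hp h3 hfin hunr heqv P P₀ hP0 hP₀0 hg hσ₀ hg1 hσ₀1
          u hu hq h𝔭 h00
        exact ⟨u, by rw [hart, hu, map_pow], h1⟩
  -- the statement for all nonzero ideals
  have hall : ∀ I : Ideal (𝓞 K), I ≠ ⊥ → ∃ (hI : I ≠ ⊥) (u : ℕ),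
      FA_S14_artin K L I = (Abelianization.of σ₀) ^ u ∧
      (QuotientGroup.mk (FA_S14_rec_cls I hI) : ClassGroup (𝓞 K) ⧸ H) = c₀ ^ u := by
    intro I hI
    refine FA_S14_rec_ideal_induction (fun I => ∃ (hI : I ≠ ⊥) (u : ℕ),
      FA_S14_artin K L I = (Abelianization.of σ₀) ^ u ∧
      (QuotientGroup.mk (FA_S14_rec_cls I hI) : ClassGroup (𝓞 K) ⧸ H) = c₀ ^ u) ?_ ?_ ?_ I hI
    · refine ⟨top_ne_bot, 0, by rw [FA_S14_artin_top, pow_zero], ?_⟩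
      rw [FA_S14_rec_cls_top, pow_zero]
      rfl
    · rintro I J hI hJ ⟨hI', u, h1, h2⟩ ⟨hJ', w, h3, h4⟩
      refine ⟨mul_ne_zero hI hJ, u + w, ?_, ?_⟩
      · rw [FA_S14_artin_mul hI hJ, h1, h3, pow_add]
      · rw [FA_S14_rec_cls_mul hI hJ, QuotientGroup.mk_mul, h2, h4, pow_add]
    · intro 𝔭 h𝔭p h𝔭
      obtain ⟨u, h1, h2⟩ := hprime 𝔭 h𝔭p h𝔭
      exact ⟨h𝔭, u, h1, h2⟩
  -- principal ideals
  intro α hα
  have hI : (Ideal.span {α} : Ideal (𝓞 K)) ≠ ⊥ := by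
    rw [Ne, Ideal.span_singleton_eq_bot]
    exact hα
  obtain ⟨hI', u, h1, h2⟩ := hall _ hI
  have hcls : FA_S14_rec_cls (Ideal.span {α}) hI = 1 := by
    unfold FA_S14_rec_cls
    rw [ClassGroup.mk0_eq_one_iff]
    exact ⟨⟨α, rfl⟩⟩
  rw [hcls, QuotientGroup.mk_one] at h2
  by_contra hne
  have hpu : ¬ p ∣ u := by
    rintro ⟨k, rfl⟩
    apply hne
    rw [h1, ← map_pow, pow_mul, hσ₀p, one_pow, map_one]
  have hcop : Nat.Coprime u p := (Nat.Coprime.symm ((Nat.Prime.coprime_iff_not_dvd hp).2 hpu))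
  have hc₀1 : c₀ = 1 := by
    have := pow_gcd_eq_one.2 ⟨h2.symm, hc₀p⟩
    rwa [hcop.gcd_eq_one, pow_one] at this
  apply hI1 p hp hp2 K L hfin hunr
  rw [eq_top_iff]
  intro c _
  obtain ⟨I, rfl⟩ := ClassGroup.mk0_surjective c
  have hI0 : (I : Ideal (𝓞 K)) ≠ ⊥ := nonZeroDivisors.coe_ne_zero I
  obtain ⟨hI0', w, -, h4⟩ := hall _ hI0
  rw [hc₀1, one_pow] at h4
  exact (QuotientGroup.eq_one_iff _).1 h4

end Fermat.Agent.S14
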