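import Fermat.Statements.S14
import Fermat.Agent.S14.Glue
import Fermat.Agent.S14.Final
import Fermat.Agent.S14.Rec3
import Fermat.Agent.S14.Dens6
import Fermat.Agent.S14.Stick
import Fermat.Agent.S14.Ineq1

/-!
# S14: everything except CROSS

`FA_S14_main : FA_S14_Target_Cross → ExtCitation.ExtVanishingCts p` for every prime `p ≥ 3`.
-/

set_option autoImplicit false

namespace Fermat.Agent.S14

/-- The core theorem, given CROSS. -/
theorem FA_S14_core_of_cross (hC : FA_S14_Target_Cross) : FA_S14_Target_Core :=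
  FA_S14_core_of FA_S14_dens FA_S14_Stick (FA_S14_rec_of_cross hC FA_S14_Ineq1 FA_S14_dens)

/-- `ExtVanishingCts p` for `p ≥ 3`, given CROSS. -/
theorem FA_S14_main (hC : FA_S14_Target_Cross) {p : ℕ} [Fact p.Prime] (h3 : 3 ≤ p) :
    ExtCitation.ExtVanishingCts p :=
  FA_S14_glue (FA_S14_core_of_cross hC) h3

end Fermat.Agent.S14
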