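import Mathlib

/-!
# S14, leaf DENS, part 1: the Dedekind zeta function on the real half-line `s > 1`

Real-valued version `FA_S14_dens_Z K s` of `NumberField.dedekindZeta K s`, comparison with
finite sums of `N(I)^(-s)` over ideals, and the behaviour for `s → 1⁺`.
-/

set_option autoImplicit false
set_option linter.unusedSectionVars false

open scoped NumberField
open NumberField Filter Topology Asymptotics

namespace Fermat.Agent.S14

noncomputable section

variable (K : Type) [Field K] [NumberField K]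

/-- The weight `N(I)^(-s)` of an ideal. -/
def FA_S14_dens_w (s : ℝ) (I : Ideal (𝓞 K)) : ℝ := ((Ideal.absNorm I : ℕ) : ℝ) ^ (-s)

/-- The number of ideals of norm `n`, as a real number. -/
def FA_S14_dens_a (n : ℕ) : ℝ := (Nat.card {I : Ideal (𝓞 K) // Ideal.absNorm I = n} : ℝ)

/-- The `n`-th term of the Dirichlet series of the Dedekind zeta function at a real point. -/
def FA_S14_dens_term (s : ℝ) (n : ℕ) : ℝ :=
  if n = 0 then 0 else FA_S14_dens_a K n * (n : ℝ) ^ (-s)

/-- The Dedekind zeta function at a real point. -/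
def FA_S14_dens_Z (s : ℝ) : ℝ := ∑' n, FA_S14_dens_term K s n

variable {K}

theorem FA_S14_dens_w_nonneg (s : ℝ) (I : Ideal (𝓞 K)) : 0 ≤ FA_S14_dens_w K s I :=
  Real.rpow_nonneg (Nat.cast_nonneg _) _

theorem FA_S14_dens_w_bot {s : ℝ} (hs : s ≠ 0) : FA_S14_dens_w K s ⊥ = 0 := by
  simp [FA_S14_dens_w, Real.zero_rpow (neg_ne_zero.mpr hs)]

theorem FA_S14_dens_w_top (s : ℝ) : FA_S14_dens_w K s ⊤ = 1 := by
  simp [FA_S14_dens_w]

theorem FA_S14_dens_w_mul (s : ℝ) (I J : Ideal (𝓞 K)) :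
    FA_S14_dens_w K s (I * J) = FA_S14_dens_w K s I * FA_S14_dens_w K s J := by
  simp only [FA_S14_dens_w, map_mul, Nat.cast_mul]
  exact Real.mul_rpow (Nat.cast_nonneg _) (Nat.cast_nonneg _)

/-- `I ↦ N(I)^(-s)` as a monoid homomorphism. -/
def FA_S14_dens_wHom (s : ℝ) : Ideal (𝓞 K) →* ℝ where
  toFun := FA_S14_dens_w K s
  map_one' := by rw [Ideal.one_eq_top]; exact FA_S14_dens_w_top s
  map_mul' := FA_S14_dens_w_mul s

theorem FA_S14_dens_wHom_apply (s : ℝ) (I : Ideal (𝓞 K)) :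
    FA_S14_dens_wHom s I = FA_S14_dens_w K s I := rfl

theorem FA_S14_dens_a_nonneg (n : ℕ) : 0 ≤ FA_S14_dens_a K n := Nat.cast_nonneg _

theorem FA_S14_dens_term_nonneg (s : ℝ) (n : ℕ) : 0 ≤ FA_S14_dens_term K s n := by
  unfold FA_S14_dens_term
  split_ifs
  · exact le_rfl
  · exact mul_nonneg (FA_S14_dens_a_nonneg n) (Real.rpow_nonneg (Nat.cast_nonneg _) _)

theorem FA_S14_dens_term_eq (s : ℝ) (n : ℕ) :
    LSeries.term (fun n ↦ (Nat.card {I : Ideal (𝓞 K) // Ideal.absNorm I = n} : ℂ)) (s : ℂ) n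
      = ((FA_S14_dens_term K s n : ℝ) : ℂ) := by
  rw [LSeries.term_def, FA_S14_dens_term]
  split_ifs with h
  · simp
  · rw [FA_S14_dens_a, Real.rpow_neg (Nat.cast_nonneg _), div_eq_mul_inv]
    push_cast
    rw [Complex.ofReal_cpow (Nat.cast_nonneg _)]
    simp

theorem FA_S14_dens_lsummable {s : ℝ} (hs : 1 < s) :
    LSeriesSummable (fun n ↦ (Nat.card {I : Ideal (𝓞 K) // Ideal.absNorm I = n} : ℂ)) (s : ℂ) := by
  have h := LSeriesSummable_of_sum_norm_bigO_and_nonneg (r := 1) (s := (s : ℂ))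
    (f := fun n ↦ (Nat.card {I : Ideal (𝓞 K) // Ideal.absNorm I = n} : ℝ)) ?_
    (fun _ ↦ Nat.cast_nonneg _) zero_le_one (by simpa using hs)
  · simpa using h
  · refine isBigO_atTop_natCast_rpow_of_tendsto_div_rpow (𝕜 := ℝ)
      (a := NumberField.dedekindZeta_residue K) ?_
    simp only [Real.rpow_one]
    refine ((Ideal.tendsto_norm_le_div_atTop₀ K).comp tendsto_natCast_atTop_atTop).congr fun n ↦ ?_
    simp only [Function.comp_apply, Nat.cast_le, ← Nat.cast_sum]
    congr
    rw [← add_left_inj 1, ← Ideal.card_norm_le_eq_card_norm_le_add_one,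
      show Finset.Icc 1 n = Finset.Ioc 0 n from Finset.Icc_succ_left_eq_Ioc _ _,
      show 1 = Nat.card {I : Ideal (𝓞 K) // Ideal.absNorm I = 0} by
        simp [Ideal.absNorm_eq_zero_iff],
      Finset.sum_Ioc_add_eq_sum_Icc (n.zero_le),
      ← Finset.card_preimage_eq_sum_card_image_eq
        (fun k _ ↦ Ideal.finite_setOfPred_absNorm_eq k)]
    simp [Set.coe_eq_subtype]

theorem FA_S14_dens_summable {s : ℝ} (hs : 1 < s) : Summable (FA_S14_dens_term K s) := by
  have h := FA_S14_dens_lsummable (K := K) hs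
  unfold LSeriesSummable at h
  rw [funext (FA_S14_dens_term_eq (K := K) s)] at h
  exact Complex.summable_ofReal.mp h

theorem FA_S14_dens_Z_eq (s : ℝ) :
    NumberField.dedekindZeta K (s : ℂ) = ((FA_S14_dens_Z K s : ℝ) : ℂ) := by
  unfold NumberField.dedekindZeta LSeries FA_S14_dens_Z
  rw [Complex.ofReal_tsum]
  exact tsum_congr (FA_S14_dens_term_eq s)

theorem FA_S14_dens_Z_nonneg (s : ℝ) : 0 ≤ FA_S14_dens_Z K s :=
  tsum_nonneg (FA_S14_dens_term_nonneg s)

variable (K) in
theorem FA_S14_dens_tendsto :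
    Tendsto (fun s : ℝ ↦ (s - 1) * FA_S14_dens_Z K s) (𝓝[>] 1)
      (𝓝 (NumberField.dedekindZeta_residue K)) := by
  have h := NumberField.tendsto_sub_one_mul_dedekindZeta_nhdsGT K
  have h2 := (Complex.continuous_re.tendsto _).comp h
  simp only [Complex.ofReal_re] at h2
  refine h2.congr fun s ↦ ?_
  simp only [Function.comp_apply]
  rw [FA_S14_dens_Z_eq, ← Complex.ofReal_one, ← Complex.ofReal_sub, ← Complex.ofReal_mul,
    Complex.ofReal_re]

end

end Fermat.Agent.S14
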