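import Fermat.Agent.S14.Dens1

/-!
# S14, leaf DENS, part 2: finite sums over ideals versus the Dedekind zeta function
-/

set_option autoImplicit false
set_option linter.unusedSectionVars false

open scoped NumberField
open NumberField Filter Topology Asymptotics

namespace Fermat.Agent.S14

noncomputable section

variable {K : Type} [Field K] [NumberField K]

open Classical in
theorem FA_S14_dens_card_fiber_le (𝒮 : Finset (Ideal (𝓞 K))) (n : ℕ) :
    (((𝒮.filter (fun I => Ideal.absNorm I = n)).card : ℕ) : ℝ) ≤ FA_S14_dens_a K n := by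
  unfold FA_S14_dens_a
  have hfin : {I : Ideal (𝓞 K) | Ideal.absNorm I = n}.Finite := Ideal.finite_setOfPred_absNorm_eq n
  have h1 : Nat.card {I : Ideal (𝓞 K) // Ideal.absNorm I = n} = hfin.toFinset.card := by
    rw [← Nat.card_eq_card_finite_toFinset hfin]
    rfl
  rw [h1]
  exact_mod_cast Finset.card_le_card (fun I hI => by
    simp only [Finset.mem_filter] at hI
    simpa using hI.2)

open Classical in
/-- A finite sum of `N(I)^(-s)` over nonzero ideals is at most `ζ_K(s)`. -/
theorem FA_S14_dens_sum_le_Z {s : ℝ} (hs : 1 < s) (𝒮 : Finset (Ideal (𝓞 K)))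
    (h𝒮 : ∀ I ∈ 𝒮, I ≠ ⊥) :
    ∑ I ∈ 𝒮, FA_S14_dens_w K s I ≤ FA_S14_dens_Z K s := by
  set t := 𝒮.image (fun I => Ideal.absNorm I) with ht
  have h0 : (0 : ℕ) ∉ t := by
    intro h
    obtain ⟨I, hI, hI0⟩ := Finset.mem_image.mp h
    exact h𝒮 I hI (Ideal.absNorm_eq_zero_iff.mp hI0)
  calc ∑ I ∈ 𝒮, FA_S14_dens_w K s I
      = ∑ n ∈ t, ∑ I ∈ 𝒮 with Ideal.absNorm I = n, FA_S14_dens_w K s I :=
        (Finset.sum_fiberwise_of_maps_to (fun I hI => Finset.mem_image_of_mem _ hI) _).symm
    _ ≤ ∑ n ∈ t, FA_S14_dens_term K s n := by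
        refine Finset.sum_le_sum fun n hn => ?_
        have hn0 : n ≠ 0 := fun h => h0 (h ▸ hn)
        rw [FA_S14_dens_term, if_neg hn0]
        have : ∑ I ∈ 𝒮 with Ideal.absNorm I = n, FA_S14_dens_w K s I
            = ((𝒮.filter (fun I => Ideal.absNorm I = n)).card : ℝ) * (n : ℝ) ^ (-s) := by
          rw [Finset.sum_congr rfl (g := fun _ => (n : ℝ) ^ (-s))]
          · simp
          · intro I hI
            rw [FA_S14_dens_w, (Finset.mem_filter.mp hI).2]
        rw [this]
        exact mul_le_mul_of_nonneg_right (FA_S14_dens_card_fiber_le 𝒮 n)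
          (Real.rpow_nonneg (Nat.cast_nonneg _) _)
    _ ≤ FA_S14_dens_Z K s :=
        (FA_S14_dens_summable hs).sum_le_tsum _ (fun n _ => FA_S14_dens_term_nonneg s n)

variable (K) in
/-- The finite set of ideals of norm at most `N` (including `⊥`). -/
def FA_S14_dens_ball (N : ℕ) : Finset (Ideal (𝓞 K)) :=
  (Ideal.finite_setOfPred_absNorm_le (S := 𝓞 K) N).toFinset

theorem FA_S14_dens_mem_ball {N : ℕ} {I : Ideal (𝓞 K)} :
    I ∈ FA_S14_dens_ball K N ↔ Ideal.absNorm I ≤ N := by
  simp [FA_S14_dens_ball]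

open Classical in
/-- The partial sums of the Dirichlet series are sums over ideals of bounded norm. -/
theorem FA_S14_dens_range_eq {s : ℝ} (hs : 1 < s) (N : ℕ) :
    ∑ n ∈ Finset.range (N + 1), FA_S14_dens_term K s n
      = ∑ I ∈ FA_S14_dens_ball K N, FA_S14_dens_w K s I := by
  have hmaps : ∀ I ∈ FA_S14_dens_ball K N, Ideal.absNorm I ∈ Finset.range (N + 1) := by
    intro I hI
    rw [Finset.mem_range, Nat.lt_succ_iff]
    exact FA_S14_dens_mem_ball.mp hI
  rw [← Finset.sum_fiberwise_of_maps_to hmaps]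
  refine Finset.sum_congr rfl fun n hn => ?_
  have hnN : n ≤ N := Nat.lt_succ_iff.mp (Finset.mem_range.mp hn)
  have hsum : ∑ I ∈ FA_S14_dens_ball K N with Ideal.absNorm I = n, FA_S14_dens_w K s I
      = (((FA_S14_dens_ball K N).filter (fun I => Ideal.absNorm I = n)).card : ℝ)
          * (n : ℝ) ^ (-s) := by
    rw [Finset.sum_congr rfl (g := fun _ => (n : ℝ) ^ (-s))]
    · simp
    · intro I hI
      rw [FA_S14_dens_w, (Finset.mem_filter.mp hI).2]
  rw [hsum, FA_S14_dens_term]
  split_ifs with h0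
  · subst h0
    simp [Real.zero_rpow (neg_ne_zero.mpr (by linarith : s ≠ 0))]
  · congr 1
    unfold FA_S14_dens_a
    have hfin : {I : Ideal (𝓞 K) | Ideal.absNorm I = n}.Finite :=
      Ideal.finite_setOfPred_absNorm_eq n
    have h1 : Nat.card {I : Ideal (𝓞 K) // Ideal.absNorm I = n} = hfin.toFinset.card := by
      rw [← Nat.card_eq_card_finite_toFinset hfin]
      rfl
    rw [h1]
    congr 1
    congr 1
    ext I
    simp only [Finset.mem_filter, FA_S14_dens_mem_ball, Set.Finite.mem_toFinset, Set.mem_ofPred_eq]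
    constructor
    · intro h; exact ⟨h ▸ hnN, h⟩
    · intro h; exact h.2

/-- If all sums over ideals of bounded norm are at most `B` then `ζ_K(s) ≤ B`. -/
theorem FA_S14_dens_Z_le {s : ℝ} (hs : 1 < s) (B : ℝ)
    (h : ∀ N, ∑ I ∈ FA_S14_dens_ball K N, FA_S14_dens_w K s I ≤ B) :
    FA_S14_dens_Z K s ≤ B := by
  refine Real.tsum_le_of_sum_range_le (FA_S14_dens_term_nonneg s) fun n => ?_
  refine le_trans ?_ ((FA_S14_dens_range_eq hs n).le.trans (h n))
  exact Finset.sum_le_sum_of_subset_of_nonneg (Finset.range_mono (Nat.le_succ n))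
    (fun i _ _ => FA_S14_dens_term_nonneg s i)

end

end Fermat.Agent.S14
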