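import Fermat.Agent.S14.Dens2

/-!
# S14, leaf DENS, part 3: unique factorisation of ideals and truncated Euler products
-/

set_option autoImplicit false
set_option linter.unusedSectionVars false

open scoped NumberField
open NumberField Filter Topology UniqueFactorizationMonoid

namespace Fermat.Agent.S14

noncomputable section

variable {K : Type} [Field K] [NumberField K]

/-- The ideal `∏ 𝔭 ^ v 𝔭` attached to an exponent vector on a finite set of primes. -/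
def FA_S14_dens_ev (F : Finset (Ideal (𝓞 K))) (v : ↥F → ℕ) : Ideal (𝓞 K) :=
  ∏ 𝔭 : ↥F, (𝔭 : Ideal (𝓞 K)) ^ v 𝔭

/-- The multiset of prime factors attached to an exponent vector. -/
def FA_S14_dens_ms (F : Finset (Ideal (𝓞 K))) (v : ↥F → ℕ) : Multiset (Ideal (𝓞 K)) :=
  ∑ 𝔭 : ↥F, v 𝔭 • ({(𝔭 : Ideal (𝓞 K))} : Multiset (Ideal (𝓞 K)))

theorem FA_S14_dens_ms_prod (F : Finset (Ideal (𝓞 K))) (v : ↥F → ℕ) :
    (FA_S14_dens_ms F v).prod = FA_S14_dens_ev F v := by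
  unfold FA_S14_dens_ms FA_S14_dens_ev
  rw [Multiset.prod_sum]
  refine Finset.prod_congr rfl fun 𝔭 _ => ?_
  rw [Multiset.prod_nsmul, Multiset.prod_singleton]

theorem FA_S14_dens_ms_mem (F : Finset (Ideal (𝓞 K))) (v : ↥F → ℕ) (𝔮 : Ideal (𝓞 K))
    (h : 𝔮 ∈ FA_S14_dens_ms F v) : 𝔮 ∈ F := by
  unfold FA_S14_dens_ms at h
  rw [Multiset.mem_sum] at h
  obtain ⟨𝔭, -, h𝔭⟩ := h
  have := Multiset.mem_of_mem_nsmul h𝔭
  rw [Multiset.mem_singleton] at this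
  rw [this]
  exact 𝔭.2

open Classical in
theorem FA_S14_dens_ms_count (F : Finset (Ideal (𝓞 K))) (v : ↥F → ℕ) (𝔮 : ↥F) :
    Multiset.count (𝔮 : Ideal (𝓞 K)) (FA_S14_dens_ms F v) = v 𝔮 := by
  unfold FA_S14_dens_ms
  rw [Multiset.count_sum']
  rw [Finset.sum_eq_single 𝔮]
  · simp
  · intro 𝔭 _ h𝔭
    rw [Multiset.count_nsmul, Multiset.count_singleton, if_neg, mul_zero]
    intro h
    exact h𝔭 (Subtype.ext h.symm)
  · intro h
    exact absurd (Finset.mem_univ _) h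

theorem FA_S14_dens_ev_factors (F : Finset (Ideal (𝓞 K)))
    (hF : ∀ 𝔭 ∈ F, 𝔭.IsPrime ∧ 𝔭 ≠ ⊥) (v : ↥F → ℕ) :
    normalizedFactors (FA_S14_dens_ev F v) = FA_S14_dens_ms F v := by
  rw [← FA_S14_dens_ms_prod]
  refine normalizedFactors_prod_of_prime fun 𝔮 h𝔮 => ?_
  have := hF 𝔮 (FA_S14_dens_ms_mem F v 𝔮 h𝔮)
  exact Ideal.prime_of_isPrime this.2 this.1

theorem FA_S14_dens_ev_injective (F : Finset (Ideal (𝓞 K)))
    (hF : ∀ 𝔭 ∈ F, 𝔭.IsPrime ∧ 𝔭 ≠ ⊥) : Function.Injective (FA_S14_dens_ev F) := by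
  classical
  intro v v' h
  funext 𝔮
  rw [← FA_S14_dens_ms_count F v 𝔮, ← FA_S14_dens_ms_count F v' 𝔮,
    ← FA_S14_dens_ev_factors F hF v, ← FA_S14_dens_ev_factors F hF v', h]

theorem FA_S14_dens_ev_ne_bot (F : Finset (Ideal (𝓞 K)))
    (hF : ∀ 𝔭 ∈ F, 𝔭.IsPrime ∧ 𝔭 ≠ ⊥) (v : ↥F → ℕ) : FA_S14_dens_ev F v ≠ ⊥ := by
  unfold FA_S14_dens_ev
  rw [← Ideal.zero_eq_bot, Finset.prod_ne_zero_iff]
  intro 𝔭 _
  exact pow_ne_zero _ (hF 𝔭 𝔭.2).2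

theorem FA_S14_dens_w_ev (s : ℝ) (F : Finset (Ideal (𝓞 K))) (v : ↥F → ℕ) :
    FA_S14_dens_w K s (FA_S14_dens_ev F v)
      = ∏ 𝔭 : ↥F, FA_S14_dens_w K s (𝔭 : Ideal (𝓞 K)) ^ v 𝔭 := by
  unfold FA_S14_dens_ev
  rw [← FA_S14_dens_wHom_apply, map_prod]
  refine Finset.prod_congr rfl fun 𝔭 _ => ?_
  rw [map_pow, FA_S14_dens_wHom_apply]

/-- The truncated Euler product as a sum over exponent vectors. -/
theorem FA_S14_dens_euler_eq (s : ℝ) (F : Finset (Ideal (𝓞 K))) (M : ℕ) :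
    ∏ 𝔭 ∈ F, ∑ k ∈ Finset.range (M + 1), FA_S14_dens_w K s 𝔭 ^ k
      = ∑ v ∈ Fintype.piFinset (fun _ : ↥F => Finset.range (M + 1)),
          FA_S14_dens_w K s (FA_S14_dens_ev F v) := by
  classical
  rw [← Finset.prod_coe_sort F (fun 𝔭 => ∑ k ∈ Finset.range (M + 1), FA_S14_dens_w K s 𝔭 ^ k)]
  rw [Finset.prod_univ_sum]
  refine Finset.sum_congr rfl fun v _ => ?_
  rw [FA_S14_dens_w_ev]

/-- **Upper bound**: every truncated Euler product over finitely many primes is at most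
`ζ_K(s)`. -/
theorem FA_S14_dens_euler_le_Z {s : ℝ} (hs : 1 < s) (F : Finset (Ideal (𝓞 K)))
    (hF : ∀ 𝔭 ∈ F, 𝔭.IsPrime ∧ 𝔭 ≠ ⊥) (M : ℕ) :
    ∏ 𝔭 ∈ F, ∑ k ∈ Finset.range (M + 1), FA_S14_dens_w K s 𝔭 ^ k ≤ FA_S14_dens_Z K s := by
  classical
  rw [FA_S14_dens_euler_eq]
  rw [← Finset.sum_image (f := FA_S14_dens_w K s) (g := FA_S14_dens_ev F)
    ((FA_S14_dens_ev_injective F hF).injOn)]
  refine FA_S14_dens_sum_le_Z hs _ fun I hI => ?_
  obtain ⟨v, -, rfl⟩ := Finset.mem_image.mp hI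
  exact FA_S14_dens_ev_ne_bot F hF v

variable (K) in
/-- The finite set of nonzero primes of norm at most `N`. -/
def FA_S14_dens_primes (N : ℕ) : Finset (Ideal (𝓞 K)) :=
  open Classical in (FA_S14_dens_ball K N).filter (fun 𝔭 => 𝔭.IsPrime ∧ 𝔭 ≠ ⊥)

theorem FA_S14_dens_mem_primes {N : ℕ} {𝔭 : Ideal (𝓞 K)} :
    𝔭 ∈ FA_S14_dens_primes K N ↔ Ideal.absNorm 𝔭 ≤ N ∧ 𝔭.IsPrime ∧ 𝔭 ≠ ⊥ := by
  classical
  simp [FA_S14_dens_primes, FA_S14_dens_mem_ball]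

theorem FA_S14_dens_primes_spec (N : ℕ) :
    ∀ 𝔭 ∈ FA_S14_dens_primes K N, 𝔭.IsPrime ∧ 𝔭 ≠ ⊥ :=
  fun _ h => (FA_S14_dens_mem_primes.mp h).2

theorem FA_S14_dens_two_le_absNorm {𝔭 : Ideal (𝓞 K)} (h1 : 𝔭.IsPrime) (h2 : 𝔭 ≠ ⊥) :
    2 ≤ Ideal.absNorm 𝔭 := by
  have h0 : Ideal.absNorm 𝔭 ≠ 0 := fun h => h2 (Ideal.absNorm_eq_zero_iff.mp h)
  have h1' : Ideal.absNorm 𝔭 ≠ 1 := fun h => h1.ne_top (Ideal.absNorm_eq_one_iff.mp h)
  omega

/-- Every nonzero ideal of norm at most `N` is `∏ 𝔭 ^ v 𝔭` with `𝔭` of norm at most `N` and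
`v 𝔭 ≤ N`. -/
theorem FA_S14_dens_exists_ev (N : ℕ) (I : Ideal (𝓞 K)) (hI : I ≠ ⊥)
    (hN : Ideal.absNorm I ≤ N) :
    ∃ v ∈ Fintype.piFinset (fun _ : ↥(FA_S14_dens_primes K N) => Finset.range (N + 1)),
      FA_S14_dens_ev (FA_S14_dens_primes K N) v = I := by
  classical
  have hI0 : Ideal.absNorm I ≠ 0 := fun h => hI (Ideal.absNorm_eq_zero_iff.mp h)
  refine ⟨fun 𝔭 => Multiset.count (𝔭 : Ideal (𝓞 K)) (normalizedFactors I), ?_, ?_⟩
  · rw [Fintype.mem_piFinset]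
    intro 𝔭
    rw [Finset.mem_range, Nat.lt_succ_iff]
    set c := Multiset.count (𝔭 : Ideal (𝓞 K)) (normalizedFactors I) with hc
    have hdvd : (𝔭 : Ideal (𝓞 K)) ^ c ∣ I := by
      have h1 : Multiset.replicate c (𝔭 : Ideal (𝓞 K)) ≤ normalizedFactors I :=
        Multiset.le_count_iff_replicate_le.mp le_rfl
      have h2 := Multiset.prod_dvd_prod_of_le h1
      rwa [Multiset.prod_replicate, Ideal.prod_normalizedFactors_eq_self hI] at h2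
    have h3 : Ideal.absNorm ((𝔭 : Ideal (𝓞 K)) ^ c) ∣ Ideal.absNorm I :=
      Ideal.absNorm_dvd_absNorm_of_le (Ideal.dvd_iff_le.mp hdvd)
    rw [map_pow] at h3
    have h4 := Nat.le_of_dvd (Nat.pos_of_ne_zero hI0) h3
    have hspec := FA_S14_dens_primes_spec N (𝔭 : Ideal (𝓞 K)) 𝔭.2
    have h5 : 2 ≤ Ideal.absNorm (𝔭 : Ideal (𝓞 K)) :=
      FA_S14_dens_two_le_absNorm hspec.1 hspec.2
    have h6 : 2 ^ c ≤ Ideal.absNorm (𝔭 : Ideal (𝓞 K)) ^ c := Nat.pow_le_pow_left h5 c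
    have h7 : c < 2 ^ c := Nat.lt_two_pow_self
    omega
  · unfold FA_S14_dens_ev
    rw [Finset.prod_coe_sort (FA_S14_dens_primes K N)
      (fun 𝔭 => 𝔭 ^ Multiset.count 𝔭 (normalizedFactors I))]
    conv_rhs => rw [← Ideal.prod_normalizedFactors_eq_self hI, Finset.prod_multiset_count]
    symm
    refine Finset.prod_subset ?_ ?_
    · intro 𝔭 h𝔭
      rw [Multiset.mem_toFinset] at h𝔭
      have hp := prime_of_normalized_factor 𝔭 h𝔭
      have hdvd := dvd_of_mem_normalizedFactors h𝔭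
      rw [FA_S14_dens_mem_primes]
      refine ⟨?_, Ideal.isPrime_of_prime hp, hp.ne_zero⟩
      exact (Nat.le_of_dvd (Nat.pos_of_ne_zero hI0)
        (Ideal.absNorm_dvd_absNorm_of_le (Ideal.dvd_iff_le.mp hdvd))).trans hN
    · intro 𝔭 _ h𝔭
      rw [Multiset.mem_toFinset] at h𝔭
      rw [Multiset.count_eq_zero_of_notMem h𝔭, pow_zero]

/-- **Lower bound**: the sum of `N(I)^(-s)` over the ideals of norm at most `N` is at most the
truncated Euler product over the primes of norm at most `N`. -/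
theorem FA_S14_dens_ball_le_euler {s : ℝ} (hs : 1 < s) (N : ℕ) :
    ∑ I ∈ FA_S14_dens_ball K N, FA_S14_dens_w K s I
      ≤ ∏ 𝔭 ∈ FA_S14_dens_primes K N,
          ∑ k ∈ Finset.range (N + 1), FA_S14_dens_w K s 𝔭 ^ k := by
  classical
  rw [FA_S14_dens_euler_eq]
  rw [← Finset.sum_image (f := FA_S14_dens_w K s) (g := FA_S14_dens_ev (FA_S14_dens_primes K N))
    ((FA_S14_dens_ev_injective _ (FA_S14_dens_primes_spec N)).injOn)]
  have hsplit : ∑ I ∈ FA_S14_dens_ball K N, FA_S14_dens_w K s I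
      = ∑ I ∈ (FA_S14_dens_ball K N).filter (fun I => I ≠ ⊥), FA_S14_dens_w K s I := by
    rw [Finset.sum_filter]
    refine Finset.sum_congr rfl fun I _ => ?_
    split_ifs with h
    · rfl
    · rw [not_not.mp h]
      exact FA_S14_dens_w_bot (by linarith)
  rw [hsplit]
  refine Finset.sum_le_sum_of_subset_of_nonneg ?_ (fun I _ _ => FA_S14_dens_w_nonneg s I)
  intro I hI
  rw [Finset.mem_filter, FA_S14_dens_mem_ball] at hI
  obtain ⟨v, hv, rfl⟩ := FA_S14_dens_exists_ev N I hI.2 hI.1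
  exact Finset.mem_image_of_mem _ hv

end

end Fermat.Agent.S14
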