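import Fermat.Agent.S14.Dens3

/-!
# S14, leaf DENS, part 4: primes of higher degree contribute a bounded amount
-/

set_option autoImplicit false
set_option linter.unusedSectionVars false
set_option linter.style.haveILetI false
set_option linter.unusedVariables false

open scoped NumberField
open NumberField Filter Topology

namespace Fermat.Agent.S14

noncomputable section

variable {K : Type} [Field K] [NumberField K]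

/-- The rational prime below a prime ideal. -/
def FA_S14_dens_pi (𝔭 : Ideal (𝓞 K)) : ℕ := Ideal.absNorm (𝔭.under ℤ)

theorem FA_S14_dens_pi_prime {𝔭 : Ideal (𝓞 K)} (h1 : 𝔭.IsPrime) (h2 : 𝔭 ≠ ⊥) :
    (FA_S14_dens_pi 𝔭).Prime := by
  haveI : NeZero 𝔭 := ⟨h2⟩
  exact Nat.absNorm_under_prime 𝔭

theorem FA_S14_dens_pi_pow {𝔭 : Ideal (𝓞 K)} (h1 : 𝔭.IsPrime) :
    FA_S14_dens_pi 𝔭 ^ 𝔭.inertiaDeg ℤ = Ideal.absNorm 𝔭 :=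
  Ideal.absNorm_pow_inertiaDeg (𝔭.under ℤ) 𝔭

theorem FA_S14_dens_pi_le {𝔭 : Ideal (𝓞 K)} (h1 : 𝔭.IsPrime) (h2 : 𝔭 ≠ ⊥) :
    FA_S14_dens_pi 𝔭 ≤ Ideal.absNorm 𝔭 := by
  rw [← FA_S14_dens_pi_pow h1]
  exact Nat.le_self_pow (Ideal.inertiaDeg_pos 𝔭 ℤ).ne' _

theorem FA_S14_dens_pi_sq_le {𝔭 : Ideal (𝓞 K)} (h1 : 𝔭.IsPrime) (h2 : 𝔭 ≠ ⊥)
    (h3 : ¬ (Ideal.absNorm 𝔭).Prime) :
    FA_S14_dens_pi 𝔭 ^ 2 ≤ Ideal.absNorm 𝔭 := by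
  have hp := FA_S14_dens_pi_prime h1 h2
  have hf := Ideal.inertiaDeg_pos 𝔭 ℤ
  have hf2 : 2 ≤ 𝔭.inertiaDeg ℤ := by
    by_contra hlt
    have hf1 : 𝔭.inertiaDeg ℤ = 1 := by omega
    have := FA_S14_dens_pi_pow h1
    rw [hf1, pow_one] at this
    exact h3 (this ▸ hp)
  rw [← FA_S14_dens_pi_pow h1]
  exact Nat.pow_le_pow_right hp.pos hf2

theorem FA_S14_dens_under_eq (𝔭 : Ideal (𝓞 K)) :
    𝔭.under ℤ = Ideal.span {((FA_S14_dens_pi 𝔭 : ℕ) : ℤ)} :=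
  (Int.ideal_span_absNorm_eq_self _).symm

open Classical in
/-- At most `[K : ℚ]` primes of `K` lie over a given rational prime. -/
theorem FA_S14_dens_card_fiber_pi (F : Finset (Ideal (𝓞 K)))
    (hF : ∀ 𝔭 ∈ F, 𝔭.IsPrime ∧ 𝔭 ≠ ⊥) (p : ℕ) :
    (F.filter (fun 𝔭 => FA_S14_dens_pi 𝔭 = p)).card ≤ Module.finrank ℚ K := by
  rcases (F.filter (fun 𝔭 => FA_S14_dens_pi 𝔭 = p)).eq_empty_or_nonempty with h | ⟨𝔭₀, h𝔭₀⟩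
  · rw [h]; simp
  rw [Finset.mem_filter] at h𝔭₀
  have hp : p.Prime := h𝔭₀.2 ▸ FA_S14_dens_pi_prime (hF _ h𝔭₀.1).1 (hF _ h𝔭₀.1).2
  set P : Ideal ℤ := Ideal.span {((p : ℕ) : ℤ)} with hP
  haveI hPprime : P.IsPrime := by
    rw [hP, Ideal.span_singleton_prime (by exact_mod_cast hp.ne_zero)]
    exact Nat.prime_iff_prime_int.mp hp
  letI : Fintype (P.primesOver (𝓞 K)) := (Algebra.QuasiFinite.finite_primesOver P).fintype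
  have hsum := Ideal.sum_ramification_inertia_eq_finrank P (𝓞 K)
  rw [RingOfIntegers.rank K] at hsum
  have hmem : ∀ 𝔭 ∈ F.filter (fun 𝔭 => FA_S14_dens_pi 𝔭 = p), 𝔭 ∈ P.primesOver (𝓞 K) := by
    intro 𝔭 h𝔭
    rw [Finset.mem_filter] at h𝔭
    refine ⟨(hF _ h𝔭.1).1, ⟨?_⟩⟩
    rw [hP, ← h𝔭.2]
    exact (FA_S14_dens_under_eq 𝔭).symm
  have hcard : (F.filter (fun 𝔭 => FA_S14_dens_pi 𝔭 = p)).card
      ≤ (Finset.univ : Finset (P.primesOver (𝓞 K))).card := by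
    refine Finset.card_le_card_of_injOn
      (fun 𝔭 => if h : 𝔭 ∈ P.primesOver (𝓞 K) then ⟨𝔭, h⟩ else ⟨𝔭₀, hmem 𝔭₀ (by
        rw [Finset.mem_filter]; exact h𝔭₀)⟩) (fun _ _ => Finset.mem_univ _) ?_
    intro 𝔭 h𝔭 𝔮 h𝔮 heq
    simp only [Finset.coe_filter, Set.mem_ofPred_eq] at h𝔭 h𝔮
    have h1 := hmem 𝔭 (Finset.mem_filter.mpr h𝔭)
    have h2 := hmem 𝔮 (Finset.mem_filter.mpr h𝔮)
    simp only [dif_pos h1, dif_pos h2] at heq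
    exact congrArg Subtype.val heq
  refine hcard.trans ?_
  rw [← hsum, Finset.card_eq_sum_ones]
  refine Finset.sum_le_sum fun q _ => ?_
  haveI := q.2.1
  exact Nat.one_le_iff_ne_zero.mpr (Nat.mul_ne_zero (Ideal.ramificationIdx_pos q.1 ℤ).ne'
    (Ideal.inertiaDeg_pos q.1 ℤ).ne')

open Classical in
/-- `∑ 1 / π(𝔭)²` over any finite set of nonzero primes is at most `2 [K : ℚ]`. -/
theorem FA_S14_dens_sum_inv_sq (F : Finset (Ideal (𝓞 K)))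
    (hF : ∀ 𝔭 ∈ F, 𝔭.IsPrime ∧ 𝔭 ≠ ⊥) :
    ∑ 𝔭 ∈ F, (((FA_S14_dens_pi 𝔭 : ℕ) : ℝ) ^ 2)⁻¹ ≤ 2 * (Module.finrank ℚ K : ℝ) := by
  set B := F.sup FA_S14_dens_pi with hB
  have hmaps : ∀ 𝔭 ∈ F, FA_S14_dens_pi 𝔭 ∈ Finset.Ioo 0 (B + 1) := by
    intro 𝔭 h𝔭
    rw [Finset.mem_Ioo]
    exact ⟨(FA_S14_dens_pi_prime (hF _ h𝔭).1 (hF _ h𝔭).2).pos,
      Nat.lt_succ_of_le (Finset.le_sup h𝔭)⟩
  rw [← Finset.sum_fiberwise_of_maps_to hmaps]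
  calc ∑ p ∈ Finset.Ioo 0 (B + 1), ∑ 𝔭 ∈ F with FA_S14_dens_pi 𝔭 = p,
          (((FA_S14_dens_pi 𝔭 : ℕ) : ℝ) ^ 2)⁻¹
      = ∑ p ∈ Finset.Ioo 0 (B + 1),
          ((F.filter (fun 𝔭 => FA_S14_dens_pi 𝔭 = p)).card : ℝ) * (((p : ℕ) : ℝ) ^ 2)⁻¹ := by
        refine Finset.sum_congr rfl fun p _ => ?_
        rw [Finset.sum_congr rfl (g := fun _ => (((p : ℕ) : ℝ) ^ 2)⁻¹)]
        · simp
        · intro 𝔭 h𝔭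
          rw [(Finset.mem_filter.mp h𝔭).2]
    _ ≤ ∑ p ∈ Finset.Ioo 0 (B + 1), (Module.finrank ℚ K : ℝ) * (((p : ℕ) : ℝ) ^ 2)⁻¹ := by
        refine Finset.sum_le_sum fun p _ => ?_
        refine mul_le_mul_of_nonneg_right ?_ (by positivity)
        exact_mod_cast FA_S14_dens_card_fiber_pi F hF p
    _ = (Module.finrank ℚ K : ℝ) * ∑ p ∈ Finset.Ioo 0 (B + 1), (((p : ℕ) : ℝ) ^ 2)⁻¹ := by
        rw [Finset.mul_sum]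
    _ ≤ (Module.finrank ℚ K : ℝ) * 2 := by
        refine mul_le_mul_of_nonneg_left ?_ (Nat.cast_nonneg _)
        have := sum_Ioo_inv_sq_le (α := ℝ) 0 (B + 1)
        simpa using this
    _ = 2 * (Module.finrank ℚ K : ℝ) := mul_comm _ _

/-- `N(𝔭)^(-s) ≤ 1 / N(𝔭)` for `s ≥ 1`. -/
theorem FA_S14_dens_w_le_inv {s : ℝ} (hs : 1 ≤ s) {𝔭 : Ideal (𝓞 K)} (h2 : 𝔭 ≠ ⊥) :
    FA_S14_dens_w K s 𝔭 ≤ ((Ideal.absNorm 𝔭 : ℕ) : ℝ)⁻¹ := by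
  have h0 : Ideal.absNorm 𝔭 ≠ 0 := fun h => h2 (Ideal.absNorm_eq_zero_iff.mp h)
  have h1 : (1 : ℝ) ≤ ((Ideal.absNorm 𝔭 : ℕ) : ℝ) := by
    exact_mod_cast Nat.one_le_iff_ne_zero.mpr h0
  unfold FA_S14_dens_w
  calc ((Ideal.absNorm 𝔭 : ℕ) : ℝ) ^ (-s) ≤ ((Ideal.absNorm 𝔭 : ℕ) : ℝ) ^ (-1 : ℝ) :=
        Real.rpow_le_rpow_of_exponent_le h1 (by linarith)
    _ = ((Ideal.absNorm 𝔭 : ℕ) : ℝ)⁻¹ := Real.rpow_neg_one _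

theorem FA_S14_dens_w_le_half {s : ℝ} (hs : 1 ≤ s) {𝔭 : Ideal (𝓞 K)} (h1 : 𝔭.IsPrime)
    (h2 : 𝔭 ≠ ⊥) : FA_S14_dens_w K s 𝔭 ≤ 1 / 2 := by
  refine (FA_S14_dens_w_le_inv hs h2).trans ?_
  have h := FA_S14_dens_two_le_absNorm h1 h2
  have h' : (2 : ℝ) ≤ ((Ideal.absNorm 𝔭 : ℕ) : ℝ) := by exact_mod_cast h
  rw [one_div]
  exact inv_anti₀ (by norm_num) h'

theorem FA_S14_dens_w_sq_le {s : ℝ} (hs : 1 ≤ s) {𝔭 : Ideal (𝓞 K)} (h1 : 𝔭.IsPrime)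
    (h2 : 𝔭 ≠ ⊥) :
    FA_S14_dens_w K s 𝔭 ^ 2 ≤ (((FA_S14_dens_pi 𝔭 : ℕ) : ℝ) ^ 2)⁻¹ := by
  have hp := (FA_S14_dens_pi_prime h1 h2).pos
  have hp' : (0 : ℝ) < ((FA_S14_dens_pi 𝔭 : ℕ) : ℝ) := by exact_mod_cast hp
  have hle : ((FA_S14_dens_pi 𝔭 : ℕ) : ℝ) ≤ ((Ideal.absNorm 𝔭 : ℕ) : ℝ) := by
    exact_mod_cast FA_S14_dens_pi_le h1 h2
  have h3 : FA_S14_dens_w K s 𝔭 ≤ (((FA_S14_dens_pi 𝔭 : ℕ) : ℝ))⁻¹ :=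
    (FA_S14_dens_w_le_inv hs h2).trans (inv_anti₀ hp' hle)
  rw [← inv_pow]
  exact pow_le_pow_left₀ (FA_S14_dens_w_nonneg s 𝔭) h3 2

theorem FA_S14_dens_w_le_of_not_prime {s : ℝ} (hs : 1 ≤ s) {𝔭 : Ideal (𝓞 K)} (h1 : 𝔭.IsPrime)
    (h2 : 𝔭 ≠ ⊥) (h3 : ¬ (Ideal.absNorm 𝔭).Prime) :
    FA_S14_dens_w K s 𝔭 ≤ (((FA_S14_dens_pi 𝔭 : ℕ) : ℝ) ^ 2)⁻¹ := by
  have hp := (FA_S14_dens_pi_prime h1 h2).pos
  have hp' : (0 : ℝ) < ((FA_S14_dens_pi 𝔭 : ℕ) : ℝ) ^ 2 := by positivity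
  have hle : ((FA_S14_dens_pi 𝔭 : ℕ) : ℝ) ^ 2 ≤ ((Ideal.absNorm 𝔭 : ℕ) : ℝ) := by
    exact_mod_cast FA_S14_dens_pi_sq_le h1 h2 h3
  exact (FA_S14_dens_w_le_inv hs h2).trans (inv_anti₀ hp' hle)

end

end Fermat.Agent.S14
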