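import Fermat.Agent.S14.Dens4
import Fermat.Agent.S14.Interface

/-!
# S14, leaf DENS, part 5: the two sides of the comparison and the splitting count
-/

set_option autoImplicit false
set_option linter.unusedSectionVars false
set_option linter.style.haveILetI false
set_option linter.unusedVariables false

open scoped NumberField
open NumberField Filter Topology

namespace Fermat.Agent.S14

noncomputable section

theorem FA_S14_dens_geom_le {x : ℝ} (hx0 : 0 ≤ x) (hx : x ≤ 1 / 2) (n : ℕ) :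
    ∑ k ∈ Finset.range n, x ^ k ≤ 1 + x + 2 * x ^ 2 := by
  induction n with
  | zero => simp; positivity
  | succ n ih =>
    rw [geom_sum_succ]
    nlinarith [mul_le_mul_of_nonneg_left ih hx0, mul_nonneg hx0 hx0,
      mul_nonneg (mul_nonneg hx0 hx0) (sub_nonneg.mpr hx)]

theorem FA_S14_dens_geom_le_exp {x : ℝ} (hx0 : 0 ≤ x) (hx : x ≤ 1 / 2) (n : ℕ) :
    ∑ k ∈ Finset.range n, x ^ k ≤ Real.exp (x + 2 * x ^ 2) := by
  refine (FA_S14_dens_geom_le hx0 hx n).trans ?_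
  have := Real.add_one_le_exp (x + 2 * x ^ 2)
  linarith

theorem FA_S14_dens_exp_le_geom {y : ℝ} (hy0 : 0 ≤ y) (hy : y ≤ 1) :
    Real.exp y ≤ ∑ k ∈ Finset.range (2 + 1), y ^ k := by
  have h := Real.abs_exp_sub_one_sub_id_le (x := y) (by rw [abs_of_nonneg hy0]; exact hy)
  have h2 := (abs_le.mp h).2
  simp only [Finset.sum_range_succ, Finset.sum_range_zero, pow_zero, pow_one, zero_add]
  linarith

variable {K : Type} [Field K] [NumberField K]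

/-- **`L`-side**: `exp (∑_{𝔓 ∈ G} N𝔓^{-s}) ≤ ζ(s)` for every finite set `G` of nonzero primes. -/
theorem FA_S14_dens_exp_sum_le_Z {s : ℝ} (hs : 1 < s) (G : Finset (Ideal (𝓞 K)))
    (hG : ∀ 𝔓 ∈ G, 𝔓.IsPrime ∧ 𝔓 ≠ ⊥) :
    Real.exp (∑ 𝔓 ∈ G, FA_S14_dens_w K s 𝔓) ≤ FA_S14_dens_Z K s := by
  rw [Real.exp_sum]
  refine le_trans ?_ (FA_S14_dens_euler_le_Z hs G hG 2)
  refine Finset.prod_le_prod (fun 𝔓 _ => (Real.exp_pos _).le) fun 𝔓 h𝔓 => ?_
  refine FA_S14_dens_exp_le_geom (FA_S14_dens_w_nonneg s 𝔓) ?_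
  exact (FA_S14_dens_w_le_half hs.le (hG 𝔓 h𝔓).1 (hG 𝔓 h𝔓).2).trans (by norm_num)

open Classical in
/-- **`K`-side**: the partial sums of `ζ_K(s)` are bounded by the exponential of the sum of
`N𝔭^{-s}` over the primes of degree one outside `T`, up to a constant. -/
theorem FA_S14_dens_ball_le_exp {s : ℝ} (hs : 1 < s) (T : Finset (Ideal (𝓞 K))) (N : ℕ) :
    ∑ I ∈ FA_S14_dens_ball K N, FA_S14_dens_w K s I
      ≤ Real.exp (∑ 𝔭 ∈ (FA_S14_dens_primes K N).filter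
            (fun 𝔭 => (Ideal.absNorm 𝔭).Prime ∧ 𝔭 ∉ T), FA_S14_dens_w K s 𝔭
          + ((T.card : ℝ) + 6 * (Module.finrank ℚ K : ℝ))) := by
  set P := FA_S14_dens_primes K N with hP
  have hPspec := FA_S14_dens_primes_spec (K := K) N
  refine (FA_S14_dens_ball_le_euler hs N).trans ?_
  have h1 : ∏ 𝔭 ∈ P, ∑ k ∈ Finset.range (N + 1), FA_S14_dens_w K s 𝔭 ^ k
      ≤ ∏ 𝔭 ∈ P, Real.exp (FA_S14_dens_w K s 𝔭 + 2 * FA_S14_dens_w K s 𝔭 ^ 2) := by
    refine Finset.prod_le_prod (fun 𝔭 _ => Finset.sum_nonneg fun k _ =>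
      pow_nonneg (FA_S14_dens_w_nonneg s 𝔭) k) fun 𝔭 h𝔭 => ?_
    exact FA_S14_dens_geom_le_exp (FA_S14_dens_w_nonneg s 𝔭)
      (FA_S14_dens_w_le_half hs.le (hPspec 𝔭 h𝔭).1 (hPspec 𝔭 h𝔭).2) _
  refine h1.trans ?_
  rw [← Real.exp_sum]
  refine Real.exp_le_exp.mpr ?_
  have hpt : ∀ 𝔭 ∈ P, FA_S14_dens_w K s 𝔭 + 2 * FA_S14_dens_w K s 𝔭 ^ 2
      ≤ (if (Ideal.absNorm 𝔭).Prime ∧ 𝔭 ∉ T then FA_S14_dens_w K s 𝔭 else 0)
        + (if 𝔭 ∈ T then 1 else 0)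
        + 3 * (((FA_S14_dens_pi 𝔭 : ℕ) : ℝ) ^ 2)⁻¹ := by
    intro 𝔭 h𝔭
    have hp1 := (hPspec 𝔭 h𝔭).1
    have hp2 := (hPspec 𝔭 h𝔭).2
    have hsq := FA_S14_dens_w_sq_le hs.le hp1 hp2
    have hw0 := FA_S14_dens_w_nonneg s 𝔭
    have hhalf := FA_S14_dens_w_le_half hs.le hp1 hp2
    have hinv0 : (0 : ℝ) ≤ (((FA_S14_dens_pi 𝔭 : ℕ) : ℝ) ^ 2)⁻¹ := by positivity
    by_cases hD : (Ideal.absNorm 𝔭).Prime ∧ 𝔭 ∉ T
    · rw [if_pos hD]
      have : (0 : ℝ) ≤ (if 𝔭 ∈ T then (1 : ℝ) else 0) := by split_ifs <;> norm_num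
      linarith
    · rw [if_neg hD]
      by_cases hT : 𝔭 ∈ T
      · rw [if_pos hT]
        linarith
      · rw [if_neg hT]
        have hnp : ¬ (Ideal.absNorm 𝔭).Prime := fun h => hD ⟨h, hT⟩
        have := FA_S14_dens_w_le_of_not_prime hs.le hp1 hp2 hnp
        linarith
  refine (Finset.sum_le_sum hpt).trans ?_
  rw [Finset.sum_add_distrib, Finset.sum_add_distrib, ← Finset.sum_filter, ← Finset.mul_sum]
  have hT : ∑ 𝔭 ∈ P, (if 𝔭 ∈ T then (1 : ℝ) else 0) ≤ (T.card : ℝ) := by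
    rw [← Finset.sum_filter, Finset.sum_const, nsmul_eq_mul, mul_one]
    exact_mod_cast Finset.card_le_card (fun 𝔭 h => (Finset.mem_filter.mp h).2)
  have hsq := FA_S14_dens_sum_inv_sq P hPspec
  linarith

end

end Fermat.Agent.S14
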