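import Mathlib

/-!
# S14, leaf INEQ1, abstract part

* `FA_S14_ineq1_classMap`: a multiplicative map on ideals which preserves nonzero and principal
  ideals induces a homomorphism of class groups.
* `FA_S14_ineq1_count`: the counting argument
  (`|B| ≤ |A^s| ≤ u · |j B|`, `|ker j| ≥ w ≥ p u`).
-/

set_option autoImplicit false

open scoped nonZeroDivisors

namespace Fermat.Agent.S14

/-- A monoid homomorphism on ideals preserving nonzero ideals and principal ideals induces a
homomorphism of class groups. -/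
theorem FA_S14_ineq1_classMap {R S : Type*} [CommRing R] [IsDedekindDomain R]
    [CommRing S] [IsDedekindDomain S]
    (Φ : Ideal R →* Ideal S) (h0 : ∀ I : Ideal R, I ≠ ⊥ → Φ I ≠ ⊥)
    (hprin : ∀ x : R, x ≠ 0 → (Φ (Ideal.span {x})).IsPrincipal) :
    ∃ g : ClassGroup R →* ClassGroup S, ∀ (I : (Ideal R)⁰) (J : (Ideal S)⁰),
      (J : Ideal S) = Φ I → g (ClassGroup.mk0 I) = ClassGroup.mk0 J := by
  classical
  have hmem : ∀ I : (Ideal R)⁰, Φ (I : Ideal R) ∈ (Ideal S)⁰ := fun I =>
    mem_nonZeroDivisors_iff_ne_zero.2 (h0 _ (mem_nonZeroDivisors_iff_ne_zero.1 I.2))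
  let f : (Ideal R)⁰ →* ClassGroup S :=
    { toFun := fun I => ClassGroup.mk0 ⟨Φ (I : Ideal R), hmem I⟩
      map_one' := by
        have : (⟨Φ ((1 : (Ideal R)⁰) : Ideal R), hmem 1⟩ : (Ideal S)⁰) = 1 := by
          apply Subtype.ext
          show Φ (1 : Ideal R) = 1
          exact map_one Φ
        rw [this, map_one]
      map_mul' := fun I J => by
        have : (⟨Φ ((I * J : (Ideal R)⁰) : Ideal R), hmem (I * J)⟩ : (Ideal S)⁰)
            = ⟨Φ (I : Ideal R), hmem I⟩ * ⟨Φ (J : Ideal R), hmem J⟩ := by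
          apply Subtype.ext
          show Φ ((I : Ideal R) * (J : Ideal R)) = Φ (I : Ideal R) * Φ (J : Ideal R)
          exact map_mul Φ _ _
        rw [this, map_mul] }
  have hf : ∀ I : (Ideal R)⁰, f I = ClassGroup.mk0 ⟨Φ (I : Ideal R), hmem I⟩ := fun _ => rfl
  have hsp : ∀ x : R, x ≠ 0 → Ideal.span {x} ∈ (Ideal R)⁰ := fun x hx =>
    mem_nonZeroDivisors_iff_ne_zero.2
      (by rwa [Ne, Ideal.zero_eq_bot, Ideal.span_singleton_eq_bot])
  have hfp : ∀ (x : R) (hx : x ≠ 0), f ⟨Ideal.span {x}, hsp x hx⟩ = 1 := by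
    intro x hx
    rw [hf, ClassGroup.mk0_eq_one_iff]
    exact hprin x hx
  have hwd : ∀ I J : (Ideal R)⁰, ClassGroup.mk0 I = ClassGroup.mk0 J → f I = f J := by
    intro I J h
    obtain ⟨x, y, hx, hy, hxy⟩ := ClassGroup.mk0_eq_mk0_iff.1 h
    have h1 : (⟨Ideal.span {x}, hsp x hx⟩ : (Ideal R)⁰) * I
        = ⟨Ideal.span {y}, hsp y hy⟩ * J := Subtype.ext hxy
    have h2 := congrArg f h1
    rwa [map_mul, map_mul, hfp x hx, hfp y hy, one_mul, one_mul] at h2
  have hsurj := ClassGroup.mk0_surjective (R := R)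
  let g : ClassGroup R →* ClassGroup S :=
    { toFun := fun c => f (Classical.choose (hsurj c))
      map_one' := by
        have h1 := Classical.choose_spec (hsurj 1)
        rw [hwd _ 1 (by rw [h1, map_one]), map_one]
      map_mul' := fun c d => by
        have hc := Classical.choose_spec (hsurj c)
        have hd := Classical.choose_spec (hsurj d)
        have hcd := Classical.choose_spec (hsurj (c * d))
        rw [← map_mul]
        apply hwd
        rw [hcd, map_mul, hc, hd] }
  refine ⟨g, fun I J hJ => ?_⟩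
  have h1 : g (ClassGroup.mk0 I) = f (Classical.choose (hsurj (ClassGroup.mk0 I))) := rfl
  rw [h1, hwd _ I (Classical.choose_spec (hsurj (ClassGroup.mk0 I))), hf]
  congr 1
  exact Subtype.ext hJ.symm

/-- Counting: a function on a subset of a finite group whose fibres lie in cosets of `H`. -/
theorem FA_S14_ineq1_card_le_mul {A : Type*} [CommGroup A] [Finite A] (T : Set A)
    (H : Subgroup A) {Y : Type*} [Finite Y] (θ : T → Y)
    (hθ : ∀ a a' : T, θ a = θ a' → (a : A) * (a' : A)⁻¹ ∈ H) :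
    Nat.card T ≤ Nat.card Y * Nat.card H := by
  classical
  rw [← Nat.card_prod]
  -- representative of each fibre
  let rep : Y → A := fun y => if h : ∃ a : T, θ a = y then ((Classical.choose h : T) : A) else 1
  have hrep : ∀ a : T, (a : A) * (rep (θ a))⁻¹ ∈ H := by
    intro a
    have h : ∃ a' : T, θ a' = θ a := ⟨a, rfl⟩
    have h1 : rep (θ a) = ((Classical.choose h : T) : A) := dif_pos h
    rw [h1]
    exact hθ a _ (Classical.choose_spec h).symm
  refine Nat.card_le_card_of_injective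
    (fun a : T => ((θ a, ⟨(a : A) * (rep (θ a))⁻¹, hrep a⟩) : Y × H)) ?_
  intro a a' h
  have h1 : θ a = θ a' := congrArg Prod.fst h
  have h2 : (a : A) * (rep (θ a))⁻¹ = (a' : A) * (rep (θ a'))⁻¹ :=
    congrArg (fun z : Y × H => ((z.2 : H) : A)) h
  rw [h1] at h2
  exact Subtype.ext (mul_right_cancel h2)

/-- Counting: a function on `K` whose fibres lie in cosets of `R` has at least `[K : R ∩ K]`
values. -/
theorem FA_S14_ineq1_relIndex_le {E : Type*} [AddCommGroup E] (K R : AddSubgroup E)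
    {Y : Type*} [Finite Y] (ψ : K → Y)
    (hψ : ∀ k k' : K, ψ k = ψ k' → (k : E) - (k' : E) ∈ R) :
    R.relIndex K ≤ Nat.card Y := by
  classical
  rw [AddSubgroup.relIndex, AddSubgroup.index_eq_card]
  have hsurj : Function.Surjective (QuotientAddGroup.mk (s := R.addSubgroupOf K)) :=
    QuotientAddGroup.mk_surjective
  refine Nat.card_le_card_of_injective
    (fun q : K ⧸ R.addSubgroupOf K => ψ (Classical.choose (hsurj q))) ?_
  intro q q' h
  have h1 := hψ _ _ h
  rw [← Classical.choose_spec (hsurj q), ← Classical.choose_spec (hsurj q'),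
    QuotientAddGroup.eq, AddSubgroup.mem_addSubgroupOf]
  have h2 := R.neg_mem h1
  rw [neg_sub, sub_eq_neg_add] at h2
  exact_mod_cast h2

/-- **The counting argument for the first inequality.** -/
theorem FA_S14_ineq1_count {A B E : Type*} [CommGroup A] [Finite A] [CommGroup B] [Finite B]
    [AddCommGroup E] (s : A →* A) (N : A →* B) (j : B →* A)
    (K₁ R₁ K₂ R₂ : AddSubgroup E) (p : ℕ) (hp : 2 ≤ p)
    (hu : R₁.relIndex K₁ ≠ 0) (hw : p * R₁.relIndex K₁ ≤ R₂.relIndex K₂)
    (hNs : ∀ a, N (s a) = N a) (hsurj : Function.Surjective N)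
    (Θ : A → E → Prop) (hΘ1 : ∀ a, s a = a → ∃ t ∈ K₁, Θ a t)
    (hΘ2 : ∀ a a' t t', s a = a → s a' = a' → t ∈ K₁ → t' ∈ K₁ → Θ a t → Θ a' t' →
      t - t' ∈ R₁ → ∃ b, a = a' * j b)
    (Ψ : E → B → Prop) (hΨ1 : ∀ k ∈ K₂, ∃ b, j b = 1 ∧ Ψ k b)
    (hΨ2 : ∀ k k' b, k ∈ K₂ → k' ∈ K₂ → Ψ k b → Ψ k' b → k - k' ∈ R₂) : False := by
  classical
  set u := R₁.relIndex K₁ with hudef
  -- Step 1: `|A^s| ≤ u * |range j|`
  have hY : Finite (K₁ ⧸ R₁.addSubgroupOf K₁) := by
    apply Nat.finite_of_card_ne_zero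
    rw [← AddSubgroup.index_eq_card]
    exact hu
  have hYcard : Nat.card (K₁ ⧸ R₁.addSubgroupOf K₁) = u := by
    rw [← AddSubgroup.index_eq_card]; rfl
  let T : Set A := {a | s a = a}
  have hstep1 : Nat.card T ≤ u * Nat.card j.range := by
    rw [← hYcard]
    have hch : ∀ a : T, ∃ t : K₁, Θ (a : A) (t : E) := by
      intro a
      obtain ⟨t, ht, hΘ⟩ := hΘ1 a a.2
      exact ⟨⟨t, ht⟩, hΘ⟩
    refine FA_S14_ineq1_card_le_mul T j.range
      (fun a => QuotientAddGroup.mk (Classical.choose (hch a))) ?_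
    intro a a' h
    have h1 := (QuotientAddGroup.eq.1 h)
    rw [AddSubgroup.mem_addSubgroupOf] at h1
    have h2 : ((Classical.choose (hch a) : K₁) : E) - ((Classical.choose (hch a') : K₁) : E)
        ∈ R₁ := by
      have h3 := R₁.neg_mem h1
      have h4 : -((-(Classical.choose (hch a)) + Classical.choose (hch a') : K₁) : E)
          = ((Classical.choose (hch a) : K₁) : E) - ((Classical.choose (hch a') : K₁) : E) := by
        push_cast
        abel
      rwa [h4] at h3
    obtain ⟨b, hb⟩ := hΘ2 a a' _ _ a.2 a'.2 (Classical.choose (hch a)).2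
      (Classical.choose (hch a')).2 (Classical.choose_spec (hch a))
      (Classical.choose_spec (hch a')) h2
    refine ⟨b, ?_⟩
    rw [hb]
    simp
  -- Step 2: `relIndex R₂ K₂ ≤ |ker j|`
  have hstep2 : R₂.relIndex K₂ ≤ Nat.card j.ker := by
    have hch : ∀ k : K₂, ∃ b : j.ker, Ψ (k : E) (b : B) := by
      intro k
      obtain ⟨b, hb, hΨ⟩ := hΨ1 k k.2
      exact ⟨⟨b, hb⟩, hΨ⟩
    refine FA_S14_ineq1_relIndex_le K₂ R₂ (fun k => Classical.choose (hch k)) ?_
    intro k k' h
    have h1 := Classical.choose_spec (hch k)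
    have h2 := Classical.choose_spec (hch k')
    rw [← h] at h2
    exact hΨ2 _ _ _ k.2 k'.2 h1 h2
  -- Step 3: `|B| ≤ |A^s|`
  let φ : A →* A :=
    { toFun := fun a => s a * a⁻¹
      map_one' := by simp
      map_mul' := fun a b => by rw [map_mul, mul_inv]; exact mul_mul_mul_comm _ _ _ _ }
  have hφker : Nat.card φ.ker = Nat.card T := by
    apply Nat.card_congr
    refine Equiv.subtypeEquivRight (fun a => ?_)
    rw [MonoidHom.mem_ker]
    show s a * a⁻¹ = 1 ↔ s a = a
    rw [mul_inv_eq_one]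
  have hφrange : φ.range ≤ N.ker := by
    rintro _ ⟨a, rfl⟩
    rw [MonoidHom.mem_ker]
    show N (s a * a⁻¹) = 1
    rw [map_mul, hNs, map_inv, mul_inv_cancel]
  have hA1 : Nat.card φ.ker * Nat.card φ.range = Nat.card A := by
    rw [← Subgroup.index_ker, Subgroup.card_mul_index]
  have hA2 : Nat.card N.ker * Nat.card B = Nat.card A := by
    have h1 : Nat.card N.range = Nat.card B := by
      rw [MonoidHom.range_eq_top.2 hsurj]
      exact Nat.card_congr Subgroup.topEquiv.toEquiv
    rw [← h1, ← Subgroup.index_ker, Subgroup.card_mul_index]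
  have hle : Nat.card φ.range ≤ Nat.card N.ker :=
    Nat.card_le_card_of_injective (Subgroup.inclusion hφrange) (Subgroup.inclusion_injective _)
  have hpos : 0 < Nat.card φ.range := Nat.card_pos
  have hstep3 : Nat.card B ≤ Nat.card T := by
    rw [← hφker]
    have h1 : Nat.card φ.range * Nat.card B ≤ Nat.card φ.range * Nat.card φ.ker := by
      calc Nat.card φ.range * Nat.card B ≤ Nat.card N.ker * Nat.card B :=
            Nat.mul_le_mul_right _ hle
        _ = Nat.card φ.range * Nat.card φ.ker := by rw [hA2, ← hA1, mul_comm]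
    exact Nat.le_of_mul_le_mul_left h1 hpos
  -- Step 4
  have hB : Nat.card j.ker * Nat.card j.range = Nat.card B := by
    rw [← Subgroup.index_ker, Subgroup.card_mul_index]
  have hrpos : 0 < Nat.card j.range := Nat.card_pos
  have h5 : Nat.card j.ker * Nat.card j.range ≤ u * Nat.card j.range := by
    rw [hB]; exact hstep3.trans hstep1
  have h6 : Nat.card j.ker ≤ u := Nat.le_of_mul_le_mul_right h5 hrpos
  have h7 : p * u ≤ u := hw.trans (hstep2.trans h6)
  have hupos : 0 < u := Nat.pos_of_ne_zero hu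
  nlinarith

end Fermat.Agent.S14
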