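import Fermat.Agent.S14.Interface2
import Fermat.Agent.R.Hilbert92

/-!
# S14, leaf INEQ1: the product of all conjugates on `𝓞 M`, on ideals, and Hilbert 90

`M/F` Galois.  `FA_S14_ineq1_NG F z = ∏_τ τ z ∈ 𝓞 M`, `FA_S14_ineq1_IG F I = ∏_τ τ I`.
-/

set_option autoImplicit false
set_option linter.unusedSectionVars false
set_option linter.style.haveILetI false

open NumberField
open scoped Pointwise

namespace Fermat.Agent.S14

open Fermat.Agent.R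

variable (F : Type) {M : Type} [Field F] [Field M] [NumberField F] [NumberField M]
  [Algebra F M] [IsGalois F M]

/-- The product of all conjugates of `z`, inside `𝓞 M`. -/
noncomputable def FA_S14_ineq1_NG (z : 𝓞 M) : 𝓞 M := ∏ τ : M ≃ₐ[F] M, τ • z

/-- The product of all conjugates of an ideal. -/
noncomputable def FA_S14_ineq1_IG (I : Ideal (𝓞 M)) : Ideal (𝓞 M) := ∏ τ : M ≃ₐ[F] M, τ • I

theorem FA_S14_ineq1_NG_mul (x y : 𝓞 M) :
    FA_S14_ineq1_NG F (x * y) = FA_S14_ineq1_NG F x * FA_S14_ineq1_NG F y := by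
  unfold FA_S14_ineq1_NG
  rw [← Finset.prod_mul_distrib]
  exact Finset.prod_congr rfl fun τ _ => smul_mul' τ x y

theorem FA_S14_ineq1_NG_smul (σ : M ≃ₐ[F] M) (z : 𝓞 M) :
    σ • FA_S14_ineq1_NG F z = FA_S14_ineq1_NG F z := by
  unfold FA_S14_ineq1_NG
  rw [Finset.smul_prod']
  exact Fintype.prod_equiv (Equiv.mulLeft σ) _ _ fun τ => (mul_smul σ τ z).symm

theorem FA_S14_ineq1_NG_ne_zero {z : 𝓞 M} (hz : z ≠ 0) : FA_S14_ineq1_NG F z ≠ 0 := by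
  unfold FA_S14_ineq1_NG
  rw [Finset.prod_ne_zero_iff]
  intro τ _
  rwa [Ne, smul_eq_zero_iff_eq]

theorem FA_S14_ineq1_NG_coe (z : 𝓞 M) :
    ((FA_S14_ineq1_NG F z : 𝓞 M) : M) = ∏ τ : M ≃ₐ[F] M, τ (z : M) := by
  unfold FA_S14_ineq1_NG
  rw [RingOfIntegers.coe_eq_algebraMap, map_prod]
  rfl

theorem FA_S14_ineq1_IG_mul (I J : Ideal (𝓞 M)) :
    FA_S14_ineq1_IG F (I * J) = FA_S14_ineq1_IG F I * FA_S14_ineq1_IG F J := by
  unfold FA_S14_ineq1_IG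
  rw [← Finset.prod_mul_distrib]
  refine Finset.prod_congr rfl fun τ _ => ?_
  rw [Ideal.pointwise_smul_def, Ideal.map_mul]
  rfl

theorem FA_S14_ineq1_IG_smul (σ : M ≃ₐ[F] M) (I : Ideal (𝓞 M)) :
    FA_S14_ineq1_IG F (σ • I) = FA_S14_ineq1_IG F I := by
  unfold FA_S14_ineq1_IG
  exact Fintype.prod_equiv (Equiv.mulRight σ) _ _ fun τ => (mul_smul τ σ I).symm

theorem FA_S14_ineq1_smul_span (σ : M ≃ₐ[F] M) (z : 𝓞 M) :
    σ • (Ideal.span {z} : Ideal (𝓞 M)) = Ideal.span {σ • z} := by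
  rw [Ideal.pointwise_smul_def, Ideal.map_span, Set.image_singleton]
  rfl

theorem FA_S14_ineq1_IG_span (z : 𝓞 M) :
    FA_S14_ineq1_IG F (Ideal.span {z}) = Ideal.span {FA_S14_ineq1_NG F z} := by
  unfold FA_S14_ineq1_IG FA_S14_ineq1_NG
  rw [← Ideal.prod_span_singleton]
  exact Finset.prod_congr rfl fun τ _ => FA_S14_ineq1_smul_span F τ z

theorem FA_S14_ineq1_smul_ne_bot (σ : M ≃ₐ[F] M) {I : Ideal (𝓞 M)} (hI : I ≠ ⊥) :
    σ • I ≠ ⊥ := by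
  intro h
  apply hI
  have h1 : σ⁻¹ • σ • I = σ⁻¹ • (⊥ : Ideal (𝓞 M)) := by rw [h]
  rw [inv_smul_smul] at h1
  rw [h1, Ideal.pointwise_smul_def, Ideal.map_bot]

theorem FA_S14_ineq1_IG_ne_bot {I : Ideal (𝓞 M)} (hI : I ≠ ⊥) : FA_S14_ineq1_IG F I ≠ ⊥ := by
  unfold FA_S14_ineq1_IG
  rw [← Ideal.zero_eq_bot, Finset.prod_ne_zero_iff]
  intro τ _
  rw [Ideal.zero_eq_bot]
  exact FA_S14_ineq1_smul_ne_bot F τ hI

/-- If `(x) σ𝔄 = (y) 𝔄` then `N y = t N x` for a `σ`-invariant unit `t`. -/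
theorem FA_S14_ineq1_exists_unit (σ : M ≃ₐ[F] M) {𝔄 : Ideal (𝓞 M)} (h𝔄 : 𝔄 ≠ ⊥)
    {x y : 𝓞 M} (hx : x ≠ 0)
    (h : Ideal.span {x} * (σ • 𝔄) = Ideal.span {y} * 𝔄) :
    ∃ t : (𝓞 M)ˣ, FA_S14_ineq1_NG F y = (t : 𝓞 M) * FA_S14_ineq1_NG F x ∧
      σ • (t : 𝓞 M) = (t : 𝓞 M) := by
  have h1 := congrArg (FA_S14_ineq1_IG F) h
  rw [FA_S14_ineq1_IG_mul, FA_S14_ineq1_IG_mul, FA_S14_ineq1_IG_smul, FA_S14_ineq1_IG_span,
    FA_S14_ineq1_IG_span] at h1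
  have h2 : (Ideal.span {FA_S14_ineq1_NG F x} : Ideal (𝓞 M)) = Ideal.span {FA_S14_ineq1_NG F y} :=
    mul_right_cancel₀ (by rw [Ideal.zero_eq_bot]; exact FA_S14_ineq1_IG_ne_bot F h𝔄) h1
  rw [Ideal.span_singleton_eq_span_singleton] at h2
  obtain ⟨t, ht⟩ := h2
  refine ⟨t, by rw [← ht, mul_comm], ?_⟩
  have h3 := congrArg (fun z => σ • z) ht
  simp only [smul_mul', FA_S14_ineq1_NG_smul] at h3
  rw [← ht] at h3
  exact mul_left_cancel₀ (FA_S14_ineq1_NG_ne_zero F hx) h3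

/-- **Hilbert 90**, integral form for quotients: if `N u = N v` then `b v = σ(b) u` for some
nonzero integral `b`. -/
theorem FA_S14_ineq1_hilbert90 (σ : M ≃ₐ[F] M) (hσ : ∀ x, x ∈ Subgroup.zpowers σ)
    {u v : 𝓞 M} (hu : u ≠ 0) (hv : v ≠ 0)
    (h : FA_S14_ineq1_NG F u = FA_S14_ineq1_NG F v) :
    ∃ b : 𝓞 M, b ≠ 0 ∧ b * v = (σ • b) * u := by
  classical
  haveI : IsCyclic (M ≃ₐ[F] M) := ⟨σ, hσ⟩
  have hvM : (v : M) ≠ 0 := RingOfIntegers.coe_ne_zero_iff.mpr hv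
  have huM : (u : M) ≠ 0 := RingOfIntegers.coe_ne_zero_iff.mpr hu
  have hnorm : Algebra.norm F ((u : M) / (v : M)) = 1 := by
    apply (algebraMap F M).injective
    rw [Algebra.norm_eq_prod_automorphisms, map_one]
    simp only [map_div₀]
    rw [Finset.prod_div_distrib, ← FA_S14_ineq1_NG_coe, ← FA_S14_ineq1_NG_coe, h]
    exact div_self (RingOfIntegers.coe_ne_zero_iff.mpr (FA_S14_ineq1_NG_ne_zero F hv))
  obtain ⟨β, hβ⟩ := groupCohomology.exists_div_of_norm_eq_one hσ hnorm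
  obtain ⟨b₀, c₀, hc₀, hbc⟩ := IsFractionRing.div_surjective (𝓞 M) (β : M)
  have hc₀' : c₀ ≠ 0 := nonZeroDivisors.ne_zero hc₀
  set c' : 𝓞 M := ∏ τ ∈ (Finset.univ : Finset (M ≃ₐ[F] M)).erase 1, τ • c₀ with hc'
  have hcc : c₀ * c' = FA_S14_ineq1_NG F c₀ := by
    have := Finset.mul_prod_erase (Finset.univ : Finset (M ≃ₐ[F] M)) (fun τ => τ • c₀)
      (Finset.mem_univ 1)
    rw [one_smul] at this
    exact this
  have hc'0 : c' ≠ 0 := by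
    intro h0
    have := FA_S14_ineq1_NG_ne_zero F hc₀'
    rw [← hcc, h0, mul_zero] at this
    exact this rfl
  refine ⟨b₀ * c', mul_ne_zero ?_ hc'0, ?_⟩
  · rintro rfl
    rw [map_zero, zero_div] at hbc
    exact β.ne_zero hbc.symm
  · -- in `M`: `b = β * n`, `σ b = σ β * n`
    obtain ⟨n, hn⟩ : ∃ n : 𝓞 M, n = FA_S14_ineq1_NG F c₀ := ⟨_, rfl⟩
    rw [← hn] at hcc
    have hn0 : (n : M) ≠ 0 := by
      rw [hn]
      exact RingOfIntegers.coe_ne_zero_iff.mpr (FA_S14_ineq1_NG_ne_zero F hc₀')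
    have hσn : σ (n : M) = (n : M) := by
      have := congrArg (fun z : 𝓞 M => (z : M)) (FA_S14_ineq1_NG_smul F σ c₀)
      rw [hn]
      exact this
    have hc₀M : ((c₀ : 𝓞 M) : M) ≠ 0 := RingOfIntegers.coe_ne_zero_iff.mpr hc₀'
    have hb : ((b₀ * c' : 𝓞 M) : M) = (β : M) * (n : M) := by
      have e1 : ((b₀ * c' : 𝓞 M) : M) = (b₀ : M) * (c' : M) := by push_cast; rfl
      have e2 : (n : M) = (c₀ : M) * (c' : M) := by rw [← hcc]; push_cast; rfl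
      have e3 : (β : M) = (b₀ : M) / (c₀ : M) := hbc.symm
      rw [e1, e2, e3]
      field_simp
    have hσb : ((σ • (b₀ * c') : 𝓞 M) : M) = σ (β : M) * (n : M) := by
      have h1 : ((σ • (b₀ * c') : 𝓞 M) : M) = σ ((b₀ * c' : 𝓞 M) : M) := rfl
      rw [h1, hb, map_mul, hσn]
    apply RingOfIntegers.ext
    have h2 : (((b₀ * c') * v : 𝓞 M) : M) = ((b₀ * c' : 𝓞 M) : M) * (v : M) := by push_cast; rfl
    have h3 : (((σ • (b₀ * c')) * u : 𝓞 M) : M) = ((σ • (b₀ * c') : 𝓞 M) : M) * (u : M) := by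
      push_cast; rfl
    rw [h2, h3, hb, hσb]
    have hσβ : σ (β : M) ≠ 0 := by
      rw [Ne, map_eq_zero_iff _ σ.injective]
      exact β.ne_zero
    have h4 : (β : M) / σ (β : M) = (u : M) / (v : M) := hβ
    rw [div_eq_div_iff hσβ hvM] at h4
    linear_combination (n : M) * h4

end Fermat.Agent.S14
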