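import Fermat.Agent.S14.Ineq1Abs
import Fermat.Agent.S14.Ineq1Norm
import Fermat.Agent.R.Hilbert94

/-!
# S14, leaf INEQ1: classes of ideals, the three maps on class groups, norms of units
-/

set_option autoImplicit false
set_option linter.unusedSectionVars false
set_option linter.style.haveILetI false

open NumberField
open scoped Pointwise nonZeroDivisors

namespace Fermat.Agent.S14

open Fermat.Agent.R

section cls

variable {R : Type*} [CommRing R] [IsDedekindDomain R]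

/-- The class of a nonzero ideal. -/
noncomputable def FA_S14_ineq1_cls (I : Ideal R) (h : I ≠ ⊥) : ClassGroup R :=
  ClassGroup.mk0 ⟨I, mem_nonZeroDivisors_iff_ne_zero.2 h⟩

theorem FA_S14_ineq1_cls_mk0 (I : (Ideal R)⁰) :
    FA_S14_ineq1_cls (I : Ideal R) (mem_nonZeroDivisors_iff_ne_zero.1 I.2) = ClassGroup.mk0 I :=
  rfl

theorem FA_S14_ineq1_cls_surjective (c : ClassGroup R) :
    ∃ (I : Ideal R) (h : I ≠ ⊥), FA_S14_ineq1_cls I h = c := by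
  obtain ⟨I, rfl⟩ := ClassGroup.mk0_surjective c
  exact ⟨I, mem_nonZeroDivisors_iff_ne_zero.1 I.2, rfl⟩

theorem FA_S14_ineq1_cls_congr {I J : Ideal R} (hI : I ≠ ⊥) (hJ : J ≠ ⊥) (h : I = J) :
    FA_S14_ineq1_cls I hI = FA_S14_ineq1_cls J hJ := by
  subst h; rfl

theorem FA_S14_ineq1_cls_mul {I J : Ideal R} (hI : I ≠ ⊥) (hJ : J ≠ ⊥) :
    FA_S14_ineq1_cls (I * J) (mul_ne_zero hI hJ)
      = FA_S14_ineq1_cls I hI * FA_S14_ineq1_cls J hJ := by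
  unfold FA_S14_ineq1_cls
  rw [← map_mul]
  rfl

theorem FA_S14_ineq1_span_ne_bot {x : R} (hx : x ≠ 0) : (Ideal.span {x} : Ideal R) ≠ ⊥ := by
  rwa [Ne, Ideal.span_singleton_eq_bot]

theorem FA_S14_ineq1_cls_span {x : R} (hx : x ≠ 0) :
    FA_S14_ineq1_cls (Ideal.span {x}) (FA_S14_ineq1_span_ne_bot hx) = 1 := by
  unfold FA_S14_ineq1_cls
  rw [ClassGroup.mk0_eq_one_iff]
  exact ⟨⟨x, rfl⟩⟩

theorem FA_S14_ineq1_cls_eq_iff {I J : Ideal R} (hI : I ≠ ⊥) (hJ : J ≠ ⊥) :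
    FA_S14_ineq1_cls I hI = FA_S14_ineq1_cls J hJ ↔
      ∃ x y : R, x ≠ 0 ∧ y ≠ 0 ∧ Ideal.span {x} * I = Ideal.span {y} * J := by
  unfold FA_S14_ineq1_cls
  rw [ClassGroup.mk0_eq_mk0_iff]
  constructor
  · rintro ⟨x, y, hx, hy, h⟩
    exact ⟨x, y, hx, hy, h⟩
  · rintro ⟨x, y, hx, hy, h⟩
    exact ⟨x, y, hx, hy, h⟩

theorem FA_S14_ineq1_cls_eq_one_iff {I : Ideal R} (hI : I ≠ ⊥) :
    FA_S14_ineq1_cls I hI = 1 ↔ I.IsPrincipal := by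
  unfold FA_S14_ineq1_cls
  rw [ClassGroup.mk0_eq_one_iff]

end cls

variable {F M : Type} [Field F] [Field M] [NumberField F] [NumberField M]
  [Algebra F M] [IsGalois F M]

theorem FA_S14_ineq1_map_ne_bot {𝔞 : Ideal (𝓞 F)} (h : 𝔞 ≠ ⊥) :
    𝔞.map (algebraMap (𝓞 F) (𝓞 M)) ≠ ⊥ := by
  rw [Ne, Ideal.map_eq_bot_iff_of_injective (FaithfulSMul.algebraMap_injective (𝓞 F) (𝓞 M))]
  exact h

theorem FA_S14_ineq1_relNorm_ne_bot {I : Ideal (𝓞 M)} (h : I ≠ ⊥) :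
    Ideal.relNorm (𝓞 F) I ≠ ⊥ := by
  rwa [Ne, Ideal.relNorm_eq_bot_iff]

/-- The action of `σ` on the class group of `M`. -/
theorem FA_S14_ineq1_exists_s (σ : M ≃ₐ[F] M) :
    ∃ s : ClassGroup (𝓞 M) →* ClassGroup (𝓞 M), ∀ (I : Ideal (𝓞 M)) (hI : I ≠ ⊥),
      s (FA_S14_ineq1_cls I hI) = FA_S14_ineq1_cls (σ • I) (FA_S14_ineq1_smul_ne_bot F σ hI) := by
  obtain ⟨g, hg⟩ := FA_S14_ineq1_classMap
    (((Ideal.mapHom (MulSemiringAction.toRingHom _ (𝓞 M) σ) :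
      Ideal (𝓞 M) →+* Ideal (𝓞 M)) : Ideal (𝓞 M) →* Ideal (𝓞 M)))
    (fun I hI => FA_S14_ineq1_smul_ne_bot F σ hI)
    (fun x _ => by
      show (σ • (Ideal.span {x} : Ideal (𝓞 M))).IsPrincipal
      rw [FA_S14_ineq1_smul_span]
      exact ⟨⟨_, rfl⟩⟩)
  exact ⟨g, fun I hI => hg _ _ rfl⟩

/-- Extension of ideals on class groups. -/
theorem FA_S14_ineq1_exists_j :
    ∃ j : ClassGroup (𝓞 F) →* ClassGroup (𝓞 M), ∀ (𝔞 : Ideal (𝓞 F)) (h : 𝔞 ≠ ⊥),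
      j (FA_S14_ineq1_cls 𝔞 h)
        = FA_S14_ineq1_cls (𝔞.map (algebraMap (𝓞 F) (𝓞 M))) (FA_S14_ineq1_map_ne_bot h) := by
  obtain ⟨g, hg⟩ := FA_S14_ineq1_classMap
    (((Ideal.mapHom (algebraMap (𝓞 F) (𝓞 M)) :
      Ideal (𝓞 F) →+* Ideal (𝓞 M)) : Ideal (𝓞 F) →* Ideal (𝓞 M)))
    (fun I hI => FA_S14_ineq1_map_ne_bot hI)
    (fun x _ => by
      show ((Ideal.span {x} : Ideal (𝓞 F)).map (algebraMap (𝓞 F) (𝓞 M))).IsPrincipal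
      rw [Ideal.map_span, Set.image_singleton]
      exact ⟨⟨_, rfl⟩⟩)
  exact ⟨g, fun I hI => hg _ _ rfl⟩

/-- The relative norm on class groups. -/
theorem FA_S14_ineq1_exists_N :
    ∃ N : ClassGroup (𝓞 M) →* ClassGroup (𝓞 F), ∀ (I : Ideal (𝓞 M)) (hI : I ≠ ⊥),
      N (FA_S14_ineq1_cls I hI)
        = FA_S14_ineq1_cls (Ideal.relNorm (𝓞 F) I) (FA_S14_ineq1_relNorm_ne_bot hI) := by
  obtain ⟨g, hg⟩ := FA_S14_ineq1_classMap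
    ((Ideal.relNorm (𝓞 F) : Ideal (𝓞 M) →*₀ Ideal (𝓞 F)) : Ideal (𝓞 M) →* Ideal (𝓞 F))
    (fun I hI => FA_S14_ineq1_relNorm_ne_bot hI)
    (fun x _ => by
      show (Ideal.relNorm (𝓞 F) (Ideal.span {x} : Ideal (𝓞 M))).IsPrincipal
      rw [Ideal.relNorm_singleton]
      exact ⟨⟨_, rfl⟩⟩)
  exact ⟨g, fun I hI => hg _ _ rfl⟩

theorem FA_S14_ineq1_inv_all (σ : M ≃ₐ[F] M) (hσ : ∀ x, x ∈ Subgroup.zpowers σ)
    (I : Ideal (𝓞 M)) (h : σ • I = I) : ∀ τ : M ≃ₐ[F] M, τ • I = I := by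
  intro τ
  have h1 : σ ∈ MulAction.stabilizer (M ≃ₐ[F] M) I := h
  have h2 : Subgroup.zpowers σ ≤ MulAction.stabilizer (M ≃ₐ[F] M) I :=
    (Subgroup.zpowers_le).mpr h1
  exact h2 (hσ τ)

/-- A `σ`-invariant nonzero ideal is extended from `F` (unramified case). -/
theorem FA_S14_ineq1_extended (hunr : FA_S14_Unramified F M) (σ : M ≃ₐ[F] M)
    (hσ : ∀ x, x ∈ Subgroup.zpowers σ) (I : Ideal (𝓞 M)) (hI : I ≠ ⊥) (h : σ • I = I) :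
    ∃ 𝔟 : Ideal (𝓞 F), 𝔟 ≠ ⊥ ∧ 𝔟.map (algebraMap (𝓞 F) (𝓞 M)) = I := by
  obtain ⟨J, hJ⟩ := FA_R_invariant_ideal_extended (K := F) (L := M) hunr I hI
    (FA_S14_ineq1_inv_all σ hσ I h)
  refine ⟨J, ?_, hJ⟩
  rintro rfl
  rw [Ideal.map_bot] at hJ
  exact hI hJ.symm

theorem FA_S14_ineq1_unitAut_coe (τ : M ≃ₐ[F] M) (u : (𝓞 M)ˣ) :
    ((FA_R_unitAut τ u : (𝓞 M)ˣ) : 𝓞 M) = τ • (u : 𝓞 M) := by
  apply RingOfIntegers.ext
  rw [FA_R_unitAut_coe]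
  rfl

/-- The norm element `∑ s^i` on units is the product of all conjugates. -/
theorem FA_S14_ineq1_Nm_toMul (p : ℕ) (σ : M ≃ₐ[F] M) (hσ : ∀ x, x ∈ Subgroup.zpowers σ)
    (hord : orderOf σ = p) (e : Additive (𝓞 M)ˣ) :
    ((((∑ i ∈ Finset.range p, (FA_R_unitEnd σ) ^ i) e).toMul : (𝓞 M)ˣ) : 𝓞 M)
      = FA_S14_ineq1_NG F ((e.toMul : (𝓞 M)ˣ) : 𝓞 M) := by
  classical
  have h1 : (∑ i ∈ Finset.range p, (FA_R_unitEnd σ) ^ i) e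
      = ∑ i ∈ Finset.range p, FA_R_unitEnd (σ ^ i) e := by
    rw [LinearMap.sum_apply]
    refine Finset.sum_congr rfl (fun i _ => ?_)
    rw [FA_R_unitEnd_pow]
  rw [h1, toMul_sum, Units.coe_prod]
  have h2 : ∀ i ∈ Finset.range p,
      (((FA_R_unitEnd (σ ^ i) e).toMul : (𝓞 M)ˣ) : 𝓞 M) = (σ ^ i) • ((e.toMul : (𝓞 M)ˣ) : 𝓞 M) := by
    intro i _
    rw [FA_R_unitEnd_apply, toMul_ofMul, FA_S14_ineq1_unitAut_coe]
  rw [Finset.prod_congr rfl h2]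
  unfold FA_S14_ineq1_NG
  have himg := IsCyclic.image_range_orderOf hσ
  rw [hord] at himg
  have hinj : Set.InjOn (fun i => σ ^ i) (Finset.range p : Set ℕ) := by
    have := pow_injOn_Iio_orderOf (x := σ)
    rw [hord] at this
    simpa using this
  rw [← Finset.prod_image (f := fun τ : M ≃ₐ[F] M => τ • ((e.toMul : (𝓞 M)ˣ) : 𝓞 M)) hinj]
  refine Finset.prod_congr ?_ (fun _ _ => rfl)
  convert himg

end Fermat.Agent.S14
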