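import Mathlib
import Fermat.Agent.S14.Interface

/-!
# S14, leaf KUM (helper7), helper library: primes in a Galois extension of prime degree

`M/F` Galois number fields, `G = Gal(M/F)`, `P` a prime of `𝓞 M` over `𝔭 = v.asIdeal`.
* trivial stabilizer ⇒ `𝔭` splits completely;
* `f = 1` ⇒ every `u ∈ 𝓞 M` is congruent modulo `P` to an element of `𝓞 F`;
* for `|G| = p` prime and `G = ⟨τ⟩`: `τ P ≠ P` ⇒ `𝔭` splits completely; `τ P = P` ⇒ `P` is the
  only prime over `𝔭` and `e f = p`.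
-/

set_option autoImplicit false

open scoped NumberField Pointwise
open IsDedekindDomain

namespace Fermat.Agent.S14

section galois

variable {F M : Type} [Field F] [Field M] [NumberField F] [NumberField M] [Algebra F M]

lemma FA_S14_k7_liesOver (v : HeightOneSpectrum (𝓞 F)) (P : Ideal (𝓞 M))
    (hP : P.under (𝓞 F) = v.asIdeal) : P.LiesOver v.asIdeal := ⟨hP.symm⟩

lemma FA_S14_k7_ne_bot (v : HeightOneSpectrum (𝓞 F)) (P : Ideal (𝓞 M))
    (hP : P.under (𝓞 F) = v.asIdeal) : P ≠ ⊥ := by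
  rintro rfl
  apply v.ne_bot
  rw [← hP]
  exact Ideal.under_bot (𝓞 F) (𝓞 M)

lemma FA_S14_k7_isMaximal (v : HeightOneSpectrum (𝓞 F)) (P : Ideal (𝓞 M)) [P.IsPrime]
    (hP : P.under (𝓞 F) = v.asIdeal) : P.IsMaximal :=
  Ring.DimensionLEOne.maximalOfPrime (FA_S14_k7_ne_bot v P hP) inferInstance

/-- There is a prime over every prime. -/
lemma FA_S14_k7_exists_prime (v : HeightOneSpectrum (𝓞 F)) :
    ∃ P : Ideal (𝓞 M), P.IsPrime ∧ P.under (𝓞 F) = v.asIdeal := by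
  have := v.isPrime
  obtain ⟨⟨P, hP1, hP2⟩⟩ := (inferInstance : Nonempty (v.asIdeal.primesOver (𝓞 M)))
  exact ⟨P, hP1, hP2.over.symm⟩

variable [IsGalois F M]

/-- `e f = |Stab(P)|`. -/
lemma FA_S14_k7_card_stab (v : HeightOneSpectrum (𝓞 F)) (P : Ideal (𝓞 M)) [P.IsPrime]
    (hP : P.under (𝓞 F) = v.asIdeal) :
    Nat.card (MulAction.stabilizer (M ≃ₐ[F] M) P) =
      P.ramificationIdx (𝓞 F) * P.inertiaDeg (𝓞 F) := by
  have := v.isPrime
  have := v.isMaximal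
  have := FA_S14_k7_liesOver v P hP
  have : PerfectField v.asIdeal.ResidueField := inferInstance
  rw [Ideal.card_stabilizer_eq (G := M ≃ₐ[F] M) v.asIdeal P,
    Ideal.ramificationIdxIn_eq_ramificationIdx v.asIdeal P (M ≃ₐ[F] M),
    Ideal.inertiaDegIn_eq_inertiaDeg v.asIdeal P (M ≃ₐ[F] M)]

/-- `e`, `f` do not depend on the prime over `𝔭`. -/
lemma FA_S14_k7_ef_eq (v : HeightOneSpectrum (𝓞 F)) (P Q : Ideal (𝓞 M)) [P.IsPrime] [Q.IsPrime]
    (hP : P.under (𝓞 F) = v.asIdeal) (hQ : Q.under (𝓞 F) = v.asIdeal) :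
    Q.ramificationIdx (𝓞 F) = P.ramificationIdx (𝓞 F) ∧
      Q.inertiaDeg (𝓞 F) = P.inertiaDeg (𝓞 F) := by
  have := v.isPrime
  have := FA_S14_k7_liesOver v P hP
  have := FA_S14_k7_liesOver v Q hQ
  exact ⟨Ideal.ramificationIdx_eq_of_isGaloisGroup v.asIdeal Q P (M ≃ₐ[F] M),
    Ideal.inertiaDeg_eq_of_isGaloisGroup v.asIdeal Q P (M ≃ₐ[F] M)⟩

/-- The Galois group acts transitively on the primes over `𝔭`. -/
lemma FA_S14_k7_exists_smul (v : HeightOneSpectrum (𝓞 F)) (P Q : Ideal (𝓞 M)) [P.IsPrime]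
    [Q.IsPrime] (hP : P.under (𝓞 F) = v.asIdeal) (hQ : Q.under (𝓞 F) = v.asIdeal) :
    ∃ σ : M ≃ₐ[F] M, σ • P = Q := by
  have := v.isPrime
  have := FA_S14_k7_liesOver v P hP
  have := FA_S14_k7_liesOver v Q hQ
  exact Ideal.exists_smul_eq_of_isGaloisGroup v.asIdeal P Q (M ≃ₐ[F] M)

/-- Trivial stabilizer ⇒ splits completely. -/
theorem FA_S14_k7_split_of_stab (v : HeightOneSpectrum (𝓞 F)) (P : Ideal (𝓞 M)) [P.IsPrime]
    (hP : P.under (𝓞 F) = v.asIdeal) (hstab : ∀ σ : M ≃ₐ[F] M, σ • P = P → σ = 1) :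
    FA_S14_SplitsCompletely F M v.asIdeal := by
  have hbot : MulAction.stabilizer (M ≃ₐ[F] M) P = ⊥ := by
    rw [Subgroup.eq_bot_iff_forall]
    intro σ hσ
    exact hstab σ hσ
  have h1 := FA_S14_k7_card_stab v P hP
  rw [hbot, Subgroup.card_bot] at h1
  have he : P.ramificationIdx (𝓞 F) = 1 := Nat.eq_one_of_mul_eq_one_right h1.symm
  have hf : P.inertiaDeg (𝓞 F) = 1 := Nat.eq_one_of_mul_eq_one_left h1.symm
  intro Q hQ hQu
  obtain ⟨h2, h3⟩ := FA_S14_k7_ef_eq v P Q hP hQu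
  exact ⟨h2.trans he, h3.trans hf⟩

omit [IsGalois F M] in
/-- `f = 1` ⇒ every element of `𝓞 M` is congruent modulo `P` to an element of `𝓞 F`. -/
theorem FA_S14_k7_exists_congr (v : HeightOneSpectrum (𝓞 F)) (P : Ideal (𝓞 M)) [P.IsPrime]
    (hP : P.under (𝓞 F) = v.asIdeal) (hf : P.inertiaDeg (𝓞 F) = 1) (u : 𝓞 M) :
    ∃ a : 𝓞 F, u - algebraMap (𝓞 F) (𝓞 M) a ∈ P := by
  have := v.isMaximal
  have := FA_S14_k7_liesOver v P hP
  have := FA_S14_k7_isMaximal v P hP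
  rw [Ideal.inertiaDeg_eq_of_isMaximal v.asIdeal P] at hf
  letI : Field (𝓞 F ⧸ v.asIdeal) := Ideal.Quotient.field v.asIdeal
  letI : Field (𝓞 M ⧸ P) := Ideal.Quotient.field P
  have hsurj : Function.Surjective (algebraMap (𝓞 F ⧸ v.asIdeal) (𝓞 M ⧸ P)) := by
    have h1 : (⊥ : Subalgebra (𝓞 F ⧸ v.asIdeal) (𝓞 M ⧸ P)) = ⊤ :=
      Subalgebra.bot_eq_top_of_finrank_eq_one hf
    intro b
    have hb : b ∈ (⊥ : Subalgebra (𝓞 F ⧸ v.asIdeal) (𝓞 M ⧸ P)) := by
      rw [h1]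
      exact Algebra.mem_top
    exact Algebra.mem_bot.mp hb
  obtain ⟨a', ha'⟩ := hsurj (Ideal.Quotient.mk P u)
  obtain ⟨a, rfl⟩ := Ideal.Quotient.mk_surjective a'
  refine ⟨a, ?_⟩
  rw [← Ideal.Quotient.eq_zero_iff_mem, map_sub, ← ha', sub_eq_zero]
  rfl

end galois

section prime_degree

variable {p : ℕ} {F M : Type} [Field F] [Field M] [NumberField F] [NumberField M] [Algebra F M]
  [IsGalois F M]

lemma FA_S14_k7_card_gal (hdeg : Module.finrank F M = p) : Nat.card (M ≃ₐ[F] M) = p := by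
  rw [IsGalois.card_aut_eq_finrank, hdeg]

/-- `τ P ≠ P` for some `τ` ⇒ `𝔭` splits completely. -/
theorem FA_S14_k7_split_of_tau (hp : p.Prime) (hdeg : Module.finrank F M = p)
    (v : HeightOneSpectrum (𝓞 F)) (P : Ideal (𝓞 M)) [P.IsPrime]
    (hP : P.under (𝓞 F) = v.asIdeal) (τ : M ≃ₐ[F] M) (hτ : τ • P ≠ P) :
    FA_S14_SplitsCompletely F M v.asIdeal := by
  haveI : Fact (Nat.card (M ≃ₐ[F] M)).Prime := ⟨by rw [FA_S14_k7_card_gal hdeg]; exact hp⟩
  apply FA_S14_k7_split_of_stab v P hP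
  intro σ hσ
  rcases (MulAction.stabilizer (M ≃ₐ[F] M) P).eq_bot_or_eq_top_of_prime_card with hb | ht
  · have : σ ∈ MulAction.stabilizer (M ≃ₐ[F] M) P := hσ
    rw [hb] at this
    exact Subgroup.mem_bot.mp this
  · exfalso
    apply hτ
    have : τ ∈ MulAction.stabilizer (M ≃ₐ[F] M) P := by
      rw [ht]
      exact Subgroup.mem_top _
    exact this

/-- If `𝔭` does not split completely, every element of the Galois group fixes `P`. -/
theorem FA_S14_k7_fixed_of_not_split (hp : p.Prime) (hdeg : Module.finrank F M = p)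
    (v : HeightOneSpectrum (𝓞 F)) (P : Ideal (𝓞 M)) [P.IsPrime]
    (hP : P.under (𝓞 F) = v.asIdeal) (hns : ¬ FA_S14_SplitsCompletely F M v.asIdeal)
    (σ : M ≃ₐ[F] M) : σ • P = P := by
  by_contra hne
  exact hns (FA_S14_k7_split_of_tau hp hdeg v P hP σ hne)

/-- If `𝔭` does not split completely, `P` is the only prime over `𝔭` and `e f = p`. -/
theorem FA_S14_k7_unique_of_not_split (hp : p.Prime) (hdeg : Module.finrank F M = p)
    (v : HeightOneSpectrum (𝓞 F)) (P : Ideal (𝓞 M)) [P.IsPrime]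
    (hP : P.under (𝓞 F) = v.asIdeal) (hns : ¬ FA_S14_SplitsCompletely F M v.asIdeal) :
    (∀ Q : Ideal (𝓞 M), Q.IsPrime → Q.under (𝓞 F) = v.asIdeal → Q = P) ∧
      P.ramificationIdx (𝓞 F) * P.inertiaDeg (𝓞 F) = p := by
  have hfix := FA_S14_k7_fixed_of_not_split hp hdeg v P hP hns
  constructor
  · intro Q hQ hQu
    obtain ⟨σ, hσ⟩ := FA_S14_k7_exists_smul v P Q hP hQu
    rw [← hσ, hfix σ]
  · rw [← FA_S14_k7_card_stab v P hP]
    have : MulAction.stabilizer (M ≃ₐ[F] M) P = ⊤ := by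
      rw [Subgroup.eq_top_iff']
      intro σ
      exact hfix σ
    rw [this, Subgroup.card_top, FA_S14_k7_card_gal hdeg]

/-- `e ∈ {1, p}`, and `e = p` forces `f = 1`, `e = 1` with non-split forces `f = p`. -/
theorem FA_S14_k7_e_cases (hp : p.Prime) (hdeg : Module.finrank F M = p)
    (v : HeightOneSpectrum (𝓞 F)) (P : Ideal (𝓞 M)) [P.IsPrime]
    (hP : P.under (𝓞 F) = v.asIdeal) :
    (P.ramificationIdx (𝓞 F) = 1 ∧ (P.inertiaDeg (𝓞 F) = 1 ∨ P.inertiaDeg (𝓞 F) = p)) ∨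
      (P.ramificationIdx (𝓞 F) = p ∧ P.inertiaDeg (𝓞 F) = 1) := by
  by_cases hs : FA_S14_SplitsCompletely F M v.asIdeal
  · exact Or.inl ⟨(hs P inferInstance hP).1, Or.inl (hs P inferInstance hP).2⟩
  · obtain ⟨-, hef⟩ := FA_S14_k7_unique_of_not_split hp hdeg v P hP hs
    have hdvd : P.ramificationIdx (𝓞 F) ∣ p := ⟨_, hef.symm⟩
    rcases (Nat.dvd_prime hp).mp hdvd with h1 | h1
    · left
      rw [h1, one_mul] at hef
      exact ⟨h1, Or.inr hef⟩
    · right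
      rw [h1] at hef
      refine ⟨h1, ?_⟩
      have := Nat.eq_of_mul_eq_mul_left hp.pos (hef.trans (mul_one p).symm)
      exact this

end prime_degree

end Fermat.Agent.S14
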