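import Mathlib

set_option autoImplicit false

open Module

namespace Fermat.Agent.S14

/-- Abstract rank count for the `S`-unit theorem: if `v : A → ℤ^ι` has finitely generated kernel
and its image contains a nonzero multiple of every basis vector, then `A` is finitely generated of
rank `rk (ker v) + |ι|`. -/
theorem FA_S14_sunit_rank_abs {A : Type*} [AddCommGroup A] {ι : Type*} [Fintype ι] [DecidableEq ι]
    (v : A →ₗ[ℤ] (ι → ℤ)) [Module.Finite ℤ (LinearMap.ker v)]
    (hsurj : ∀ i, ∃ a : A, ∃ h : ℤ, h ≠ 0 ∧ v a = Pi.single i h) :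
    Module.Finite ℤ A ∧ finrank ℤ A = finrank ℤ (LinearMap.ker v) + Fintype.card ι := by
  classical
  have hfr : Module.Finite ℤ (LinearMap.range v) := inferInstance
  have hfq : Module.Finite ℤ (A ⧸ LinearMap.ker v) :=
    Module.Finite.equiv v.quotKerEquivRange.symm
  have hfA : Module.Finite ℤ A := Module.Finite.of_submodule_quotient (LinearMap.ker v)
  refine ⟨hfA, ?_⟩
  have h1 := (LinearMap.ker v).finrank_quotient_add_finrank
  have h2 : finrank ℤ (A ⧸ LinearMap.ker v) = finrank ℤ (LinearMap.range v) :=
    v.quotKerEquivRange.finrank_eq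
  have h3 := (LinearMap.range v).finrank_quotient_add_finrank
  have h4 : finrank ℤ ((ι → ℤ) ⧸ LinearMap.range v) = 0 := by
    rw [Module.finrank_eq_zero_iff_isTorsion]
    choose a h hh hv using hsurj
    have key : ∀ x : ι → ℤ, (∏ i, h i) • x ∈ LinearMap.range v := by
      intro x
      have hx : x = ∑ i, x i • (Pi.single i (1 : ℤ) : ι → ℤ) := by
        ext j
        simp [Finset.sum_apply, Pi.single_apply]
      rw [hx, Finset.smul_sum]
      refine Submodule.sum_mem _ (fun i _ => ?_)
      have h5 : (∏ j, h j) • x i • (Pi.single i (1 : ℤ) : ι → ℤ)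
          = ((∏ j ∈ Finset.univ.erase i, h j) * x i) • v (a i) := by
        rw [hv i, ← Finset.mul_prod_erase Finset.univ h (Finset.mem_univ i)]
        ext j
        by_cases hij : j = i
        · subst hij
          simp
          ring
        · simp [hij]
      rw [h5]
      exact Submodule.smul_mem _ _ ⟨a i, rfl⟩
    intro x
    induction x using Submodule.Quotient.induction_on with
    | H y =>
      refine ⟨⟨∏ i, h i, ?_⟩, ?_⟩
      · rw [mem_nonZeroDivisors_iff_ne_zero]
        exact Finset.prod_ne_zero_iff.mpr (fun i _ => hh i)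
      · show (∏ i, h i) • (Submodule.Quotient.mk y : (ι → ℤ) ⧸ LinearMap.range v) = 0
        rw [← Submodule.Quotient.mk_smul, Submodule.Quotient.mk_eq_zero]
        exact key y
  have h5 : finrank ℤ (ι → ℤ) = Fintype.card ι := Module.finrank_pi ℤ
  omega

end Fermat.Agent.S14
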