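import Mathlib
import Fermat.Agent.S14.SUnitAbs

/-!
# S14, leaf SUNIT: Dirichlet's `S`-unit theorem (finite generation and rank)

`F` a number field, `S` a finite set of finite primes of `F`, `E_S = (S : Set _).unit F`
(Mathlib's `Set.unit`).  Then `E_S` is finitely generated of rank `rk 𝓞_Fˣ + |S|`.
-/

set_option autoImplicit false

open IsDedekindDomain NumberField Module

namespace Fermat.Agent.S14

variable {F : Type} [Field F] [NumberField F]

/-- The valuation at `v` as a group homomorphism `Fˣ →* Multiplicative ℤ`. -/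
noncomputable def FA_S14_valM (v : HeightOneSpectrum (𝓞 F)) : Fˣ →* Multiplicative ℤ :=
  (WithZero.unitsWithZeroEquiv (α := Multiplicative ℤ)).toMonoidHom.comp
    (Units.map (v.valuation F : F →* WithZero (Multiplicative ℤ)))

theorem FA_S14_valM_coe (v : HeightOneSpectrum (𝓞 F)) (x : Fˣ) :
    ((FA_S14_valM v x : Multiplicative ℤ) : WithZero (Multiplicative ℤ))
      = v.valuation F (x : F) := by
  simp [FA_S14_valM]

theorem FA_S14_valM_eq_one_iff (v : HeightOneSpectrum (𝓞 F)) (x : Fˣ) :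
    FA_S14_valM v x = 1 ↔ v.valuation F (x : F) = 1 := by
  rw [← FA_S14_valM_coe, ← WithZero.coe_one, WithZero.coe_inj]

/-- The valuation at `v` on the `S`-units. -/
noncomputable def FA_S14_sunitValM (S : Finset (HeightOneSpectrum (𝓞 F)))
    (v : HeightOneSpectrum (𝓞 F)) :
    ((S : Set (HeightOneSpectrum (𝓞 F))).unit F) →* Multiplicative ℤ :=
  (FA_S14_valM v).comp (Subgroup.subtype _)

/-- The additive valuation vector on the `S`-units. -/
noncomputable def FA_S14_sunitVal (S : Finset (HeightOneSpectrum (𝓞 F))) :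
    Additive ((S : Set (HeightOneSpectrum (𝓞 F))).unit F) →ₗ[ℤ] (S → ℤ) :=
  LinearMap.pi (fun v : S => (MonoidHom.toAdditiveLeft (FA_S14_sunitValM S v.1)).toIntLinearMap)

theorem FA_S14_sunitVal_apply (S : Finset (HeightOneSpectrum (𝓞 F)))
    (x : Additive ((S : Set (HeightOneSpectrum (𝓞 F))).unit F)) (v : S) :
    FA_S14_sunitVal S x v = (FA_S14_valM v.1 (Additive.toMul x).1).toAdd := by
  unfold FA_S14_sunitVal
  rw [LinearMap.pi_apply, AddMonoidHom.coe_toIntLinearMap]
  rfl

/-- A unit of `𝓞 F` has valuation one everywhere. -/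
theorem FA_S14_valuation_unit (v : HeightOneSpectrum (𝓞 F)) (u : (𝓞 F)ˣ) :
    v.valuation F (algebraMap (𝓞 F) F (u : 𝓞 F)) = 1 := by
  rw [HeightOneSpectrum.valuation_of_algebraMap, HeightOneSpectrum.intValuation_eq_one_iff]
  intro h
  exact v.isPrime.ne_top (Ideal.eq_top_of_isUnit_mem _ h u.isUnit)

/-- The inclusion of the units of `𝓞 F` into the `S`-units (multiplicative). -/
noncomputable def FA_S14_sunitInclM (S : Finset (HeightOneSpectrum (𝓞 F))) :
    (𝓞 F)ˣ →* ((S : Set (HeightOneSpectrum (𝓞 F))).unit F) :=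
  (Units.map ((algebraMap (𝓞 F) F : 𝓞 F →+* F) : 𝓞 F →* F)).codRestrict
      ((S : Set (HeightOneSpectrum (𝓞 F))).unit F)
      (fun u v _ => FA_S14_valuation_unit v u)

/-- The inclusion of the units of `𝓞 F` into the `S`-units. -/
noncomputable def FA_S14_sunitIncl (S : Finset (HeightOneSpectrum (𝓞 F))) :
    Additive (𝓞 F)ˣ →ₗ[ℤ] Additive ((S : Set (HeightOneSpectrum (𝓞 F))).unit F) :=
  (MonoidHom.toAdditive (FA_S14_sunitInclM S)).toIntLinearMap

theorem FA_S14_sunitInclM_coe (S : Finset (HeightOneSpectrum (𝓞 F))) (u : (𝓞 F)ˣ) :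
    (((FA_S14_sunitInclM S u).1 : Fˣ) : F) = algebraMap (𝓞 F) F (u : 𝓞 F) := rfl

theorem FA_S14_sunitIncl_apply (S : Finset (HeightOneSpectrum (𝓞 F))) (u : Additive (𝓞 F)ˣ) :
    FA_S14_sunitIncl S u = Additive.ofMul (FA_S14_sunitInclM S u.toMul) := by
  unfold FA_S14_sunitIncl
  rw [AddMonoidHom.coe_toIntLinearMap]
  rfl

theorem FA_S14_sunitIncl_coe (S : Finset (HeightOneSpectrum (𝓞 F))) (u : Additive (𝓞 F)ˣ) :
    (((Additive.toMul (FA_S14_sunitIncl S u)).1 : Fˣ) : F)
      = algebraMap (𝓞 F) F ((Additive.toMul u : (𝓞 F)ˣ) : 𝓞 F) := by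
  rw [FA_S14_sunitIncl_apply, toMul_ofMul, FA_S14_sunitInclM_coe]


theorem FA_S14_sunitIncl_injective (S : Finset (HeightOneSpectrum (𝓞 F))) :
    Function.Injective (FA_S14_sunitIncl (F := F) S) := by
  intro x y h
  have h1 := congrArg (fun z : Additive ((S : Set (HeightOneSpectrum (𝓞 F))).unit F) =>
    (((Additive.toMul z).1 : Fˣ) : F)) h
  simp only [FA_S14_sunitIncl_coe] at h1
  have h3 : ((Additive.toMul x : (𝓞 F)ˣ) : 𝓞 F) = ((Additive.toMul y : (𝓞 F)ˣ) : 𝓞 F) :=
    RingOfIntegers.ext h1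
  exact Additive.toMul.injective (Units.ext h3)

theorem FA_S14_sunitIncl_range (S : Finset (HeightOneSpectrum (𝓞 F))) :
    LinearMap.range (FA_S14_sunitIncl (F := F) S) = LinearMap.ker (FA_S14_sunitVal S) := by
  apply le_antisymm
  · rintro _ ⟨u, rfl⟩
    rw [LinearMap.mem_ker]
    ext v
    rw [FA_S14_sunitVal_apply, Pi.zero_apply]
    have : FA_S14_valM v.1 (Additive.toMul (FA_S14_sunitIncl S u)).1 = 1 := by
      rw [FA_S14_valM_eq_one_iff, FA_S14_sunitIncl_coe]
      exact FA_S14_valuation_unit v.1 (Additive.toMul u)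
    rw [this]; rfl
  · intro x hx
    rw [LinearMap.mem_ker] at hx
    set y : (S : Set (HeightOneSpectrum (𝓞 F))).unit F := Additive.toMul x with hy
    have hval : ∀ v : HeightOneSpectrum (𝓞 F), v.valuation F ((y.1 : Fˣ) : F) = 1 := by
      intro v
      by_cases hv : v ∈ S
      · have h1 := congrFun hx ⟨v, hv⟩
        rw [FA_S14_sunitVal_apply, Pi.zero_apply] at h1
        rw [← FA_S14_valM_eq_one_iff]
        exact h1
      · exact y.2 v (by simpa using hv)
    have hval' : ∀ v : HeightOneSpectrum (𝓞 F), v.valuation F (((y.1)⁻¹ : Fˣ) : F) = 1 := by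
      intro v
      rw [Units.val_inv_eq_inv_val, map_inv₀, hval v, inv_one]
    obtain ⟨a, ha⟩ := HeightOneSpectrum.mem_integers_of_valuation_le_one F ((y.1 : Fˣ) : F)
      (fun v => (hval v).le)
    obtain ⟨b, hb⟩ := HeightOneSpectrum.mem_integers_of_valuation_le_one F
      (((y.1)⁻¹ : Fˣ) : F) (fun v => (hval' v).le)
    have hab : a * b = 1 := by
      apply RingOfIntegers.ext
      show algebraMap (𝓞 F) F (a * b) = algebraMap (𝓞 F) F 1
      rw [map_mul, ha, hb, map_one]
      exact Units.mul_inv _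
    let u : (𝓞 F)ˣ := ⟨a, b, hab, by rw [mul_comm]; exact hab⟩
    refine ⟨Additive.ofMul u, ?_⟩
    apply Additive.toMul.injective
    apply Subtype.ext
    apply Units.ext
    rw [FA_S14_sunitIncl_coe]
    exact ha

/-- For `v ∈ S` there is an `S`-unit whose valuation vector is a nonzero multiple of `e_v`. -/
theorem FA_S14_sunit_exists_single [DecidableEq (HeightOneSpectrum (𝓞 F))]
    (S : Finset (HeightOneSpectrum (𝓞 F))) (v : S) :
    ∃ (a : Additive ((S : Set (HeightOneSpectrum (𝓞 F))).unit F)) (h : ℤ), h ≠ 0 ∧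
      FA_S14_sunitVal S a = Pi.single v h := by
  -- a power of `v` is principal
  have hv0 : v.1.asIdeal ∈ nonZeroDivisors (Ideal (𝓞 F)) :=
    mem_nonZeroDivisors_iff_ne_zero.mpr v.1.ne_bot
  set n : ℕ := Fintype.card (ClassGroup (𝓞 F)) with hn
  have hnpos : 0 < n := Fintype.card_pos
  have hpow : ClassGroup.mk0 (⟨v.1.asIdeal, hv0⟩ ^ n : nonZeroDivisors (Ideal (𝓞 F))) = 1 := by
    rw [map_pow, hn]
    exact pow_card_eq_one
  have hprin : (v.1.asIdeal ^ n).IsPrincipal := by
    have := (ClassGroup.mk0_eq_one_iff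
      (I := v.1.asIdeal ^ n) (pow_mem hv0 n)).mp (by simpa using hpow)
    exact this
  obtain ⟨π, hπ⟩ := hprin.principal
  rw [Ideal.submodule_span_eq] at hπ
  have hπ0 : π ≠ 0 := by
    rintro rfl
    rw [Set.singleton_zero, Ideal.span_zero] at hπ
    exact pow_ne_zero n v.1.ne_bot hπ
  have hπmem : π ∈ v.1.asIdeal := by
    have : π ∈ v.1.asIdeal ^ n := by rw [hπ]; exact Ideal.mem_span_singleton_self π
    exact Ideal.pow_le_self hnpos.ne' this
  have hπw : ∀ w : HeightOneSpectrum (𝓞 F), w ≠ v.1 → π ∉ w.asIdeal := by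
    intro w hw hmem
    have h1 : v.1.asIdeal ^ n ≤ w.asIdeal := by
      rw [hπ, Ideal.span_singleton_le_iff_mem]; exact hmem
    have h2 : v.1.asIdeal ≤ w.asIdeal := w.isPrime.le_of_pow_le h1
    have h3 : v.1.asIdeal = w.asIdeal := v.1.isMaximal.eq_of_le w.isPrime.ne_top h2
    exact hw (HeightOneSpectrum.ext h3.symm)
  have hπF : algebraMap (𝓞 F) F π ≠ 0 := by
    rw [Ne, map_eq_zero_iff _ (FaithfulSMul.algebraMap_injective (𝓞 F) F)]
    exact hπ0
  let x : Fˣ := Units.mk0 (algebraMap (𝓞 F) F π) hπF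
  have hxval : ∀ w : HeightOneSpectrum (𝓞 F), w ≠ v.1 → w.valuation F (x : F) = 1 := by
    intro w hw
    rw [Units.val_mk0, HeightOneSpectrum.valuation_of_algebraMap,
      HeightOneSpectrum.intValuation_eq_one_iff]
    exact hπw w hw
  have hxS : x ∈ (S : Set (HeightOneSpectrum (𝓞 F))).unit F := by
    intro w hw
    apply hxval
    rintro rfl
    exact hw (by simp)
  refine ⟨Additive.ofMul ⟨x, hxS⟩, (FA_S14_valM v.1 x).toAdd, ?_, ?_⟩
  · intro h0
    have h1 : FA_S14_valM v.1 x = 1 := by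
      apply Multiplicative.toAdd.injective
      rw [h0]; rfl
    rw [FA_S14_valM_eq_one_iff, Units.val_mk0, HeightOneSpectrum.valuation_of_algebraMap,
      HeightOneSpectrum.intValuation_eq_one_iff] at h1
    exact h1 hπmem
  · ext w
    rw [FA_S14_sunitVal_apply]
    by_cases hw : w = v
    · subst hw
      simp
    · rw [Pi.single_eq_of_ne hw]
      have hw' : w.1 ≠ v.1 := fun h => hw (Subtype.ext h)
      have h1 : FA_S14_valM w.1 x = 1 := by
        rw [FA_S14_valM_eq_one_iff]
        exact hxval w.1 hw'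
      show (FA_S14_valM w.1 x).toAdd = 0
      rw [h1]; rfl

/-- **Dirichlet's `S`-unit theorem**: finite generation and rank. -/
theorem FA_S14_sunit_rank (S : Finset (HeightOneSpectrum (𝓞 F))) :
    Module.Finite ℤ (Additive ((S : Set (HeightOneSpectrum (𝓞 F))).unit F)) ∧
    finrank ℤ (Additive ((S : Set (HeightOneSpectrum (𝓞 F))).unit F))
      = NumberField.Units.rank F + S.card := by
  classical
  have hker : Module.Finite ℤ (LinearMap.ker (FA_S14_sunitVal (F := F) S)) := by
    rw [← FA_S14_sunitIncl_range]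
    exact Module.Finite.range _
  obtain ⟨h1, h2⟩ := FA_S14_sunit_rank_abs (FA_S14_sunitVal (F := F) S)
    (FA_S14_sunit_exists_single S)
  refine ⟨h1, ?_⟩
  rw [h2, ← FA_S14_sunitIncl_range,
    ← LinearEquiv.finrank_eq (LinearEquiv.ofInjective _ (FA_S14_sunitIncl_injective S)),
    NumberField.Units.finrank_eq]
  simp

end Fermat.Agent.S14
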